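import Fermat.Agent.SerreCurve.Conductor
import Mathlib.NumberTheory.LegendreSymbol.JacobiSymbol

/-!
# Galois on the square root of `d ≡ 1 mod 4`

An automorphism raising the `p`-th roots of unity to the power `a` multiplies the Gauss sum by the
Legendre symbol of `a`. So for squarefree `d ≡ 1 mod 4` one raising the `|d|`-th roots of unity to
the power `a` sends `√d` to `(a / |d|) √d`.
-/

set_option autoImplicit false
set_option linter.style.haveILetI false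

noncomputable section

open scoped NumberTheorySymbols

local notation "Qb" => AlgebraicClosure ℚ
local notation "GQ" => AlgebraicClosure ℚ ≃ₐ[ℚ] AlgebraicClosure ℚ

namespace FA.SerreCurve

/-- A power of the roots of unity which is an automorphism is prime to their order. -/
theorem coprime_of_apply_roots {n : ℕ} (hn : n ≠ 0) {σ : GQ} {a : ℕ}
    (hσ : ∀ μ : Qb, μ ^ n = 1 → σ μ = μ ^ a) : a.Coprime n := by
  have : NeZero n := ⟨hn⟩
  have : NeZero ((n : ℕ) : Qb) := ⟨Nat.cast_ne_zero.mpr hn⟩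
  obtain ⟨ζ, hζ⟩ := HasEnoughRootsOfUnity.exists_primitiveRoot Qb n
  exact (hζ.pow_iff_coprime (Nat.pos_of_ne_zero hn) _).mp
    (hσ ζ hζ.pow_eq_one ▸ hζ.map_of_injective σ.injective)

/-- **The Gauss sum under Galois**, at an odd prime. -/
theorem exists_sqrt_prime_action {p : ℕ} [hp : Fact p.Prime] (hp2 : p ≠ 2) :
    ∃ (t : Qb) (e : ℤ), (e = 1 ∨ e = -1) ∧ e * p % 4 = 1 ∧ t ^ 2 = ((e * p : ℤ) : Qb) ∧
      ∀ (σ : GQ) (a : ℕ), (∀ μ : Qb, μ ^ p = 1 → σ μ = μ ^ a) →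
        σ t = ((J((a : ℤ) | p) : ℤ) : Qb) * t := by
  have : NeZero ((p : ℕ) : Qb) := ⟨Nat.cast_ne_zero.mpr hp.out.ne_zero⟩
  obtain ⟨ζ, hζ⟩ := HasEnoughRootsOfUnity.exists_primitiveRoot Qb p
  obtain ⟨χ, hχ⟩ : ∃ χ, (quadraticChar (ZMod p)).ringHomComp (Int.castRingHom Qb) = χ := ⟨_, rfl⟩
  obtain ⟨ψ, hψ⟩ : ∃ ψ, AddChar.zmodChar p ((IsPrimitiveRoot.iff_def ζ p).mp hζ).left = ψ :=
    ⟨_, rfl⟩
  have h2 : ringChar (ZMod p) ≠ 2 := by rwa [ZMod.ringChar_zmod_n]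
  have hg := gaussSum_sq (χ := χ) (ψ := ψ)
    (hχ ▸ (MulChar.ringHomComp_ne_one_iff (RingHom.injective_int _)).mpr (quadraticChar_ne_one h2))
    (hχ ▸ (quadraticChar_isQuadratic (ZMod p)).comp _)
    (hψ ▸ AddChar.zmodChar_primitive_of_primitive_root p hζ)
  rw [ZMod.card, ← hχ, MulChar.ringHomComp_apply, quadraticChar_neg_one h2, ZMod.card, hχ,
    eq_intCast] at hg
  have hact : ∀ (σ : GQ) (a : ℕ), (∀ μ : Qb, μ ^ p = 1 → σ μ = μ ^ a) →
      σ (gaussSum χ ψ) = ((J((a : ℤ) | p) : ℤ) : Qb) * gaussSum χ ψ := by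
    intro σ a hσ
    have hc := coprime_of_apply_roots hp.out.ne_zero hσ
    set u : (ZMod p)ˣ := ZMod.unitOfCoprime a hc with hu
    have hmap : σ (gaussSum χ ψ) = gaussSum χ (ψ.mulShift (u : ZMod p)) := by
      rw [gaussSum, gaussSum, map_sum]
      refine Finset.sum_congr rfl fun x _ => ?_
      rw [map_mul, ← hχ, MulChar.ringHomComp_apply, eq_intCast, map_intCast]
      congr 1
      rw [AddChar.mulShift_apply, hu, ZMod.coe_unitOfCoprime, ← hψ]
      show σ (ζ ^ x.val) = ζ ^ ((a : ZMod p) * x).val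
      rw [map_pow, hσ ζ hζ.pow_eq_one, ← pow_mul, ZMod.val_mul, ZMod.val_natCast, Nat.mod_mul_mod,
        ← pow_eq_pow_mod _ hζ.pow_eq_one]
    have hJ : (χ (u : ZMod p)) = ((J((a : ℤ) | p) : ℤ) : Qb) := by
      rw [← hχ, MulChar.ringHomComp_apply, ← jacobiSym.legendreSym.to_jacobiSym, legendreSym,
        Int.cast_natCast, hu, ZMod.coe_unitOfCoprime]
      rfl
    have h := gaussSum_mulShift χ ψ u
    rw [← hmap, hJ] at h
    have hsq : ((J((a : ℤ) | p) : ℤ) : Qb) ^ 2 = 1 := by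
      rw [← Int.cast_pow, jacobiSym.sq_one (by simpa [Int.gcd_natCast_natCast] using hc),
        Int.cast_one]
    calc σ (gaussSum χ ψ) = ((J((a : ℤ) | p) : ℤ) : Qb) ^ 2 * σ (gaussSum χ ψ) := by
          rw [hsq, one_mul]
      _ = _ := by rw [pow_two, mul_assoc, h]
  rcases (Nat.odd_mod_four_iff).mp (Nat.odd_iff.mp (hp.out.odd_of_ne_two hp2)) with h4 | h4
  · rw [ZMod.χ₄_nat_one_mod_four h4] at hg
    exact ⟨_, 1, Or.inl rfl, by omega, by rw [hg]; simp, hact⟩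
  · rw [ZMod.χ₄_nat_three_mod_four h4] at hg
    exact ⟨_, -1, Or.inr rfl, by omega, by rw [hg]; simp, hact⟩

/-- An odd squarefree `n` has a root of `± n ≡ 1 mod 4` on which Galois acts by the Jacobi
symbol. -/
theorem exists_sqrt_odd_action {n : ℕ} (hn : Odd n) (hsq : Squarefree n) :
    ∃ (t : Qb) (e : ℤ), (e = 1 ∨ e = -1) ∧ e * n % 4 = 1 ∧ t ^ 2 = ((e * n : ℤ) : Qb) ∧
      ∀ (σ : GQ) (a : ℕ), (∀ μ : Qb, μ ^ n = 1 → σ μ = μ ^ a) →
        σ t = ((J((a : ℤ) | n) : ℤ) : Qb) * t := by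
  suffices key : ∀ S : Finset ℕ, (∀ p ∈ S, p.Prime ∧ p ≠ 2) →
      ∃ (t : Qb) (e : ℤ), (e = 1 ∨ e = -1) ∧ e * ((∏ p ∈ S, p : ℕ) : ℤ) % 4 = 1 ∧
        t ^ 2 = ((e * ((∏ p ∈ S, p : ℕ) : ℤ) : ℤ) : Qb) ∧
        ∀ (σ : GQ) (a : ℕ), (∀ μ : Qb, μ ^ (∏ p ∈ S, p) = 1 → σ μ = μ ^ a) →
          σ t = ((J((a : ℤ) | ∏ p ∈ S, p) : ℤ) : Qb) * t by
    have h := key n.primeFactors fun p hp => ⟨Nat.prime_of_mem_primeFactors hp, fun h2 =>
      Nat.not_even_iff_odd.mpr hn (even_iff_two_dvd.mpr (h2 ▸ Nat.dvd_of_mem_primeFactors hp))⟩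
    rwa [Nat.prod_primeFactors_of_squarefree hsq] at h
  intro S hS
  induction S using Finset.induction_on with
  | empty => exact ⟨1, 1, Or.inl rfl, by simp, by simp, fun σ a _ => by simp⟩
  | insert p S hpS ih =>
    obtain ⟨t, e, he, hm, ht, hl⟩ := ih fun q hq => hS q (Finset.mem_insert_of_mem hq)
    obtain ⟨hp, hp2⟩ := hS p (Finset.mem_insert_self p S)
    haveI := Fact.mk hp
    obtain ⟨u, f, hf, hm', hu, hl'⟩ := exists_sqrt_prime_action hp2
    rw [Finset.prod_insert hpS]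
    refine ⟨u * t, f * e, ?_, ?_, ?_, fun σ a hσ => ?_⟩
    · rcases he with rfl | rfl <;> rcases hf with rfl | rfl <;> simp
    · rw [Nat.cast_mul, show f * e * ((p : ℤ) * ((∏ q ∈ S, q : ℕ) : ℤ)) =
        (f * p) * (e * ((∏ q ∈ S, q : ℕ) : ℤ)) by ring, Int.mul_emod, hm, hm']
      norm_num
    · rw [mul_pow, hu, ht]
      push_cast
      ring
    · rw [map_mul, hl' σ a fun μ hμ => hσ μ (by rw [pow_mul, hμ, one_pow]),
        hl σ a fun μ hμ => hσ μ (by rw [mul_comm, pow_mul, hμ, one_pow]),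
        jacobiSym.mul_right' _ hp.ne_zero (Finset.prod_ne_zero_iff.mpr fun q hq =>
          (hS q (Finset.mem_insert_of_mem hq)).1.ne_zero), Int.cast_mul]
      ring

/-- **Galois on `√d`**, `d ≡ 1 mod 4` squarefree. -/
theorem apply_sqrt_jacobi {d : ℤ} (hd : Squarefree d) (h4 : d % 4 = 1) {s : Qb}
    (hs : s ^ 2 = (d : Qb)) {σ : GQ} {a : ℕ}
    (hσ : ∀ μ : Qb, μ ^ d.natAbs = 1 → σ μ = μ ^ a) :
    σ s = ((J((a : ℤ) | d.natAbs) : ℤ) : Qb) * s := by
  have hodd : Odd d.natAbs := Int.natAbs_odd.mpr (Int.odd_iff.mpr (by omega))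
  obtain ⟨t, e, he, hm, ht, hact⟩ := exists_sqrt_odd_action hodd (Int.squarefree_natAbs.mpr hd)
  have hde : d = e * d.natAbs := by
    rcases Int.natAbs_eq d with h | h <;> rcases he with rfl | rfl <;> omega
  rw [← hde, ← hs] at ht
  rcases sq_eq_sq_iff_eq_or_eq_neg.mp ht with rfl | rfl
  · exact hact σ a hσ
  · have h := hact σ a hσ
    rwa [map_neg, mul_neg, neg_inj] at h

end FA.SerreCurve

end
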