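import Fermat.Agent.SerreCurve.Level
import Fermat.Agent.Root.SummarySerreOpenImageTwist
import Fermat.Agent.OpenImageJ.KWOdd

/-!
# The levels of a square root

For squarefree `d` the square root of `d` is fixed by what fixes the `N`-th roots of unity exactly
when `D ∣ N`, where `D = |d|` for `d ≡ 1 mod 4` and `D = 4 |d|` otherwise: Gauss sums give the odd
part, the eighth roots of unity the rest, and for the converse inertia gives the odd primes and
one exponent `1 + 2 n` or `1 + 4 n`, for the odd part `n` of `|d|`, the prime two.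
-/

set_option autoImplicit false
set_option linter.style.haveILetI false

noncomputable section

local notation "Qb" => AlgebraicClosure ℚ
local notation "GQ" => AlgebraicClosure ℚ ≃ₐ[ℚ] AlgebraicClosure ℚ

namespace FA.SerreCurve

/-- A level divides further levels. -/
theorem IsLevel.mono {x : Qb} {a b : ℕ} (h : IsLevel x a) (hab : a ∣ b) : IsLevel x b :=
  fun σ hσ => h σ fun μ hμ => hσ μ (by obtain ⟨c, rfl⟩ := hab; rw [pow_mul, hμ, one_pow])

/-- The levels of a product. -/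
theorem IsLevel.mul {x y : Qb} {a : ℕ} (hx : IsLevel x a) (hy : IsLevel y a) :
    IsLevel (x * y) a :=
  fun σ hσ => by rw [map_mul, hx σ hσ, hy σ hσ]

/-- The Gauss sum: a root of the prime discriminant at an odd prime has level `p`. -/
theorem exists_sqrt_odd_prime {p : ℕ} [hp : Fact p.Prime] (hp2 : p ≠ 2) :
    ∃ (t : Qb) (e : ℤ), (e = 1 ∨ e = -1) ∧ e * p % 4 = 1 ∧ t ^ 2 = ((e * p : ℤ) : Qb) ∧
      IsLevel t p := by
  have : NeZero ((p : ℕ) : Qb) := ⟨Nat.cast_ne_zero.mpr hp.out.ne_zero⟩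
  obtain ⟨ζ, hζ⟩ := HasEnoughRootsOfUnity.exists_primitiveRoot Qb p
  obtain ⟨χ, hχ⟩ : ∃ χ, (quadraticChar (ZMod p)).ringHomComp (Int.castRingHom Qb) = χ := ⟨_, rfl⟩
  obtain ⟨ψ, hψ⟩ : ∃ ψ, AddChar.zmodChar p ((IsPrimitiveRoot.iff_def ζ p).mp hζ).left = ψ :=
    ⟨_, rfl⟩
  have h2 : ringChar (ZMod p) ≠ 2 := by rwa [ZMod.ringChar_zmod_n]
  have hg := gaussSum_sq (χ := χ) (ψ := ψ)
    (hχ ▸ (MulChar.ringHomComp_ne_one_iff (RingHom.injective_int _)).mpr (quadraticChar_ne_one h2))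
    (hχ ▸ (quadraticChar_isQuadratic (ZMod p)).comp _)
    (hψ ▸ AddChar.zmodChar_primitive_of_primitive_root p hζ)
  rw [ZMod.card, ← hχ, MulChar.ringHomComp_apply, quadraticChar_neg_one h2, ZMod.card, hχ,
    eq_intCast] at hg
  have hfix : IsLevel (gaussSum χ ψ) p := fun σ hσ => by
    rw [gaussSum, map_sum]
    refine Finset.sum_congr rfl fun a _ => ?_
    rw [map_mul, ← hχ, MulChar.ringHomComp_apply, eq_intCast, map_intCast, ← hψ]
    congr 1
    show σ (ζ ^ a.val) = ζ ^ a.val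
    rw [map_pow, hσ ζ hζ.pow_eq_one]
  rcases (Nat.odd_mod_four_iff).mp (Nat.odd_iff.mp (hp.out.odd_of_ne_two hp2)) with h4 | h4
  · rw [ZMod.χ₄_nat_one_mod_four h4] at hg
    exact ⟨_, 1, Or.inl rfl, by omega, by rw [hg]; simp, hfix⟩
  · rw [ZMod.χ₄_nat_three_mod_four h4] at hg
    exact ⟨_, -1, Or.inr rfl, by omega, by rw [hg]; simp, hfix⟩

/-- An odd squarefree `n` has a root of `± n ≡ 1 mod 4` of level `n`. -/
theorem exists_sqrt_odd {n : ℕ} (hn : Odd n) (hsq : Squarefree n) :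
    ∃ (t : Qb) (e : ℤ), (e = 1 ∨ e = -1) ∧ e * n % 4 = 1 ∧ t ^ 2 = ((e * n : ℤ) : Qb) ∧
      IsLevel t n := by
  suffices key : ∀ S : Finset ℕ, (∀ p ∈ S, p.Prime ∧ p ≠ 2) →
      ∃ (t : Qb) (e : ℤ), (e = 1 ∨ e = -1) ∧ e * ((∏ p ∈ S, p : ℕ) : ℤ) % 4 = 1 ∧
        t ^ 2 = ((e * ((∏ p ∈ S, p : ℕ) : ℤ) : ℤ) : Qb) ∧ IsLevel t (∏ p ∈ S, p) by
    have h := key n.primeFactors fun p hp => ⟨Nat.prime_of_mem_primeFactors hp, fun h2 =>
      Nat.not_even_iff_odd.mpr hn (even_iff_two_dvd.mpr (h2 ▸ Nat.dvd_of_mem_primeFactors hp))⟩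
    rwa [Nat.prod_primeFactors_of_squarefree hsq] at h
  intro S hS
  induction S using Finset.induction_on with
  | empty => exact ⟨1, 1, Or.inl rfl, by simp, by simp, fun σ _ => map_one σ⟩
  | insert p S hpS ih =>
    obtain ⟨t, e, he, hm, ht, hl⟩ := ih fun q hq => hS q (Finset.mem_insert_of_mem hq)
    obtain ⟨hp, hp2⟩ := hS p (Finset.mem_insert_self p S)
    haveI := Fact.mk hp
    obtain ⟨u, f, hf, hm', hu, hl'⟩ := exists_sqrt_odd_prime hp2
    rw [Finset.prod_insert hpS]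
    refine ⟨u * t, f * e, ?_, ?_, ?_,
      (hl'.mono (dvd_mul_right _ _)).mul (hl.mono (dvd_mul_left _ _))⟩
    · rcases he with rfl | rfl <;> rcases hf with rfl | rfl <;> simp
    · rw [Nat.cast_mul, show f * e * ((p : ℤ) * ((∏ q ∈ S, q : ℕ) : ℤ)) =
        (f * p) * (e * ((∏ q ∈ S, q : ℕ) : ℤ)) by ring, Int.mul_emod, hm, hm']
      norm_num
    · rw [mul_pow, hu, ht]
      push_cast
      ring

/-- An automorphism raising the `M`-th roots of unity to the power `a`. -/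
theorem exists_pow_roots {M : ℕ} (hM : 0 < M) {a : ℕ} (ha : a.Coprime M) :
    ∃ σ : GQ, ∀ μ : Qb, μ ^ M = 1 → σ μ = μ ^ a := by
  have : NeZero M := ⟨hM.ne'⟩
  have : NeZero ((M : ℕ) : Qb) := ⟨Nat.cast_ne_zero.mpr hM.ne'⟩
  obtain ⟨ζ, hζ⟩ := HasEnoughRootsOfUnity.exists_primitiveRoot Qb M
  obtain ⟨σ, hσ⟩ := FA.OpenImageJ.exists_apply_eq_pow hM hζ ha
  refine ⟨σ, fun μ hμ => ?_⟩
  obtain ⟨i, -, rfl⟩ := hζ.eq_pow_of_pow_eq_one hμ
  rw [map_pow, hσ, ← pow_mul, ← pow_mul, mul_comm]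

/-- The levels of a root of squarefree `d` which is fixed at `2 ^ k n` and moved at half of it. -/
theorem dvd_of_moved {x : Qb} {d : ℤ} (hd : Squarefree d) (hx : x ^ 2 = (d : Qb)) {n k : ℕ}
    (hn : Odd n) (hnd : n ∣ d.natAbs) (hlev : IsLevel x (2 ^ k * n))
    (hmove : 0 < k → ¬ IsLevel x (2 ^ (k - 1) * n)) {N : ℕ} (hN : N ≠ 0) (hNlev : IsLevel x N) :
    2 ^ k * n ∣ N := by
  have hnN : n ∣ N := by
    have hsq : Squarefree n := Squarefree.squarefree_of_dvd hnd (Int.squarefree_natAbs.mpr hd)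
    rw [← Nat.prod_primeFactors_of_squarefree hsq]
    refine Finset.prod_primes_dvd N
      (fun p hp => (Nat.prime_of_mem_primeFactors hp).prime) fun p hp => ?_
    have hp' := Nat.prime_of_mem_primeFactors hp
    haveI := Fact.mk hp'
    refine dvd_level_of_sq hp' hx ?_ hNlev
    have h1 : padicValNat p d.natAbs = 1 := by
      refine le_antisymm ?_ (one_le_padicValNat_of_dvd (Int.natAbs_ne_zero.mpr hd.ne_zero)
        ((Nat.dvd_of_mem_primeFactors hp).trans hnd))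
      rw [← Nat.factorization_def _ hp']
      exact (Nat.squarefree_iff_factorization_le_one (Int.natAbs_ne_zero.mpr hd.ne_zero)).mp
        (Int.squarefree_natAbs.mpr hd) p
    show ¬ 2 ∣ padicValNat p d.natAbs
    rw [h1]
    norm_num
  have hco : (2 ^ k).Coprime n := (Nat.coprime_two_left.mpr hn).pow_left k
  by_cases h2 : 2 ^ k ∣ N
  · exact hco.mul_dvd_of_dvd_of_dvd h2 hnN
  exfalso
  obtain ⟨j, hj, hje⟩ := (Nat.dvd_prime_pow Nat.prime_two).mp (Nat.gcd_dvd_right N (2 ^ k))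
  have hjk : j < k := lt_of_le_of_ne hj fun e => h2 (e ▸ hje ▸ Nat.gcd_dvd_left N _)
  refine hmove (by omega) ((isLevel_gcd hN
    (mul_ne_zero (pow_ne_zero k two_ne_zero) hn.pos.ne') hNlev hlev).mono ?_)
  rw [Nat.Coprime.gcd_mul N hco, hje]
  exact mul_dvd_mul (pow_dvd_pow 2 (by omega)) (Nat.gcd_dvd_right N n)

/-- A square root of `-1` has level four, one of a primitive eighth root of unity gives `√2`. -/
theorem exists_eighth_root :
    ∃ i j : Qb, i ^ 2 = -1 ∧ j ^ 2 = i ∧ i ^ 4 = 1 ∧ j ^ 8 = 1 ∧ (j + j⁻¹) ^ 2 = 2 := by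
  obtain ⟨i, hi⟩ := IsAlgClosed.exists_pow_nat_eq (-1 : Qb) (n := 2) two_pos
  obtain ⟨j, hj⟩ := IsAlgClosed.exists_pow_nat_eq i (n := 2) two_pos
  have hi4 : i ^ 4 = 1 := by rw [show (4 : ℕ) = 2 * 2 from rfl, pow_mul, hi]; norm_num
  refine ⟨i, j, hi, hj, hi4, by rw [show (8 : ℕ) = 2 * 4 from rfl, pow_mul, hj, hi4], ?_⟩
  have hi0 : i ≠ 0 := fun e => by simp [e] at hi
  have hj0 : j ≠ 0 := fun e => hi0 (by simp [← hj, e])
  rw [add_sq, inv_pow, hj, mul_assoc, mul_inv_cancel₀ hj0, mul_one,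
    inv_eq_of_mul_eq_one_right (b := -i) (by linear_combination -hi)]
  ring

/-- **The levels of `√d`, `d` squarefree**, are the multiples of `|d|` or `4 |d|`. -/
theorem isLevel_iff {d : ℤ} (hd : Squarefree d) {s : Qb} (hs : s ^ 2 = (d : Qb)) {N : ℕ}
    (hN : N ≠ 0) :
    IsLevel s N ↔ (if d % 4 = 1 then d.natAbs else 4 * d.natAbs) ∣ N := by
  set D := if d % 4 = 1 then d.natAbs else 4 * d.natAbs with hD
  suffices key : IsLevel s D ∧ ∀ {M : ℕ}, M ≠ 0 → IsLevel s M → D ∣ M from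
    ⟨key.2 hN, key.1.mono⟩
  have hd0 : d ≠ 0 := hd.ne_zero
  obtain ⟨i, j, hi, hj, hi4, hj8, hr⟩ := exists_eighth_root
  have hs0 : s ≠ 0 := fun h => Int.cast_ne_zero (α := Qb).mpr hd0
    (by rw [← hs, h, zero_pow two_ne_zero])
  -- the root in question is fixed wherever `x` is, for `x² = d`
  have hsign : ∀ x : Qb, x ^ 2 = (d : Qb) → ∀ M, IsLevel s M ↔ IsLevel x M := fun x hx M => by
    rcases sq_eq_sq_iff_eq_or_eq_neg.mp (hs.trans hx.symm) with rfl | rfl
    · exact Iff.rfl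
    · exact forall₂_congr fun σ _ => by rw [map_neg, neg_inj]
  have h4mono : ∀ {M : ℕ}, 4 ∣ M → IsLevel i M := fun h =>
    IsLevel.mono (fun σ hσ => hσ i hi4) h
  have hneg : ∀ {x : Qb} {M : ℕ} {a : ℕ} {P : ℕ}, 0 < P → a.Coprime P → M ∣ P → a % M = 1 % M →
      (∀ σ : GQ, (∀ μ : Qb, μ ^ P = 1 → σ μ = μ ^ a) → σ x = -x) → x ≠ 0 → ¬ IsLevel x M := by
    intro x M a P hP hc hMP ha hx hx0 hlev
    obtain ⟨σ, hσ⟩ := exists_pow_roots hP hc
    have h := hlev σ fun μ hμ => by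
      rw [hσ μ (by obtain ⟨c, rfl⟩ := hMP; rw [pow_mul, hμ, one_pow]), pow_eq_pow_mod a hμ, ha,
        ← pow_eq_pow_mod 1 hμ, pow_one]
    rw [hx σ hσ] at h
    exact FA.Two.neg_ne_self hx0 h
  rcases Int.emod_two_eq_zero_or_one d with he | ho
  · -- `d = 2 d₁`
    obtain ⟨d₁, rfl⟩ : 2 ∣ d := Int.dvd_of_emod_eq_zero he
    have hodd : Odd d₁.natAbs := by
      rw [Int.natAbs_odd, ← Int.not_even_iff_odd, even_iff_two_dvd]
      exact fun ⟨c, hc⟩ => by
        have := hd 2 ⟨c, by rw [hc]; ring⟩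
        rw [Int.isUnit_iff] at this
        omega
    obtain ⟨t, e, he', hm, ht, hlt⟩ := exists_sqrt_odd hodd
      (Int.squarefree_natAbs.mpr (Squarefree.squarefree_of_dvd (Dvd.intro_left _ rfl) hd))
    set n := d₁.natAbs
    have hDn : D = 2 ^ 3 * n := by
      have h1 : (2 * d₁) % 4 ≠ 1 := by omega
      rw [hD, if_neg h1, Int.natAbs_mul]
      show 4 * (2 * n) = _
      ring
    have hd₁ : d₁ = e * n ∨ d₁ = -(e * n) := by
      rcases Int.natAbs_eq d₁ with h | h <;> rcases he' with rfl | rfl <;> omega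
    -- `x` is the product with `√2` or `√-2`
    obtain ⟨ε, hε, hεfix⟩ : ∃ ε : Qb, ε ^ 2 * ((e * n : ℤ) : Qb) = ((d₁ : ℤ) : Qb) ∧
        (ε = 1 ∨ ε = i) := by
      rcases hd₁ with h | h
      · exact ⟨1, by rw [h]; simp, Or.inl rfl⟩
      · exact ⟨i, by rw [h, hi]; simp, Or.inr rfl⟩
    set x := ε * (j + j⁻¹) * t with hxdef
    have hx : x ^ 2 = ((2 * d₁ : ℤ) : Qb) := by
      rw [hxdef, mul_pow, mul_pow, hr, ht]
      push_cast at hε ⊢
      linear_combination 2 * hε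
    have hε8 : IsLevel ε (2 ^ 3 * n) := by
      rcases hεfix with rfl | rfl
      · exact fun σ _ => map_one σ
      · exact h4mono ⟨2 * n, by ring⟩
    have hlev : IsLevel x (2 ^ 3 * n) :=
      (hε8.mul fun σ hσ => by
        rw [map_add, map_inv₀, hσ j (by rw [show (2 : ℕ) ^ 3 = 8 from rfl, pow_mul, hj8, one_pow])]
      ).mul (hlt.mono (dvd_mul_left _ _))
    have hmove : ¬ IsLevel x (2 ^ (3 - 1) * n) := by
      have hmod : (4 * n + 1) % (2 ^ (3 - 1) * n) = 1 % (2 ^ (3 - 1) * n) := by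
        rw [show 4 * n + 1 = 1 + (2 ^ (3 - 1) * n) * 1 by ring, Nat.add_mul_mod_self_left]
      refine hneg (P := 2 ^ 3 * n) (a := 4 * n + 1) (Nat.mul_pos (by norm_num) hodd.pos) ?_
        ⟨2, by ring⟩ hmod (fun σ hσ => ?_) fun h => hd0 ?_
      · refine Nat.Coprime.mul_right ((Nat.coprime_two_right.mpr ⟨2 * n, by ring⟩).pow_right 3) ?_
        rw [Nat.coprime_mul_right_add_left]
        exact Nat.coprime_one_left n
      · have hjσ : σ j = -j := by
          obtain ⟨c, hc⟩ : ∃ c, 4 * n = 8 * c + 4 := ⟨(n - 1) / 2, by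
            obtain ⟨r, hr'⟩ := hodd; omega⟩
          rw [hσ j (by rw [show (2 : ℕ) ^ 3 = 8 from rfl, pow_mul, hj8, one_pow]), pow_succ, hc,
            pow_add, pow_mul, hj8, one_pow, one_mul, show (4 : ℕ) = 2 * 2 from rfl, pow_mul, hj, hi,
            neg_one_mul]
        have hεσ : σ ε = ε := by
          rcases hεfix with rfl | rfl
          · exact map_one σ
          · rw [← hj, map_pow, hjσ, neg_sq]
        have htσ : σ t = t := hlt σ fun μ hμ => by
          rw [hσ μ (by rw [mul_comm, pow_mul, hμ, one_pow]), pow_succ, mul_comm 4 n, pow_mul, hμ,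
            one_pow, one_mul]
        rw [hxdef, map_mul, map_mul, hεσ, htσ, map_add, map_inv₀, hjσ, inv_neg]
        ring
      · rw [h, zero_pow two_ne_zero, eq_comm, Int.cast_eq_zero] at hx
        exact hx
    rw [hDn]
    exact ⟨(hsign x hx _).mpr hlev, fun hM h => dvd_of_moved hd hx hodd
      (by rw [Int.natAbs_mul]; exact dvd_mul_left _ _) hlev (fun _ => hmove) hM
      ((hsign x hx _).mp h)⟩
  · have hodd : Odd d.natAbs := Int.natAbs_odd.mpr (Int.odd_iff.mpr ho)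
    obtain ⟨t, e, he', hm, ht, hlt⟩ := exists_sqrt_odd hodd (Int.squarefree_natAbs.mpr hd)
    set n := d.natAbs with hn
    have hd' : d = e * n ∨ d = -(e * n) := by
      rcases Int.natAbs_eq d with h | h <;> rcases he' with rfl | rfl <;> omega
    by_cases h1 : d % 4 = 1
    · have hde : d = e * n := hd'.resolve_right fun h => by omega
      have hx : t ^ 2 = (d : Qb) := by rw [ht, ← hde]
      rw [show D = 2 ^ 0 * n by rw [hD, if_pos h1, pow_zero, one_mul]]
      exact ⟨(hsign t hx _).mpr (hlt.mono (dvd_mul_left _ _)), fun hM h => dvd_of_moved hd hx hodd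
        dvd_rfl (hlt.mono (dvd_mul_left _ _)) (fun h0 => absurd h0 (lt_irrefl 0)) hM
        ((hsign t hx _).mp h)⟩
    have hde : d = -(e * n) := hd'.resolve_left fun h => by omega
    have hx : (i * t) ^ 2 = (d : Qb) := by
      rw [mul_pow, hi, ht, hde]
      push_cast
      ring
    have hlev : IsLevel (i * t) (2 ^ 2 * n) :=
      (h4mono (dvd_mul_right _ _)).mul (hlt.mono (dvd_mul_left _ _))
    have hmove : ¬ IsLevel (i * t) (2 ^ (2 - 1) * n) := by
      have hmod : (2 * n + 1) % (2 ^ (2 - 1) * n) = 1 % (2 ^ (2 - 1) * n) := by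
        rw [show 2 * n + 1 = 1 + (2 ^ (2 - 1) * n) * 1 by ring, Nat.add_mul_mod_self_left]
      refine hneg (P := 2 ^ 2 * n) (a := 2 * n + 1) (Nat.mul_pos (by norm_num) hodd.pos) ?_
        ⟨2, by ring⟩ hmod (fun σ hσ => ?_) fun h => hd0 ?_
      · refine Nat.Coprime.mul_right ((Nat.coprime_two_right.mpr ⟨n, rfl⟩).pow_right 2) ?_
        rw [Nat.coprime_mul_right_add_left]
        exact Nat.coprime_one_left n
      · have hiσ : σ i = -i := by
          obtain ⟨c, hc⟩ : ∃ c, 2 * n = 4 * c + 2 := ⟨(n - 1) / 2, by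
            obtain ⟨r, hr'⟩ := hodd; omega⟩
          rw [hσ i (by rw [show (2 : ℕ) ^ 2 = 4 from rfl, pow_mul, hi4, one_pow]), pow_succ, hc,
            pow_add, pow_mul, hi4, one_pow, one_mul, hi, neg_one_mul]
        have htσ : σ t = t := hlt σ fun μ hμ => by
          rw [hσ μ (by rw [mul_comm, pow_mul, hμ, one_pow]), pow_succ, mul_comm 2 n, pow_mul, hμ,
            one_pow, one_mul]
        rw [map_mul, hiσ, htσ, neg_mul]
      · rw [h, zero_pow two_ne_zero, eq_comm, Int.cast_eq_zero] at hx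
        exact hx
    rw [show D = 2 ^ 2 * n by rw [hD, if_neg h1]; norm_num]
    exact ⟨(hsign _ hx _).mpr hlev, fun hM h => dvd_of_moved hd hx hodd dvd_rfl hlev
      (fun _ => hmove) hM ((hsign _ hx _).mp h)⟩

end FA.SerreCurve

end
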