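import Fermat.Agent.SerreCurve.Level

/-!
# The division fields of a Serre curve

At an even `N` the product of two automorphisms of the `N`-torsion which do not come from Galois
comes from Galois: both move the square root of the discriminant against the cyclotomic character.
So the image on the `N`-torsion has index two at the multiples of the level and one elsewhere.
-/

set_option autoImplicit false
set_option linter.style.haveILetI false

noncomputable section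

open WeierstrassCurve WeierstrassCurve.Affine FA.EC FA.Frob FA.RT FA.PadicImage
open FA.TW (rootsFix mem_rootsFix)
open FA.Two (deltaRoot)
open scoped WeierstrassCurve.Affine

local notation "Qb" => AlgebraicClosure ℚ
local notation "GQ" => AlgebraicClosure ℚ ≃ₐ[ℚ] AlgebraicClosure ℚ

namespace FA.SerreCurve

variable {W : WeierstrassCurve ℤ} [(ratCurve W).IsElliptic] {q : ℕ}

/-- **The product of two automorphisms of the `N`-torsion not coming from Galois comes from it.** -/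
theorem exists_smul_eq_mul (hS : Setting W q) {N : ℕ} (hN : N ≠ 0) (h2 : 2 ∣ N)
    {φ ψ : Submodule.torsionBy ℤ ((ratCurve W)⁄Qb).Point (N : ℤ) ≃+
      Submodule.torsionBy ℤ ((ratCurve W)⁄Qb).Point (N : ℤ)}
    (hφ : ¬ ∃ σ : GQ, ∀ x, σ • x.1 = (φ x).1) (hψ : ¬ ∃ σ : GQ, ∀ x, σ • x.1 = (ψ x).1) :
    ∃ σ : GQ, ∀ x, σ • x.1 = (φ (ψ x)).1 := by
  have h2T : 2 ∈ N.primeFactors := Nat.mem_primeFactors.mpr ⟨Nat.prime_two, h2, hN⟩
  have hT : ∀ l ∈ N.primeFactors, l.Prime := fun l hl => Nat.prime_of_mem_primeFactors hl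
  -- local automorphisms and their common cyclotomic part, moving `s` against it
  have key : ∀ χ : Submodule.torsionBy ℤ ((ratCurve W)⁄Qb).Point (N : ℤ) ≃+
        Submodule.torsionBy ℤ ((ratCurve W)⁄Qb).Point (N : ℤ),
      ∃ (h : ℕ → GQ) (σ₀ : GQ), (∀ l ∈ N.primeFactors,
        σ₀⁻¹ * h l ∈ rootsFix l (N.factorization l) ∧
          ∀ x : Submodule.torsionBy ℤ ((ratCurve W)⁄Qb).Point (N : ℤ),
            l ^ N.factorization l • x.1 = 0 → h l • x.1 = (χ x).1) ∧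
        ((¬ ∃ σ : GQ, ∀ x, σ • x.1 = (χ x).1) →
          (σ₀⁻¹ * h 2) (deltaRoot W) = -deltaRoot W) := by
    intro χ
    obtain ⟨h, hh⟩ := exists_local_smul_eq (fun l _ _ => hS.reachAll l) χ
    obtain ⟨σ₀, hσ₀⟩ := exists_cyclotomic_common (fun l => N.factorization l) hT h
    refine ⟨h, σ₀, fun l hl => ⟨hσ₀ l hl, hh l hl⟩, fun hno => ?_⟩
    refine (apply_deltaRoot_cases (W := W) (σ₀⁻¹ * h 2)).resolve_left fun hfix => hno ?_
    obtain ⟨τ, hτ⟩ := exists_glue_fixing hS.separated _ hT (fun l => σ₀⁻¹ * h l) hσ₀ h2T hfix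
    refine ⟨σ₀ * τ, smul_eq_of_prime_powers hN χ _ fun l hl x hx => ?_⟩
    rw [mul_smul, hτ l hl _ hx, mul_smul, smul_inv_smul, hh l hl _ hx]
  obtain ⟨h, σ₀, hh, hs⟩ := key φ
  obtain ⟨k, τ₀, hk, ks⟩ := key ψ
  have hneg := hs hφ
  have kneg := ks hψ
  have hmem : ∀ l ∈ N.primeFactors,
      (σ₀ * τ₀)⁻¹ * (h l * k l) ∈ rootsFix l (N.factorization l) := fun l hl => by
    have e : (σ₀ * τ₀)⁻¹ * (h l * k l) = τ₀⁻¹ * (σ₀⁻¹ * h l) * τ₀⁻¹⁻¹ * (τ₀⁻¹ * k l) := by group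
    rw [e]
    exact mul_mem ((FA.TW.rootsFix_normal l _).conj_mem _ (hh l hl).1 τ₀⁻¹) (hk l hl).1
  obtain ⟨τ, hτ⟩ := exists_glue_fixing hS.separated _ hT (fun l => (σ₀ * τ₀)⁻¹ * (h l * k l)) hmem h2T (by
    have e : (σ₀ * τ₀)⁻¹ * (h 2 * k 2) = τ₀⁻¹ * (σ₀⁻¹ * h 2) * τ₀ * (τ₀⁻¹ * k 2) := by group
    have hinv : τ₀⁻¹ (τ₀ (deltaRoot W)) = deltaRoot W := by
      rw [← AlgEquiv.mul_apply, inv_mul_cancel, AlgEquiv.one_apply]
    rw [e, AlgEquiv.mul_apply, kneg, map_neg, AlgEquiv.mul_apply, AlgEquiv.mul_apply]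
    rcases apply_deltaRoot_cases (W := W) τ₀ with a | a
    · rw [a] at hinv
      rw [a, hneg, map_neg, hinv, neg_neg]
    · rw [a, map_neg] at hinv
      rw [a, map_neg, hneg, neg_neg]
      exact hinv)
  refine ⟨σ₀ * τ₀ * τ, fun x => smul_eq_of_prime_powers hN (ψ.trans φ) _ (fun l hl y hy => ?_) x⟩
  have hy' : l ^ N.factorization l • (ψ y).1 = 0 := by
    rw [← Submodule.coe_smul_of_tower, ← map_nsmul, show l ^ N.factorization l • y = 0 from
      Subtype.ext hy, map_zero, Submodule.coe_zero]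
  rw [mul_smul, hτ l hl _ hy, ← mul_smul, mul_inv_cancel_left, mul_smul, (hk l hl).2 y hy,
    (hh l hl).2 (ψ y) hy', AddEquiv.trans_apply]

/-- **The index on the `N`-torsion**, from a level for `√Δ`. -/
theorem index_torsion (hS : Setting W q) {D : ℕ} (hD : D ≠ 0)
    (hiff : ∀ N : ℕ, N ≠ 0 → (IsLevel (deltaRoot W) N ↔ D ∣ N)) {N : ℕ} (hN : N ≠ 0)
    (ρ : GQ →* (Submodule.torsionBy ℤ ((ratCurve W)⁄Qb).Point (N : ℤ) ≃ₗ[ℤ]
      Submodule.torsionBy ℤ ((ratCurve W)⁄Qb).Point (N : ℤ)))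
    (hρ : ∀ σ x, (ρ σ x).1 = σ • x.1) :
    ρ.range.index = if Nat.lcm 2 D ∣ N then 2 else 1 := by
  have hmem : ∀ φ : Submodule.torsionBy ℤ ((ratCurve W)⁄Qb).Point (N : ℤ) ≃ₗ[ℤ]
      Submodule.torsionBy ℤ ((ratCurve W)⁄Qb).Point (N : ℤ),
      φ ∈ ρ.range ↔ ∃ σ : GQ, ∀ x, σ • x.1 = (φ.toAddEquiv x).1 := fun φ =>
    ⟨fun ⟨σ, hσ⟩ => ⟨σ, fun x => by rw [← hρ, hσ]; rfl⟩, fun ⟨σ, hσ⟩ => ⟨σ,
      LinearEquiv.ext fun x => Subtype.ext ((hρ σ x).trans (hσ x))⟩⟩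
  split_ifs with hm
  · obtain ⟨φ, hφ⟩ := exists_not_smul_eq_of_dvd hS hD ((hiff D hD).mpr dvd_rfl) hN
      ((Nat.dvd_lcm_left 2 D).trans hm) ((Nat.dvd_lcm_right 2 D).trans hm)
    have hnot : φ.toIntLinearEquiv ∉ ρ.range := fun h => by
      obtain ⟨σ, hσ⟩ := (hmem _).mp h
      obtain ⟨x, hx⟩ := hφ σ
      exact hx (hσ x)
    refine Subgroup.index_eq_two_iff_exists_notMem_and.mpr ⟨_, hnot, fun ψ => ?_⟩
    by_contra hc
    push Not at hc
    obtain ⟨σ, hσ⟩ := exists_smul_eq_mul hS hN ((Nat.dvd_lcm_left 2 D).trans hm)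
      (fun h => hc.2 ((hmem ψ).mpr h)) (fun h => hnot ((hmem _).mpr h))
    exact hc.1 ((hmem _).mpr ⟨σ, hσ⟩)
  · refine Subgroup.index_eq_one.mpr (eq_top_iff.mpr fun φ _ => (hmem φ).mpr ?_)
    by_cases h2 : 2 ∣ N
    · exact exists_smul_eq_of_not_level hS hN h2
        (fun hlev => hm (Nat.lcm_dvd h2 ((hiff N hN).mp hlev))) _
    · exact exists_smul_eq_of_odd hS hN h2 _

end FA.SerreCurve

end
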