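import Fermat.Agent.SerreCurve.Character
import Fermat.Agent.Root.SummarySerreCurveLevels
import Fermat.Agent.Root.SummaryTraceDistribution
import Fermat.Agent.GoodReduction.FrobeniusEverywhere
import Fermat.Agent.Ribet.SerreTrace
import Fermat.Agent.Two.QuadPrimes

/-!
# Residues of the traces: entanglement and Serre curves

If what fixes `E[3]` fixes `E[2]`, a Frobenius element of trace `0` mod `3` has fourth power trivial
on both, so its trace is even: `a_q` is never `3` mod `6`. With an image of index two a matrix comes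
from Galois as soon as its sign at two is that of an element of Galois of the same determinant;
some companion matrix of each trace does, so every residue of `a_q` occurs infinitely often.
-/

set_option autoImplicit false
set_option linter.style.haveILetI false
set_option linter.unusedSectionVars false

noncomputable section

open Matrix NumberField IsDedekindDomain WeierstrassCurve WeierstrassCurve.Affine
open FA.EC FA.Frob FA.RT
open FA.RT.Tate (Pts TateBasis)
open FA.Two (deltaRoot sgn)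
open FA.Independence.Family (upMat)
open scoped WeierstrassCurve.Affine

local notation "Qb" => AlgebraicClosure ℚ
local notation "GQ" => AlgebraicClosure ℚ ≃ₐ[ℚ] AlgebraicClosure ℚ
local notation "M2" => Matrix (Fin 2) (Fin 2)

namespace FA.SerreCurve

theorem trace_eq_zero_of_pow_four : ∀ M : M2 (ZMod 2), M.det ≠ 0 → M * M * (M * M) = 1 →
    M.trace = 0 := by
  intro M hM
  rcases FA.Two.six_cases hM with rfl | rfl | rfl | rfl | rfl | rfl <;> decide

theorem sq_eq_one_three : ∀ u : ZMod 3, u ≠ 0 → (-u) * (-u) = 1 := by decide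

/-- A matrix of trace zero over the field of three elements has fourth power one. -/
theorem pow_four_three (M : M2 (ZMod 3)) (hd : M.det ≠ 0) (ht : M.trace = 0) : M ^ 4 = 1 := by
  have h := LocalDef.mul_self_two M
  rw [ht, zero_smul, zero_sub, ← neg_smul] at h
  rw [show (4 : ℕ) = 2 + 2 from rfl, pow_add, sq, h, smul_mul_smul_comm, one_mul,
    sq_eq_one_three _ hd, one_smul]

variable {W : WeierstrassCurve ℤ} [(ratCurve W).IsElliptic]

/-- **Entanglement at six forbids the trace three mod six.** -/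
theorem six_dvd_ap_of_contained
    (hent : ∀ σ : GQ, (∀ x : Pts W, 3 • x = 0 → σ • x = x) → ∀ x : Pts W, 2 • x = 0 → σ • x = x)
    {q : ℕ} (hq : q.Prime) (h2 : q ≠ 2) (h3 : q ≠ 3) (hgood : W.IsGoodPrimeFor q)
    (hdvd : (3 : ℤ) ∣ W.apOfModel q) : (6 : ℤ) ∣ W.apOfModel q := by
  obtain ⟨A, hA⟩ := FA.Deform.exists_liesOverPrime hq
  obtain ⟨σ, hσ⟩ := FA.Deform.exists_isFrobeniusAt hq hA
  obtain ⟨t3, d3⟩ := FA.Ribet.curveRep_frobenius (p := 3) hq h3 hgood hA hσ
  obtain ⟨t2, d2⟩ := FA.Ribet.curveRep_frobenius (p := 2) hq h2 hgood hA hσ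
  rw [(ZMod.intCast_zmod_eq_zero_iff_dvd _ 3).mpr hdvd] at t3
  have h4 : curveRep 3 W (σ ^ 4) = 1 := by
    rw [map_pow]
    refine pow_four_three _ ?_ t3
    rw [d3, Ne, ZMod.natCast_eq_zero_iff]
    exact fun e => h3 ((Nat.prime_dvd_prime_iff_eq Nat.prime_three hq).mp e).symm
  have h4' : curveRep 2 W (σ ^ 4) = 1 := (curveRep_eq_one_iff W _).mpr fun x => Subtype.ext (by
    refine hent _ (fun y hy => ?_) x.1 (by
      rw [← natCast_zsmul]; exact (Submodule.mem_torsionBy_iff _ _).mp x.2)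
    exact congrArg Subtype.val ((curveRep_eq_one_iff W _).mp h4
      ⟨y, by rw [Submodule.mem_torsionBy_iff, natCast_zsmul]; exact hy⟩))
  rw [map_pow, show (4 : ℕ) = 2 + 2 from rfl, pow_add, sq] at h4'
  have he := trace_eq_zero_of_pow_four _ (FA.Two.det_curveRep_two_ne W σ) h4'
  rw [t2, ZMod.intCast_zmod_eq_zero_iff_dvd] at he
  omega

/-- The equation of a Frobenius element on the torsion prime to the prime. -/
theorem frobenius_equation_good {q : ℕ} (hq : q.Prime) {A : ValuationSubring Qb}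
    (hA : A.LiesOverPrime q) (hgood : W.IsGoodPrimeFor q) {σ : GQ} (hσ : A.IsFrobeniusAt σ q)
    {N : ℕ} (hqN : ¬ q ∣ N) {y : Pts W} (hy : N • y = 0) :
    σ • σ • y + (q : ℤ) • y = W.apOfModel q • σ • y := by
  suffices key : ∀ D : ℕ, D ∣ N → ∀ z : Pts W, D • z = 0 →
      σ • σ • z + (q : ℤ) • z = W.apOfModel q • σ • z from key N dvd_rfl y hy
  intro D
  induction D using Nat.recOnPosPrimePosCoprime with
  | prime_pow p n hp hn =>
    intro hd z hz
    haveI := Fact.mk hp
    have hqp : q ≠ p := fun e => hqN ((e ▸ dvd_pow_self p hn.ne' : q ∣ p ^ n).trans hd)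
    have h := (FA.RT.Tate.frobenius_relations (p := p) hq hA hqp hgood hσ).1 n z hz
    rw [← sub_eq_zero, ← h]
    abel
  | zero => exact fun hd => absurd (Nat.eq_zero_of_zero_dvd hd ▸ dvd_zero q) hqN
  | one =>
    intro _ z hz
    rw [one_nsmul] at hz
    subst hz
    simp [FA.Local.gal_smul_zero, zsmul_zero]
  | coprime a b _ _ hab iha ihb =>
    intro hd z hz
    have h1 := iha ((dvd_mul_right a b).trans hd) (b • z) (by rw [← mul_nsmul', hz])
    have h2 := ihb ((dvd_mul_left b a).trans hd) (a • z) (by rw [← mul_nsmul', mul_comm, hz])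
    obtain ⟨u, v, huv⟩ := Int.isCoprime_iff_nat_coprime.mpr
      (show Nat.Coprime (a : ℤ).natAbs (b : ℤ).natAbs by simpa using hab)
    have hz' : z = u • (a • z) + v • (b • z) := by
      rw [← natCast_zsmul z a, ← natCast_zsmul z b, smul_smul, smul_smul, ← add_zsmul, huv,
        one_zsmul]
    rw [hz']
    simp only [FA.Local.gal_smul_add, FA.RT.Tate.gal_smul_zsmul (W := W), zsmul_add]
    rw [add_add_add_comm, smul_comm (q : ℤ) u, smul_comm (q : ℤ) v, ← zsmul_add, ← zsmul_add, h1,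
      h2, smul_comm u, smul_comm v]

variable {N : ℕ} [NeZero N]
  (b : (Fin 2 → ZMod N) ≃ₗ[ZMod N] Submodule.torsionBy ℤ ((ratCurve W)⁄Qb).Point (N : ℤ))

/-- A matrix coming from Galois has unit determinant. -/
theorem isUnit_det_of_actsBy {M : M2 (ZMod N)} (hMact : ActsBy b M) : IsUnit M.det := by
  obtain ⟨σ, hσ⟩ := hMact
  obtain ⟨A, hA⟩ := exists_matrix_smul b σ⁻¹
  refine IsUnit.of_mul_eq_one A.det ?_
  rw [← det_mul, show M * A = 1 from Matrix.ext_of_mulVec_single fun i => b.injective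
    (Subtype.ext (by rw [← mulVec_mulVec, ← hσ, ← hA, smul_inv_smul, one_mulVec])), det_one]

/-- **A matrix of consistent sign comes from Galois**, at an even level where the image has index
two and `√Δ` is cyclotomic. -/
theorem actsBy_of_sign (h2 : 2 ∣ N) (hlev : IsLevel (deltaRoot W) N)
    (hidx : (levelAction (ratCurve W) N).range.index = 2) {X A : M2 (ZMod N)} (hX : IsUnit X.det)
    (hA : ActsBy b A) (hdet : X.det = A.det) (hsign : signTwo h2 X = signTwo h2 A) :
    ActsBy b X := by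
  by_contra hnX
  have hmem : ∀ θ : AutTors W N, θ ∈ (levelAction (ratCurve W) N).range ↔
      ActsBy b (autMat b θ) := fun θ => by
    rw [mem_range_level_iff (levelAction (ratCurve W) N) (fun _ _ => rfl)]
    refine exists_congr fun σ => ⟨fun h v => ?_, fun h x => ?_⟩
    · rw [autMat_spec, h]
    · obtain ⟨v, rfl⟩ := b.surjective x
      rw [h, autMat_spec]
  have hA1 : ActsBy b (1 : M2 (ZMod N)) := ⟨1, fun v => by rw [one_smul, one_mulVec]⟩
  have hU : IsUnit (upMat (1 : ZMod N)).det := by simp [upMat, det_fin_two]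
  have hUd : (upMat (1 : ZMod N)).det = 1 := by simp [upMat, det_fin_two]
  have hUs : signTwo h2 (upMat (1 : ZMod N)) = 1 := by
    have e : (upMat (1 : ZMod N)).map (ZMod.castHom h2 (ZMod 2)) = !![1, 1; 0, 1] := by
      ext i j; fin_cases i <;> fin_cases j <;> simp [upMat, ZMod.cast_one h2]
    rw [signTwo, e, sgn_upMat_one]
  obtain ⟨θ, hθ⟩ := (autGL_bijective b).2 ((Matrix.isUnit_iff_isUnit_det _).mpr hX).unit
  obtain ⟨η, hη⟩ := (autGL_bijective b).2 ((Matrix.isUnit_iff_isUnit_det _).mpr hU).unit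
  have eθ : autMat b θ = X := congrArg Units.val hθ
  have eη : autMat b η = upMat 1 := congrArg Units.val hη
  have hnU : η ∉ (levelAction (ratCurve W) N).range := fun hc => by
    rw [hmem, eη] at hc
    have h := signTwo_congr b h2 hlev hA1 hc (by rw [det_one]; exact isUnit_one)
      (by rw [hUd, det_one])
    rw [hUs, signTwo, Matrix.map_one _ (map_zero _) (map_one _)] at h
    exact absurd h (by decide)
  have hnθ : θ ∉ (levelAction (ratCurve W) N).range := by rwa [hmem, eθ]
  have hprod := (Subgroup.mul_mem_iff_of_index_two hidx).mpr (iff_of_false hnθ hnU)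
  rw [hmem, autMat_mul, eθ, eη] at hprod
  have h := signTwo_congr b h2 hlev hA hprod (hdet ▸ hX) (by rw [det_mul, hUd, mul_one, hdet])
  rw [signTwo_mul h2 hX hU, hUs, hsign, add_eq_left] at h
  exact one_ne_zero h

theorem sgn_companion : ∀ u : ZMod 2, u ≠ 0 → sgn (!![0, -u; 1, 1] : M2 (ZMod 2)) = 0 ∧
    sgn (!![0, -u; 1, 0] : M2 (ZMod 2)) = 1 := by decide

/-- **A companion matrix of each trace comes from Galois.** -/
theorem exists_companion_actsBy (h2 : 2 ∣ N) (hlev : IsLevel (deltaRoot W) N)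
    (hidx : (levelAction (ratCurve W) N).range.index = 2)
    (hmoved : ∃ τ : GQ, τ (deltaRoot W) ≠ deltaRoot W) (t : ZMod N) :
    ∃ u : ZMod N, ActsBy b !![0, -u; 1, t] := by
  have h2c : ∀ z : ZMod 2, z = 0 ∨ z = 1 := by decide
  have hmap : ∀ u : ZMod N, (!![0, -u; 1, t] : M2 (ZMod N)).map (ZMod.castHom h2 (ZMod 2)) =
      !![0, -ZMod.castHom h2 (ZMod 2) u; 1, ZMod.castHom h2 (ZMod 2) t] := fun u => by
    ext i j; fin_cases i <;> fin_cases j <;> simp [-ZMod.castHom_apply]
  have hdet : ∀ u : ZMod N, (!![0, -u; 1, t] : M2 (ZMod N)).det = u := fun u => by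
    simp [det_fin_two_of]
  obtain ⟨τ, hτ⟩ := hmoved
  obtain ⟨A, hA⟩ := exists_matrix_smul b τ
  have hAu : IsUnit A.det := isUnit_det_of_actsBy b ⟨τ, hA⟩
  have hcast : ZMod.castHom h2 (ZMod 2) A.det ≠ 0 := (hAu.map _).ne_zero
  rcases h2c (ZMod.castHom h2 (ZMod 2) t) with ht | ht
  · refine ⟨A.det, actsBy_of_sign b h2 hlev hidx (by rw [hdet]; exact hAu) ⟨τ, hA⟩ (hdet _) ?_⟩
    rw [signTwo, hmap, ht, (sgn_companion _ hcast).2]
    rcases h2c (signTwo h2 A) with e | e
    · exact absurd ((signTwo_eq_zero_iff b h2 hA hAu).mp e) hτ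
    · exact e.symm
  · refine ⟨1, actsBy_of_sign b h2 hlev hidx (by rw [hdet]; exact isUnit_one)
      ⟨1, fun v => by rw [one_smul, one_mulVec]⟩ (by rw [hdet, det_one]) ?_⟩
    rw [signTwo, hmap, ht, map_one, (sgn_companion 1 one_ne_zero).1, signTwo,
      Matrix.map_one _ (map_zero _) (map_one _)]
    decide

/-- The matrix of a Frobenius element has the prime as its determinant. -/
theorem det_of_frobenius {q : ℕ} (hq : q.Prime) {A : ValuationSubring Qb}
    (hA : A.LiesOverPrime q) {τ : GQ} (hτ : A.IsFrobeniusAt τ q) (hqN : ¬ q ∣ N)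
    {T : M2 (ZMod N)} (hT : ∀ v, τ • (b v).1 = (b (T *ᵥ v)).1) : (q : ZMod N) = T.det := by
  haveI : NeZero (N : Qb) := ⟨Nat.cast_ne_zero.mpr (NeZero.ne N)⟩
  obtain ⟨ζ, hζ⟩ := HasEnoughRootsOfUnity.exists_primitiveRoot Qb N
  have e := (FA.Two.frob_root hq hqN hA hτ hζ.pow_eq_one).symm.trans
    (smul_root_eq_pow_det b hT hζ.pow_eq_one)
  rw [pow_eq_pow_mod q hζ.pow_eq_one] at e
  rw [← ZMod.natCast_mod q N, hζ.pow_inj (Nat.mod_lt _ (Nat.pos_of_ne_zero (NeZero.ne N)))
    (ZMod.val_lt _) e, ZMod.natCast_zmod_val]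

/-- The matrix of a Frobenius element has `a_q` as its trace. -/
theorem trace_of_frobenius {q : ℕ} (hq : q.Prime) {A : ValuationSubring Qb}
    (hA : A.LiesOverPrime q) (hgood : W.IsGoodPrimeFor q) {τ : GQ} (hτ : A.IsFrobeniusAt τ q)
    (hqN : ¬ q ∣ N) {T : M2 (ZMod N)} (hT : ∀ v, τ • (b v).1 = (b (T *ᵥ v)).1) :
    (W.apOfModel q : ZMod N) = T.trace := by
  have hNv : ∀ v, N • (b v).1 = 0 := fun v => by
    rw [← natCast_zsmul]; exact (Submodule.mem_torsionBy_iff _ _).mp (b v).2
  have hTeq : ∀ v, T *ᵥ (T *ᵥ v) + (q : ℤ) • v = W.apOfModel q • (T *ᵥ v) := fun v => by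
    refine b.injective (Subtype.ext ?_)
    simp only [map_add, map_zsmul, Submodule.coe_add, Submodule.coe_smul_of_tower, ← hT]
    exact frobenius_equation_good hq hA hgood hτ hqN (hNv v)
  have e0 := congrFun (hTeq (Pi.single 0 1)) 0
  have e1 := congrFun (hTeq (Pi.single 1 1)) 0
  simp at e0 e1
  rw [det_of_frobenius b hq hA hτ hqN hT] at e0
  rw [← sub_eq_zero, trace_fin_two]
  refine (isUnit_det_of_actsBy b ⟨τ, hT⟩).mul_left_eq_zero.mp ?_
  rw [det_fin_two] at e0 ⊢
  linear_combination (-T 1 1) * e0 + T 1 0 * e1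

/-- **The trace and determinant of a matrix in the image are `(a_q, q)` modulo `N` infinitely
often.** -/
theorem infinite_of_actsBy {M : M2 (ZMod N)} (hMact : ActsBy b M) :
    {q : ℕ | q.Prime ∧ (W.apOfModel q : ZMod N) = M.trace ∧ (q : ZMod N) = M.det}.Infinite := by
  classical
  obtain ⟨σ, hσ⟩ := hMact
  set π := (levelAction (ratCurve W) N).rangeRestrict with hπ
  haveI : Finite (AutTors W N) := Finite.of_injective _ (autGL_bijective b).1
  haveI := Fintype.ofFinite (levelAction (ratCurve W) N).range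
  have hopen : IsOpen ((π.ker : Subgroup GQ) : Set GQ) := by
    rw [hπ, MonoidHom.ker_rangeRestrict]
    refine Subgroup.isOpen_mono (fun τ hτ => ?_) (FA.TraceDist.isOpen_ker_glLevel (W := W) (N := N))
    refine LinearEquiv.ext fun x => Subtype.ext ?_
    exact (FA.TraceDist.repLevel_eq_one_iff τ).mp (congrArg Units.val (MonoidHom.mem_ker.mp hτ) :)
      x.1 (by rw [← natCast_zsmul]; exact (Submodule.mem_torsionBy_iff _ _).mp x.2)
  set X : Set (levelAction (ratCurve W) N).range := {g | IsConj (π σ) g}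
  have hd := FA.Chebotarev.hasDirichletDensity_frobSet π (MonoidHom.rangeRestrict_surjective _)
    hopen (X := X) fun g hg x => hg.trans (isConj_iff.mpr ⟨x, rfl⟩)
  haveI : Nonempty X := ⟨⟨π σ, IsConj.refl _⟩⟩
  have hinf := FA.TraceDist.infinite_of_density (P := fun q => ∀ A : ValuationSubring Qb,
    A.LiesOverPrime q → ∀ τ : GQ, A.IsFrobeniusAt τ q → π τ ∈ X)
    (div_ne_zero (Nat.cast_ne_zero.mpr Nat.card_pos.ne')
      (Nat.cast_ne_zero.mpr Fintype.card_ne_zero))
    hd
  refine (hinf.sdiff ((W.Δ.natAbs * N).primeFactors.finite_toSet)).mono ?_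
  rintro q ⟨⟨hq, hP⟩, hnot⟩
  have hΔ : W.Δ ≠ 0 := fun h => (ratCurve W).isUnit_Δ.ne_zero (by simp [ratCurve, h])
  have hndvd : ¬ q ∣ W.Δ.natAbs * N := fun hd' => hnot (Nat.mem_primeFactors.mpr
    ⟨hq, hd', mul_ne_zero (Int.natAbs_ne_zero.mpr hΔ) (NeZero.ne N)⟩)
  have hgood : W.IsGoodPrimeFor q := fun hd' => hndvd ((Int.natCast_dvd.mp hd').mul_right _)
  obtain ⟨A, hA⟩ := FA.Deform.exists_liesOverPrime hq
  obtain ⟨τ, hτ⟩ := FA.Deform.exists_isFrobeniusAt hq hA
  obtain ⟨c, hc⟩ := isConj_iff.mp (hP A hA τ hτ)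
  obtain ⟨g, rfl⟩ := MonoidHom.rangeRestrict_surjective _ c
  rw [← map_inv, ← map_mul, ← map_mul] at hc
  have hact : ∀ x : Pts W, N • x = 0 → τ • x = g • σ • g⁻¹ • x := fun x hx => by
    rw [← mul_smul, ← mul_smul]
    exact (congrArg (fun z : (levelAction (ratCurve W) N).range => (z.1
      (⟨x, by rw [Submodule.mem_torsionBy_iff, natCast_zsmul]; exact hx⟩ :
        Submodule.torsionBy ℤ ((ratCurve W)⁄Qb).Point (N : ℤ))).1) hc :).symm
  have hkill : ∀ (k : GQ) {x : Pts W}, N • x = 0 → N • (k • x) = 0 := fun k x hx => by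
    rw [← FA.RT.Tate.gal_smul_nsmul, hx, FA.Local.gal_smul_zero]
  have hNv : ∀ v, N • (b v).1 = 0 := fun v => by
    rw [← natCast_zsmul]; exact (Submodule.mem_torsionBy_iff _ _).mp (b v).2
  obtain ⟨G, hG⟩ := exists_matrix_smul b g
  obtain ⟨G', hG'⟩ := exists_matrix_smul b g⁻¹
  have hGG : G * G' = 1 := Matrix.ext_of_mulVec_single fun i => b.injective
    (Subtype.ext (by rw [← mulVec_mulVec, ← hG, ← hG', smul_inv_smul, one_mulVec]))
  set T := G * M * G' with hTdef
  have hT : ∀ v, τ • (b v).1 = (b (T *ᵥ v)).1 := fun v => by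
    rw [hact _ (hNv v), hG', hσ, hG, mulVec_mulVec, mulVec_mulVec]
  have hTd : T.det = M.det := by
    rw [hTdef, det_mul, det_mul, mul_right_comm, ← det_mul, hGG, det_one, one_mul]
  have hTt : T.trace = M.trace := by
    rw [hTdef, trace_mul_comm, ← Matrix.mul_assoc, mul_eq_one_comm.mp hGG, Matrix.one_mul]
  have hqd := det_of_frobenius b hq hA hτ (fun hd' => hndvd (hd'.mul_left _)) hT
  exact ⟨hq, (trace_of_frobenius b hq hA hgood hτ (fun hd' => hndvd (hd'.mul_left _)) hT).trans
    hTt, hqd.trans hTd⟩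

end FA.SerreCurve

end
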