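import Fermat.Agent.SerreCurve.Moves

/-!
# The image on the torsion relative to a cyclotomic level of `√Δ`

Let the square root `s` of the discriminant be fixed by what fixes the `D`-th roots of unity. An
automorphism `ψ` of the torsion is compatible if an element of Galois agreeing with it on `E[2]`
moves `s` as does any element inducing the action of `ψ` on the `D`-th roots of unity. Compatible
automorphisms come from Galois, and the product of two automorphisms which are not compatible is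
compatible.
-/
set_option autoImplicit false
set_option linter.unusedSectionVars false
set_option linter.style.haveILetI false

noncomputable section

open Matrix WeierstrassCurve WeierstrassCurve.Affine FA.EC FA.Frob FA.RT FA.PadicImage
open FA.TW (rootsFix mem_rootsFix)
open FA.Two (deltaRoot)
open scoped WeierstrassCurve.Affine

local notation "Qb" => AlgebraicClosure ℚ
local notation "GQ" => AlgebraicClosure ℚ ≃ₐ[ℚ] AlgebraicClosure ℚ

namespace FA.SerreCurve

variable (W : WeierstrassCurve ℤ) [(ratCurve W).IsElliptic] (q : ℕ)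

/-- The curves in question: full image at every prime power, and a prime `q ≥ 5` whose exponent in
the discriminant is odd and at which the reduction is multiplicative. -/
structure Setting : Prop where
  reachAll : ∀ (l : ℕ) [Fact l.Prime], ReachAll l W
  five_le : 5 ≤ q
  not_two_dvd : ¬ 2 ∣ padicValInt q W.Δ
  exists_mult : ∃ A, MultAt W q A

variable {W q}

/-- What the glueing uses: full image at every prime power, and the `3`-power torsion split off
the `2`-power torsion. -/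
structure Separated (W : WeierstrassCurve ℤ) [(ratCurve W).IsElliptic] : Prop where
  reachAll : ∀ (l : ℕ) [Fact l.Prime], ReachAll l W
  split : ∀ (f : ℕ → ℕ) {S T : Finset ℕ}, (∀ l ∈ S, l = 2) → (∀ l ∈ T, l.Prime) →
    ∀ g ∈ rootsFix 3 (f 3), ∃ τ ∈ fixer W f S T,
      ∀ x : ((ratCurve W)⁄Qb).Point, 3 ^ f 3 • x = 0 → τ • x = g • x

theorem Setting.separated (hS : Setting W q) : Separated W := by
  obtain ⟨A, hm⟩ := hS.exists_mult
  have := hS.five_le
  haveI := Fact.mk Nat.prime_three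
  exact ⟨hS.reachAll, exists_mem_fixer_odd (by omega) (hS.reachAll 3)
    (movesFixing_of_mult hm (by omega) hS.not_two_dvd (by omega) (by omega))⟩

/-- A semistable equation with irreducible torsion, a bad prime `q ≥ 5` of odd exponent and a bad
prime other than `3` of exponent prime to `3` is in the setting. -/
theorem setting_of_semistable (hΔ : W.Δ ≠ 0) (hW : W.IsSemistableModel)
    (hirr : ∀ (p : ℕ) [Fact p.Prime], W.ModRepIsIrreducible p) (hqp : q.Prime) (h5 : 5 ≤ q)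
    (hd : (q : ℤ) ∣ W.Δ) (hv : ¬ 2 ∣ padicValInt q W.Δ)
    (h3 : ∃ r : ℕ, r.Prime ∧ r ≠ 3 ∧ (r : ℤ) ∣ W.Δ ∧ ¬ 3 ∣ padicValInt r W.Δ) :
    Setting W q := by
  refine ⟨fun l _ => ?_, h5, hv, ?_⟩
  · refine FA.Root.Irred.reachAll_of_irreducible hΔ hW (hirr l) ?_
    rcases le_or_gt 5 l with h | h
    · exact Or.inl h
    have hl : l.Prime := Fact.out
    interval_cases l
    all_goals first
      | exact absurd hl (by decide)
      | exact Or.inr ⟨q, hqp, by omega, hd, hv⟩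
      | exact Or.inr h3
  · obtain ⟨A, hA⟩ := FA.Deform.exists_liesOverPrime hqp
    exact ⟨A, hΔ, hqp, hd, hW q hqp hd, hA⟩

/-- Glueing automorphisms which fix the roots of unity and, at `2`, the root `s`. -/
theorem exists_glue_fixing (hS : Separated W) (f : ℕ → ℕ) {T : Finset ℕ}
    (hT : ∀ l ∈ T, l.Prime) (h : ℕ → GQ) (hh : ∀ l ∈ T, h l ∈ rootsFix l (f l)) (h2T : 2 ∈ T)
    (h2 : h 2 (deltaRoot W) = deltaRoot W) :
    ∃ σ : GQ, ∀ l ∈ T, ∀ x : ((ratCurve W)⁄Qb).Point, l ^ f l • x = 0 → σ • x = h l • x := by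
  suffices key : ∀ S ⊆ T.erase 2, ∃ σ ∈ fixer W f ∅ T,
      ∀ l ∈ insert 2 S, ∀ x : ((ratCurve W)⁄Qb).Point, l ^ f l • x = 0 → σ • x = h l • x by
    obtain ⟨σ, -, hσ⟩ := key _ Finset.Subset.rfl
    exact ⟨σ, fun l hl => hσ l (by rw [Finset.insert_erase h2T]; exact hl)⟩
  intro S hST
  induction S using Finset.induction_on_max with
  | empty =>
    obtain ⟨τ, hτ, hτx⟩ := exists_mem_fixer_two (hS.reachAll 2) f hT (h 2) (hh 2 h2T) h2
    refine ⟨τ, hτ, fun l hl => ?_⟩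
    obtain rfl : l = 2 := by simpa using hl
    exact hτx
  | insert a s hlt ih =>
    obtain ⟨σ, hσ, hσh⟩ := ih ((Finset.subset_insert a s).trans hST)
    obtain ⟨ha2, haT⟩ := Finset.mem_erase.mp (hST (Finset.mem_insert_self a s))
    haveI := Fact.mk (hT a haT)
    have ha : a.Prime := hT a haT
    have h3a : 2 < a := lt_of_le_of_ne ha.two_le (Ne.symm ha2)
    have hg : σ⁻¹ * h a ∈ rootsFix a (f a) := mul_mem (inv_mem (hσ.1 a haT)) (hh a haT)
    obtain ⟨τ, hτ, hτx⟩ : ∃ τ ∈ fixer W f (T.filter (· < a)) T,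
        ∀ x : ((ratCurve W)⁄Qb).Point, a ^ f a • x = 0 → τ • x = (σ⁻¹ * h a) • x := by
      rcases le_or_gt 5 a with h5 | h5
      · refine exists_mem_fixer ha2 (hS.reachAll a) f (fun l hl => ?_) hT _ hg
        obtain ⟨hlT, hla⟩ := Finset.mem_filter.mp hl
        refine ⟨hT l hlT, ?_⟩
        have := ha.eq_two_or_odd
        rcases (hT l hlT).eq_two_or_odd with h | h <;> omega
      · obtain rfl : a = 3 := by
          by_contra h3
          obtain rfl : a = 4 := by omega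
          norm_num at ha
        refine hS.split f (fun l hl => ?_) hT _ hg
        obtain ⟨hlT, hla⟩ := Finset.mem_filter.mp hl
        have := (hT l hlT).two_le
        have := ha.eq_two_or_odd
        omega
    refine ⟨σ * τ, mul_mem hσ ⟨hτ.1, fun l hl => absurd hl (Finset.notMem_empty l)⟩,
      fun l hl x hx => ?_⟩
    rw [mul_smul]
    by_cases hla : l = a
    · subst hla
      rw [hτx x hx, mul_smul, smul_inv_smul]
    have hl' : l ∈ insert 2 s := by
      rcases Finset.mem_insert.mp hl with h | h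
      · exact Finset.mem_insert.mpr (Or.inl h)
      · exact Finset.mem_insert.mpr (Or.inr ((Finset.mem_insert.mp h).resolve_left hla))
    have hfilt : l ∈ T.filter (· < a) := by
      rcases Finset.mem_insert.mp hl' with rfl | h
      · exact Finset.mem_filter.mpr ⟨h2T, h3a⟩
      · exact Finset.mem_filter.mpr
          ⟨Finset.mem_of_mem_erase (hST (Finset.mem_insert_of_mem h)), hlt l h⟩
    rw [hτ.2 l hfilt x hx, hσh l hl' x hx]

/-- What fixes `E[2]` fixes `s`. -/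
theorem deltaRoot_of_fix_two {σ : GQ}
    (h : ∀ x : ((ratCurve W)⁄Qb).Point, 2 • x = 0 → σ • x = x) :
    σ (deltaRoot W) = deltaRoot W := by
  refine (sgn_eq_zero_iff σ).mp ?_
  rw [(curveRep_eq_one_iff W σ).mpr fun x =>
    Subtype.ext (h x.1 (FA.Frob.nsmul_torsion x))]
  decide

/-- The torsion subgroup of `W`. -/
abbrev Tors (W : WeierstrassCurve ℤ) [(ratCurve W).IsElliptic] :=
  AddCommGroup.torsion ((ratCurve W).toAffine⁄Qb).Point

/-- `g` acts as `ψ` on `E[r]`. -/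
def Agrees (r : ℕ) (g : GQ) (ψ : (Tors W) ≃ₗ[ℤ] (Tors W)) : Prop :=
  ∀ x : (Tors W), r • x.1 = 0 → g • x.1 = (ψ x).1

/-- `k` acts on the `D`-th roots of unity as `ψ` does. -/
def CycAgrees (D : ℕ) (k : GQ) (ψ : Tors W ≃ₗ[ℤ] Tors W) : Prop :=
  ∀ l e : ℕ, l.Prime → l ^ e ∣ D →
    ∃ h : GQ, Agrees (l ^ e) h ψ ∧ ∀ μ : Qb, μ ^ l ^ e = 1 → h μ = k μ

/-- The compatibility of an automorphism of the torsion. -/
def Compat (W : WeierstrassCurve ℤ) [(ratCurve W).IsElliptic] (D : ℕ)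
    (ψ : Tors W ≃ₗ[ℤ] Tors W) : Prop :=
  ∀ g k : GQ, Agrees 2 g ψ → CycAgrees D k ψ → g (deltaRoot W) = k (deltaRoot W)

/-- Fixing the roots of unity of prime power orders dividing `D`. -/
theorem fix_roots_of_prime_pow {σ : GQ} {D : ℕ} (hD : D ≠ 0)
    (h : ∀ l e : ℕ, l.Prime → l ^ e ∣ D → ∀ μ : Qb, μ ^ l ^ e = 1 → σ μ = μ) :
    ∀ μ : Qb, μ ^ D = 1 → σ μ = μ := by
  suffices key : ∀ d, d ∣ D → ∀ μ : Qb, μ ^ d = 1 → σ μ = μ from key D dvd_rfl
  intro d
  induction d using Nat.recOnPosPrimePosCoprime with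
  | prime_pow l k hl _ => exact h l k hl
  | zero => intro hd; exact absurd (zero_dvd_iff.mp hd) hD
  | one => intro _ μ hμ; rw [pow_one] at hμ; rw [hμ, map_one]
  | coprime a b _ _ hab iha ihb =>
    intro hd μ hμ
    obtain ⟨u, v, huv⟩ := Int.isCoprime_iff_nat_coprime.mpr (by simpa using hab :
      (a : ℤ).natAbs.Coprime (b : ℤ).natAbs)
    have hμ0 : μ ≠ 0 := fun e => by
      rw [e, zero_pow (fun h0 => hD (zero_dvd_iff.mp (h0 ▸ hd)))] at hμ
      exact zero_ne_one hμ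
    have e1 : σ (μ ^ b) = μ ^ b := iha ((dvd_mul_right a b).trans hd) _ (by
      rw [← pow_mul, mul_comm, hμ])
    have e2 : σ (μ ^ a) = μ ^ a := ihb ((dvd_mul_left b a).trans hd) _ (by rw [← pow_mul, hμ])
    have e : μ = (μ ^ a) ^ u * (μ ^ b) ^ v := by
      rw [← zpow_natCast, ← zpow_natCast, ← _root_.zpow_mul, ← _root_.zpow_mul, ← zpow_add₀ hμ0,
        mul_comm _ u, mul_comm _ v, huv, zpow_one]
    rw [e, map_mul, map_zpow₀, map_zpow₀, e1, e2]

/-- Two elements inducing the action of `ψ` on roots of unity move `s` alike. -/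
theorem deltaRoot_congr_cyc {D : ℕ} (hD : D ≠ 0)
    (hroot : ∀ σ : GQ, (∀ μ : Qb, μ ^ D = 1 → σ μ = μ) → σ (deltaRoot W) = deltaRoot W)
    {k K : GQ} {ψ : Tors W ≃ₗ[ℤ] Tors W} (hk : CycAgrees D k ψ) (hK : CycAgrees D K ψ) :
    k (deltaRoot W) = K (deltaRoot W) := by
  have e := hroot (k⁻¹ * K) (fix_roots_of_prime_pow hD fun l n hl hd μ hμ => by
    obtain ⟨h, hh, hhk⟩ := hk l n hl hd
    obtain ⟨H, hH, hHK⟩ := hK l n hl hd
    have hfix : (h⁻¹ * H) μ = μ := FA.OpenImage.smul_root_of_fix_torsion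
      (pow_ne_zero n hl.ne_zero) (fun x hx => by
        have hT : x ∈ Tors W :=
          isOfFinAddOrder_iff_nsmul_eq_zero.mpr ⟨l ^ n, pow_pos hl.pos n, hx⟩
        rw [mul_smul, inv_smul_eq_iff]
        exact (hH ⟨x, hT⟩ hx).trans (hh ⟨x, hT⟩ hx).symm) hμ
    rw [AlgEquiv.mul_apply, AlgEquiv.aut_inv, AlgEquiv.symm_apply_eq] at hfix ⊢
    rw [← hhk μ hμ, ← hHK μ hμ, hfix])
  conv_lhs => rw [← e]
  rw [← AlgEquiv.mul_apply, mul_inv_cancel_left]

/-- The restriction of an automorphism of the torsion to the `N`-torsion. -/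
theorem exists_restrict_torsion {N : ℕ} (hN : N ≠ 0) (ψ : (Tors W) ≃ₗ[ℤ] (Tors W)) :
    ∃ φ : Submodule.torsionBy ℤ ((ratCurve W)⁄Qb).Point (N : ℤ) ≃+
        Submodule.torsionBy ℤ ((ratCurve W)⁄Qb).Point (N : ℤ),
      ∀ x, ∃ hx, (φ x).1 = (ψ ⟨x.1, hx⟩).1 := by
  have hmem : ∀ x : Submodule.torsionBy ℤ ((ratCurve W)⁄Qb).Point (N : ℤ), x.1 ∈ Tors W := fun x =>
    isOfFinAddOrder_iff_nsmul_eq_zero.mpr ⟨N, Nat.pos_of_ne_zero hN, by
      rw [← natCast_zsmul]; exact (Submodule.mem_torsionBy_iff _ _).mp x.2⟩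
  have hpres : ∀ χ : (Tors W) ≃ₗ[ℤ] (Tors W),
      ∀ x : Submodule.torsionBy ℤ ((ratCurve W)⁄Qb).Point (N : ℤ),
        (χ ⟨x.1, hmem x⟩).1 ∈ Submodule.torsionBy ℤ ((ratCurve W)⁄Qb).Point (N : ℤ) := fun χ x => by
    rw [Submodule.mem_torsionBy_iff, ← AddSubgroup.coe_zsmul, ← map_zsmul,
      show (N : ℤ) • (⟨x.1, hmem x⟩ : (Tors W)) = 0 from
        Subtype.ext ((Submodule.mem_torsionBy_iff _ _).mp x.2), map_zero, ZeroMemClass.coe_zero]
  exact ⟨{ toFun := fun x => ⟨(ψ ⟨x.1, hmem x⟩).1, hpres ψ x⟩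
           invFun := fun x => ⟨(ψ.symm ⟨x.1, hmem x⟩).1, hpres ψ.symm x⟩
           left_inv := fun x => Subtype.ext
             ((congrArg Subtype.val (ψ.symm_apply_apply ⟨x.1, hmem x⟩) :))
           right_inv := fun x => Subtype.ext
             ((congrArg Subtype.val (ψ.apply_symm_apply ⟨x.1, hmem x⟩) :))
           map_add' := fun x y => Subtype.ext
             ((congrArg Subtype.val (map_add ψ ⟨x.1, hmem x⟩ ⟨y.1, hmem y⟩) :)) },
    fun x => ⟨hmem x, rfl⟩⟩

/-- **Compatible automorphisms of all torsion come from one element of Galois.** -/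
theorem mem_range_of_compat (hS : Separated W) {D : ℕ} (hD : D ≠ 0) {ψ : Tors W ≃ₗ[ℤ] Tors W}
    (hψ : Compat W D ψ) : ψ ∈ (FA.OpenImage.torsionAction (ratCurve W)).range := by
  refine FA.OpenImage.mem_range_of_levels (ratCurve W) ψ fun N hN => ?_
  have hM : N * (2 * D) ≠ 0 := mul_ne_zero hN (mul_ne_zero two_ne_zero hD)
  set M := N * (2 * D) with hMdef
  obtain ⟨φ, hφ⟩ := exists_restrict_torsion hM ψ
  set f := fun l : ℕ => M.factorization l with hf
  have hpr : ∀ l ∈ M.primeFactors, l.Prime := fun l hl => Nat.prime_of_mem_primeFactors hl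
  have hlift : ∀ {d : ℕ}, d ∣ M → ∀ x : ((ratCurve W)⁄Qb).Point, d • x = 0 →
      x ∈ Submodule.torsionBy ℤ ((ratCurve W)⁄Qb).Point (M : ℤ) := fun {d} hd x hx => by
    obtain ⟨c, hc⟩ := hd
    rw [Submodule.mem_torsionBy_iff, natCast_zsmul, hc, mul_comm, mul_nsmul', hx, nsmul_zero]
  have hmem : ∀ {l : ℕ} {x : ((ratCurve W)⁄Qb).Point}, l ^ f l • x = 0 →
      x ∈ Submodule.torsionBy ℤ ((ratCurve W)⁄Qb).Point (M : ℤ) :=
    fun {l x} hx => hlift (Nat.ordProj_dvd M l) x hx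
  have hlocal : ∀ l ∈ M.primeFactors, ∃ g : GQ, ∀ (x : ((ratCurve W)⁄Qb).Point)
      (hx : l ^ f l • x = 0), g • x = (φ ⟨x, hmem hx⟩).1 := fun l hl => by
    have := Fact.mk (hpr l hl)
    obtain ⟨θ, hθ⟩ := exists_restrict (d := (l : ℤ) ^ f l)
      (by exact_mod_cast Nat.ordProj_dvd M l) φ
    obtain ⟨g, hg⟩ := exists_smul_eq_pow_of_reach (hS.reachAll l) (f l) θ
    refine ⟨g, fun x hx => ?_⟩
    obtain ⟨h, e⟩ := hθ ⟨x, mem_torsionBy_pow_iff.mpr hx⟩
    exact (hg _).trans e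
  choose! h hh using hlocal
  have h2m : 2 ∈ M.primeFactors :=
    Nat.mem_primeFactors.mpr ⟨Nat.prime_two, (dvd_mul_right 2 D).mul_left N, hM⟩
  -- the action at a prime power dividing `M`
  have hag : ∀ l e : ℕ, l ∈ M.primeFactors → l ^ e ∣ M → Agrees (l ^ e) (h l) ψ :=
    fun l e hl he x hx => by
    obtain ⟨c, hc⟩ := Nat.pow_dvd_pow l
      (((hpr l hl).pow_dvd_iff_le_factorization hM).mp he)
    have hx' : l ^ f l • x.1 = 0 := by rw [hf, hc, mul_comm, mul_nsmul', hx, nsmul_zero]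
    obtain ⟨_, e'⟩ := hφ ⟨x.1, hmem hx'⟩
    exact (hh l hl x.1 hx').trans e'
  obtain ⟨σ₀, hσ₀⟩ := exists_cyclotomic_common f hpr h
  have hcyc : CycAgrees D σ₀ ψ := fun l e hl hd => by
    rcases Nat.eq_zero_or_pos e with rfl | he
    · refine ⟨1, fun x hx => ?_, fun μ hμ => ?_⟩
      · rw [pow_zero, one_nsmul] at hx
        rw [one_smul, hx, show x = 0 from Subtype.ext hx, map_zero, ZeroMemClass.coe_zero]
      · rw [pow_zero, pow_one] at hμ
        rw [hμ, map_one, map_one]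
    have hdM : l ^ e ∣ M := hd.trans ((dvd_mul_left D 2).mul_left N)
    have hlM : l ∈ M.primeFactors :=
      Nat.mem_primeFactors.mpr ⟨hl, (dvd_pow_self l he.ne').trans hdM, hM⟩
    refine ⟨h l, hag l e hlM hdM, fun μ hμ => ?_⟩
    obtain ⟨c, hc⟩ := Nat.pow_dvd_pow l ((hl.pow_dvd_iff_le_factorization hM).mp hdM)
    have e' := mem_rootsFix.mp (hσ₀ l hlM) μ (by rw [hf, hc, pow_mul, hμ, one_pow])
    rwa [AlgEquiv.mul_apply, AlgEquiv.aut_inv, AlgEquiv.symm_apply_eq] at e'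
  have hagree := hψ (h 2) σ₀
    (by simpa using hag 2 1 h2m (by rw [pow_one]; exact Nat.dvd_of_mem_primeFactors h2m)) hcyc
  obtain ⟨τ, hτ⟩ := exists_glue_fixing hS f hpr (fun l => σ₀⁻¹ * h l) hσ₀ h2m (by
    rw [AlgEquiv.mul_apply, hagree, ← AlgEquiv.mul_apply, inv_mul_cancel, AlgEquiv.one_apply])
  have hall := smul_eq_of_prime_powers hM φ (σ₀ * τ) fun l hl x hx => by
    rw [mul_smul, hτ l hl _ hx, mul_smul, smul_inv_smul, hh l hl _ hx]
  refine ⟨σ₀ * τ, fun x hx => ?_⟩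
  obtain ⟨_, e⟩ := hφ ⟨x.1, hlift (dvd_mul_right N _) x.1 hx⟩
  exact (hall ⟨x.1, hlift (dvd_mul_right N _) x.1 hx⟩).trans e

/-- **The product of two automorphisms which are not compatible is compatible.** -/
theorem compat_mul {D : ℕ} (hD : D ≠ 0)
    (hroot : ∀ σ : GQ, (∀ μ : Qb, μ ^ D = 1 → σ μ = μ) → σ (deltaRoot W) = deltaRoot W)
    {ψ χ : Tors W ≃ₗ[ℤ] Tors W} (hψ : ¬ Compat W D ψ) (hχ : ¬ Compat W D χ) :
    Compat W D (ψ * χ) := by
  simp only [Compat, not_forall] at hψ hχ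
  obtain ⟨g, k, hg, hk, hne⟩ := hψ
  obtain ⟨g', k', hg', hk', hne'⟩ := hχ
  have hmul : ∀ {r : ℕ} {a b : GQ}, Agrees r a ψ → Agrees r b χ → Agrees r (a * b) (ψ * χ) :=
    fun {r a b} ha hb x hx => by
    rw [mul_smul, hb x hx, ha (χ x) (by
      rw [← AddSubgroup.coe_nsmul, ← map_nsmul, show r • x = 0 from Subtype.ext hx, map_zero,
        ZeroMemClass.coe_zero])]
    rfl
  have hkk : CycAgrees D (k * k') (ψ * χ) := fun l e hl hd => by
    obtain ⟨h, hh, hhk⟩ := hk l e hl hd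
    obtain ⟨h', hh', hhk'⟩ := hk' l e hl hd
    refine ⟨h * h', hmul hh hh', fun μ hμ => ?_⟩
    rw [AlgEquiv.mul_apply, AlgEquiv.mul_apply, hhk' μ hμ,
      hhk _ (by rw [← map_pow, hμ, map_one])]
  intro G K hG hK
  have e1 : G (deltaRoot W) = (g * g') (deltaRoot W) := by
    have hfix : ∀ x : ((ratCurve W)⁄Qb).Point, 2 • x = 0 → ((g * g')⁻¹ * G) • x = x :=
      fun x hx => by
      have hT : x ∈ Tors W := isOfFinAddOrder_iff_nsmul_eq_zero.mpr ⟨2, two_pos, hx⟩
      rw [mul_smul, inv_smul_eq_iff]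
      exact (hG ⟨x, hT⟩ hx).trans (hmul hg hg' ⟨x, hT⟩ hx).symm
    have e := deltaRoot_of_fix_two hfix
    rwa [AlgEquiv.mul_apply, AlgEquiv.aut_inv, AlgEquiv.symm_apply_eq] at e
  rw [e1, deltaRoot_congr_cyc hD hroot hK hkk, AlgEquiv.mul_apply, AlgEquiv.mul_apply]
  rcases apply_deltaRoot_cases (W := W) g with a | a <;>
    rcases apply_deltaRoot_cases (W := W) k with b | b <;>
    rcases apply_deltaRoot_cases (W := W) g' with a' | a' <;>
    rcases apply_deltaRoot_cases (W := W) k' with b' | b' <;>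
    first
      | exact absurd (a.trans b.symm) hne
      | exact absurd (a'.trans b'.symm) hne'
      | simp [a, b, a', b']

/-- **The index of the image is two**, with no multiplicative prime. -/
theorem index_range_of_separated (hS : Separated W) :
    (FA.OpenImage.torsionAction (ratCurve W)).range.index = 2 := by
  obtain ⟨D, hD0, hroot⟩ := FA.OpenImage.exists_level_of_mem_rootsField
    (FA.OpenImage.mem_rootsField_of_sq_eq (d := (W.Δ : ℚ)) (s := deltaRoot W)
      (by rw [FA.Two.deltaRoot_sq, map_intCast]))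
  obtain ⟨ψ, hψ⟩ := FA.Summary.serreAdelicNotSurjective (ratCurve W)
  have hnot : ψ ∉ (FA.OpenImage.torsionAction (ratCurve W)).range := by
    rintro ⟨σ, rfl⟩
    obtain ⟨x, hx⟩ := hψ σ
    exact hx (FA.OpenImage.torsionAction_apply _ σ x).symm
  refine Subgroup.index_eq_two_iff_exists_notMem_and.mpr ⟨ψ, hnot, fun χ => ?_⟩
  by_contra hc
  push Not at hc
  exact hc.1 (mem_range_of_compat hS hD0.ne' (compat_mul hD0.ne' hroot
    (fun h => hc.2 (mem_range_of_compat hS hD0.ne' h))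
    fun h => hnot (mem_range_of_compat hS hD0.ne' h)))

/-- **The index of the image is two.** -/
theorem index_range (hS : Setting W q) :
    (FA.OpenImage.torsionAction (ratCurve W)).range.index = 2 :=
  index_range_of_separated hS.separated

/-- **The `N`-torsion at odd `N`**: every automorphism comes from Galois. -/
theorem exists_smul_eq_of_odd (hS : Setting W q) {N : ℕ} (hN : N ≠ 0) (h2 : ¬ 2 ∣ N)
    (φ : Submodule.torsionBy ℤ ((ratCurve W)⁄Qb).Point (N : ℤ) ≃+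
      Submodule.torsionBy ℤ ((ratCurve W)⁄Qb).Point (N : ℤ)) :
    ∃ σ : GQ, ∀ x, σ • x.1 = (φ x).1 :=
  exists_smul_eq_adelic_of_reach hN (fun _ hl hl2 => h2 (hl2 ▸ Nat.dvd_of_mem_primeFactors hl))
    (fun l _ _ => hS.reachAll l) φ

/-- **The `N`-torsion at `2` and a level `D` of `√Δ`**: some automorphism does not come from
Galois. -/
theorem exists_not_smul_eq_of_dvd (hS : Setting W q) {D : ℕ} (hD : D ≠ 0)
    (hroot : ∀ σ : GQ, (∀ μ : Qb, μ ^ D = 1 → σ μ = μ) → σ (deltaRoot W) = deltaRoot W)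
    {N : ℕ} (hN : N ≠ 0) (h2 : 2 ∣ N) (hDN : D ∣ N) :
    ∃ φ : Submodule.torsionBy ℤ ((ratCurve W)⁄Qb).Point (N : ℤ) ≃+
        Submodule.torsionBy ℤ ((ratCurve W)⁄Qb).Point (N : ℤ),
      ∀ σ : GQ, ∃ x, σ • x.1 ≠ (φ x).1 := by
  obtain ⟨ψ, hψ⟩ := FA.Summary.serreAdelicNotSurjective (ratCurve W)
  obtain ⟨φ, hφ⟩ := exists_restrict_torsion hN ψ
  refine ⟨φ, fun σ => ?_⟩
  by_contra hσ
  push Not at hσ
  have hag : ∀ {d : ℕ}, d ∣ N → Agrees d σ ψ := fun {d} hd x hx => by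
    obtain ⟨c, hc⟩ := hd
    have hxN : x.1 ∈ Submodule.torsionBy ℤ ((ratCurve W)⁄Qb).Point (N : ℤ) := by
      rw [Submodule.mem_torsionBy_iff, natCast_zsmul, hc, mul_comm, mul_nsmul', hx, nsmul_zero]
    obtain ⟨_, e⟩ := hφ ⟨x.1, hxN⟩
    exact (hσ ⟨x.1, hxN⟩).trans e
  obtain ⟨τ, hτ⟩ := mem_range_of_compat hS.separated hD (ψ := ψ) fun g k hg hk => by
    rw [deltaRoot_congr_cyc hD hroot hk
      (fun l e _ hd => ⟨σ, hag (hd.trans hDN), fun _ _ => rfl⟩)]
    have hfix : ∀ x : ((ratCurve W)⁄Qb).Point, 2 • x = 0 → (σ⁻¹ * g) • x = x := fun x hx => by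
      have hT : x ∈ Tors W := isOfFinAddOrder_iff_nsmul_eq_zero.mpr ⟨2, two_pos, hx⟩
      rw [mul_smul, inv_smul_eq_iff]
      exact (hg ⟨x, hT⟩ hx).trans (hag h2 ⟨x, hT⟩ hx).symm
    have e := deltaRoot_of_fix_two hfix
    rwa [AlgEquiv.mul_apply, AlgEquiv.aut_inv, AlgEquiv.symm_apply_eq] at e
  obtain ⟨x, hx⟩ := hψ τ
  exact hx (by rw [← hτ, FA.OpenImage.torsionAction_apply])

end FA.SerreCurve

end
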