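import Fermat.Agent.Root.AdelicTransvection
import Fermat.Agent.SerreCurve.Compat
import Fermat.Agent.KroneckerWeber.Tame

/-!
# Normal subgroups with a transvection in each residue characteristic

Let the image of Galois be everything modulo every power of every odd prime and let a normal
subgroup `H` contain, for each odd prime `p`, an element acting on the `p`-adic Tate module as a
transvection nontrivial modulo `p`. Its conjugates give all matrices of determinant one modulo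
`p ^ n`, and the commutator with an element acting as `diag(2, 1)` at `p` and trivially at the other
primes of an odd `N` isolates the elementary ones at `p`: on `E[N]` every automorphism fixing the
`N`-th roots of unity acts as an element of `H`.
-/

set_option autoImplicit false
set_option linter.unusedSectionVars false
set_option linter.style.haveILetI false

noncomputable section

open Matrix WeierstrassCurve FA.EC FA.Frob FA.RT FA.RT.Tate FA.PadicImage
open FA.TW (rootsFix mem_rootsFix commutator_mem_rootsFix)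
open scoped WeierstrassCurve.Affine

local notation "Qb" => AlgebraicClosure ℚ
local notation "GQ" => AlgebraicClosure ℚ ≃ₐ[ℚ] AlgebraicClosure ℚ

namespace FA.Disjoint

variable {W : WeierstrassCurve ℤ} [(ratCurve W).IsElliptic]

/-- Automorphisms given at the primes of a set of odd primes come from one. -/
theorem exists_smul_eq_parts (hreach : ∀ l : ℕ, ∀ [Fact l.Prime], ReachAll l W) (f : ℕ → ℕ)
    {T : Finset ℕ} (hT : ∀ l ∈ T, l.Prime ∧ l ≠ 2) (h : ℕ → GQ) :
    ∃ σ : GQ, ∀ l ∈ T, ∀ x : ((ratCurve W)⁄Qb).Point, l ^ f l • x = 0 → σ • x = h l • x := by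
  obtain ⟨σ₀, hσ₀⟩ := exists_cyclotomic_common f (fun l hl => (hT l hl).1) h
  obtain ⟨τ, hτ⟩ := exists_glue (W := W) f hT (fun l _ _ => hreach l) (fun l => σ₀⁻¹ * h l) hσ₀
  refine ⟨σ₀ * τ, fun l hl x hx => ?_⟩
  rw [mul_smul, hτ l hl x hx, mul_smul, smul_inv_smul]

/-- **One prime isolated**: an automorphism fixing the roots of unity of order `p ^ f p` acts there
as an element of `H` fixing the torsion at the other primes. -/
theorem exists_mem_part {H : Subgroup GQ} [H.Normal] {p : ℕ} [hp : Fact p.Prime]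
    (hreach : ∀ l : ℕ, ∀ [Fact l.Prime], ReachAll l W) (hirr : W.ModRepIsIrreducible p)
    {B : FA.RT.Tate.TateBasis p W} {σ : GQ} (hσH : σ ∈ H)
    (hsq : (B.rep σ - 1) * (B.rep σ - 1) = 0) (hne : (B.rep σ).map PadicInt.toZMod ≠ 1)
    (f : ℕ → ℕ) {T : Finset ℕ} (hT : ∀ l ∈ T, l.Prime ∧ l ≠ 2) (hpT : p ∈ T) (g : GQ)
    (hg : g ∈ rootsFix p (f p)) :
    ∃ k ∈ H, (∀ l ∈ T, l ≠ p → ∀ x : ((ratCurve W)⁄Qb).Point, l ^ f l • x = 0 → k • x = x) ∧
      ∀ x : ((ratCurve W)⁄Qb).Point, p ^ f p • x = 0 → k • x = g • x := by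
  classical
  have hp2 : p ≠ 2 := (hT p hpT).2
  let A : Submonoid (Matrix (Fin 2) (Fin 2) ℤ_[p]) :=
    { carrier := {M | ∃ k ∈ H,
        (∀ l ∈ T, l ≠ p → ∀ x : ((ratCurve W)⁄Qb).Point, l ^ f l • x = 0 → k • x = x) ∧
        Acts B (f p) k M}
      one_mem' := ⟨1, one_mem _, fun _ _ _ x _ => one_smul _ x,
        fun v => by rw [one_smul, one_mulVec]⟩
      mul_mem' := fun ⟨a, ha, ha', ha''⟩ ⟨b, hb, hb', hb''⟩ => ⟨a * b, mul_mem ha hb,
        fun l hl hlp x hx => by rw [mul_smul, hb' l hl hlp x hx, ha' l hl hlp x hx],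
        ha''.mul hb''⟩ }
  -- `H` acts through every matrix of determinant one
  have hone : ∀ M : Matrix (Fin 2) (Fin 2) ℤ_[p], M.det = 1 →
      ∃ k ∈ H, Acts B (f p) k M := fun M hM => by
    obtain ⟨k, hk, Y, hY⟩ := exists_mem_congr_of_transvection B.rep H.toSubmonoid
      (fun l hl => by
        obtain ⟨c, hc⟩ := FA.Ribet.exists_moves_line hirr hl
        exact ⟨c, by rw [rep_map_toZMod]; exact hc⟩)
      (fun c => (inferInstance : H.Normal).conj_mem σ hσH c) hsq hne (f p) (w := 0) (M := M)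
      (by rw [hM, mul_zero, add_zero])
    exact ⟨k, hk, Acts.congr (fun v => B.rep_spec k (f p) v) ⟨Y, hY⟩⟩
  -- an element acting as `diag(2, 1)` at `p` only
  obtain ⟨w, hw⟩ : ∃ w, w * (2 : ℤ_[p]) = 1 := (isUnit_iff_toZMod.mpr (by
    rw [map_ofNat]
    intro e
    have : p ∣ 2 := (ZMod.natCast_eq_zero_iff 2 p).mp (by exact_mod_cast e)
    exact hp2 ((Nat.prime_dvd_prime_iff_eq hp.out Nat.prime_two).mp this))).exists_left_inv
  obtain ⟨d₀, hd₀⟩ := exists_acts (B := B) (n := f p) (hreach p) (M := !![2, 0; 0, 1])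
    (by simpa [det_fin_two] using IsUnit.of_mul_eq_one_right w hw)
  obtain ⟨d, hd⟩ := exists_smul_eq_parts hreach f hT fun l => if l = p then d₀ else 1
  have hdp : Acts B (f p) d !![2, 0; 0, 1] := fun v => by
    have hv : p ^ f p • B.φ (f p) v = 0 := by
      rw [← map_nsmul]
      refine (B.ker _ _).mpr fun i => ?_
      rw [Pi.smul_apply, map_nsmul, nsmul_eq_mul, ZMod.natCast_self, zero_mul]
    rw [hd p hpT _ hv, if_pos rfl]
    exact hd₀ v
  have hdl : ∀ l ∈ T, l ≠ p → ∀ x : ((ratCurve W)⁄Qb).Point, l ^ f l • x = 0 →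
      d • x = x ∧ d⁻¹ • x = x := fun l hl hlp x hx => by
    have h1 : d • x = x := by rw [hd l hl x hx, if_neg hlp, one_smul]
    exact ⟨h1, by rw [inv_smul_eq_iff, h1]⟩
  have hd' : Acts B (f p) d⁻¹ !![w, 0; 0, 1] := hdp.inv (by
    simp [one_fin_two, mul_comm (2 : ℤ_[p]) w, hw])
  have hcomm : ∀ {M M' N : Matrix (Fin 2) (Fin 2) ℤ_[p]}, M.det = 1 → M * M' = 1 →
      !![2, 0; 0, 1] * M * !![w, 0; 0, 1] * M' = N → N ∈ A := fun {M M' N} hM hMM' hN => by
    obtain ⟨k, hk, hkM⟩ := hone M hM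
    refine ⟨d * k * d⁻¹ * k⁻¹, mul_mem ((inferInstance : H.Normal).conj_mem k hk d) (inv_mem hk),
      fun l hl hlp x hx => ?_, hN ▸ ((hdp.mul hkM).mul hd').mul (hkM.inv hMM')⟩
    have hkx : ∀ c : GQ, l ^ f l • (c • x) = 0 := fun c => by
      rw [← FA.RT.Tate.gal_smul_nsmul (W := W), hx, FA.Local.gal_smul_zero]
    rw [mul_smul, mul_smul, mul_smul, (hdl l hl hlp _ (hkx k⁻¹)).2, smul_inv_smul,
      (hdl l hl hlp x hx).1]
  have hU : ∀ z, (!![1, z; 0, 1] : Matrix (Fin 2) (Fin 2) ℤ_[p]) ∈ A := fun z => by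
    refine hcomm (M := !![1, z; 0, 1]) (M' := !![1, -z; 0, 1]) (by simp [det_fin_two])
      (by simp [one_fin_two]) ?_
    ext i j; fin_cases i <;> fin_cases j <;>
      simp [Matrix.mul_apply, Fin.sum_univ_two, mul_comm (2 : ℤ_[p]) w, hw]
    ring
  have hL : ∀ z, (!![1, 0; z, 1] : Matrix (Fin 2) (Fin 2) ℤ_[p]) ∈ A := fun z => by
    refine hcomm (M := !![1, 0; -(2 * z), 1]) (M' := !![1, 0; 2 * z, 1]) (by simp [det_fin_two])
      (by simp [one_fin_two]) ?_
    ext i j; fin_cases i <;> fin_cases j <;>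
      simp [Matrix.mul_apply, Fin.sum_univ_two, mul_comm (2 : ℤ_[p]) w, hw]
    linear_combination -z * hw
  -- the matrix of `g`, made of determinant one
  obtain ⟨y, hy⟩ : ∃ y, (B.rep g).det = 1 + (p : ℤ_[p]) ^ f p * y :=
    toZModPow_eq_iff.mp (by
      rw [B.det_rep, FA.RT.Tate.cycP_eq_natCast (a := 1) fun μ hμ => by
        rw [pow_one]; exact mem_rootsFix.mp hg μ hμ, Nat.cast_one, map_one])
  rcases Nat.eq_zero_or_pos (f p) with h0 | hpos
  · refine ⟨1, one_mem _, fun _ _ _ x _ => one_smul _ x, fun x hx => ?_⟩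
    rw [h0, pow_zero, one_nsmul] at hx
    rw [hx, FA.Local.gal_smul_zero, FA.Local.gal_smul_zero]
  obtain ⟨u, hu⟩ : ∃ u, u * (B.rep g).det = 1 := (isUnit_iff_toZMod.mpr (by
    rw [hy, map_add, map_one, map_mul, map_pow, map_natCast, ZMod.natCast_self,
      zero_pow hpos.ne', zero_mul, add_zero]
    exact one_ne_zero)).exists_left_inv
  obtain ⟨k, hk, hkl, hact⟩ := mem_of_elementary_local A hU hL
    (M := B.rep g * !![u, 0; 0, 1]) (by
      rw [det_mul, det_fin_two_of, mul_one, mul_zero, sub_zero, mul_comm]; exact hu)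
  refine ⟨k, hk, hkl, fun x hx => ?_⟩
  obtain ⟨v, rfl⟩ := B.surj _ x hx
  rw [B.rep_spec g]
  refine Acts.congr hact ⟨B.rep g * !![-(u * y), 0; 0, 0], ?_⟩ v
  rw [← Algebra.mul_smul_comm]
  conv_rhs => rw [← mul_one (B.rep g)]
  rw [mul_assoc, one_mul, ← mul_add]
  congr 1
  ext i j
  fin_cases i <;> fin_cases j <;> simp
  linear_combination hu - u * hy

/-- An automorphism of the torsion points of order dividing `N` given by an element of Galois. -/
def smulTorsion (g : GQ) (N : ℕ) :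
    Submodule.torsionBy ℤ ((ratCurve W)⁄Qb).Point (N : ℤ) ≃+
      Submodule.torsionBy ℤ ((ratCurve W)⁄Qb).Point (N : ℤ) where
  toFun x := ⟨g • x.1, by
    rw [Submodule.mem_torsionBy_iff, natCast_zsmul, ← FA.RT.Tate.gal_smul_nsmul (W := W),
      ← natCast_zsmul, (Submodule.mem_torsionBy_iff _ _).mp x.2, FA.Local.gal_smul_zero]⟩
  invFun x := ⟨g⁻¹ • x.1, by
    rw [Submodule.mem_torsionBy_iff, natCast_zsmul, ← FA.RT.Tate.gal_smul_nsmul (W := W),
      ← natCast_zsmul, (Submodule.mem_torsionBy_iff _ _).mp x.2, FA.Local.gal_smul_zero]⟩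
  left_inv x := Subtype.ext (inv_smul_smul g x.1)
  right_inv x := Subtype.ext (smul_inv_smul g x.1)
  map_add' x y := Subtype.ext (FA.Local.gal_smul_add (ratCurve W) g x.1 y.1)

/-- **Disjointness**: on the `N`-torsion, `N` odd, every automorphism fixing the `N`-th roots of
unity acts as an element of `H`, if `H` is normal with a transvection at each prime of `N`. -/
theorem exists_mem_of_roots {H : Subgroup GQ} [H.Normal]
    (hreach : ∀ l : ℕ, ∀ [Fact l.Prime], ReachAll l W)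
    (hirr : ∀ l : ℕ, ∀ [Fact l.Prime], W.ModRepIsIrreducible l)
    (htrans : ∀ l : ℕ, ∀ [Fact l.Prime], ∃ (B : FA.RT.Tate.TateBasis l W) (σ : GQ), σ ∈ H ∧
      (B.rep σ - 1) * (B.rep σ - 1) = 0 ∧ (B.rep σ).map PadicInt.toZMod ≠ 1)
    {N : ℕ} (hN : Odd N) (g : GQ) (hg : ∀ μ : Qb, μ ^ N = 1 → g μ = μ) :
    ∃ k ∈ H, ∀ x : Pts W, N • x = 0 → k • x = g • x := by
  classical
  have hN0 : N ≠ 0 := hN.pos.ne'
  set f : ℕ → ℕ := fun l => N.factorization l
  set T := N.primeFactors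
  have hT : ∀ l ∈ T, l.Prime ∧ l ≠ 2 := fun l hl => ⟨Nat.prime_of_mem_primeFactors hl, fun e =>
    Nat.not_even_iff_odd.mpr hN (even_iff_two_dvd.mpr (e ▸ Nat.dvd_of_mem_primeFactors hl))⟩
  have hgr : ∀ l ∈ T, g ∈ rootsFix l (f l) := fun l hl => mem_rootsFix.mpr fun μ hμ => hg μ (by
    obtain ⟨c, hc⟩ := Nat.ordProj_dvd N l
    rw [hc, pow_mul, hμ, one_pow])
  suffices key : ∀ S ⊆ T, ∃ k ∈ H, ∀ l ∈ T, ∀ x : ((ratCurve W)⁄Qb).Point, l ^ f l • x = 0 →
      k • x = if l ∈ S then g • x else x by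
    obtain ⟨k, hk, hkx⟩ := key T Finset.Subset.rfl
    refine ⟨k, hk, fun x hx => smul_eq_of_prime_powers hN0 (smulTorsion g N) k (fun l hl y hy => ?_)
      ⟨x, by rw [Submodule.mem_torsionBy_iff, natCast_zsmul]; exact hx⟩⟩
    rw [hkx l hl y.1 hy, if_pos hl]
    rfl
  intro S hS
  induction S using Finset.induction_on with
  | empty => exact ⟨1, one_mem _, fun l _ x _ => by rw [one_smul, if_neg (Finset.notMem_empty l)]⟩
  | insert a s has ih =>
    obtain ⟨k, hk, hkx⟩ := ih ((Finset.subset_insert a s).trans hS)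
    have haT := hS (Finset.mem_insert_self a s)
    haveI := Fact.mk (hT a haT).1
    obtain ⟨B, σ, hσH, hsq, hne⟩ := htrans a
    obtain ⟨m, hm, hml, hmx⟩ := exists_mem_part hreach (hirr a) hσH hsq hne f hT haT g (hgr a haT)
    refine ⟨m * k, mul_mem hm hk, fun l hl x hx => ?_⟩
    rw [mul_smul, hkx l hl x hx]
    rcases eq_or_ne l a with rfl | hla
    · rw [if_neg has, if_pos (Finset.mem_insert_self _ _), hmx x hx]
    have hins : l ∈ insert a s ↔ l ∈ s := by simp [hla]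
    simp only [hins]
    split_ifs
    · exact hml l hl hla _ (by
        rw [← FA.RT.Tate.gal_smul_nsmul (W := W), hx, FA.Local.gal_smul_zero])
    · exact hml l hl hla x hx

/-- Two points of order dividing `p` are equal iff their coordinates are congruent. -/
theorem phi_one_eq_iff {p : ℕ} [hp : Fact p.Prime] (B : FA.RT.Tate.TateBasis p W)
    {v w : Fin 2 → ℤ_[p]} :
    B.φ 1 v = B.φ 1 w ↔ PadicInt.toZMod ∘ v = PadicInt.toZMod ∘ w := by
  rw [B.phi_eq_iff, funext_iff]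
  refine forall_congr' fun i => ?_
  rw [Function.comp_apply, Function.comp_apply, toZModPow_eq_iff, ← sub_eq_zero (b := _),
    ← map_sub, ← RingHom.mem_ker, PadicInt.ker_toZMod, PadicInt.maximalIdeal_eq_span_p,
    Ideal.mem_span_singleton, pow_one]
  exact ⟨fun ⟨z, hz⟩ => ⟨z, by rw [hz]; ring⟩, fun ⟨z, hz⟩ => ⟨z, by linear_combination hz⟩⟩

/-- Automorphisms fixing the `p`-th roots of unity act through both elementary matrices. -/
theorem exists_roots_acts {p : ℕ} [hp : Fact p.Prime] (hp2 : p ≠ 2) (hreach : ReachAll p W)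
    (B : FA.RT.Tate.TateBasis p W) :
    (∃ g ∈ rootsFix p 1, Acts B 1 g !![1, 1; 0, 1]) ∧
      ∃ g ∈ rootsFix p 1, Acts B 1 g !![1, 0; 1, 1] := by
  obtain ⟨c, hc⟩ : ∃ c, c * (2 : ℤ_[p]) = 1 := (isUnit_iff_toZMod.mpr (by
    rw [map_ofNat]
    intro e
    have : p ∣ 2 := (ZMod.natCast_eq_zero_iff 2 p).mp (by exact_mod_cast e)
    exact hp2 ((Nat.prime_dvd_prime_iff_eq hp.out Nat.prime_two).mp this))).exists_left_inv
  obtain ⟨d, hd⟩ := exists_acts (B := B) (n := 1) hreach (M := !![2, 0; 0, 1])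
    (by simpa [det_fin_two] using IsUnit.of_mul_eq_one_right c hc)
  have hd' : Acts B 1 d⁻¹ !![c, 0; 0, 1] := hd.inv (by
    simp [one_fin_two, mul_comm (2 : ℤ_[p]) c, hc])
  have key : ∀ {M M' N : Matrix (Fin 2) (Fin 2) ℤ_[p]}, IsUnit M.det → M * M' = 1 →
      !![2, 0; 0, 1] * M * !![c, 0; 0, 1] * M' = N → ∃ g ∈ rootsFix p 1, Acts B 1 g N :=
    fun {M M' N} hM hMM' hN => by
    obtain ⟨h, hh⟩ := exists_acts (B := B) (n := 1) hreach hM
    exact ⟨_, commutator_mem_rootsFix hp.out 1 d h, hN ▸ ((hd.mul hh).mul hd').mul (hh.inv hMM')⟩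
  refine ⟨key (M := !![1, 1; 0, 1]) (M' := !![1, -1; 0, 1]) (by simp [det_fin_two])
    (by simp [one_fin_two]) ?_, key (M := !![1, 0; -2, 1]) (M' := !![1, 0; 2, 1])
    (by simp [det_fin_two]) (by simp [one_fin_two]) ?_⟩
  · ext i j; fin_cases i <;> fin_cases j <;>
      simp [Matrix.mul_apply, Fin.sum_univ_two, mul_comm (2 : ℤ_[p]) c, hc]
    ring
  · ext i j; fin_cases i <;> fin_cases j <;>
      simp [Matrix.mul_apply, Fin.sum_univ_two, mul_comm (2 : ℤ_[p]) c, hc]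
    norm_num

/-- **No line modulo an odd `p` is stable under all automorphisms fixing the `p`-th roots of
unity.** -/
theorem eq_zero_of_stable_roots {p : ℕ} [hp : Fact p.Prime] (hp2 : p ≠ 2) (hreach : ReachAll p W)
    {x : Pts W} (hx : p • x = 0) (hst : ∀ g ∈ rootsFix p 1, ∃ k : ℕ, g • x = k • x) : x = 0 := by
  obtain ⟨B⟩ := FA.RT.Tate.exists_tateBasis (p := p) W
  obtain ⟨w, rfl⟩ := B.surj 1 x (by rwa [pow_one])
  obtain ⟨⟨u, hu, hu'⟩, l, hl, hl'⟩ := exists_roots_acts hp2 hreach B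
  obtain ⟨a, ha⟩ := hst u hu
  obtain ⟨b, hb⟩ := hst l hl
  rw [hu' w, ← map_nsmul, phi_one_eq_iff, funext_iff, Fin.forall_fin_two] at ha
  rw [hl' w, ← map_nsmul, phi_one_eq_iff, funext_iff, Fin.forall_fin_two] at hb
  simp [dotProduct, Fin.sum_univ_two] at ha hb
  have h1 : PadicInt.toZMod (w 1) = 0 := by
    by_contra h
    have : (a : ZMod p) = 1 := mul_right_cancel₀ h (by rw [one_mul]; exact ha.2.symm)
    rw [this] at ha
    exact h (by linear_combination ha.1)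
  have h0 : PadicInt.toZMod (w 0) = 0 := by
    rw [h1] at hb
    linear_combination hb.2
  rw [← map_zero (B.φ 1), phi_one_eq_iff, funext_iff, Fin.forall_fin_two]
  simp [h0, h1]

/-- **For odd `p` no nonzero point of order `p` is fixed by the commutators** of a subgroup acting
on the `p`-torsion as all automorphisms fixing the `p`-th roots of unity. -/
theorem eq_zero_of_commute_roots {p : ℕ} [hp : Fact p.Prime] (hp2 : p ≠ 2) (hreach : ReachAll p W)
    {H : Subgroup GQ} (hH : ∀ g ∈ rootsFix p 1, ∃ k ∈ H, ∀ y : Pts W, p • y = 0 → k • y = g • y)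
    {x : Pts W} (hx : p • x = 0) (hcomm : ∀ σ ∈ H, ∀ τ ∈ H, σ • τ • x = τ • σ • x) : x = 0 := by
  obtain ⟨B⟩ := FA.RT.Tate.exists_tateBasis (p := p) W
  obtain ⟨w, rfl⟩ := B.surj 1 x (by rwa [pow_one])
  obtain ⟨⟨u, hu, hu'⟩, l, hl, hl'⟩ := exists_roots_acts hp2 hreach B
  obtain ⟨a, ha, ha'⟩ := hH u hu
  obtain ⟨b, hb, hb'⟩ := hH l hl
  have h := hcomm a ha b hb
  have htors : ∀ v, p • B.φ 1 v = 0 := fun v => by
    rw [← map_nsmul, B.ker]
    intro i
    rw [Pi.smul_apply, map_nsmul, nsmul_eq_mul,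
      (ZMod.natCast_eq_zero_iff _ _).mpr (by rw [pow_one]), zero_mul]
  rw [hb' _ (htors w), hl' w, ha' _ (htors _), hu', ha' _ (htors w), hu' w, hb' _ (htors _), hl',
    phi_one_eq_iff, funext_iff, Fin.forall_fin_two] at h
  simp [dotProduct, Fin.sum_univ_two] at h
  obtain ⟨h0, h1⟩ := h
  rw [← map_zero (B.φ 1), phi_one_eq_iff, funext_iff, Fin.forall_fin_two]
  simp [h0, h1]

set_option synthInstance.maxSize 1000 in
/-- A transvection modulo two fixes one nonzero vector. -/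
theorem eq_one_of_two_fixed : ∀ (M : Matrix (Fin 2) (Fin 2) (ZMod 2)) (l m : Fin 2 → ZMod 2),
    M *ᵥ l = l → M *ᵥ m = m → l ≠ 0 → m ≠ 0 → l ≠ m → M = 1 := by decide

set_option synthInstance.maxSize 1000 in
/-- Two transvections modulo two commute on no nonzero vector and fix none. -/
theorem two_transvections : ∀ M N : Matrix (Fin 2) (Fin 2) (ZMod 2),
    M ≠ 1 → (M - 1) * (M - 1) = 0 → N ≠ 1 → (N - 1) * (N - 1) = 0 → M ≠ N →
    ∀ v : Fin 2 → ZMod 2,
      ((M * N) *ᵥ v = (N * M) *ᵥ v → v = 0) ∧ (M *ᵥ v = v → N *ᵥ v = v → v = 0) := by decide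

/-- **The prime two**: a normal subgroup with a transvection modulo two commutes on no nonzero point
of order two and fixes none, if the `2`-torsion is irreducible. -/
theorem eq_zero_of_two [Fact (Nat.Prime 2)] (hirr : W.ModRepIsIrreducible 2) {H : Subgroup GQ}
    [H.Normal] {B : FA.RT.Tate.TateBasis 2 W} {σ : GQ} (hσH : σ ∈ H)
    (hsq : (B.rep σ - 1) * (B.rep σ - 1) = 0) (hne : (B.rep σ).map PadicInt.toZMod ≠ 1)
    {x : Pts W} (hx : 2 • x = 0)
    (h : (∀ a ∈ H, ∀ b ∈ H, a • b • x = b • a • x) ∨ ∀ a ∈ H, a • x = x) : x = 0 := by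
  obtain ⟨w, rfl⟩ := B.surj 1 x (by rwa [pow_one])
  set ρ : GQ →* Matrix (Fin 2) (Fin 2) (ZMod 2) :=
    (PadicInt.toZMod (p := 2)).mapMatrix.toMonoidHom.comp B.rep with hρ
  have hact : ∀ g v, PadicInt.toZMod ∘ (B.rep g *ᵥ v) = ρ g *ᵥ (PadicInt.toZMod ∘ v) := fun g v =>
    funext fun i => RingHom.map_mulVec _ _ _ i
  have hM : ρ σ ≠ 1 := hne
  have hM2 : (ρ σ - 1) * (ρ σ - 1) = 0 := by
    show ((PadicInt.toZMod (p := 2)).mapMatrix (B.rep σ) - 1) *
      ((PadicInt.toZMod (p := 2)).mapMatrix (B.rep σ) - 1) = 0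
    rw [← map_one (PadicInt.toZMod (p := 2)).mapMatrix, ← map_sub, ← map_mul, hsq, map_zero]
  obtain ⟨l, hl0, hl⟩ : ∃ l : Fin 2 → ZMod 2, l ≠ 0 ∧ ρ σ *ᵥ l = l := by
    obtain ⟨v, hv⟩ : ∃ v, (ρ σ - 1) *ᵥ v ≠ 0 := by
      by_contra hall
      push Not at hall
      exact hM (sub_eq_zero.mp (Matrix.ext_of_mulVec_single fun j => by
        rw [hall, zero_mulVec]))
    refine ⟨_, hv, sub_eq_zero.mp ?_⟩
    conv_lhs => enter [2]; rw [← one_mulVec ((ρ σ - 1) *ᵥ v)]
    rw [← sub_mulVec, mulVec_mulVec, hM2, zero_mulVec]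
  obtain ⟨c, hc⟩ := FA.Ribet.exists_moves_line hirr hl0
  have hc' : ρ c *ᵥ l ≠ l := fun e => hc 1 (by
    rw [one_smul, ← rep_map_toZMod B]
    exact e)
  have hconj : c * σ * c⁻¹ ∈ H := (inferInstance : H.Normal).conj_mem σ hσH c
  have hcc : ρ c⁻¹ * ρ c = 1 := by rw [← map_mul, inv_mul_cancel, map_one]
  have hN : ρ (c * σ * c⁻¹) ≠ 1 := fun e => hM (by
    have := congrArg (fun M => ρ c⁻¹ * M * ρ c) e
    simpa [map_mul, mul_assoc, hcc, ← mul_assoc (ρ c⁻¹) (ρ c)] using this)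
  have hN2 : (ρ (c * σ * c⁻¹) - 1) * (ρ (c * σ * c⁻¹) - 1) = 0 := by
    have e : ρ (c * σ * c⁻¹) - 1 = ρ c * (ρ σ - 1) * ρ c⁻¹ := by
      rw [mul_sub, sub_mul, mul_one, ← map_mul, ← map_mul, ← map_mul, mul_inv_cancel, map_one]
    rw [e, show ρ c * (ρ σ - 1) * ρ c⁻¹ * (ρ c * (ρ σ - 1) * ρ c⁻¹) =
      ρ c * ((ρ σ - 1) * (ρ c⁻¹ * ρ c) * (ρ σ - 1)) * ρ c⁻¹ by simp only [mul_assoc], hcc,
      mul_one, hM2, mul_zero, zero_mul]
  have hMN : ρ σ ≠ ρ (c * σ * c⁻¹) := fun e => hM (eq_one_of_two_fixed _ l (ρ c *ᵥ l) hl (by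
    rw [e, mulVec_mulVec, ← map_mul, inv_mul_cancel_right, map_mul, ← mulVec_mulVec, hl]) hl0
    (fun e0 => hl0 (by
      have h0 : ρ c⁻¹ *ᵥ (ρ c *ᵥ l) = ρ c⁻¹ *ᵥ 0 := congrArg _ e0
      rwa [mulVec_mulVec, hcc, one_mulVec, mulVec_zero] at h0)) hc'.symm)
  obtain ⟨h1, h2⟩ := two_transvections _ _ hM hM2 hN hN2 hMN (PadicInt.toZMod ∘ w)
  suffices PadicInt.toZMod ∘ w = 0 by
    rw [← map_zero (B.φ 1), phi_one_eq_iff, this]
    exact funext fun i => (map_zero _).symm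
  rcases h with h | h
  · refine h1 ?_
    have := h σ hσH _ hconj
    rw [B.rep_spec, B.rep_spec, B.rep_spec, B.rep_spec, phi_one_eq_iff, hact, hact, hact, hact,
      mulVec_mulVec, mulVec_mulVec] at this
    exact this
  · refine h2 ?_ ?_
    · have := h σ hσH
      rwa [B.rep_spec, phi_one_eq_iff, hact] at this
    · have := h _ hconj
      rwa [B.rep_spec, phi_one_eq_iff, hact] at this

end FA.Disjoint

end
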