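import Fermat.Agent.SerreCurve.Compat
import Fermat.Agent.GoodReduction.Defect

/-!
# The level of a Serre curve

In the setting of Serre curves every automorphism of the `N`-torsion comes from Galois unless `N` is
even and the square root `s` of the discriminant lies in the field of the `N`-th roots of unity.
The levels of `s` are the multiples of the least one, so some even `m`, Jones's `m_E`, is such that
the image at `N` is everything exactly when `m ∤ N`.
-/

set_option autoImplicit false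
set_option linter.style.haveILetI false

noncomputable section

open WeierstrassCurve WeierstrassCurve.Affine FA.EC FA.Frob FA.RT FA.PadicImage
open FA.TW (rootsFix mem_rootsFix)
open FA.Two (deltaRoot)
open scoped WeierstrassCurve.Affine

local notation "Qb" => AlgebraicClosure ℚ
local notation "GQ" => AlgebraicClosure ℚ ≃ₐ[ℚ] AlgebraicClosure ℚ

namespace FA.SerreCurve

variable {W : WeierstrassCurve ℤ} [(ratCurve W).IsElliptic] {q : ℕ}

/-- What fixes the `N`-th roots of unity fixes `x`. -/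
def IsLevel (x : Qb) (N : ℕ) : Prop :=
  ∀ σ : GQ, (∀ μ : Qb, μ ^ N = 1 → σ μ = μ) → σ x = x

/-- The greatest common divisor of two levels is a level. -/
theorem isLevel_gcd {x : Qb} {a b : ℕ} (ha0 : a ≠ 0) (hb0 : b ≠ 0) (ha : IsLevel x a)
    (hb : IsLevel x b) : IsLevel x (Nat.gcd a b) := by
  intro σ hσ
  classical
  have hab : a * b ≠ 0 := mul_ne_zero ha0 hb0
  set T := (a * b).primeFactors
  have hT : ∀ l ∈ T, l.Prime := fun l hl => Nat.prime_of_mem_primeFactors hl
  have hfix : ∀ l e : ℕ, l.Prime → l ^ e ∣ a → l ^ e ∣ b → ∀ μ : Qb, μ ^ l ^ e = 1 → σ μ = μ :=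
    fun l e _ h1 h2 μ hμ => hσ μ (by
      obtain ⟨c, hc⟩ := Nat.dvd_gcd h1 h2
      rw [hc, pow_mul, hμ, one_pow])
  -- an automorphism trivial on the roots of order `a`, equal to `σ` on those of order `b`
  obtain ⟨τ, hτ⟩ := exists_cyclotomic_common (fun l => (a * b).factorization l) hT
    fun l => if b.factorization l ≤ a.factorization l then (1 : GQ) else σ
  have key : ∀ l e : ℕ, l.Prime → l ^ e ∣ a * b → ∀ μ : Qb, μ ^ l ^ e = 1 →
      (if b.factorization l ≤ a.factorization l then (1 : GQ) else σ) μ = τ μ := by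
    intro l e hl hd μ hμ
    rcases Nat.eq_zero_or_pos e with rfl | he
    · rw [pow_zero, pow_one] at hμ
      rw [hμ, map_one, map_one]
    have hlT : l ∈ T := Nat.mem_primeFactors.mpr ⟨hl, (dvd_pow_self l he.ne').trans hd, hab⟩
    obtain ⟨c, hc⟩ := Nat.pow_dvd_pow l ((hl.pow_dvd_iff_le_factorization hab).mp hd)
    have h := mem_rootsFix.mp (hτ l hlT) μ (by rw [hc, pow_mul, hμ, one_pow])
    rwa [AlgEquiv.mul_apply, AlgEquiv.aut_inv, AlgEquiv.symm_apply_eq] at h
  have h1 : τ x = x := ha τ (fix_roots_of_prime_pow ha0 fun l e hl hd μ hμ => by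
    rw [← key l e hl (hd.mul_right b) μ hμ]
    split_ifs with h
    · rfl
    refine hfix l e hl hd ((hl.pow_dvd_iff_le_factorization hb0).mpr ?_) μ hμ
    exact ((hl.pow_dvd_iff_le_factorization ha0).mp hd).trans (not_le.mp h).le)
  have h2 : (τ⁻¹ * σ) x = x := hb (τ⁻¹ * σ) (fix_roots_of_prime_pow hb0 fun l e hl hd μ hμ => by
    rw [AlgEquiv.mul_apply, AlgEquiv.aut_inv, AlgEquiv.symm_apply_eq,
      ← key l e hl (hd.mul_left a) μ hμ]
    split_ifs with h
    · exact hfix l e hl ((hl.pow_dvd_iff_le_factorization ha0).mpr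
        (((hl.pow_dvd_iff_le_factorization hb0).mp hd).trans h)) hd μ hμ
    · rfl)
  rwa [AlgEquiv.mul_apply, AlgEquiv.aut_inv, AlgEquiv.symm_apply_eq, h1] at h2

/-- The levels of `√Δ` are the multiples of the least one. -/
theorem exists_least_level :
    ∃ D : ℕ, 0 < D ∧ IsLevel (deltaRoot W) D ∧
      ∀ N : ℕ, N ≠ 0 → IsLevel (deltaRoot W) N → D ∣ N := by
  classical
  have hex : ∃ D : ℕ, 0 < D ∧ IsLevel (deltaRoot W) D :=
    FA.OpenImage.exists_level_of_mem_rootsField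
      (FA.OpenImage.mem_rootsField_of_sq_eq (d := (W.Δ : ℚ)) (s := deltaRoot W)
        (by rw [FA.Two.deltaRoot_sq, map_intCast]))
  obtain ⟨hD0, hD⟩ := Nat.find_spec hex
  refine ⟨Nat.find hex, hD0, hD, fun N hN hlev => ?_⟩
  have h := Nat.find_min' hex
    ⟨Nat.gcd_pos_of_pos_left N hD0, isLevel_gcd hD0.ne' hN hD hlev⟩
  rw [← le_antisymm (Nat.le_of_dvd hD0 (Nat.gcd_dvd_left _ N)) h]
  exact Nat.gcd_dvd_right _ _

/-- A prime of odd exponent in `c` divides every level of `√c`. -/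
theorem dvd_level_of_sq {p : ℕ} (hp : p.Prime) {x : Qb} {c : ℤ} (hx : x ^ 2 = (c : Qb))
    (hv : ¬ 2 ∣ padicValInt p c) {D : ℕ} (hD : IsLevel x D) : p ∣ D := by
  by_contra hpD
  obtain ⟨A, hA⟩ := FA.Deform.exists_liesOverPrime hp
  have hc : c ≠ 0 := fun h => hv (by simp [h])
  have h := FA.Two.even_of_sq hp hA (c := (c : ℚ)) (Int.cast_ne_zero.mpr hc)
    (y := x) (by rw [hx]; push_cast; rfl)
    fun σ hσ => hD σ fun μ hμ => FA.GoodReduction.inertia_fix_root hp hA hpD hσ hμ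
  rw [padicValRat.of_int] at h
  exact hv (by exact_mod_cast h)

/-- A prime of odd exponent in the discriminant divides every level of `√Δ`. -/
theorem dvd_level {p : ℕ} (hp : p.Prime) (hv : ¬ 2 ∣ padicValInt p W.Δ) {D : ℕ}
    (hD : IsLevel (deltaRoot W) D) : p ∣ D :=
  dvd_level_of_sq hp (FA.Two.deltaRoot_sq W) hv hD

/-- **Full image where `√Δ` is not cyclotomic of level `N`**. -/
theorem exists_smul_eq_of_not_level (hS : Setting W q) {N : ℕ} (hN : N ≠ 0) (h2 : 2 ∣ N)
    (hlev : ¬ IsLevel (deltaRoot W) N)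
    (φ : Submodule.torsionBy ℤ ((ratCurve W)⁄Qb).Point (N : ℤ) ≃+
      Submodule.torsionBy ℤ ((ratCurve W)⁄Qb).Point (N : ℤ)) :
    ∃ σ : GQ, ∀ x, σ • x.1 = (φ x).1 := by
  simp only [IsLevel, not_forall] at hlev
  obtain ⟨k, hk, hks⟩ := hlev
  have hneg := (apply_deltaRoot_cases (W := W) k).resolve_left hks
  have h2T : 2 ∈ N.primeFactors := Nat.mem_primeFactors.mpr ⟨Nat.prime_two, h2, hN⟩
  have hT : ∀ l ∈ N.primeFactors, l.Prime := fun l hl => Nat.prime_of_mem_primeFactors hl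
  have hkfix : ∀ l, k⁻¹ ∈ rootsFix l (N.factorization l) := fun l =>
    inv_mem (mem_rootsFix.mpr fun μ hμ => hk μ (by
      obtain ⟨c, hc⟩ := Nat.ordProj_dvd N l
      rw [hc, pow_mul, hμ, one_pow]))
  refine exists_smul_eq_adelic_of_glue hN (fun l _ _ => hS.reachAll l) (fun h hh => ?_) φ
  rcases apply_deltaRoot_cases (W := W) (h 2) with h2s | h2s
  · exact exists_glue_fixing hS.separated _ hT h hh h2T h2s
  obtain ⟨τ, hτ⟩ := exists_glue_fixing hS.separated _ hT (fun l => k⁻¹ * h l)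
    (fun l hl => mul_mem (hkfix l) (hh l hl)) h2T (by
      rw [AlgEquiv.mul_apply, h2s, AlgEquiv.aut_inv, AlgEquiv.symm_apply_eq, hneg])
  exact ⟨k * τ, fun l hl x hx => by rw [mul_smul, hτ l hl x hx, mul_smul, smul_inv_smul]⟩

/-- **Jones's level `m_E`**: some even `m`, divisible by the primes of odd exponent in the
discriminant, is such that Galois gives all of `Aut E[N]` exactly when `m ∤ N`. -/
theorem exists_level (hS : Setting W q) :
    ∃ m : ℕ, 0 < m ∧ 2 ∣ m ∧ (∀ p : ℕ, p.Prime → ¬ 2 ∣ padicValInt p W.Δ → p ∣ m) ∧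
      ∀ N : ℕ, N ≠ 0 → ((∀ φ : Submodule.torsionBy ℤ ((ratCurve W)⁄Qb).Point (N : ℤ) ≃+
          Submodule.torsionBy ℤ ((ratCurve W)⁄Qb).Point (N : ℤ),
        ∃ σ : GQ, ∀ x, σ • x.1 = (φ x).1) ↔ ¬ m ∣ N) := by
  obtain ⟨D, hD0, hD, hmin⟩ := exists_least_level (W := W)
  refine ⟨Nat.lcm 2 D, Nat.lcm_pos two_pos hD0, Nat.dvd_lcm_left _ _,
    fun p hp hv => (dvd_level hp hv hD).trans (Nat.dvd_lcm_right _ _), fun N hN => ⟨fun h hd => ?_,
      fun hd φ => ?_⟩⟩
  · obtain ⟨φ, hφ⟩ := exists_not_smul_eq_of_dvd hS hD0.ne' hD hN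
      ((Nat.dvd_lcm_left 2 D).trans hd) ((Nat.dvd_lcm_right 2 D).trans hd)
    obtain ⟨σ, hσ⟩ := h φ
    obtain ⟨x, hx⟩ := hφ σ
    exact hx (hσ x)
  · by_cases h2 : 2 ∣ N
    · exact exists_smul_eq_of_not_level hS hN h2
        (fun hlev => hd (Nat.lcm_dvd h2 (hmin N hN hlev))) φ
    · exact exists_smul_eq_of_odd hS hN h2 φ

end FA.SerreCurve

end
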