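import Fermat.Agent.SerreCurve.NineTrace
import Fermat.Agent.Root.SummarySerreCurveEntanglement
import Fermat.Agent.Root.SummarySerreEffectiveExample

/-!
# `y² = x³ - 9 x + 12`

The curve has invariant `-5184 = 27648 t³ (1 - 4 t³)` at `t = -1/2` and bad primes `2` and `3`. Its
images at all prime powers are everything: at `2` by Dokchitser's criterion, at `3` by the trace at
`61`, at `5` and `7` two Frobenius elements generate a transvection, and from `11` on finitely many
traces decide.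
-/

set_option autoImplicit false
set_option linter.unusedSectionVars false
set_option linter.style.haveILetI false

noncomputable section

open Matrix WeierstrassCurve WeierstrassCurve.Affine FA.EC FA.Frob FA.RT
open FA.RT.Tate (Pts)
open scoped WeierstrassCurve.Affine

local notation "Qb" => AlgebraicClosure ℚ
local notation "GQ" => AlgebraicClosure ℚ ≃ₐ[ℚ] AlgebraicClosure ℚ
local notation "M2" => Matrix (Fin 2) (Fin 2)

namespace FA.SerreCurve

/-- **Everything at one prime from two characteristic polynomials**: one without root, and one for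
which some product of two such elements has order divisible by `p`. -/
theorem fullAt_of_generators {W : WeierstrassCurve ℤ} [(ratCurve W).IsElliptic] {p : ℕ}
    [hp : Fact p.Prime] {l l' : ℕ} (hl : l.Prime) (hlp : l ≠ p) (hlgood : W.IsGoodPrimeFor l)
    (hl' : l'.Prime) (hlp' : l' ≠ p) (hlgood' : W.IsGoodPrimeFor l') {a a' : ℤ}
    (ha : W.apOfModel l = a) (ha' : W.apOfModel l' = a')
    (hnr : ∀ x : ZMod p, x * x - (a : ZMod p) * x + (l : ZMod p) ≠ 0)
    (key : ∀ x y z : ZMod p, x * ((a' : ZMod p) - x) - y * z = (l' : ZMod p) →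
      ∃ w : List Bool,
        ((w.map fun c => if c then (!![0, -(l : ZMod p); 1, (a : ZMod p)] : M2 (ZMod p))
            else !![x, y; z, (a' : ZMod p) - x]).prod ^ (p - 1) - 1) *
          ((w.map fun c => if c then (!![0, -(l : ZMod p); 1, (a : ZMod p)] : M2 (ZMod p))
            else !![x, y; z, (a' : ZMod p) - x]).prod ^ (p - 1) - 1) = 0 ∧
        (w.map fun c => if c then (!![0, -(l : ZMod p); 1, (a : ZMod p)] : M2 (ZMod p))
            else !![x, y; z, (a' : ZMod p) - x]).prod ^ (p - 1) ≠ 1) :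
    FullAt W p := by
  obtain ⟨A, hA⟩ := FA.Deform.exists_liesOverPrime hl
  obtain ⟨σ, hσ⟩ := FA.Deform.exists_isFrobeniusAt hl hA
  obtain ⟨htr, hdet⟩ := FA.Ribet.curveRep_frobenius (p := p) hl hlp hlgood hA hσ
  obtain ⟨A', hA'⟩ := FA.Deform.exists_liesOverPrime hl'
  obtain ⟨τ, hτ⟩ := FA.Deform.exists_isFrobeniusAt hl' hA'
  obtain ⟨htr', hdet'⟩ := FA.Ribet.curveRep_frobenius (p := p) hl' hlp' hlgood' hA' hτ
  rw [ha] at htr
  rw [ha'] at htr'
  set M := curveRep p W σ
  rw [trace_fin_two] at htr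
  rw [det_fin_two] at hdet
  have h10 : M 1 0 ≠ 0 := fun h0 => hnr (M 0 0) (by
    rw [h0, mul_zero, sub_zero] at hdet
    linear_combination M 0 0 * htr - hdet)
  set P : M2 (ZMod p) := !![1, M 0 0; 0, M 1 0]
  have hP : IsUnit P.det := by
    refine isUnit_iff_ne_zero.mpr ?_
    simpa [P, det_fin_two] using h10
  let r : GQ →* M2 (ZMod p) :=
    { toFun := fun g => P⁻¹ * curveRep p W g * P
      map_one' := by rw [map_one, mul_one, Matrix.nonsing_inv_mul P hP]
      map_mul' := fun g g' => by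
        rw [map_mul]
        simp only [mul_assoc]
        rw [Matrix.mul_nonsing_inv_cancel_left P _ hP] }
  set C : M2 (ZMod p) := !![0, -(l : ZMod p); 1, (a : ZMod p)] with hCdef
  have hMP : M * P = P * C := by
    ext i j
    fin_cases i <;> fin_cases j <;> simp [P, C, Matrix.mul_apply, Fin.sum_univ_two]
    · linear_combination M 0 0 * htr - hdet
    · linear_combination M 1 0 * htr
  have hrσ : r σ = C := by
    show P⁻¹ * M * P = C
    rw [mul_assoc, hMP, ← mul_assoc, Matrix.nonsing_inv_mul P hP, one_mul]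
  have hrdet : ∀ g, (r g).det = (curveRep p W g).det := fun g => by
    show (P⁻¹ * curveRep p W g * P).det = _
    rw [det_mul, det_mul, mul_comm (P⁻¹).det, mul_assoc, ← det_mul, Matrix.nonsing_inv_mul P hP,
      det_one, mul_one]
  obtain ⟨x, y, z, hN⟩ : ∃ x y z, r τ = !![x, y; z, (a' : ZMod p) - x] := by
    refine ⟨r τ 0 0, r τ 0 1, r τ 1 0, ?_⟩
    have e : (r τ).trace = (a' : ZMod p) := by
      show (P⁻¹ * curveRep p W τ * P).trace = _
      rw [Matrix.trace_mul_comm, ← mul_assoc, Matrix.mul_nonsing_inv P hP, one_mul, htr']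
    rw [trace_fin_two] at e
    ext i j
    fin_cases i <;> fin_cases j <;> simp
    linear_combination e
  obtain ⟨w, hsq, hne⟩ := key x y z (by
    have e := (hrdet τ).trans hdet'
    rw [hN, det_fin_two_of] at e
    linear_combination e)
  set g := (w.map fun c => if c then σ else τ).prod ^ (p - 1)
  have hg : r g = (w.map fun c => if c then C else !![x, y; z, (a' : ZMod p) - x]).prod ^
      (p - 1) := by
    rw [map_pow, map_list_prod, List.map_map]
    congr 2
    refine List.map_congr_left fun c _ => ?_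
    cases c
    · simp [hN]
    · simp [hrσ]
  rw [← hg] at hsq hne
  refine fun φ => FA.Ribet.exists_smul_eq_of_curveRep (fun X hX => ?_) φ
  obtain ⟨h, hh⟩ := FA.Ribet.exists_eq_of_transvection r (σ := g) (M := P⁻¹ * X * P)
    (fun v hv => ⟨σ, fun c hc => hnr c (by
      rw [hrσ, hCdef] at hc
      have e0 := congrFun hc 0
      have e1 := congrFun hc 1
      simp [Matrix.mulVec, dotProduct, Fin.sum_univ_two] at e0 e1
      have hv1 : v 1 ≠ 0 := fun e => hv (funext fun i => by
        have h00 : v 0 = 0 := by rw [e] at e1; simpa using e1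
        fin_cases i <;> simp [e, h00])
      exact (mul_eq_zero.mp (show (c * c - (a : ZMod p) * c + (l : ZMod p)) * v 1 = 0 by
        linear_combination -e0 - c * e1)).resolve_right hv1)⟩)
    (fun c hc => by
      obtain ⟨h, hh⟩ := FA.TW.exists_cyclotomic_action hp.out (a := c.val) fun hd' => hc <| by
        rw [← ZMod.natCast_zmod_val c, (ZMod.natCast_eq_zero_iff _ _).mpr hd']
      exact ⟨h, by rw [hrdet, det_curveRep W h c.val hh, ZMod.natCast_zmod_val]⟩)
    hne hsq (by
      rw [det_mul, det_mul, mul_comm (P⁻¹).det, mul_assoc, ← det_mul,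
        Matrix.nonsing_inv_mul P hP, det_one, mul_one]
      exact hX)
  refine ⟨h, ?_⟩
  have := congrArg (fun Y => P * Y * P⁻¹) hh
  rw [show r h = P⁻¹ * curveRep p W h * P from rfl] at this
  simpa [mul_assoc, Matrix.mul_nonsing_inv_cancel_left P _ hP, Matrix.mul_nonsing_inv P hP]
    using this

/-- A Frobenius element without eigenvalue moves every line. -/
theorem exists_smul_ne_of_noRoot {W : WeierstrassCurve ℤ} [(ratCurve W).IsElliptic] {p : ℕ}
    [hp : Fact p.Prime] {l : ℕ} (hl : l.Prime) (hlp : l ≠ p) (hgood : W.IsGoodPrimeFor l) {a : ℤ}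
    (ha : W.apOfModel l = a)
    (hnr : ∀ x : ZMod p, x * x - (a : ZMod p) * x + (l : ZMod p) ≠ 0)
    {P : Pts W} (hP : P ≠ 0) (hpP : p • P = 0) : ∃ σ : GQ, ∀ k : ℕ, σ • P ≠ k • P := by
  set x : Submodule.torsionBy ℤ ((ratCurve W)⁄Qb).Point (p : ℤ) :=
    ⟨P, by rw [Submodule.mem_torsionBy_iff, natCast_zsmul]; exact hpP⟩ with hx
  obtain ⟨g, hg⟩ := FA.Ribet.exists_moves_line
    (FA.Root.Irred.modRepIsIrreducible_of_noRoot hl hlp hgood ha hnr)
    (l := (torsBasis (p := p) W).equivFun x) fun e => hP (congrArg Subtype.val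
      ((LinearEquiv.map_eq_zero_iff _).mp e))
  refine ⟨g, fun k hk => hg k ?_⟩
  have e : (g • x : Submodule.torsionBy ℤ ((ratCurve W)⁄Qb).Point (p : ℤ)) = k • x :=
    Subtype.ext hk
  rw [toMatrix_mulVec, e, map_nsmul, Nat.cast_smul_eq_nsmul]

/-- An equation of invariant `-5184`. -/
def model5184 : WeierstrassCurve ℤ := ⟨0, 0, 0, -9, 12⟩

/-- The curve over `ℚ`. -/
def curve5184 : WeierstrassCurve ℚ := ⟨0, 0, 0, -9, 12⟩

theorem map_model5184 : model5184.map (Int.castRingHom ℚ) = curve5184 := by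
  ext <;> simp [model5184, curve5184]

theorem isModel5184 : model5184.IsIntegralModelOf curve5184 :=
  ⟨1, by rw [one_smul, map_model5184]⟩

theorem invariants5184 : model5184.Δ = -15552 ∧ model5184.c₄ = 432 := by decide

theorem dvd_Δ_model5184 {q : ℕ} (hq : q.Prime) (hd : (q : ℤ) ∣ model5184.Δ) : q = 2 ∨ q = 3 := by
  rw [invariants5184.1, Int.dvd_neg] at hd
  have hd' : q ∣ 2 ^ 6 * 3 ^ 5 := by exact_mod_cast hd
  rcases hq.dvd_mul.mp hd' with h | h
  · exact Or.inl ((Nat.prime_dvd_prime_iff_eq hq Nat.prime_two).mp (hq.dvd_of_dvd_pow h))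
  · exact Or.inr ((Nat.prime_dvd_prime_iff_eq hq Nat.prime_three).mp (hq.dvd_of_dvd_pow h))

theorem good5184 {q : ℕ} (hq : q.Prime) (h2 : q ≠ 2) (h3 : q ≠ 3) :
    ¬ (q : ℤ) ∣ model5184.Δ := fun h => (dvd_Δ_model5184 hq h).elim h2 h3

/-- The point count of the reduction. -/
theorem ap5184 (l : ℕ) [Fact l.Prime] :
    model5184.apOfModel l =
      l - ((FA.Ribet.nsPts (0 : ZMod l) 0 0 (-9) 12).card : ℤ) :=
  FA.Ribet.apOfModel_eq_nsPts (by ext <;> simp [WeierstrassCurve.reductionMod, model5184])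

theorem ap5184_values : model5184.apOfModel 5 = 2 ∧ model5184.apOfModel 7 = 1 ∧
    model5184.apOfModel 11 = -4 ∧ model5184.apOfModel 13 = -5 ∧ model5184.apOfModel 17 = 6 ∧
    model5184.apOfModel 19 = 7 ∧ model5184.apOfModel 23 = -6 ∧ model5184.apOfModel 61 = 6 := by
  haveI : Fact (Nat.Prime 5) := ⟨by norm_num⟩
  haveI : Fact (Nat.Prime 7) := ⟨by norm_num⟩
  haveI : Fact (Nat.Prime 11) := ⟨by norm_num⟩
  haveI : Fact (Nat.Prime 13) := ⟨by norm_num⟩
  haveI : Fact (Nat.Prime 17) := ⟨by norm_num⟩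
  haveI : Fact (Nat.Prime 19) := ⟨by norm_num⟩
  haveI : Fact (Nat.Prime 23) := ⟨by norm_num⟩
  haveI : Fact (Nat.Prime 61) := ⟨by norm_num⟩
  simp only [ap5184]
  refine ⟨?_, ?_, ?_, ?_, ?_, ?_, ?_, ?_⟩ <;> decide +kernel +revert

/-- The common divisor of three point counts. -/
theorem gcd_pointCounts5184 :
    Int.gcd (((11 : ℕ) : ℤ) ^ 720 + 1 - FA.HasseBound.pointTrace (-4) ((11 : ℕ) : ℤ) 720)
      (Int.gcd (((17 : ℕ) : ℤ) ^ 720 + 1 - FA.HasseBound.pointTrace 6 ((17 : ℕ) : ℤ) 720)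
        (((19 : ℕ) : ℤ) ^ 720 + 1 - FA.HasseBound.pointTrace 7 ((19 : ℕ) : ℤ) 720)) =
      2 ^ 10 * (3 ^ 6 * (5 ^ 4 * (7 * (11 * 19)))) := by
  decide +kernel

theorem words_five : ∀ x y z : ZMod 5, x * ((-6 : ℤ) - x) - y * z = (23 : ℕ) →
    ∃ w ∈ [[true, false], [true, true, false, false], [true, true, true, false]],
      ((w.map fun c => if c then (!![0, -(7 : ℕ); 1, (1 : ℤ)] : M2 (ZMod 5))
          else !![x, y; z, (-6 : ℤ) - x]).prod ^ (5 - 1) - 1) *
        ((w.map fun c => if c then (!![0, -(7 : ℕ); 1, (1 : ℤ)] : M2 (ZMod 5))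
          else !![x, y; z, (-6 : ℤ) - x]).prod ^ (5 - 1) - 1) = 0 ∧
      (w.map fun c => if c then (!![0, -(7 : ℕ); 1, (1 : ℤ)] : M2 (ZMod 5))
          else !![x, y; z, (-6 : ℤ) - x]).prod ^ (5 - 1) ≠ 1 := by decide +kernel

theorem words_seven : ∀ x y z : ZMod 7, x * ((-5 : ℤ) - x) - y * z = (13 : ℕ) →
    ∃ w ∈ [[true, false, true, false, false, false], [true, true, false, false],
        [true, false, false, false], [true, true, true, true, false, false]],
      ((w.map fun c => if c then (!![0, -(5 : ℕ); 1, (2 : ℤ)] : M2 (ZMod 7))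
          else !![x, y; z, (-5 : ℤ) - x]).prod ^ (7 - 1) - 1) *
        ((w.map fun c => if c then (!![0, -(5 : ℕ); 1, (2 : ℤ)] : M2 (ZMod 7))
          else !![x, y; z, (-5 : ℤ) - x]).prod ^ (7 - 1) - 1) = 0 ∧
      (w.map fun c => if c then (!![0, -(5 : ℕ); 1, (2 : ℤ)] : M2 (ZMod 7))
          else !![x, y; z, (-5 : ℤ) - x]).prod ^ (7 - 1) ≠ 1 := by decide +kernel

theorem noRoot5184 :
    (∀ x : ZMod 2, x * x - ((1 : ℤ) : ZMod 2) * x + ((7 : ℕ) : ZMod 2) ≠ 0) ∧
    (∀ x : ZMod 3, x * x - ((2 : ℤ) : ZMod 3) * x + ((5 : ℕ) : ZMod 3) ≠ 0) ∧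
    (∀ x : ZMod 5, x * x - ((1 : ℤ) : ZMod 5) * x + ((7 : ℕ) : ZMod 5) ≠ 0) ∧
    (∀ x : ZMod 7, x * x - ((2 : ℤ) : ZMod 7) * x + ((5 : ℕ) : ZMod 7) ≠ 0) ∧
    (∀ x : ZMod 11, x * x - ((2 : ℤ) : ZMod 11) * x + ((5 : ℕ) : ZMod 11) ≠ 0) ∧
    (∀ x : ZMod 17, x * x - ((1 : ℤ) : ZMod 17) * x + ((7 : ℕ) : ZMod 17) ≠ 0) ∧
    (∀ x : ZMod 19, x * x - ((2 : ℤ) : ZMod 19) * x + ((5 : ℕ) : ZMod 19) ≠ 0) := by
  decide +kernel

theorem nonSquares5184 : ¬ IsSquare ((-1 : ℤ) : ZMod 7) ∧ ¬ IsSquare ((2 : ℤ) : ZMod 5) ∧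
    ¬ IsSquare ((-2 : ℤ) : ZMod 5) ∧ ¬ IsSquare ((3 : ℤ) : ZMod 5) ∧
    ¬ IsSquare ((-3 : ℤ) : ZMod 5) ∧ ¬ IsSquare ((6 : ℤ) : ZMod 7) ∧
    ¬ IsSquare ((-6 : ℤ) : ZMod 13) ∧ ¬ IsSquare ((-6 : ℤ) : ZMod 17) := by decide +kernel

theorem exotic_mod_five : ∀ x y : ZMod 5, x ^ 4 + 8 * x ^ 3 * y - 1296 * y ^ 4 = 0 →
    x = 0 ∧ y = 0 := by decide +kernel

/-- `-5184` is not exotic. -/
theorem not_exotic5184 (t : ℚ) : (-5184 : ℚ) ≠ -4 * t ^ 3 * (t + 8) := fun h => by
  have h' : t.num ^ 4 + 8 * t.num ^ 3 * (t.den : ℤ) - 1296 * (t.den : ℤ) ^ 4 = 0 := by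
    have e : t ^ 4 + 8 * t ^ 3 - 1296 = 0 := by linear_combination (1 / 4 : ℚ) * h
    rw [← Rat.num_div_den t] at e
    field_simp at e
    have := (by exact_mod_cast e :
      t.num ^ 3 * (t.num + (t.den : ℤ) * 8) - (t.den : ℤ) ^ 4 * 1296 = 0)
    linear_combination this
  have hz := congrArg (Int.cast : ℤ → ZMod 5) h'
  push_cast at hz
  obtain ⟨hn, hd⟩ := exotic_mod_five _ _ hz
  have h5 : 5 ∣ t.num.natAbs := Int.natCast_dvd.mp ((ZMod.intCast_zmod_eq_zero_iff_dvd _ 5).mp hn)
  have h5' : 5 ∣ t.den := (ZMod.natCast_eq_zero_iff _ _).mp hd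
  have := Nat.dvd_gcd h5 h5'
  rw [t.reduced] at this
  omega

/-- An odd exponent at `3` forbids squares. -/
theorem not_isSquare_of_three {n : ℤ} {k : ℕ} {m : ℕ} (hn : n.natAbs = 3 ^ (2 * k + 1) * m)
    (hm : ¬ 3 ∣ m) : ¬ IsSquare (n : ℚ) := fun h => by
  haveI := Fact.mk Nat.prime_three
  obtain ⟨r, hr⟩ := (Rat.isSquare_intCast_iff).mp h
  rw [hr, Int.natAbs_mul] at hn
  have hm0 : m ≠ 0 := fun e => hm (e ▸ dvd_zero 3)
  have e := congrArg (padicValNat 3) hn
  have hr0 : r.natAbs ≠ 0 := fun e0 => by rw [e0] at hn; simp [hm0] at hn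
  rw [padicValNat.mul hr0 hr0, padicValNat.mul (by positivity) hm0, padicValNat.prime_pow,
    padicValNat.eq_zero_of_not_dvd hm] at e
  omega

/-- `-15552` is no cube. -/
theorem not_cube5184 (t : ℚ) : (-15552 : ℚ) ≠ t ^ 3 := fun h => by
  haveI := Fact.mk Nat.prime_three
  have e := congrArg (padicValRat 3) h
  rw [padicValRat.neg, padicValRat.pow, show (15552 : ℚ) = ((3 ^ 5 * 64 : ℕ) : ℚ) by norm_num,
    padicValRat.of_nat, padicValNat.mul (by norm_num) (by norm_num), padicValNat.prime_pow,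
    padicValNat.eq_zero_of_not_dvd (by norm_num : ¬ 3 ∣ 64)] at e
  push_cast at e
  omega

theorem isElliptic_curve5184 : curve5184.IsElliptic :=
  ⟨isUnit_iff_ne_zero.mpr (by
    rw [← map_model5184, map_Δ, invariants5184.1]
    norm_num)⟩

theorem j5184 [curve5184.IsElliptic] : curve5184.j = -5184 := by
  have h := j_mul_Δ_of_model isModel5184
  rw [invariants5184.1, invariants5184.2] at h
  push_cast at h
  linarith

section Images

variable [(ratCurve model5184).IsElliptic]

theorem full_three5184 : FullAt model5184 3 := by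
  haveI := Fact.mk Nat.prime_three
  refine FA.SmallPrimes.full_three_iff.mpr ⟨fun t => ?_, fun P hP h3 =>
    exists_smul_ne_of_noRoot (l := 5) (by norm_num) (by norm_num)
      (good5184 (by norm_num) (by norm_num) (by norm_num)) ap5184_values.1 noRoot5184.2.1 hP h3⟩
  rw [invariants5184.1]
  push_cast
  exact not_cube5184 t

theorem full_two5184 : FullAt model5184 2 :=
  FA.SmallPrimes.full_two_iff.mpr ⟨by
      rw [invariants5184.1]
      exact not_isSquare_of_three (k := 2) (m := 64) (by norm_num) (by norm_num),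
    fun P hP h2 => by
      obtain ⟨σ, hσ⟩ := exists_smul_ne_of_noRoot (l := 7) (by norm_num) (by norm_num)
        (good5184 (by norm_num) (by norm_num) (by norm_num)) ap5184_values.2.1 noRoot5184.1 hP h2
      exact ⟨σ, fun e => hσ 1 (by rw [one_nsmul, e])⟩⟩

theorem full_five5184 [Fact (Nat.Prime 5)] : FullAt model5184 5 :=
  fullAt_of_generators (l := 7) (l' := 23) (by norm_num) (by norm_num)
    (good5184 (by norm_num) (by norm_num) (by norm_num)) (by norm_num) (by norm_num)
    (good5184 (by norm_num) (by norm_num) (by norm_num)) ap5184_values.2.1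
    ap5184_values.2.2.2.2.2.2.1 noRoot5184.2.2.1 fun x y z h => by
      obtain ⟨w, -, hw⟩ := words_five x y z h
      exact ⟨w, hw⟩

theorem full_seven5184 [Fact (Nat.Prime 7)] : FullAt model5184 7 :=
  fullAt_of_generators (l := 5) (l' := 13) (by norm_num) (by norm_num)
    (good5184 (by norm_num) (by norm_num) (by norm_num)) (by norm_num) (by norm_num)
    (good5184 (by norm_num) (by norm_num) (by norm_num)) ap5184_values.1
    ap5184_values.2.2.2.1 noRoot5184.2.2.2.1 fun x y z h => by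
      obtain ⟨w, -, hw⟩ := words_seven x y z h
      exact ⟨w, hw⟩

/-- Irreducible at every prime from `11` on. -/
theorem irreducible5184 {p : ℕ} [hp : Fact p.Prime] (h11 : 11 ≤ p) :
    model5184.ModRepIsIrreducible p := by
  have mk : ∀ (l : ℕ) (a : ℤ), l.Prime → l ≠ p → l ≠ 2 → l ≠ 3 → model5184.apOfModel l = a →
      (∀ x : ZMod p, x * x - (a : ZMod p) * x + (l : ZMod p) ≠ 0) →
      model5184.ModRepIsIrreducible p := fun l a hl hlp h2 h3 ha hnr =>
    FA.Root.Irred.modRepIsIrreducible_of_noRoot hl hlp (good5184 hl h2 h3) ha hnr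
  obtain ⟨v5, v7, v11, -, v17, v19, -, -⟩ := ap5184_values
  obtain ⟨-, -, -, -, n11, n17, n19⟩ := noRoot5184
  rcases eq_or_ne p 11 with rfl | e11
  · exact mk 5 2 (by norm_num) (by norm_num) (by norm_num) (by norm_num) v5 n11
  rcases eq_or_ne p 17 with rfl | e17
  · exact mk 7 1 (by norm_num) (by norm_num) (by norm_num) (by norm_num) v7 n17
  rcases eq_or_ne p 19 with rfl | e19
  · exact mk 5 2 (by norm_num) (by norm_num) (by norm_num) (by norm_num) v5 n19
  haveI := isElliptic_curve5184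
  by_contra hirr
  refine hirr (FA.Root.Irred.modRepIsIrreducible_of_noStableSubgroup isModel5184 fun G hG hst => ?_)
  have key : ∀ l : ℕ, l.Prime → l ≠ 2 → l ≠ 3 → l ≠ p → (p : ℤ) ∣
      (l : ℤ) ^ 720 + 1 - FA.HasseBound.pointTrace (model5184.apOfModel l) l 720 :=
    fun l hl h2 h3 hlp => by
      exact FA.SerreEffective.dvd_of_stableSubgroup isModel5184 (by decide) (by decide)
        (by norm_num) (fun _ => dvd_rfl) hp.out (by omega)
        (good5184 hp.out (by omega) (by omega)) G hG hst hl hlp (good5184 hl h2 h3)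
  have k11 := key 11 (by norm_num) (by norm_num) (by norm_num) (Ne.symm e11)
  have k17 := key 17 (by norm_num) (by norm_num) (by norm_num) (Ne.symm e17)
  have k19 := key 19 (by norm_num) (by norm_num) (by norm_num) (Ne.symm e19)
  rw [v11] at k11
  rw [v17] at k17
  rw [v19] at k19
  have hd := Int.natCast_dvd_natCast.mp (Int.dvd_coe_gcd k11 (Int.dvd_coe_gcd k17 k19))
  rw [gcd_pointCounts5184] at hd
  have h' : ∀ {a b : ℕ}, a.Prime → p ∣ a ^ b → p = a := fun ha h =>
    (Nat.prime_dvd_prime_iff_eq hp.out ha).mp (hp.out.dvd_of_dvd_pow h)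
  rcases hp.out.dvd_mul.mp hd with h | h
  · have := h' Nat.prime_two h; omega
  rcases hp.out.dvd_mul.mp h with h | h
  · have := h' Nat.prime_three h; omega
  rcases hp.out.dvd_mul.mp h with h | h
  · have := h' (by norm_num : Nat.Prime 5) h; omega
  rcases hp.out.dvd_mul.mp h with h | h
  · have := h' (b := 1) (by norm_num : Nat.Prime 7) (by simpa using h); omega
  rcases hp.out.dvd_mul.mp h with h | h
  · have := h' (b := 1) (by norm_num : Nat.Prime 11) (by simpa using h); omega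
  · have := h' (b := 1) (by norm_num : Nat.Prime 19) (by simpa using h); omega

theorem squarefree_cases {d : ℤ} (hd : Squarefree d)
    (h : ∀ q : ℕ, q.Prime → (q : ℤ) ∣ d → q = 2 ∨ q = 3) :
    d = 1 ∨ d = -1 ∨ d = 2 ∨ d = -2 ∨ d = 3 ∨ d = -3 ∨ d = 6 ∨ d = -6 := by
  have hs := Int.squarefree_natAbs.mpr hd
  have hd' : d.natAbs ∣ 6 := by
    rw [← Nat.prod_primeFactors_of_squarefree hs, show (6 : ℕ) = ∏ q ∈ ({2, 3} : Finset ℕ), q by
      decide]
    refine Finset.prod_dvd_prod_of_subset _ _ _ fun q hq => ?_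
    obtain ⟨hqp, hqd, -⟩ := Nat.mem_primeFactors.mp hq
    simpa using h q hqp (Int.natCast_dvd.mpr hqd)
  have := Nat.le_of_dvd (by norm_num) hd'
  have h0 : d.natAbs ≠ 0 := hs.ne_zero
  interval_cases e : d.natAbs <;> omega

theorem full_large5184 {p : ℕ} [hp : Fact p.Prime] (h11 : 11 ≤ p) : FullAt model5184 p := by
  refine fun φ => FA.Ribet.exists_smul_eq_of_curveRep (fun X hX => ?_) φ
  obtain ⟨v5, v7, -, v13, v17, -, -, -⟩ := ap5184_values
  obtain ⟨m1, p2, m2, p3, m3, p6, m6, m6'⟩ := nonSquares5184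
  refine FA.SerreEffective.exists_curveRep_eq_of_traces model5184 h11
    (good5184 hp.out (by omega) (by omega)) (irreducible5184 h11) (fun d hd hd1 hs _ => ?_) X hX
  have mk : ∀ (l : ℕ) (a : ℤ), l.Prime → l ≠ 2 → l ≠ 3 → l ≠ p → model5184.apOfModel l = a →
      a ≠ 0 → a.natAbs < 11 → ¬ IsSquare (d : ZMod l) →
      ∃ l : ℕ, l.Prime ∧ l ≠ p ∧ ¬ (l : ℤ) ∣ model5184.Δ ∧
        ¬ IsSquare (d : ZMod l) ∧ ¬ (p : ℤ) ∣ model5184.apOfModel l :=
    fun l a hl h2 h3 hlp ha ha0 halt hns => ⟨l, hl, hlp, good5184 hl h2 h3, hns, fun h => by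
      rw [ha] at h
      have := Nat.le_of_dvd (Int.natAbs_pos.mpr ha0) (Int.natCast_dvd.mp h)
      omega⟩
  have h5 : Nat.Prime 5 := by norm_num
  have h7 : Nat.Prime 7 := by norm_num
  rcases squarefree_cases hd (fun q hq hqd => dvd_Δ_model5184 hq (hs q hq hqd)) with
    rfl | rfl | rfl | rfl | rfl | rfl | rfl | rfl
  · exact absurd rfl hd1
  · exact mk 7 1 h7 (by norm_num) (by norm_num) (by omega) v7 (by norm_num) (by norm_num) m1
  · exact mk 5 2 h5 (by norm_num) (by norm_num) (by omega) v5 (by norm_num) (by norm_num) p2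
  · exact mk 5 2 h5 (by norm_num) (by norm_num) (by omega) v5 (by norm_num) (by norm_num) m2
  · exact mk 5 2 h5 (by norm_num) (by norm_num) (by omega) v5 (by norm_num) (by norm_num) p3
  · exact mk 5 2 h5 (by norm_num) (by norm_num) (by omega) v5 (by norm_num) (by norm_num) m3
  · exact mk 7 1 h7 (by norm_num) (by norm_num) (by omega) v7 (by norm_num) (by norm_num) p6
  · rcases eq_or_ne p 13 with rfl | e13
    · exact mk 17 6 (by norm_num) (by norm_num) (by norm_num) (by norm_num) v17 (by norm_num)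
        (by norm_num) m6'
    · exact mk 13 (-5) (by norm_num) (by norm_num) (by norm_num) (Ne.symm e13) v13 (by norm_num)
        (by norm_num) m6

/-- **Every image at a prime power is everything.** -/
theorem fullAt5184 (l : ℕ) (hl : l.Prime) (n : ℕ) : FullAt model5184 (l ^ n) := by
  haveI := Fact.mk hl
  haveI := isElliptic_curve5184
  rcases eq_or_ne l 2 with rfl | h2
  · refine FA.TraceDist.surjective_of_curve isModel5184 _
      ((FA.Summary.twoAdicImage_full_iff_explicit curve5184).mpr ?_ n)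
    have hΔ : curve5184.Δ = ((-15552 : ℤ) : ℚ) := by
      rw [← map_model5184, map_Δ, invariants5184.1, eq_intCast]
    refine ⟨((FA.Summary.surjective_two_iff curve5184).mp
        (FA.Root.exists_map_eq_of_model isModel5184 _ full_two5184)).2, ?_, ?_, ?_, ?_, ?_⟩
    · rw [hΔ]; exact not_isSquare_of_three (k := 2) (m := 64) (by norm_num) (by norm_num)
    · rw [hΔ, show -((-15552 : ℤ) : ℚ) = ((15552 : ℤ) : ℚ) by norm_num]
      exact not_isSquare_of_three (k := 2) (m := 64) (by norm_num) (by norm_num)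
    · rw [hΔ, show (2 : ℚ) * ((-15552 : ℤ) : ℚ) = ((-31104 : ℤ) : ℚ) by norm_num]
      exact not_isSquare_of_three (k := 2) (m := 128) (by norm_num) (by norm_num)
    · rw [hΔ, show (-2 : ℚ) * ((-15552 : ℤ) : ℚ) = ((31104 : ℤ) : ℚ) by norm_num]
      exact not_isSquare_of_three (k := 2) (m := 128) (by norm_num) (by norm_num)
    · rw [j5184]; exact not_exotic5184
  rcases eq_or_ne l 3 with rfl | h3
  · exact fullAt_three_pow_of_trace full_three5184 (q := 61) (by norm_num) (by norm_num)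
      (good5184 (by norm_num) (by norm_num) (by norm_num))
      (by rw [ap5184_values.2.2.2.2.2.2.2]; norm_num) n
  refine fullAt_pow_of_decidingLevel (p := l) ?_ n
  rw [decidingLevel, if_neg h2, if_neg h3]
  rcases le_or_gt 11 l with h | h
  · exact full_large5184 h
  · obtain rfl | rfl : l = 5 ∨ l = 7 := by
      interval_cases l <;> first | omega | (exfalso; revert hl; decide)
    · exact full_five5184
    · exact full_seven5184

end Images

end FA.SerreCurve

end
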