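import Fermat.Agent.SerreCurve.TwistStable
import Fermat.Agent.Root.SummaryWeilPairing
import Fermat.Agent.Independence.FamilyAlgebra
import Mathlib.Algebra.Category.Grp.Injective

/-!
# An image of index two

The torsion is divisible, so an automorphism of `E[N]` extends to all torsion. A subgroup of index
two contains every square. So with an image of index two the square of every automorphism of `E[N]`
comes from Galois: for odd `N` the transvections do, hence all of `SL₂(ℤ/N)` and, the determinant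
being the cyclotomic character, all of `GL₂(ℤ/N)`; and `-1 = J²` comes from Galois at every level.
-/

set_option autoImplicit false
set_option linter.style.haveILetI false
set_option linter.unusedSectionVars false

noncomputable section

open Matrix WeierstrassCurve WeierstrassCurve.Affine FA.EC FA.Frob FA.RT
open FA.RT.Tate (Pts)
open FA.Independence.Family (upMat lowMat)
open scoped WeierstrassCurve.Affine

local notation "Qb" => AlgebraicClosure ℚ
local notation "GQ" => AlgebraicClosure ℚ ≃ₐ[ℚ] AlgebraicClosure ℚ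

namespace FA.SerreCurve

variable (W : WeierstrassCurve ℤ) [(ratCurve W).IsElliptic]

/-- The torsion subgroup is divisible. -/
theorem torsion_divisible {k : ℕ} (hk : k ≠ 0) (x : Tors W) : ∃ y : Tors W, k • y = x := by
  obtain ⟨n, hn, hnx⟩ := isOfFinAddOrder_iff_nsmul_eq_zero.mp x.2
  haveI : NeZero (n * k) := ⟨mul_ne_zero hn.ne' hk⟩
  obtain ⟨b⟩ := FA.PadicImage.nonempty_torsion_equiv W (N := n * k)
  have hx : x.1 ∈ Submodule.torsionBy ℤ ((ratCurve W)⁄Qb).Point ((n * k : ℕ) : ℤ) := by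
    rw [Submodule.mem_torsionBy_iff, natCast_zsmul, mul_comm, mul_nsmul', hnx, nsmul_zero]
  have hv : n • b.symm ⟨x.1, hx⟩ = 0 := by
    rw [← map_nsmul, show n • (⟨x.1, hx⟩ : Submodule.torsionBy ℤ ((ratCurve W)⁄Qb).Point
      ((n * k : ℕ) : ℤ)) = 0 from Subtype.ext hnx, map_zero]
  have : ∀ i, ∃ w : ZMod (n * k), k • w = b.symm ⟨x.1, hx⟩ i := fun i => by
    have h := congrFun hv i
    rw [Pi.smul_apply, Pi.zero_apply, nsmul_eq_mul, ← ZMod.natCast_zmod_val (b.symm ⟨x.1, hx⟩ i),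
      ← Nat.cast_mul, ZMod.natCast_eq_zero_iff] at h
    obtain ⟨w, hw⟩ := (Nat.mul_dvd_mul_iff_left hn).mp h
    exact ⟨(w : ZMod (n * k)), by
      rw [nsmul_eq_mul, ← Nat.cast_mul, ← hw, ZMod.natCast_zmod_val]⟩
  choose w hw using this
  refine ⟨⟨(b w).1, isOfFinAddOrder_iff_nsmul_eq_zero.mpr ⟨n * k, Nat.pos_of_ne_zero
    (NeZero.ne _), ?_⟩⟩, Subtype.ext ?_⟩
  · rw [← natCast_zsmul]; exact (Submodule.mem_torsionBy_iff _ _).mp (b w).2
  · show k • (b w).1 = x.1
    rw [← Submodule.coe_smul_of_tower, ← map_nsmul, show k • w = b.symm ⟨x.1, hx⟩ from funext hw,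
      LinearEquiv.apply_symm_apply]

/-- **An automorphism of `E[N]` extends to all torsion.** -/
theorem exists_extend_tors {N : ℕ} (hN : N ≠ 0)
    (θ : Submodule.torsionBy ℤ ((ratCurve W)⁄Qb).Point (N : ℤ) ≃+
      Submodule.torsionBy ℤ ((ratCurve W)⁄Qb).Point (N : ℤ)) :
    ∃ ψ : Tors W ≃ₗ[ℤ] Tors W, ∀ (x : Tors W)
      (hx : x.1 ∈ Submodule.torsionBy ℤ ((ratCurve W)⁄Qb).Point (N : ℤ)),
      (ψ x).1 = (θ ⟨x.1, hx⟩).1 := by
  let T := Submodule.torsionBy ℤ ((ratCurve W)⁄Qb).Point (N : ℤ)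
  have hT : ∀ {x : ((ratCurve W)⁄Qb).Point}, x ∈ T ↔ N • x = 0 := fun {x} => by
    rw [Submodule.mem_torsionBy_iff, natCast_zsmul]
  let ι : T →+ Tors W :=
    { toFun := fun x => ⟨x.1, isOfFinAddOrder_iff_nsmul_eq_zero.mpr
        ⟨N, Nat.pos_of_ne_zero hN, hT.mp x.2⟩⟩
      map_zero' := Subtype.ext rfl
      map_add' := fun _ _ => Subtype.ext rfl }
  let B : AddSubgroup (Tors W) :=
    { carrier := {x | (addOrderOf x).Coprime N}
      zero_mem' := by simp
      add_mem' := fun {a b} ha hb => Nat.Coprime.coprime_dvd_left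
        ((AddCommute.all a b).addOrderOf_add_dvd_mul_addOrderOf) (Nat.Coprime.mul_left ha hb)
      neg_mem' := fun {a} ha => by simpa using ha }
  let f : T × B →+ Tors W := ι.coprod B.subtype
  let g : T × B →+ Tors W := (ι.comp θ.toAddMonoidHom).coprod B.subtype
  have hf : Function.Injective f := (injective_iff_map_eq_zero f).mpr fun ⟨x, y⟩ h => by
    have h' : ι x + y.1 = 0 := h
    have hy : N • y.1 = 0 := by
      rw [show y.1 = -ι x from eq_neg_of_add_eq_zero_right h', smul_neg, neg_eq_zero]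
      exact Subtype.ext (hT.mp x.2)
    have hy0 : y.1 = 0 := AddMonoid.addOrderOf_eq_one_iff.mp
      (Nat.eq_one_of_dvd_coprimes y.2 dvd_rfl (addOrderOf_dvd_of_nsmul_eq_zero hy))
    refine Prod.ext (Subtype.ext ?_) (Subtype.ext hy0)
    rw [hy0, add_zero] at h'
    exact (congrArg Subtype.val h' :)
  letI : DivisibleBy (Tors W) ℤ := divisibleByOfSMulRightSurj _ _ fun {n} hn x => by
    obtain ⟨y, hy⟩ := torsion_divisible W (Int.natAbs_ne_zero.mpr hn) x
    rcases Int.natAbs_eq n with e | e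
    · exact ⟨y, (congrArg (fun m : ℤ => m • y) e).trans ((natCast_zsmul y _).trans hy)⟩
    · exact ⟨-y, by
        show n • -y = x
        rw [e, neg_zsmul, natCast_zsmul, smul_neg, neg_neg, hy]⟩
  obtain ⟨h, hh⟩ := (Module.Baer.of_divisible (Tors W)).extension_property_addMonoidHom f hf g
  have hhT : ∀ x : T, h (ι x) = ι (θ x) := fun x => by
    simpa [f, g] using DFunLike.congr_fun hh (x, 0)
  have hhB : ∀ y : B, h y.1 = y.1 := fun y => by
    simpa [f, g] using DFunLike.congr_fun hh (0, y)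
  have hinj : Function.Injective h := (injective_iff_map_eq_zero h).mpr fun x hx => by
    by_contra h0
    have hpos : 0 < addOrderOf x :=
      addOrderOf_pos_iff.mpr (isOfFinAddOrder_iff_nsmul_eq_zero.mpr (by
        obtain ⟨n, hn, hnx⟩ := isOfFinAddOrder_iff_nsmul_eq_zero.mp x.2
        exact ⟨n, hn, Subtype.ext hnx⟩))
    obtain ⟨l, hl, m, hm⟩ := Nat.exists_prime_and_dvd
      (show addOrderOf x ≠ 1 from fun e => h0 (AddMonoid.addOrderOf_eq_one_iff.mp e))
    have hm0 : m ≠ 0 := fun e => hpos.ne' (by rw [hm, e, mul_zero])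
    have hord : addOrderOf (m • x) = l := by
      rw [addOrderOf_nsmul' x hm0, hm, Nat.gcd_eq_right (dvd_mul_left m l),
        Nat.mul_div_left _ (Nat.pos_of_ne_zero hm0)]
    have hz : h (m • x) = 0 := by rw [map_nsmul, hx, nsmul_zero]
    have hne : m • x ≠ 0 := fun e => hl.one_lt.ne (by rw [← hord, e, addOrderOf_zero])
    by_cases hlN : l ∣ N
    · have hzT : (m • x).1 ∈ T := hT.mpr (by
        rw [← AddSubgroup.coe_nsmul, addOrderOf_dvd_iff_nsmul_eq_zero.mp (hord.symm ▸ hlN),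
          ZeroMemClass.coe_zero])
      have e := hhT ⟨_, hzT⟩
      rw [show ι ⟨_, hzT⟩ = m • x from Subtype.ext rfl, hz] at e
      have e' : θ ⟨(m • x).1, hzT⟩ = 0 :=
        Subtype.ext ((congrArg (fun z : Tors W => z.1) e).symm :)
      rw [EmbeddingLike.map_eq_zero_iff] at e'
      exact hne (Subtype.ext (congrArg (fun z : T => z.1) e' :))
    · have e := hhB ⟨m • x, show (addOrderOf (m • x)).Coprime N by
        rw [hord]; exact hl.coprime_iff_not_dvd.mpr hlN⟩
      exact hne (e.symm.trans hz)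
  have hsurj : Function.Surjective h := fun y => by
    obtain ⟨n, hn, hny⟩ := isOfFinAddOrder_iff_nsmul_eq_zero.mp y.2
    let S := {z : Tors W // n • z.1 = 0}
    haveI := FA.EC.finite_torsion (ratCurve W) hn.ne'
    haveI : Finite S := Finite.of_injective
      (fun z : S => (⟨z.1.1, by rw [Submodule.mem_torsionBy_iff, natCast_zsmul]; exact z.2⟩ :
        Submodule.torsionBy ℤ ((ratCurve W)⁄Qb).Point (n : ℤ)))
      fun a b e => Subtype.ext (Subtype.ext (congrArg Subtype.val e :))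
    let hS : S → S := fun z => ⟨h z.1, by
      rw [← AddSubgroup.coe_nsmul, ← map_nsmul, show n • z.1 = 0 from Subtype.ext z.2, map_zero,
        ZeroMemClass.coe_zero]⟩
    obtain ⟨z, hz⟩ := Finite.surjective_of_injective
      (f := hS) (fun a b e => Subtype.ext (hinj (congrArg Subtype.val e))) ⟨y, hny⟩
    exact ⟨z.1, congrArg Subtype.val hz⟩
  refine ⟨(AddEquiv.ofBijective h ⟨hinj, hsurj⟩).toIntLinearEquiv, fun x hx => ?_⟩
  exact congrArg Subtype.val (hhT ⟨x.1, hx⟩)

variable {W}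

/-- **Squares come from Galois.** -/
theorem exists_smul_eq_sq (h : (FA.OpenImage.torsionAction (ratCurve W)).range.index = 2) {N : ℕ}
    (hN : N ≠ 0) (θ : Submodule.torsionBy ℤ ((ratCurve W)⁄Qb).Point (N : ℤ) ≃+
      Submodule.torsionBy ℤ ((ratCurve W)⁄Qb).Point (N : ℤ)) :
    ∃ σ : GQ, ∀ x, σ • x.1 = (θ (θ x)).1 := by
  obtain ⟨ψ, hψ⟩ := exists_extend_tors W hN θ
  obtain ⟨σ, hσ⟩ := Subgroup.mul_self_mem_of_index_two h ψ
  refine ⟨σ, fun x => ?_⟩
  have hx : x.1 ∈ Tors W := isOfFinAddOrder_iff_nsmul_eq_zero.mpr ⟨N, Nat.pos_of_ne_zero hN, by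
    rw [← natCast_zsmul]; exact (Submodule.mem_torsionBy_iff _ _).mp x.2⟩
  have e : σ • x.1 = ((ψ * ψ) ⟨x.1, hx⟩).1 :=
    (congrArg (fun χ : Tors W ≃ₗ[ℤ] Tors W => (χ ⟨x.1, hx⟩).1) hσ :)
  have e1 : ψ ⟨x.1, hx⟩ = ⟨(θ x).1, isOfFinAddOrder_iff_nsmul_eq_zero.mpr
      ⟨N, Nat.pos_of_ne_zero hN, by
        rw [← natCast_zsmul]; exact (Submodule.mem_torsionBy_iff _ _).mp (θ x).2⟩⟩ :=
    Subtype.ext (hψ ⟨x.1, hx⟩ x.2)
  rw [e, LinearEquiv.mul_apply, e1, hψ _ (θ x).2]

section Level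

variable {N : ℕ} [NeZero N]
  (b : (Fin 2 → ZMod N) ≃ₗ[ZMod N] Submodule.torsionBy ℤ ((ratCurve W)⁄Qb).Point (N : ℤ))

/-- Some element of Galois acts as `X` in the coordinates `b`. -/
def ActsBy (X : Matrix (Fin 2) (Fin 2) (ZMod N)) : Prop :=
  ∃ σ : GQ, ∀ v, σ • (b v).1 = (b (X *ᵥ v)).1

theorem actsBy_mul {X Y : Matrix (Fin 2) (Fin 2) (ZMod N)} (hX : ActsBy b X) (hY : ActsBy b Y) :
    ActsBy b (X * Y) := by
  obtain ⟨σ, hσ⟩ := hX
  obtain ⟨τ, hτ⟩ := hY
  exact ⟨σ * τ, fun v => by rw [mul_smul, hτ, hσ, mulVec_mulVec]⟩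

/-- The square of an invertible matrix. -/
theorem actsBy_sq (h : (FA.OpenImage.torsionAction (ratCurve W)).range.index = 2)
    {X Y : Matrix (Fin 2) (Fin 2) (ZMod N)} (h1 : Y * X = 1) (h2 : X * Y = 1) :
    ActsBy b (X * X) := by
  let e : (Fin 2 → ZMod N) ≃+ (Fin 2 → ZMod N) :=
    { toFun := fun v => X *ᵥ v
      invFun := fun v => Y *ᵥ v
      left_inv := fun v => by show Y *ᵥ (X *ᵥ v) = v; rw [mulVec_mulVec, h1, one_mulVec]
      right_inv := fun v => by show X *ᵥ (Y *ᵥ v) = v; rw [mulVec_mulVec, h2, one_mulVec]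
      map_add' := fun v w => mulVec_add X v w }
  obtain ⟨σ, hσ⟩ := exists_smul_eq_sq h (NeZero.ne N)
    ((b.toAddEquiv.symm.trans e).trans b.toAddEquiv)
  refine ⟨σ, fun v => ?_⟩
  rw [hσ]
  rw [← mulVec_mulVec]
  show (b (X *ᵥ b.symm (b (X *ᵥ b.symm (b v))))).1 = _
  rw [LinearEquiv.symm_apply_apply, LinearEquiv.symm_apply_apply]

/-- Every element of Galois acts by a matrix. -/
theorem exists_matrix_smul (σ : GQ) : ∃ A : Matrix (Fin 2) (Fin 2) (ZMod N),
    ∀ v, σ • (b v).1 = (b (A *ᵥ v)).1 := by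
  have hmem : ∀ x : Submodule.torsionBy ℤ ((ratCurve W)⁄Qb).Point (N : ℤ),
      σ • x.1 ∈ Submodule.torsionBy ℤ ((ratCurve W)⁄Qb).Point (N : ℤ) := fun x => by
    rw [Submodule.mem_torsionBy_iff]
    show (N : ℤ) • Affine.Point.map (W' := ratCurve W) σ.toAlgHom x.1 = 0
    rw [← map_zsmul, (Submodule.mem_torsionBy_iff _ _).mp x.2, map_zero]
  let L : (Fin 2 → ZMod N) →+ (Fin 2 → ZMod N) :=
    AddMonoidHom.mk' (fun v => b.symm ⟨σ • (b v).1, hmem _⟩) fun v w => by
      rw [← map_add]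
      refine congrArg b.symm (Subtype.ext ?_)
      show Affine.Point.map (W' := ratCurve W) σ.toAlgHom (b (v + w)).1 = _
      rw [map_add b, Submodule.coe_add, map_add]
      rfl
  refine ⟨LinearMap.toMatrix' (L.toZModLinearMap N), fun v => ?_⟩
  rw [LinearMap.toMatrix'_mulVec]
  show _ = (b (b.symm ⟨σ • (b v).1, hmem _⟩)).1
  rw [LinearEquiv.apply_symm_apply]

/-- Galois acts on the `N`-th roots of unity by the determinant. -/
theorem smul_root_eq_pow_det {σ : GQ} {A : Matrix (Fin 2) (Fin 2) (ZMod N)}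
    (hσ : ∀ v, σ • (b v).1 = (b (A *ᵥ v)).1) {μ : Qb} (hμ : μ ^ N = 1) :
    σ μ = μ ^ A.det.val := by
  obtain ⟨e, he⟩ := FA.WeilPairing.exists_pairing W N (NeZero.ne N)
  set P := (b (Pi.single 0 1)).1
  set Q := (b (Pi.single 1 1)).1
  have hN : ∀ v, N • (b v).1 = 0 := fun v => by
    rw [← natCast_zsmul]; exact (Submodule.mem_torsionBy_iff _ _).mp (b v).2
  have hk : ∀ {R : Pts W} (k : ℕ), N • R = 0 → N • (k • R) = 0 := fun {R} k hR => by
    rw [smul_comm, hR, nsmul_zero]
  have hl : ∀ {R S : Pts W} (k : ℕ), N • R = 0 → N • S = 0 → e (k • R) S = e R S ^ k := by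
    intro R S k hR hS
    induction k with
    | zero =>
      have hne : e 0 S ≠ 0 := fun h0 => by
        have := he.pow 0 S (nsmul_zero N) hS
        rw [h0, zero_pow (NeZero.ne N)] at this
        exact zero_ne_one this
      have := he.mul_left 0 0 S (nsmul_zero N) (nsmul_zero N) hS
      rw [add_zero] at this
      rw [zero_nsmul, pow_zero]
      exact mul_left_cancel₀ hne (this.symm.trans (mul_one _).symm)
    | succ n ih => rw [succ_nsmul, he.mul_left _ _ _ (hk n hR) hR hS, ih, pow_succ]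
  have hr : ∀ {R S : Pts W} (k : ℕ), N • R = 0 → N • S = 0 → e R (k • S) = e R S ^ k := by
    intro R S k hR hS
    induction k with
    | zero => rw [zero_nsmul, pow_zero, he.right_zero (NeZero.ne N) hR]
    | succ n ih => rw [succ_nsmul, he.mul_right _ _ _ hR (hk n hS) hS, ih, pow_succ]
  have hskew : e Q P * e P Q = 1 := by
    have h := he.self (P + Q) (by rw [nsmul_add, hN, hN, add_zero])
    rw [he.mul_left _ _ _ (hN _) (hN _) (by rw [nsmul_add, hN, hN, add_zero]),
      he.mul_right _ _ _ (hN _) (hN _) (hN _), he.mul_right _ _ _ (hN _) (hN _) (hN _),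
      he.self _ (hN _), he.self _ (hN _), one_mul, mul_one, mul_comm] at h
    exact h
  have hb : ∀ v : Fin 2 → ZMod N, (b v).1 = (v 0).val • P + (v 1).val • Q := fun v => by
    have hv : v = (v 0).val • Pi.single 0 (1 : ZMod N) + (v 1).val • Pi.single 1 1 := by
      funext i
      rw [Pi.add_apply, Pi.smul_apply, Pi.smul_apply, nsmul_eq_mul, nsmul_eq_mul,
        ZMod.natCast_zmod_val, ZMod.natCast_zmod_val]
      fin_cases i <;> simp
    conv_lhs => rw [hv, map_add, map_nsmul, map_nsmul]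
    rfl
  have hexp : ∀ v w : Fin 2 → ZMod N, e (b v).1 (b w).1 * e P Q ^ ((v 1).val * (w 0).val) =
      e P Q ^ ((v 0).val * (w 1).val) := fun v w => by
    have hQP : e Q P ^ ((v 1).val * (w 0).val) * e P Q ^ ((v 1).val * (w 0).val) = 1 := by
      rw [← mul_pow, hskew, one_pow]
    rw [hb v, hb w, he.mul_left _ _ _ (hk _ (hN _)) (hk _ (hN _))
        (by rw [nsmul_add, hk _ (hN _), hk _ (hN _), add_zero]),
      he.mul_right _ _ _ (hk _ (hN _)) (hk _ (hN _)) (hk _ (hN _)),
      he.mul_right _ _ _ (hk _ (hN _)) (hk _ (hN _)) (hk _ (hN _)),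
      hl _ (hN _) (hk _ (hN _)), hl _ (hN _) (hk _ (hN _)), hl _ (hN _) (hk _ (hN _)),
      hl _ (hN _) (hk _ (hN _)), hr _ (hN _) (hN _), hr _ (hN _) (hN _), hr _ (hN _) (hN _),
      hr _ (hN _) (hN _), he.self _ (hN _), he.self _ (hN _)]
    simp only [one_pow, one_mul, mul_one, ← pow_mul]
    rw [mul_comm (w 1).val, mul_comm (w 0).val, mul_assoc, hQP, mul_one]
  have hprim : IsPrimitiveRoot (e P Q) N := by
    refine ⟨he.pow _ _ (hN _) (hN _), fun m hm => ?_⟩
    have h0 : m • P = 0 := he.nondeg _ (hk m (hN _)) fun R hR => by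
      obtain ⟨v, hv⟩ := b.surjective ⟨R, by rw [Submodule.mem_torsionBy_iff, natCast_zsmul]
                                            exact hR⟩
      rw [show R = (b v).1 by rw [hv], hb, he.mul_right _ _ _ (hk m (hN _)) (hk _ (hN _))
        (hk _ (hN _)), hl _ (hN _) (hk _ (hN _)), hl _ (hN _) (hk _ (hN _)), hr _ (hN _) (hN _),
        hr _ (hN _) (hN _), he.self _ (hN _), one_pow, one_pow, one_mul, ← pow_mul, mul_comm,
        pow_mul, hm, one_pow]
    have h1 : b (m • Pi.single 0 (1 : ZMod N)) = 0 := Subtype.ext (by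
      rw [map_nsmul, Submodule.coe_smul_of_tower]; exact h0)
    rw [LinearEquiv.map_eq_zero_iff] at h1
    have := congrFun h1 0
    rw [Pi.smul_apply, Pi.single_eq_same, nsmul_one, Pi.zero_apply] at this
    exact (ZMod.natCast_eq_zero_iff m N).mp this
  have hσζ : σ (e P Q) = e P Q ^ A.det.val := by
    have h := hexp (A *ᵥ Pi.single 0 1) (A *ᵥ Pi.single 1 1)
    rw [← hσ, ← hσ, he.gal σ _ _ (hN _) (hN _)] at h
    rw [mulVec_single_one, mulVec_single_one] at h
    simp only [col_apply] at h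
    refine mul_right_cancel₀ (pow_ne_zero ((A 1 0).val * (A 0 1).val)
      (hprim.ne_zero (NeZero.ne N))) (h.trans ?_)
    rw [← pow_add, pow_eq_pow_mod _ hprim.pow_eq_one, eq_comm, pow_eq_pow_mod _ hprim.pow_eq_one,
      show (A.det.val + (A 1 0).val * (A 0 1).val) % N = ((A 0 0).val * (A 1 1).val) % N from
        (ZMod.natCast_eq_natCast_iff' _ _ _).mp (by
          push_cast [ZMod.natCast_zmod_val]
          rw [det_fin_two]
          ring)]
  obtain ⟨i, -, rfl⟩ := hprim.eq_pow_of_pow_eq_one hμ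
  rw [map_pow, hσζ, ← pow_mul, ← pow_mul, mul_comm]

/-- Every unit is the determinant of an element of Galois. -/
theorem exists_actsBy_det (u : (ZMod N)ˣ) :
    ∃ A : Matrix (Fin 2) (Fin 2) (ZMod N), A.det = u ∧ ActsBy b A := by
  have hcop : (u : ZMod N).val.Coprime N := ZMod.val_coe_unit_coprime u
  haveI : NeZero (N : Qb) := ⟨Nat.cast_ne_zero.mpr (NeZero.ne N)⟩
  obtain ⟨ζ, hζ⟩ := HasEnoughRootsOfUnity.exists_primitiveRoot Qb N
  have hc : IsConjRoot ℚ ζ (ζ ^ (u : ZMod N).val) := by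
    show minpoly ℚ ζ = minpoly ℚ (ζ ^ (u : ZMod N).val)
    rw [← Polynomial.cyclotomic_eq_minpoly_rat hζ (NeZero.pos _),
      ← Polynomial.cyclotomic_eq_minpoly_rat (hζ.pow_of_coprime _ hcop) (NeZero.pos _)]
  haveI : IsGalois ℚ Qb := FA.EC.isGalois_algebraicClosure
  obtain ⟨σ, hσ⟩ := (IsConjRoot.symm hc).exists_algEquiv
  obtain ⟨A, hA⟩ := exists_matrix_smul b σ
  refine ⟨A, ?_, σ, hA⟩
  have h := (smul_root_eq_pow_det b hA hζ.pow_eq_one).symm.trans hσ
  have h' := (hζ.pow_inj (ZMod.val_lt _) (ZMod.val_lt _) h)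
  exact ZMod.val_injective N h'

/-- **At odd levels every invertible matrix comes from Galois.** -/
theorem actsBy_of_isUnit_det (h : (FA.OpenImage.torsionAction (ratCurve W)).range.index = 2)
    (hN : Odd N) {g : Matrix (Fin 2) (Fin 2) (ZMod N)} (hg : IsUnit g.det) : ActsBy b g := by
  obtain ⟨a, ha⟩ : IsUnit ((2 : ℕ) : ZMod N) :=
    (ZMod.isUnit_iff_coprime _ _).mpr (Nat.coprime_two_left.mpr hN)
  set t : ZMod N := (↑a⁻¹ : ZMod N)
  have ht : t + t = 1 := by
    have := a.inv_mul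
    rw [ha] at this
    push_cast at this
    linear_combination this
  have hup : ∀ x : ZMod N, ActsBy b (upMat (1 * x)) := fun x => by
    have e : upMat (1 * x) = upMat (x * t) * upMat (x * t) := by
      ext i j; fin_cases i <;> fin_cases j <;>
        simp [upMat, Matrix.mul_apply, Fin.sum_univ_two, ← mul_add, ht]
    rw [e]
    exact actsBy_sq b h (Y := upMat (-(x * t)))
      (by ext i j; fin_cases i <;> fin_cases j <;>
        simp [upMat, Matrix.mul_apply, Fin.sum_univ_two])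
      (by ext i j; fin_cases i <;> fin_cases j <;>
        simp [upMat, Matrix.mul_apply, Fin.sum_univ_two])
  have hlow : ∀ x : ZMod N, ActsBy b (lowMat (1 * x)) := fun x => by
    have e : lowMat (1 * x) = lowMat (x * t) * lowMat (x * t) := by
      ext i j; fin_cases i <;> fin_cases j <;>
        simp [lowMat, Matrix.mul_apply, Fin.sum_univ_two, ← mul_add, ht]
    rw [e]
    exact actsBy_sq b h (Y := lowMat (-(x * t)))
      (by ext i j; fin_cases i <;> fin_cases j <;>
        simp [lowMat, Matrix.mul_apply, Fin.sum_univ_two])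
      (by ext i j; fin_cases i <;> fin_cases j <;>
        simp [lowMat, Matrix.mul_apply, Fin.sum_univ_two])
  have hsl : ∀ X : Matrix (Fin 2) (Fin 2) (ZMod N), X.det = 1 → ActsBy b X := fun X hX => by
    have e : 1 + ((1 : ZMod N) * 1) • (X - 1) = X := by rw [mul_one, one_smul, add_sub_cancel]
    exact e ▸ FA.Independence.Family.induction_congruence (1 : ZMod N)
      (P := ActsBy b) (fun _ _ => actsBy_mul b) hup hlow (X - 1) (by rw [e, hX])
  obtain ⟨A, hA, hact⟩ := exists_actsBy_det b hg.unit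
  have hAu : IsUnit A.det := hA ▸ hg.unit.isUnit
  have e : g * A⁻¹ * A = g := by rw [mul_assoc, Matrix.nonsing_inv_mul A hAu, mul_one]
  exact e ▸ actsBy_mul b (hsl _ (by
    rw [det_mul, det_nonsing_inv, hA, IsUnit.unit_spec, Ring.mul_inverse_cancel _ hg])) hact

end Level

/-- **An image of index two is everything at odd levels.** -/
theorem exists_smul_eq_of_index_two
    (h : (FA.OpenImage.torsionAction (ratCurve W)).range.index = 2) {N : ℕ} (hN : Odd N)
    (φ : Submodule.torsionBy ℤ ((ratCurve W)⁄Qb).Point (N : ℤ) ≃+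
      Submodule.torsionBy ℤ ((ratCurve W)⁄Qb).Point (N : ℤ)) :
    ∃ σ : GQ, ∀ x, σ • x.1 = (φ x).1 := by
  haveI : NeZero N := ⟨hN.pos.ne'⟩
  obtain ⟨b⟩ := FA.PadicImage.nonempty_torsion_equiv W (N := N)
  let e : (Fin 2 → ZMod N) ≃+ (Fin 2 → ZMod N) :=
    (b.toAddEquiv.trans φ).trans b.toAddEquiv.symm
  set g := LinearMap.toMatrix' (e.toAddMonoidHom.toZModLinearMap N)
  have hg : IsUnit g.det := by
    refine (Matrix.isUnit_iff_isUnit_det g).mp (IsUnit.of_mul_eq_one
      (LinearMap.toMatrix' (e.symm.toAddMonoidHom.toZModLinearMap N)) ?_)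
    rw [← LinearMap.toMatrix'_comp, show (e.toAddMonoidHom.toZModLinearMap N).comp
      (e.symm.toAddMonoidHom.toZModLinearMap N) = LinearMap.id from
        LinearMap.ext fun v => e.apply_symm_apply v, LinearMap.toMatrix'_id]
  obtain ⟨σ, hσ⟩ := actsBy_of_isUnit_det b h hN hg
  refine ⟨σ, fun x => ?_⟩
  obtain ⟨v, rfl⟩ := b.surjective x
  rw [hσ, LinearMap.toMatrix'_mulVec]
  show (b (b.symm (φ (b v)))).1 = _
  rw [LinearEquiv.apply_symm_apply]

theorem orderThree_mul :
    (!![0, -1; 1, -1] : Matrix (Fin 2) (Fin 2) (ZMod 2)) * !![-1, 1; -1, 0] = 1 := by decide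

theorem orderThree_mul' :
    (!![-1, 1; -1, 0] : Matrix (Fin 2) (Fin 2) (ZMod 2)) * !![0, -1; 1, -1] = 1 := by decide

theorem orderThree_line : ∀ (v : Fin 2 → ZMod 2) (c : ZMod 2),
    ((!![-1, 1; -1, 0] : Matrix (Fin 2) (Fin 2) (ZMod 2)) * !![-1, 1; -1, 0]) *ᵥ v = c • v →
      v = 0 := by decide

/-- **An image of index two has no stable line at any prime.** -/
theorem exists_smul_ne_of_index_two
    (h : (FA.OpenImage.torsionAction (ratCurve W)).range.index = 2) {l : ℕ} (hl : l.Prime)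
    {P : Pts W} (hP : P ≠ 0) (hlP : l • P = 0) : ∃ σ : GQ, ∀ k : ℕ, σ • P ≠ k • P := by
  haveI := Fact.mk hl
  haveI : NeZero l := ⟨hl.ne_zero⟩
  obtain ⟨b⟩ := FA.PadicImage.nonempty_torsion_equiv W (N := l)
  obtain ⟨v, hv⟩ := b.surjective ⟨P, by rw [Submodule.mem_torsionBy_iff, natCast_zsmul]; exact hlP⟩
  have hv0 : v ≠ 0 := fun e => hP (by
    rw [e, map_zero] at hv
    exact (congrArg Subtype.val hv).symm)
  by_contra hc
  push Not at hc
  have key : ∀ X, ActsBy b X → ∃ k : ℕ, X *ᵥ v = (k : ZMod l) • v := fun X ⟨σ, hσ⟩ => by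
    obtain ⟨k, hk⟩ := hc σ
    refine ⟨k, b.injective (Subtype.ext ?_)⟩
    rw [← hσ, Nat.cast_smul_eq_nsmul, map_nsmul, Submodule.coe_smul_of_tower,
      show (b v).1 = P by rw [hv]]
    exact hk
  rcases hl.eq_two_or_odd' with rfl | hodd
  · obtain ⟨k, hk⟩ := key _ (actsBy_sq b h orderThree_mul orderThree_mul')
    exact hv0 (orderThree_line v _ hk)
  · have h1 : ∀ X : Matrix (Fin 2) (Fin 2) (ZMod l), X.det = 1 → ∃ k : ℕ,
        X *ᵥ v = (k : ZMod l) • v := fun X hX =>
      key X (actsBy_of_isUnit_det b h hodd (hX ▸ isUnit_one))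
    obtain ⟨i, hi⟩ := h1 (upMat 1) (by simp [upMat, det_fin_two])
    obtain ⟨j, hj⟩ := h1 (lowMat 1) (by simp [lowMat, det_fin_two])
    have a0 := congrFun hi 0
    have a1 := congrFun hi 1
    have c0 := congrFun hj 0
    have c1 := congrFun hj 1
    simp [upMat, lowMat, Matrix.mulVec, dotProduct, Fin.sum_univ_two] at a0 a1 c0 c1
    refine hv0 (funext fun r => ?_)
    have z1 : v 1 = 0 := by
      by_contra hne
      have : (i : ZMod l) = 1 := mul_right_cancel₀ hne (by rw [one_mul]; exact a1.symm)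
      rw [this, one_mul] at a0
      exact hne (by linear_combination a0)
    have z0 : v 0 = 0 := by
      rw [z1, mul_zero, add_zero] at c1
      exact c1
    fin_cases r
    · exact z0
    · exact z1

/-- **An image of index two makes the curve stable under twists.** -/
theorem stableUnderTwists_of_index_two
    (h : (FA.OpenImage.torsionAction (ratCurve W)).range.index = 2) :
    StableUnderTwists (ratCurve W) := by
  have hneg : ∀ N : ℕ, N ≠ 0 → ∃ σ : GQ, ∀ x : Tors W, N • x.1 = 0 → σ • x.1 = -x.1 := by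
    intro N hN
    haveI : NeZero N := ⟨hN⟩
    obtain ⟨b⟩ := FA.PadicImage.nonempty_torsion_equiv W (N := N)
    obtain ⟨σ, hσ⟩ := actsBy_sq b h (X := !![0, -1; 1, 0]) (Y := !![0, 1; -1, 0])
      (by simp [Matrix.one_fin_two]) (by simp [Matrix.one_fin_two])
    refine ⟨σ, fun x hx => ?_⟩
    obtain ⟨v, hv⟩ := b.surjective
      ⟨x.1, by rw [Submodule.mem_torsionBy_iff, natCast_zsmul]; exact hx⟩
    rw [show x.1 = (b v).1 by rw [hv], hσ, show (!![0, -1; 1, 0] * !![0, -1; 1, 0] :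
      Matrix (Fin 2) (Fin 2) (ZMod N)) *ᵥ v = -v by
        funext i; fin_cases i <;> simp [Matrix.mulVec, dotProduct, Fin.sum_univ_two], map_neg,
      Submodule.coe_neg]
  obtain ⟨σ, hσ⟩ : LinearEquiv.neg ℤ ∈ (FA.OpenImage.torsionAction (ratCurve W)).range :=
    FA.OpenImage.mem_range_of_levels (ratCurve W) _ fun N hN => by
      obtain ⟨σ, hσ⟩ := hneg N hN
      exact ⟨σ, fun x hx => hσ x hx⟩
  have hσneg : ∀ x : Pts W, IsOfFinAddOrder x → σ • x = -x := fun x hx =>
    (congrArg (fun ψ : Tors W ≃ₗ[ℤ] Tors W => (ψ ⟨x, hx⟩).1) hσ :)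
  refine ⟨h, σ, hσneg, fun d s hs => ?_⟩
  obtain ⟨D, hD, hroot⟩ :=
    FA.OpenImage.exists_level_of_mem_rootsField (FA.OpenImage.mem_rootsField_of_sq_eq hs)
  refine hroot σ fun μ hμ => ?_
  haveI : NeZero D := ⟨hD.ne'⟩
  obtain ⟨b⟩ := FA.PadicImage.nonempty_torsion_equiv W (N := D)
  rw [smul_root_eq_pow_det b (A := -1) (fun v => by
    rw [neg_mulVec, one_mulVec, map_neg, Submodule.coe_neg]
    exact hσneg _ (isOfFinAddOrder_iff_nsmul_eq_zero.mpr ⟨D, hD, by
      rw [← natCast_zsmul]; exact (Submodule.mem_torsionBy_iff _ _).mp (b v).2⟩)) hμ,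
    det_neg, det_one, Fintype.card_fin, neg_one_sq, one_mul, ZMod.val_one_eq_one_mod,
    ← pow_eq_pow_mod 1 hμ, pow_one]

/-- Stability under twists passes along an equivariant isomorphism from a model. -/
theorem stableUnderTwists_of_equiv {E : WeierstrassCurve ℚ}
    (e : ((ratCurve W)⁄Qb).Point ≃+ (E.toAffine⁄Qb).Point)
    (he : ∀ (σ : GQ) Q, e (σ • Q) = Affine.Point.map (W' := E.toAffine) σ.toAlgHom (e Q))
    (hW : StableUnderTwists (ratCurve W)) : StableUnderTwists E := by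
  obtain ⟨hi, σ, hneg, hfix⟩ := hW
  have hnegE : ∀ P : (E.toAffine⁄Qb).Point, IsOfFinAddOrder P →
      Affine.Point.map (W' := E.toAffine) σ.toAlgHom P = -P := fun P hP => by
    obtain ⟨Q, rfl⟩ := e.surjective P
    rw [← he, ← map_neg]
    exact congrArg e (hneg Q (by simpa using e.symm.toAddMonoidHom.isOfFinAddOrder hP))
  refine ⟨(index_range_of_sign (E₁ := ratCurve W) (s := 1) e (fun g => Or.inl (map_one g))
    (fun g Q => ⟨fun _ => (he g Q).symm, fun h => absurd ((map_one g).symm.trans h) (by norm_num)⟩)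
    (map_one σ) hnegE).symm.trans hi, σ, hnegE, hfix⟩

end FA.SerreCurve

end
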