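import Fermat.Agent.SerreCurve.Division
import Fermat.Agent.Root.SummaryAlmostAllTorsionField

/-!
# The conjugates of the torsion points of a Serre curve

A subgroup of `GL₂(ℤ/n)` containing the product of any two elements outside it is transitive on
the vectors of order `n`: if it contained the stabiliser of a vector it would be everything. So a
torsion point of a Serre curve is conjugate to all the points of the same order.
-/

set_option autoImplicit false
set_option linter.style.haveILetI false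

noncomputable section

open Matrix WeierstrassCurve WeierstrassCurve.Affine FA.EC FA.Frob FA.RT
open scoped WeierstrassCurve.Affine

local notation "Qb" => AlgebraicClosure ℚ
local notation "GQ" => AlgebraicClosure ℚ ≃ₐ[ℚ] AlgebraicClosure ℚ

namespace FA.SerreOrbit

/-- A vector of order `n` has a unit among `a + x c`. -/
theorem exists_isUnit_add {n : ℕ} [NeZero n] {v : Fin 2 → ZMod n} (hv : addOrderOf v = n) :
    ∃ x : ZMod n, IsUnit (v 0 + x * v 1) := by
  classical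
  set a := (v 0).val
  set c := (v 1).val
  set x := ∏ p ∈ n.primeFactors.filter fun p => ¬ p ∣ a, p with hx
  refine ⟨x, ?_⟩
  rw [← ZMod.natCast_zmod_val (v 0), ← ZMod.natCast_zmod_val (v 1), ← Nat.cast_mul, ← Nat.cast_add,
    ZMod.isUnit_iff_coprime]
  refine Nat.coprime_of_dvd' fun p hp hd hn => ?_
  exfalso
  have hmem : p ∈ n.primeFactors := Nat.mem_primeFactors.mpr ⟨hp, hn, NeZero.ne n⟩
  by_cases ha : p ∣ a
  · have hpx : ¬ p ∣ x := fun h => by
      obtain ⟨r, hr, hpr⟩ := (Prime.dvd_finsetProd_iff hp.prime _).mp h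
      obtain ⟨hrn, hra⟩ := Finset.mem_filter.mp hr
      rw [(Nat.prime_dvd_prime_iff_eq hp (Nat.prime_of_mem_primeFactors hrn)).mp hpr] at ha
      exact hra ha
    have hc : p ∣ c :=
      (hp.dvd_mul.mp ((Nat.dvd_add_right ha).mp hd)).resolve_left hpx
    -- the vector then has smaller order
    obtain ⟨k, hk⟩ := hn
    have hz : k • v = 0 := funext fun i => by
      have hi : p ∣ (v i).val := by fin_cases i; exacts [ha, hc]
      obtain ⟨m, hm⟩ := hi
      rw [Pi.smul_apply, Pi.zero_apply, nsmul_eq_mul, ← ZMod.natCast_zmod_val (v i),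
        ← Nat.cast_mul, ZMod.natCast_eq_zero_iff, hm]
      exact ⟨m, by rw [hk]; ring⟩
    have hk0 : 0 < k := Nat.pos_of_ne_zero fun e => NeZero.ne n (by rw [hk, e, mul_zero])
    have := Nat.le_of_dvd hk0 (hv ▸ addOrderOf_dvd_iff_nsmul_eq_zero.mpr hz)
    rw [hk] at this
    exact absurd this (not_le.mpr (lt_mul_of_one_lt_left hk0 hp.one_lt))
  · exact ha ((Nat.dvd_add_left (Dvd.dvd.mul_right
      (Finset.dvd_prod_of_mem _ (Finset.mem_filter.mpr ⟨hmem, ha⟩)) c)).mp hd)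

/-- **Transitivity**: a subgroup containing the product of any two elements outside it conjugates
`(1, 0)` to every vector of order `n`. -/
theorem exists_mem_mulVec {n : ℕ} [NeZero n] (H : Subgroup (GL (Fin 2) (ZMod n)))
    (hH : ∀ a b, a ∉ H → b ∉ H → a * b ∈ H) {v : Fin 2 → ZMod n} (hv : addOrderOf v = n) :
    ∃ g ∈ H, (g : Matrix (Fin 2) (Fin 2) (ZMod n)) *ᵥ ![1, 0] = v := by
  obtain ⟨A, hA, hAv⟩ := FA.AlmostAll.exists_det_one_mulVec hv
  let mk : ∀ M : Matrix (Fin 2) (Fin 2) (ZMod n), IsUnit M.det → GL (Fin 2) (ZMod n) :=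
    fun M h => ((Matrix.isUnit_iff_isUnit_det M).mpr h).unit
  have hmk : ∀ M h, (mk M h : Matrix (Fin 2) (Fin 2) (ZMod n)) = M := fun M h => rfl
  set g₀ := mk A (hA ▸ isUnit_one) with hg₀
  by_cases hg : g₀ ∈ H
  · exact ⟨g₀, hg, by simp only [hg₀, hmk, hAv]⟩
  by_cases hs : ∃ s : GL (Fin 2) (ZMod n),
      (s : Matrix (Fin 2) (Fin 2) (ZMod n)) *ᵥ ![1, 0] = ![1, 0] ∧ s ∉ H
  · obtain ⟨s, hse, hsH⟩ := hs
    exact ⟨g₀ * s, hH _ _ hg hsH,
      by simp only [Units.val_mul, ← mulVec_mulVec, hse, hg₀, hmk, hAv]⟩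
  push Not at hs
  exfalso
  refine hg ?_
  have hconj : ∀ w a : GL (Fin 2) (ZMod n), a ∈ H → w * a * w⁻¹ ∈ H := fun w a ha => by
    by_cases hw : w ∈ H
    · exact mul_mem (mul_mem hw ha) (inv_mem hw)
    · exact hH _ _ (fun h => hw (by simpa using mul_mem h (inv_mem ha)))
        fun h => hw (by simpa using inv_mem h)
  obtain ⟨x, u, hu⟩ : ∃ (x : ZMod n) (u : (ZMod n)ˣ), (u : ZMod n) = v 0 + x * v 1 := by
    obtain ⟨x, hx⟩ := exists_isUnit_add hv
    exact ⟨x, hx.unit, hx.unit_spec⟩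
  -- the stabilisers of the two standard vectors
  set w := mk !![0, 1; 1, 0] (by simp [det_fin_two_of])
  set U := mk !![1, x; 0, 1] (by simp [det_fin_two_of])
  set V := mk !![1, -(v 1 * (↑u⁻¹ : ZMod n)); 0, 1] (by simp [det_fin_two_of])
  set D := mk !![1, 0; 0, (↑u⁻¹ : ZMod n)] (by simp [det_fin_two_of])
  have hU : U ∈ H := hs U (by simp only [U, hmk]; ext i; fin_cases i <;> simp)
  have hV : V ∈ H := hs V (by simp only [V, hmk]; ext i; fin_cases i <;> simp)
  have hD : D ∈ H := hs D (by simp only [D, hmk]; ext i; fin_cases i <;> simp)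
  have hw : (w⁻¹ : GL (Fin 2) (ZMod n)) = w := inv_eq_of_mul_eq_one_right (Units.ext (by
    simp only [w, Units.val_mul, hmk, Units.val_one]
    ext i j; fin_cases i <;> fin_cases j <;> simp))
  set L := w * V * w⁻¹
  set E := w * D * w⁻¹
  have hT : E * L * U * g₀ ∈ H := hs _ (by
    simp only [L, E, hw, Units.val_mul]
    simp only [← mulVec_mulVec]
    simp only [hg₀, hmk, hAv]
    ext i
    fin_cases i <;> simp [w, U, V, D, hmk, mulVec, dotProduct, Fin.sum_univ_two, ← hu, mul_comm,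
      mul_left_comm])
  have hP : E * L * U ∈ H :=
    mul_mem (mul_mem (hconj w D hD) (hconj w V hV)) hU
  simpa [mul_assoc] using mul_mem (inv_mem hP) hT

variable {W : WeierstrassCurve ℤ} [(ratCurve W).IsElliptic] {q : ℕ}

/-- **Every torsion point of a Serre curve is conjugate to all points of the same order.** -/
theorem orbit_eq (hS : FA.SerreCurve.Setting W q) {x : ((ratCurve W)⁄Qb).Point}
    (hx : IsOfFinAddOrder x) :
    (Set.range fun σ : GQ => σ • x) = {y | addOrderOf y = addOrderOf x} := by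
  classical
  by_cases h2 : 2 ∣ addOrderOf x
  swap
  · exact (FA.AlmostAll.orbit_eq_of_full hx fun ψ =>
      FA.SerreCurve.exists_smul_eq_of_odd hS hx.addOrderOf_pos.ne' h2 ψ).1
  obtain ⟨n, hn⟩ : ∃ n, addOrderOf x = n := ⟨_, rfl⟩
  rw [hn] at h2 ⊢
  haveI : NeZero n := ⟨hn ▸ hx.addOrderOf_pos.ne'⟩
  obtain ⟨e⟩ := FA.PadicImage.nonempty_torsion_equiv W (N := n)
  let Gives : GQ → GL (Fin 2) (ZMod n) → Prop := fun σ g =>
    ∀ y, σ • (e y).1 = (e ((g : Matrix (Fin 2) (Fin 2) (ZMod n)) *ᵥ y)).1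
  let H : Subgroup (GL (Fin 2) (ZMod n)) :=
    { carrier := {g | ∃ σ, Gives σ g}
      mul_mem' := fun {a b} ⟨σ, hσ⟩ ⟨τ, hτ⟩ => ⟨σ * τ, fun y => by
        rw [mul_smul, hτ, hσ, mulVec_mulVec, Units.val_mul]⟩
      one_mem' := ⟨1, fun y => by rw [one_smul, Units.val_one, one_mulVec]⟩
      inv_mem' := fun {a} ⟨σ, hσ⟩ => ⟨σ⁻¹, fun y => by
        rw [inv_smul_eq_iff, hσ, mulVec_mulVec, ← Units.val_mul, mul_inv_cancel, Units.val_one,
          one_mulVec]⟩ }
  have hequiv : ∀ g : GL (Fin 2) (ZMod n),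
      ∃ φ : Submodule.torsionBy ℤ ((ratCurve W)⁄Qb).Point (n : ℤ) ≃+
        Submodule.torsionBy ℤ ((ratCurve W)⁄Qb).Point (n : ℤ),
      ∀ y, φ (e y) = e ((g : Matrix (Fin 2) (Fin 2) (ZMod n)) *ᵥ y) := fun g => by
    obtain ⟨φ, hφ⟩ := FA.Independence.Adelic.exists_addEquiv e.symm.toAddEquiv
      (A := (g : Matrix (Fin 2) (Fin 2) (ZMod n))) ((Matrix.isUnit_iff_isUnit_det _).mp g.isUnit)
    exact ⟨φ, fun y => by rw [hφ]; simp⟩
  have hH : ∀ a b, a ∉ H → b ∉ H → a * b ∈ H := fun a b ha hb => by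
    obtain ⟨φ, hφ⟩ := hequiv a
    obtain ⟨ψ, hψ⟩ := hequiv b
    obtain ⟨σ, hσ⟩ := FA.SerreCurve.exists_smul_eq_mul hS (NeZero.ne n) h2
      (φ := φ) (ψ := ψ) (fun ⟨τ, hτ⟩ => ha ⟨τ, fun y => by rw [hτ, hφ]⟩)
      fun ⟨τ, hτ⟩ => hb ⟨τ, fun y => by rw [hτ, hψ]⟩
    exact ⟨σ, fun y => by rw [hσ, hψ, hφ, mulVec_mulVec, Units.val_mul]⟩
  have hmem : ∀ {y : ((ratCurve W)⁄Qb).Point}, addOrderOf y = n →
      y ∈ Submodule.torsionBy ℤ ((ratCurve W)⁄Qb).Point (n : ℤ) := fun {y} hy => by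
    rw [Submodule.mem_torsionBy_iff, natCast_zsmul, ← hy, addOrderOf_nsmul_eq_zero]
  have horder : ∀ y : Submodule.torsionBy ℤ ((ratCurve W)⁄Qb).Point (n : ℤ),
      addOrderOf (e.symm y) = addOrderOf y.1 := fun y =>
    (addOrderOf_injective e.symm.toAddEquiv.toAddMonoidHom e.symm.injective y).trans
      (AddSubgroup.addOrderOf_coe (H := (Submodule.torsionBy ℤ ((ratCurve W)⁄Qb).Point
        (n : ℤ)).toAddSubgroup) y).symm
  have hbase : ∀ {y}, addOrderOf y = n → ∃ σ : GQ, σ • (e ![1, 0]).1 = y := fun {y} hy => by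
    obtain ⟨g, ⟨σ, hσ⟩, hgv⟩ := exists_mem_mulVec H hH ((horder ⟨y, hmem hy⟩).trans hy)
    exact ⟨σ, by rw [hσ, hgv, LinearEquiv.apply_symm_apply]⟩
  refine Set.ext fun y => ⟨?_, fun hy => ?_⟩
  · rintro ⟨σ, rfl⟩
    exact (addOrderOf_injective (DistribSMul.toAddMonoidHom ((ratCurve W)⁄Qb).Point σ)
      (MulAction.injective σ) x).trans hn
  · obtain ⟨σ, hσ⟩ := hbase hn
    obtain ⟨τ, hτ⟩ := hbase hy
    exact ⟨τ * σ⁻¹, by show (τ * σ⁻¹) • x = y; rw [mul_smul, ← hσ, inv_smul_smul, hτ]⟩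

end FA.SerreOrbit

end
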