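import Fermat.Agent.SerreCurve.IndexTwoLevel
import Fermat.Agent.SerreCurve.Orbit
import Fermat.Agent.KroneckerWeber.Main

/-!
# The torsion of a curve with image of index two

With an image of index two the product of two automorphisms of `E[n]` outside the image is inside,
so the image is transitive on the points of order `n`. It contains every square, in particular at
every level the determinant one elements `-1 = J²` and `!![0, -1; 1, -1]`, which fix all roots of
unity of that level. A point fixed by all commutators is fixed by what fixes some roots of unity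
(Kronecker and Weber), so it is zero, and the action on `E[2]` is not abelian: the discriminant is
not a square.
-/

set_option autoImplicit false
set_option linter.style.haveILetI false
set_option linter.unusedSectionVars false

noncomputable section

open Matrix WeierstrassCurve WeierstrassCurve.Affine FA.EC FA.Frob FA.RT
open FA.RT.Tate (Pts)
open FA.Two (deltaRoot sgn)
open scoped WeierstrassCurve.Affine

local notation "Qb" => AlgebraicClosure ℚ
local notation "GQ" => AlgebraicClosure ℚ ≃ₐ[ℚ] AlgebraicClosure ℚ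

namespace FA.SerreCurve

/-- **An algebraic number fixed by all commutators has a level.** -/
theorem exists_level_of_commutators {x : Qb}
    (h : ∀ σ τ : GQ, (σ * τ * σ⁻¹ * τ⁻¹) x = x) :
    ∃ m : ℕ, 0 < m ∧ ∀ σ : GQ, (∀ μ : Qb, μ ^ m = 1 → σ μ = μ) → σ x = x := by
  haveI : IsGalois ℚ Qb := FA.EC.isGalois_algebraicClosure
  let S : Subgroup GQ := MulAction.stabilizer GQ x
  have hS : ∀ {g : GQ}, g ∈ S ↔ g x = x := Iff.rfl
  have : S.Normal := ⟨fun s hs g => by
    rw [hS, show g * s * g⁻¹ = g * s * g⁻¹ * s⁻¹ * s by group, AlgEquiv.mul_apply, hS.mp hs]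
    exact h g s⟩
  haveI : FiniteDimensional ℚ (IntermediateField.adjoin ℚ {x}) :=
    IntermediateField.adjoin.finiteDimensional (Algebra.IsIntegral.isIntegral x)
  have hopen : IsOpen (S : Set GQ) := Subgroup.isOpen_mono
    (H₁ := (IntermediateField.adjoin ℚ {x}).fixingSubgroup)
    (fun σ hσ => hS.mpr ((IntermediateField.mem_fixingSubgroup_iff _ σ).mp hσ x
      (IntermediateField.mem_adjoin_simple_self ℚ x)))
    (IntermediateField.fixingSubgroup_isOpen _)
  let _ : CommGroup (GQ ⧸ S) :=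
    { (inferInstance : Group (GQ ⧸ S)) with
      mul_comm := fun a b => by
        obtain ⟨a, rfl⟩ := QuotientGroup.mk_surjective a
        obtain ⟨b, rfl⟩ := QuotientGroup.mk_surjective b
        rw [← QuotientGroup.mk_mul, ← QuotientGroup.mk_mul, QuotientGroup.eq, hS,
          show (a * b)⁻¹ * (b * a) = b⁻¹ * a⁻¹ * b⁻¹⁻¹ * a⁻¹⁻¹ by group]
        exact h b⁻¹ a⁻¹ }
  have : Finite (GQ ⧸ S) := Subgroup.quotient_finite_of_isOpen S hopen
  refine FA.OpenImage.exists_level_of_mem_rootsField ?_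
  rw [← InfiniteGalois.fixedField_fixingSubgroup FA.OpenImage.rootsField]
  intro ⟨σ, hσ⟩
  refine hS.mp ((QuotientGroup.eq_one_iff σ).mp
    (FA.KroneckerWeber.eq_one_of_fix_rootsOfUnity (QuotientGroup.mk' S)
      (by rw [QuotientGroup.ker_mk']; exact hopen) fun μ n hn hμ => ?_))
  exact (IntermediateField.mem_fixingSubgroup_iff _ σ).mp hσ μ
    (IntermediateField.subset_adjoin ℚ _ ⟨n, hn, hμ⟩)

/-- A point fixed by all commutators has a level. -/
theorem exists_level_point {E : WeierstrassCurve ℚ} {P : (E.toAffine⁄Qb).Point}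
    (h : ∀ σ τ : GQ, Affine.Point.map (σ * τ * σ⁻¹ * τ⁻¹).toAlgHom P = P) :
    ∃ m : ℕ, 0 < m ∧ ∀ σ : GQ, (∀ μ : Qb, μ ^ m = 1 → σ μ = μ) →
      Affine.Point.map σ.toAlgHom P = P := by
  match P, h with
  | 0, _ => exact ⟨1, one_pos, fun σ _ => map_zero _⟩
  | .some x y hP, h =>
    have hc : ∀ σ τ : GQ, (σ * τ * σ⁻¹ * τ⁻¹) x = x ∧ (σ * τ * σ⁻¹ * τ⁻¹) y = y := fun σ τ => by
      have e := h σ τ
      rw [Affine.Point.map_some, Affine.Point.some.injEq] at e
      exact e
    obtain ⟨a, ha, hxa⟩ := exists_level_of_commutators fun σ τ => (hc σ τ).1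
    obtain ⟨b, hb, hyb⟩ := exists_level_of_commutators fun σ τ => (hc σ τ).2
    refine ⟨a * b, Nat.mul_pos ha hb, fun σ hσ => ?_⟩
    rw [Affine.Point.map_some, Affine.Point.some.injEq]
    exact ⟨hxa σ fun μ hμ => hσ μ (by rw [pow_mul, hμ, one_pow]),
      hyb σ fun μ hμ => hσ μ (by rw [mul_comm, pow_mul, hμ, one_pow])⟩

variable {W : WeierstrassCurve ℤ} [(ratCurve W).IsElliptic]

/-- **No point of prime order is fixed by all commutators.** -/
theorem eq_zero_of_prime_of_commutators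
    (h : (FA.OpenImage.torsionAction (ratCurve W)).range.index = 2) {p : ℕ} (hp : p.Prime)
    {Q : Pts W} (hQ : p • Q = 0) (hc : ∀ σ τ : GQ, (σ * τ * σ⁻¹ * τ⁻¹) • Q = Q) : Q = 0 := by
  obtain ⟨m, hm, hfix⟩ := exists_level_point (E := ratCurve W) (P := Q) hc
  haveI : NeZero (p * m) := ⟨mul_ne_zero hp.ne_zero hm.ne'⟩
  obtain ⟨b⟩ := FA.PadicImage.nonempty_torsion_equiv W (N := p * m)
  obtain ⟨v, hv⟩ := b.surjective ⟨Q, by
    rw [Submodule.mem_torsionBy_iff, natCast_zsmul, mul_comm, mul_nsmul', hQ, nsmul_zero]⟩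
  have hvp : p • v = 0 := b.injective (Subtype.ext (by
    rw [map_nsmul, Submodule.coe_smul_of_tower, hv, map_zero]; exact hQ))
  have key : ∀ X : Matrix (Fin 2) (Fin 2) (ZMod (p * m)), X.det = 1 → ActsBy b X →
      X *ᵥ v = v := fun X hX ⟨σ, hσ⟩ => by
    refine b.injective (Subtype.ext ?_)
    rw [← hσ, hv]
    refine hfix σ fun μ hμ => ?_
    have hμ' : μ ^ (p * m) = 1 := by rw [mul_comm, pow_mul, hμ, one_pow]
    rw [smul_root_eq_pow_det b hσ hμ', hX, ZMod.val_one_eq_one_mod, ← pow_eq_pow_mod 1 hμ',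
      pow_one]
  suffices hv0 : v = 0 by
    rw [hv0, map_zero] at hv
    exact (congrArg Subtype.val hv).symm
  rcases hp.eq_two_or_odd' with rfl | hodd
  · -- an element of order three and its fourth power
    have e : (!![-1, 1; -1, 0] : Matrix (Fin 2) (Fin 2) (ZMod (2 * m))) * !![-1, 1; -1, 0] =
        !![0, -1; 1, -1] := by ext i j; fin_cases i <;> fin_cases j <;> simp
    have hfx := key _ (by simp [det_fin_two_of]) (e ▸ actsBy_sq b h
      (Y := !![0, -1; 1, -1])
      (by ext i j; fin_cases i <;> fin_cases j <;> simp)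
      (by ext i j; fin_cases i <;> fin_cases j <;> simp))
    have e0 := congrFun hfx 0
    have e1 := congrFun hfx 1
    have e2 := congrFun hvp 1
    simp [Matrix.mulVec, dotProduct, Fin.sum_univ_two] at e0 e1 e2
    have z0 : v 0 = 0 := by linear_combination e1 + e2
    funext i
    fin_cases i
    · exact z0
    · show v 1 = 0
      linear_combination -e0 - z0
  · have e : (!![0, -1; 1, 0] : Matrix (Fin 2) (Fin 2) (ZMod (p * m))) * !![0, -1; 1, 0] = -1 := by
      ext i j; fin_cases i <;> fin_cases j <;> simp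
    have hfx := key _ (by simp [det_neg]) (e ▸ actsBy_sq b h
      (Y := !![0, 1; -1, 0])
      (by ext i j; fin_cases i <;> fin_cases j <;> simp)
      (by ext i j; fin_cases i <;> fin_cases j <;> simp))
    rw [neg_mulVec, one_mulVec] at hfx
    have h2 : 2 • v = 0 := by
      rw [two_nsmul]
      nth_rw 1 [← hfx]
      exact neg_add_cancel v
    obtain ⟨k, hk⟩ := hodd
    rw [show p • v = (2 * k + 1) • v by rw [← hk], add_nsmul, one_nsmul, mul_comm 2 k,
      mul_nsmul', h2, nsmul_zero, zero_add] at hvp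
    exact hvp

/-- **No nonzero torsion point is fixed by all commutators.** -/
theorem eq_zero_of_commutators_fixed
    (h : (FA.OpenImage.torsionAction (ratCurve W)).range.index = 2) {P : Pts W}
    (hP : IsOfFinAddOrder P) (hc : ∀ σ τ : GQ, (σ * τ * σ⁻¹ * τ⁻¹) • P = P) : P = 0 := by
  by_contra hne
  obtain ⟨p, hp, k, hk⟩ :=
    Nat.exists_prime_and_dvd fun h1 => hne (AddMonoid.addOrderOf_eq_one_iff.mp h1)
  have hQ := eq_zero_of_prime_of_commutators h hp (Q := k • P)
    (by rw [← mul_nsmul', ← hk, addOrderOf_nsmul_eq_zero])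
    fun σ τ => (map_nsmul (DistribSMul.toAddMonoidHom (Pts W) (σ * τ * σ⁻¹ * τ⁻¹)) k P).trans
      (congrArg (k • ·) (hc σ τ))
  have hk0 : 0 < k := Nat.pos_of_ne_zero fun e0 => hP.addOrderOf_pos.ne' (by rw [hk, e0, mul_zero])
  have := Nat.le_of_dvd hk0 (addOrderOf_dvd_of_nsmul_eq_zero hQ)
  rw [hk] at this
  exact absurd this (not_le.mpr (lt_mul_of_one_lt_left hk0 hp.one_lt))

theorem mul_comm_of_sgn_eq_zero : ∀ M N : Matrix (Fin 2) (Fin 2) (ZMod 2),
    M.det ≠ 0 → N.det ≠ 0 → sgn M = 0 → sgn N = 0 → M * N = N * M := by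
  intro M N hM hN
  rcases FA.Two.six_cases hM with rfl | rfl | rfl | rfl | rfl | rfl <;>
    rcases FA.Two.six_cases hN with rfl | rfl | rfl | rfl | rfl | rfl <;> decide

/-- **The discriminant is not a square.** -/
theorem not_isSquare_Δ (h : (FA.OpenImage.torsionAction (ratCurve W)).range.index = 2) :
    ¬ IsSquare (W.Δ : ℚ) := fun ⟨r, hr⟩ => by
  have hs : deltaRoot W = (r : Qb) ∨ deltaRoot W = -(r : Qb) := by
    rw [← sq_eq_sq_iff_eq_or_eq_neg, FA.Two.deltaRoot_sq, ← Rat.cast_intCast, hr]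
    push_cast
    ring
  have hsgn : ∀ σ : GQ, sgn (curveRep 2 W σ) = 0 := fun σ => (sgn_eq_zero_iff σ).mpr (by
    rcases hs with e | e <;> simp [e])
  have hcomm : ∀ σ τ : GQ, curveRep 2 W (σ * τ * σ⁻¹ * τ⁻¹) = 1 := fun σ τ => by
    rw [map_mul, map_mul, map_mul, mul_comm_of_sgn_eq_zero (curveRep 2 W σ) (curveRep 2 W τ)
      (FA.Two.det_curveRep_two_ne W σ) (FA.Two.det_curveRep_two_ne W τ) (hsgn σ) (hsgn τ),
      mul_assoc (curveRep 2 W τ), ← map_mul, mul_inv_cancel, map_one, mul_one, ← map_mul,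
      mul_inv_cancel, map_one]
  obtain ⟨b⟩ := FA.PadicImage.nonempty_torsion_equiv W (N := 2)
  have hb : (b ![1, 0]).1 ≠ 0 := fun e => by
    have := congrFun (b.injective (Subtype.ext (e.trans (by rw [map_zero]; rfl))) :
      (![1, 0] : Fin 2 → ZMod 2) = 0) 0
    exact absurd this (by decide)
  refine hb (eq_zero_of_prime_of_commutators h Nat.prime_two ?_ fun σ τ =>
    congrArg Subtype.val ((curveRep_eq_one_iff W _).mp (hcomm σ τ) (b ![1, 0])))
  rw [← natCast_zsmul]
  exact (Submodule.mem_torsionBy_iff _ _).mp (b ![1, 0]).2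

/-- **An image of index two is transitive on the points of each order.** -/
theorem orbit_eq_of_index_two (h : (FA.OpenImage.torsionAction (ratCurve W)).range.index = 2)
    {x : Pts W} (hx : IsOfFinAddOrder x) :
    (Set.range fun σ : GQ => σ • x) = {y | addOrderOf y = addOrderOf x} := by
  obtain ⟨n, hn⟩ : ∃ n, addOrderOf x = n := ⟨_, rfl⟩
  rw [hn]
  haveI : NeZero n := ⟨hn ▸ hx.addOrderOf_pos.ne'⟩
  obtain ⟨e⟩ := FA.PadicImage.nonempty_torsion_equiv W (N := n)
  let H : Subgroup (GL (Fin 2) (ZMod n)) :=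
    { carrier := {g | ActsBy e g.1}
      mul_mem' := fun ha hb => actsBy_mul e ha hb
      one_mem' := ⟨1, fun v => by rw [one_smul, Units.val_one, one_mulVec]⟩
      inv_mem' := fun {a} ⟨σ, hσ⟩ => ⟨σ⁻¹, fun v => by
        rw [inv_smul_eq_iff, hσ, mulVec_mulVec, ← Units.val_mul, mul_inv_cancel, Units.val_one,
          one_mulVec]⟩ }
  have hext : ∀ g : GL (Fin 2) (ZMod n), ∃ χ : Tors W ≃ₗ[ℤ] Tors W,
      ∀ (y : Tors W) (v : Fin 2 → ZMod n), y.1 = (e v).1 → (χ y).1 = (e (g.1 *ᵥ v)).1 := fun g => by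
    obtain ⟨φ, hφ⟩ := FA.Independence.Adelic.exists_addEquiv e.symm.toAddEquiv
      (A := (g : Matrix (Fin 2) (Fin 2) (ZMod n))) ((Matrix.isUnit_iff_isUnit_det _).mp g.isUnit)
    obtain ⟨χ, hχ⟩ := exists_extend_tors W (NeZero.ne n) φ
    refine ⟨χ, fun y v hy => ?_⟩
    rw [hχ y (hy ▸ (e v).2), show (⟨y.1, hy ▸ (e v).2⟩ :
      Submodule.torsionBy ℤ ((ratCurve W)⁄Qb).Point (n : ℤ)) = e v from Subtype.ext hy, hφ]
    simp
  have hmemT : ∀ v, (e v).1 ∈ Tors W := fun v => isOfFinAddOrder_iff_nsmul_eq_zero.mpr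
    ⟨n, Nat.pos_of_ne_zero (NeZero.ne n), by
      rw [← natCast_zsmul]; exact (Submodule.mem_torsionBy_iff _ _).mp (e v).2⟩
  have hH : ∀ a c, a ∉ H → c ∉ H → a * c ∈ H := fun a c ha hc => by
    obtain ⟨χ, hχ⟩ := hext a
    obtain ⟨η, hη⟩ := hext c
    have hout : ∀ (g : GL (Fin 2) (ZMod n)) (θ : Tors W ≃ₗ[ℤ] Tors W),
        (∀ (y : Tors W) (v : Fin 2 → ZMod n), y.1 = (e v).1 → (θ y).1 = (e (g.1 *ᵥ v)).1) →
        θ ∈ (FA.OpenImage.torsionAction (ratCurve W)).range → g ∈ H :=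
      fun g θ hθ ⟨σ, hσ⟩ => ⟨σ, fun v => by
        refine Eq.trans ?_ (hθ ⟨_, hmemT v⟩ v rfl)
        exact (congrArg (fun χ : Tors W ≃ₗ[ℤ] Tors W => (χ ⟨_, hmemT v⟩).1) hσ :)⟩
    refine hout _ (χ * η) (fun y v hy => ?_) ((Subgroup.mul_mem_iff_of_index_two h).mpr
      (iff_of_false (fun hm => ha (hout a χ hχ hm)) fun hm => hc (hout c η hη hm)))
    rw [LinearEquiv.mul_apply, hχ _ _ (hη y v hy), Units.val_mul, mulVec_mulVec]
  have hmem : ∀ {y : Pts W}, addOrderOf y = n →
      y ∈ Submodule.torsionBy ℤ ((ratCurve W)⁄Qb).Point (n : ℤ) := fun {y} hy => by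
    rw [Submodule.mem_torsionBy_iff, natCast_zsmul, ← hy, addOrderOf_nsmul_eq_zero]
  have horder : ∀ y : Submodule.torsionBy ℤ ((ratCurve W)⁄Qb).Point (n : ℤ),
      addOrderOf (e.symm y) = addOrderOf y.1 := fun y =>
    (addOrderOf_injective e.symm.toAddEquiv.toAddMonoidHom e.symm.injective y).trans
      (AddSubgroup.addOrderOf_coe (H := (Submodule.torsionBy ℤ ((ratCurve W)⁄Qb).Point
        (n : ℤ)).toAddSubgroup) y).symm
  have hbase : ∀ {y}, addOrderOf y = n → ∃ σ : GQ, σ • (e ![1, 0]).1 = y := fun {y} hy => by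
    obtain ⟨g, ⟨σ, hσ⟩, hgv⟩ :=
      FA.SerreOrbit.exists_mem_mulVec H hH ((horder ⟨y, hmem hy⟩).trans hy)
    exact ⟨σ, by rw [hσ, hgv, LinearEquiv.apply_symm_apply]⟩
  refine Set.ext fun y => ⟨?_, fun hy => ?_⟩
  · rintro ⟨σ, rfl⟩
    exact (addOrderOf_injective (DistribSMul.toAddMonoidHom ((ratCurve W)⁄Qb).Point σ)
      (MulAction.injective σ) x).trans hn
  · obtain ⟨σ, hσ⟩ := hbase hn
    obtain ⟨τ, hτ⟩ := hbase hy
    exact ⟨τ * σ⁻¹, by show (τ * σ⁻¹) • x = y; rw [mul_smul, ← hσ, inv_smul_smul, hτ]⟩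

end FA.SerreCurve

end
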