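import Fermat.Agent.SerreCurve.FixedA

/-!
# Almost every member of a family with fixed `B`

For a fixed `B ≠ 0` the sieve in one variable uses the primes `q ≡ 2 (mod 3)`, modulo which every
residue is a cube: there are `q - 1` classes of `A` modulo `q²` with `q ∥ Δ` and `q ∤ A`, and for
each prime `p` one class modulo `q` is a twist of `y² = x³ - 16 x + 16`, where `q` is such that the
Frobenius on that curve has no eigenvalue modulo `p` and determinant `-1` modulo three.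
-/

set_option autoImplicit false
set_option linter.style.haveILetI false

noncomputable section

open Filter Topology IsDedekindDomain NumberField Matrix WeierstrassCurve WeierstrassCurve.Affine
  FA.EC FA.Frob FA.RT FA.AlmostAll
open scoped WeierstrassCurve.Affine

local notation "Qb" => AlgebraicClosure ℚ
local notation "GQ" => AlgebraicClosure ℚ ≃ₐ[ℚ] AlgebraicClosure ℚ

namespace FA.FixedB

/-! ### A Frobenius at a prime `≡ 2 (mod 3)` without eigenvalue -/

/-- Modulo an odd number every trace and unit determinant occur for `37a` at some large prime. -/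
theorem exists_prime_trace {n : ℕ} (hn : Odd n) (t : ZMod n) {d : ZMod n} (hd : IsUnit d)
    (F : Finset ℕ) :
    ∃ q : ℕ, q.Prime ∧ q ∉ F ∧
      ((⟨0, 0, 1, -1, ((0 : ℤ) : ℚ)⟩ : WeierstrassCurve ℚ).LFunction q : ZMod n) = t ∧
        (q : ZMod n) = d := by
  classical
  haveI : NeZero n := ⟨hn.pos.ne'⟩
  let E₀ : WeierstrassCurve ℚ := ⟨0, 0, 1, -1, ((0 : ℤ) : ℚ)⟩
  haveI : E₀.IsElliptic :=
    ⟨isUnit_iff_ne_zero.mpr (by norm_num [E₀, WeierstrassCurve.Δ, WeierstrassCurve.b₂,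
      WeierstrassCurve.b₄, WeierstrassCurve.b₆, WeierstrassCurve.b₈])⟩
  have hdens := FA.Summary.traceDistribution E₀ hn.pos.ne'
    (fun φ => FA.Summary.serreCurves_odd_torsion (k := 0) (dvd_zero _) hn φ) t d
  have hne : (Nat.card {M : GL (Fin 2) (ZMod n) // M.val.trace = t ∧ M.val.det = d} : ℝ) /
      Nat.card (GL (Fin 2) (ZMod n)) ≠ 0 := by
    have hdet : IsUnit (!![t, -d; 1, 0] : Matrix (Fin 2) (Fin 2) (ZMod n)) :=
      (Matrix.isUnit_iff_isUnit_det _).mpr (by simpa [det_fin_two_of] using hd)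
    have : Nonempty {M : GL (Fin 2) (ZMod n) // M.val.trace = t ∧ M.val.det = d} :=
      ⟨⟨hdet.unit, by simp [trace_fin_two], by simp [det_fin_two]⟩⟩
    exact div_ne_zero (Nat.cast_ne_zero.mpr Nat.card_pos.ne')
      (Nat.cast_ne_zero.mpr Nat.card_pos.ne')
  by_contra hno
  refine FA.PrimeDivisors.not_summable_of_density hdens hne (Q := ∅)
    (F := {v | Ideal.absNorm v.asIdeal ∈ F})
    ((Finset.finite_toSet _).preimage fun a _ b _ e => FA.PrimeDivisors.absNorm_injective e)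
    (fun v hv => Or.inl ?_) (by rw [Set.indicator_empty]; exact summable_zero)
  by_contra hF
  exact hno ⟨_, FA.Chebotarev.absNorm_prime v, hF, hv⟩

/-- The reduction of `y² = x³ - 16 x + 16` modulo eleven and its sixteen affine points. -/
theorem base_eleven : ((-16 : ℤ) : ZMod 11) = 6 ∧ ((16 : ℤ) : ZMod 11) = 5 ∧
    (FA.Ribet.nsPts (n := 11) 0 0 0 6 5).card = 16 := by decide

/-- Eleven is `-1` modulo three. -/
theorem eleven_mod_three : ((11 : ℕ) : ZMod 3) = -1 := by decide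

/-- `x² - x - 1` has no root modulo three. -/
theorem three_no_root : ∀ x : ZMod 3, x ^ 2 - x + -1 ≠ 0 := by decide

/-- The trace of `y² = x³ - 16 x + 16` at eleven. -/
theorem apOfModel_eleven [Fact (Nat.Prime 11)] :
    (shortInt (-16, 16)).apOfModel 11 = -5 := by
  have hred : (shortInt (-16, 16)).reductionMod 11 = ⟨0, 0, 0, 6, 5⟩ := by
    ext <;> simp [reductionMod, base_eleven.1, base_eleven.2.1, -Int.cast_neg, -Int.cast_ofNat]
  rw [FA.Ribet.apOfModel_eq_nsPts hred, base_eleven.2.2]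
  norm_num

/-- The curve `y² = x³ - 16 x + 16` is in its own twist class. -/
theorem base_mem_twistClasses {q : ℕ} (hq : q.Prime) :
    ((((-16, 16) : ℤ × ℤ).1 : ZMod q), (((-16, 16) : ℤ × ℤ).2 : ZMod q)) ∈ twistClasses q := by
  haveI := Fact.mk hq
  rw [twistClasses, dif_neg hq.ne_zero, Finset.mem_image]
  exact ⟨1, Finset.mem_erase.mpr ⟨one_ne_zero, Finset.mem_univ _⟩, by simp⟩

/-- An element of trace one without eigenvalue on the torsion of `y² = x³ - 16 x + 16` which is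
`-1` on the cube roots of unity. -/
theorem exists_base_element [Fact (Nat.Prime 3)] {p : ℕ} [hp : Fact p.Prime]
    [(ratCurve (shortInt (-16, 16))).IsElliptic] :
    ∃ (g : GQ) (d : ZMod p), (∀ x : ZMod p, x ^ 2 - x + d ≠ 0) ∧
      (curveRep p (shortInt (-16, 16)) g).trace = 1 ∧
      (curveRep p (shortInt (-16, 16)) g).det = d ∧
      (curveRep 3 (shortInt (-16, 16)) g).det = -1 := by
  classical
  -- the Frobenius at a suitable prime
  suffices h : ∃ (q : ℕ) (d : ZMod p), q.Prime ∧ q ≠ p ∧ q ≠ 3 ∧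
      (shortInt (-16, 16)).IsGoodPrimeFor q ∧ (∀ x : ZMod p, x ^ 2 - x + d ≠ 0) ∧
      ((shortInt (-16, 16)).apOfModel q : ZMod p) = 1 ∧ (q : ZMod p) = d ∧ (q : ZMod 3) = -1 by
    obtain ⟨q, d, hq, hqp, hq3, hgood, hroot, ht, hd, h3⟩ := h
    obtain ⟨A, hA⟩ := FA.Deform.exists_liesOverPrime hq
    obtain ⟨σ, hσ⟩ := FA.Deform.exists_isFrobeniusAt hq hA
    obtain ⟨e1, e2⟩ := FA.Ribet.curveRep_frobenius (p := p) hq hqp hgood hA hσ
    obtain ⟨-, e3⟩ := FA.Ribet.curveRep_frobenius (p := 3) hq hq3 hgood hA hσ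
    exact ⟨σ, d, hroot, e1.trans ht, e2.trans hd, e3.trans h3⟩
  rcases eq_or_ne p 2 with rfl | hp2
  · haveI : Fact (Nat.Prime 11) := ⟨by norm_num⟩
    refine ⟨11, 1, Fact.out, by norm_num, by norm_num, ?_, fun x => by simp, ?_, rfl, ?_⟩
    · norm_num [IsGoodPrimeFor, shortInt, WeierstrassCurve.Δ, WeierstrassCurve.b₂,
        WeierstrassCurve.b₄, WeierstrassCurve.b₆, WeierstrassCurve.b₈]
    · rw [apOfModel_eleven]; rfl
    · exact eleven_mod_three
  -- congruences modulo an odd level divisible by `p` and three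
  suffices h : ∃ (n : ℕ) (t d : ZMod n) (hpn : p ∣ n) (h3n : 3 ∣ n), Odd n ∧ IsUnit d ∧
      (ZMod.castHom hpn (ZMod p) t) = 1 ∧
      (∀ x : ZMod p, x ^ 2 - x + ZMod.castHom hpn (ZMod p) d ≠ 0) ∧
      ZMod.castHom h3n (ZMod 3) d = -1 by
    obtain ⟨n, t, d, hpn, h3n, hn, hd, ht, hroot, h3⟩ := h
    obtain ⟨q, hq, hqF, ha, hqd⟩ :=
      exists_prime_trace hn t hd ({37, p, 3} ∪ Finset.range 5)
    simp only [Finset.mem_union, Finset.mem_insert, Finset.mem_singleton, Finset.mem_range,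
      not_or, not_lt] at hqF
    obtain ⟨hgood, ha'⟩ := apOfModel_of_twistClass hq hqF.2 hqF.1.1 (base_mem_twistClasses hq)
    refine ⟨q, ZMod.castHom hpn (ZMod p) d, hq, hqF.1.2.1, hqF.1.2.2, hgood, hroot, ?_, ?_, ?_⟩
    · rw [ha', ← ht, ← ha, map_intCast]
    · rw [← hqd, map_natCast]
    · rw [← h3, ← hqd, map_natCast]
  rcases eq_or_ne p 3 with rfl | hp3
  · exact ⟨3, 1, -1, dvd_rfl, dvd_rfl, ⟨1, rfl⟩, isUnit_one.neg, map_one _,
      fun x => by rw [map_neg, map_one]; exact three_no_root x, by rw [map_neg, map_one]⟩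
  obtain ⟨d₀, hd₀, hns⟩ := FA.CharPolys.exists_nonsquare_disc (p := p) hp2
  have hco : Nat.Coprime p 3 := (Nat.coprime_primes hp.out Nat.prime_three).mpr hp3
  let e := ZMod.chineseRemainder hco
  refine ⟨p * 3, 1, e.symm (d₀, -1), dvd_mul_right p 3, dvd_mul_left 3 p,
    (hp.out.odd_of_ne_two hp2).mul ⟨1, rfl⟩, ?_, map_one _, ?_, ?_⟩
  · refine (isUnit_map_iff e _).mp ?_
    rw [e.apply_symm_apply, Prod.isUnit_iff]
    exact ⟨isUnit_iff_ne_zero.mpr hd₀, isUnit_one.neg⟩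
  · have hd : ZMod.castHom (dvd_mul_right p 3) (ZMod p) (e.symm (d₀, -1)) = d₀ := by
      rw [show ZMod.castHom (dvd_mul_right p 3) (ZMod p) =
        (RingHom.fst (ZMod p) (ZMod 3)).comp e.toRingHom from RingHom.ext_zmod _ _]
      simp
    rw [hd]
    exact fun x hx => hns ⟨2 * x - 1, by linear_combination -4 * hx⟩
  · rw [show ZMod.castHom (dvd_mul_left 3 p) (ZMod 3) =
      (RingHom.snd (ZMod p) (ZMod 3)).comp e.toRingHom from RingHom.ext_zmod _ _]
    simp

/-- Modulo a prime `≡ 2 (mod 3)` every residue is a cube. -/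
theorem exists_cube_root {q : ℕ} [hq : Fact q.Prime] (h : q % 3 = 2) (x : ZMod q) :
    ∃ s : ZMod q, s ^ 3 = x := by
  rcases eq_or_ne x 0 with rfl | hx
  · exact ⟨0, by simp⟩
  refine ⟨x ^ (2 * (q / 3) + 1), ?_⟩
  rw [← pow_mul, show (2 * (q / 3) + 1) * 3 = q + (q - 1) by omega, pow_add, ZMod.pow_card,
    ZMod.pow_card_sub_one_eq_one hx, mul_one]

/-- The residue of a prime modulo three, from its cast. -/
theorem mod_three_of_cast {q : ℕ} (h : (q : ZMod 3) = -1) : q % 3 = 2 := by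
  have h' : (q : ZMod 3) = ((2 : ℕ) : ZMod 3) := h.trans (by decide)
  exact (ZMod.natCast_eq_natCast_iff' _ _ _).mp h'

/-- **For each prime, one class of `A` at each of divergently many primes** `q ≡ 2 (mod 3)` has a
Frobenius without eigenvalue. -/
theorem not_summable_irrFrob {B : ℤ} (hB : B ≠ 0) {p : ℕ} (hp : p.Prime) (F : Finset ℕ) :
    ¬ Summable ({q : ℕ | (q.Prime ∧ 5 ≤ q) ∧ q ∉ F ∧ q % 3 = 2 ∧
      ∃ a : ℤ, ∀ A : ℤ, (A : ZMod q) = a → IrrFrob p (A, B)}.indicator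
      fun n : ℕ => (1 : ℝ) / n) := by
  classical
  haveI := Fact.mk hp
  haveI : Fact (Nat.Prime 3) := ⟨Nat.prime_three⟩
  haveI : (ratCurve (shortInt (-16, 16))).IsElliptic := ratCurve_isElliptic_of_Δ (by
    norm_num [shortInt, WeierstrassCurve.Δ, WeierstrassCurve.b₂, WeierstrassCurve.b₄,
      WeierstrassCurve.b₆, WeierstrassCurve.b₈])
  set W₀ := shortInt (-16, 16) with hW₀
  obtain ⟨g, d, hroot, ht, hd, hd3⟩ := exists_base_element (p := p)
  refine FA.FixedA.not_summable_class (N := (curveRep p W₀).ker ⊓ (curveRep 3 W₀).ker)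
    (by rw [Subgroup.coe_inf]; exact (isOpen_ker_curveRep W₀).inter (isOpen_ker_curveRep W₀)) g
    (F ∪ insert 37 (insert p (Finset.range 5)) ∪ B.natAbs.primeFactors)
    fun q hq hqF V hV σ hσ c hc => ?_
  simp only [Finset.mem_union, Finset.mem_insert, Finset.mem_range, not_or, not_lt,
    Nat.mem_primeFactors, not_and] at hqF
  obtain ⟨⟨hqF', h37, hqp, h5⟩, hqB⟩ := hqF
  haveI := Fact.mk hq
  have hB0 : (B : ZMod q) ≠ 0 := fun e => hqB hq
    (Int.natCast_dvd.mp ((ZMod.intCast_zmod_eq_zero_iff_dvd _ q).mp e)) (Int.natAbs_ne_zero.mpr hB)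
  obtain ⟨hcp, hc3⟩ := Subgroup.mem_inf.mp hc
  -- the Frobenius on the base curve
  obtain ⟨hgood₀, -⟩ := apOfModel_of_twistClass hq h5 h37 (base_mem_twistClasses hq)
  have hconj : ∀ (l : ℕ) [Fact l.Prime], (c * g * c⁻¹)⁻¹ * σ ∈ (curveRep l W₀).ker →
      (curveRep l W₀ σ).trace = (curveRep l W₀ g).trace ∧
        (curveRep l W₀ σ).det = (curveRep l W₀ g).det := fun l _ hl => by
    have hσM : curveRep l W₀ σ = curveRep l W₀ c * curveRep l W₀ g * curveRep l W₀ c⁻¹ := by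
      conv_lhs => rw [← mul_inv_cancel_left (c * g * c⁻¹) σ]
      simp only [map_mul, MonoidHom.mem_ker.mp hl, mul_one]
    have hcc : curveRep l W₀ c⁻¹ * curveRep l W₀ c = 1 := by
      rw [← map_mul, inv_mul_cancel, map_one]
    refine ⟨by rw [hσM, Matrix.trace_mul_cycle, hcc, one_mul], ?_⟩
    rw [hσM, det_mul, det_mul, mul_right_comm, ← det_mul, mul_eq_one_comm.mp hcc, det_one,
      one_mul]
  obtain ⟨e1, e2⟩ := FA.Ribet.curveRep_frobenius (p := p) hq hqp hgood₀ hV hσ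
  obtain ⟨-, e3⟩ := FA.Ribet.curveRep_frobenius (p := 3) hq (by omega) hgood₀ hV hσ
  have htr : (W₀.apOfModel q : ZMod p) = 1 := by rw [← e1, (hconj p hcp).1, ht]
  have hqd : (q : ZMod p) = d := by rw [← e2, (hconj p hcp).2, hd]
  have hq3 : q % 3 = 2 := mod_three_of_cast (by rw [← e3, (hconj 3 hc3).2, hd3])
  -- the twist with the given `B`
  have h2 : (2 : ZMod q) ≠ 0 := fun e => by
    have := Nat.le_of_dvd two_pos ((ZMod.natCast_eq_zero_iff 2 q).mp (by exact_mod_cast e))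
    omega
  have h16 : ((16 : ℤ) : ZMod q) ≠ 0 := by
    rw [show (16 : ℤ) = 2 ^ 4 by norm_num, Int.cast_pow, Int.cast_ofNat]
    exact pow_ne_zero 4 h2
  obtain ⟨s, hs⟩ := exists_cube_root hq3 ((B : ZMod q) / ((16 : ℤ) : ZMod q))
  have hs0 : s ≠ 0 := fun e => div_ne_zero hB0 h16 (by rw [← hs, e]; simp)
  obtain ⟨a, ha⟩ := ZMod.intCast_surjective (s ^ 2 * ((-16 : ℤ) : ZMod q))
  refine ⟨⟨hq, h5⟩, hqF', hq3, a, fun A hA => ?_⟩
  obtain ⟨hgood, hap⟩ := FA.FixedA.apOfModel_sq_twist h5 (AB := (A, B)) (AB' := (-16, 16)) hs0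
    (hA.trans ha) (by rw [hs, div_mul_cancel₀ _ h16]) hgood₀
  refine ⟨((shortInt (A, B)).apOfModel q : ZMod p), d, fun z hz => ?_, q, hq, hqp, hgood, rfl, hqd⟩
  rcases hap with e | e <;> rw [e] at hz
  · rw [htr] at hz
    exact hroot z (by linear_combination hz)
  · rw [Int.cast_neg, htr] at hz
    exact hroot (-z) (by linear_combination hz)

/-! ### The transvection classes -/

/-- The classes of the `A` modulo `q²` with `q ∥ Δ` and `q ∤ A` for the given `B`. -/
def lineTrans (B : ℤ) (q : ℕ) : Finset (ZMod (q ^ 2)) :=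
  if h : q = 0 then ∅ else
    have : NeZero (q ^ 2) := ⟨pow_ne_zero 2 h⟩
    Finset.univ.filter fun a => (a, (B : ZMod (q ^ 2))) ∈ transClasses q

theorem mem_lineTrans {B : ℤ} {q : ℕ} (hq : q ≠ 0) {x : ZMod (q ^ 2)} :
    x ∈ lineTrans B q ↔ (x, (B : ZMod (q ^ 2))) ∈ transClasses q := by
  haveI : NeZero (q ^ 2) := ⟨pow_ne_zero 2 hq⟩
  simp [lineTrans, hq]

/-- There are `q - 1` such classes when `q ≡ 2 (mod 3)` does not divide `B`. -/
theorem card_lineTrans {B : ℤ} {q : ℕ} (hq : q.Prime) (h5 : 5 ≤ q) (hB : ¬ (q : ℤ) ∣ B)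
    (h3q : q % 3 = 2) :
    q ≤ 2 * (lineTrans B q).card := by
  classical
  haveI := Fact.mk hq
  haveI : NeZero (q ^ 2) := ⟨pow_ne_zero 2 hq.ne_zero⟩
  have h3 : (3 : ZMod q) ≠ 0 := fun e => by
    have := Nat.le_of_dvd three_pos ((ZMod.natCast_eq_zero_iff 3 q).mp (by exact_mod_cast e))
    omega
  have h2 : (2 : ZMod q) ≠ 0 := fun e => by
    have := Nat.le_of_dvd two_pos ((ZMod.natCast_eq_zero_iff 2 q).mp (by exact_mod_cast e))
    omega
  have h4 : (4 : ZMod q) ≠ 0 := by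
    rw [show (4 : ZMod q) = 2 * 2 by norm_num]; exact mul_ne_zero h2 h2
  have h27 : (27 : ZMod q) ≠ 0 := by
    rw [show (27 : ZMod q) = 3 ^ 3 by norm_num]; exact pow_ne_zero 3 h3
  have hB0 : (B : ZMod q) ≠ 0 := fun e => hB ((ZMod.intCast_zmod_eq_zero_iff_dvd _ q).mp e)
  obtain ⟨r, hr⟩ := exists_cube_root h3q (-27 * (B : ZMod q) ^ 2 / 4)
  have hr0 : r ≠ 0 := fun e => div_ne_zero (mul_ne_zero (neg_ne_zero.mpr h27) (pow_ne_zero 2 hB0))
    h4 (by rw [← hr, e]; simp)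
  obtain ⟨A₁, hA₁⟩ := ZMod.intCast_surjective r
  rw [eq_div_iff h4] at hr
  obtain ⟨k, hk⟩ : (q : ℤ) ∣ 4 * A₁ ^ 3 + 27 * B ^ 2 := by
    rw [← ZMod.intCast_zmod_eq_zero_iff_dvd]
    push_cast
    rw [hA₁]
    linear_combination hr
  set u : ZMod q := 12 * (A₁ : ZMod q) ^ 2 with hudef
  have hu : u ≠ 0 := by
    rw [hudef, hA₁, show (12 : ZMod q) = 3 * 4 by norm_num]
    exact mul_ne_zero (mul_ne_zero h3 h4) (pow_ne_zero 2 hr0)
  set E := Finset.univ.filter fun e : ZMod q => (k : ZMod q) + u * e ≠ 0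
  have hE : q - 1 ≤ E.card := by
    refine le_trans (le_of_eq ?_) (Finset.card_le_card (s := Finset.univ.erase (-(k : ZMod q) / u))
      fun e he => Finset.mem_filter.mpr ⟨Finset.mem_univ _, fun h0 =>
        Finset.ne_of_mem_erase he ?_⟩)
    · rw [Finset.card_erase_of_mem (Finset.mem_univ _), Finset.card_univ, ZMod.card]
    · rw [eq_div_iff hu]
      linear_combination h0
  let f : ZMod q → ZMod (q ^ 2) := fun e => ((A₁ + q * (e.val : ℤ) : ℤ) : ZMod (q ^ 2))
  have hf : Function.Injective f := fun e e' h => by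
    have h' := (ZMod.intCast_eq_intCast_iff_dvd_sub _ _ _).mp h
    rw [show A₁ + q * (e'.val : ℤ) - (A₁ + q * (e.val : ℤ)) =
      (q : ℤ) * ((e'.val : ℤ) - e.val) by ring, Nat.cast_pow, sq] at h'
    have h'' := (ZMod.intCast_eq_intCast_iff_dvd_sub _ _ q).mpr
      (Int.dvd_of_mul_dvd_mul_left (Int.natCast_ne_zero.mpr hq.ne_zero) h')
    simpa using h''
  have hmem : ∀ e ∈ E, f e ∈ lineTrans B q := fun e he => by
    rw [mem_lineTrans hq.ne_zero, transClasses, dif_neg hq.ne_zero, Finset.mem_filter]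
    refine ⟨Finset.mem_univ _, ?_, fun h0 => (Finset.mem_filter.mp he).2 ?_, ?_⟩
    · simp only [f, map_add, map_mul, map_pow, map_intCast, map_ofNat]
      push_cast
      rw [ZMod.natCast_self, zero_mul, add_zero, hA₁]
      linear_combination hr
    · simp only [f] at h0
      have h1 : ((4 * (A₁ + q * (e.val : ℤ)) ^ 3 + 27 * B ^ 2 : ℤ) : ZMod (q ^ 2)) = 0 := by
        push_cast at h0 ⊢
        exact h0
      rw [ZMod.intCast_zmod_eq_zero_iff_dvd, show 4 * (A₁ + q * (e.val : ℤ)) ^ 3 + 27 * B ^ 2 =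
        (q : ℤ) * (k + 12 * A₁ ^ 2 * e.val +
          q * (12 * A₁ * (e.val : ℤ) ^ 2 + 4 * q * (e.val : ℤ) ^ 3)) by linear_combination hk,
        Nat.cast_pow, sq] at h1
      have h2 := (ZMod.intCast_zmod_eq_zero_iff_dvd _ q).mpr
        (Int.dvd_of_mul_dvd_mul_left (Int.natCast_ne_zero.mpr hq.ne_zero) h1)
      push_cast at h2
      rw [ZMod.natCast_self, ZMod.natCast_zmod_val] at h2
      rw [hudef]
      linear_combination h2
    · simp only [f, map_intCast]
      push_cast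
      rw [ZMod.natCast_self, zero_mul, add_zero, hA₁]
      exact hr0
  have := hE.trans (Finset.card_le_card_of_injOn f hmem hf.injOn)
  omega

/-- Some class of `A` modulo `q` has good reduction at `q`. -/
theorem exists_goodClass (B : ℤ) {q : ℕ} (hq : q.Prime) (h5 : 5 ≤ q) :
    ∃ a : ℤ, ∀ A : ℤ, (A : ZMod q) = a → ¬ (q : ℤ) ∣ (shortInt (A, B)).Δ := by
  haveI := Fact.mk hq
  have hne : ∀ k : ℕ, 0 < k → k < 5 → (k : ZMod q) ≠ 0 := fun k hk hk5 h => by
    have := Nat.le_of_dvd hk ((ZMod.natCast_eq_zero_iff k q).mp h)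
    omega
  have h2 : (2 : ZMod q) ≠ 0 := by exact_mod_cast hne 2 (by norm_num) (by norm_num)
  have h3 : (3 : ZMod q) ≠ 0 := by exact_mod_cast hne 3 (by norm_num) (by norm_num)
  by_cases hB : (q : ℤ) ∣ B
  · refine ⟨1, fun A hA hd => ?_⟩
    rw [← ZMod.intCast_zmod_eq_zero_iff_dvd] at hd hB
    simp only [WeierstrassCurve.Δ, WeierstrassCurve.b₂, WeierstrassCurve.b₄, WeierstrassCurve.b₆,
      WeierstrassCurve.b₈] at hd
    push_cast at hd hA
    rw [hA, hB] at hd
    refine pow_ne_zero 6 h2 ?_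
    linear_combination -hd
  · refine ⟨0, fun A hA hd => hB ?_⟩
    rw [← ZMod.intCast_zmod_eq_zero_iff_dvd] at hd ⊢
    simp only [WeierstrassCurve.Δ, WeierstrassCurve.b₂, WeierstrassCurve.b₄, WeierstrassCurve.b₆,
      WeierstrassCurve.b₈] at hd
    push_cast at hd hA
    rw [hA] at hd
    by_contra hB0
    refine mul_ne_zero (mul_ne_zero (pow_ne_zero 4 h2) (pow_ne_zero 3 h3)) (pow_ne_zero 2 hB0) ?_
    linear_combination -hd

/-- **Almost every member of the family is generic.** -/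
theorem tendsto_of_generic_line {B : ℤ} (hB : B ≠ 0) (bad : ℤ → Prop)
    (h : ∀ A : ℤ, ∀ [(shortRat (A, B)).IsElliptic] [(ratCurve (shortInt (A, B))).IsElliptic],
      Generic (A, B) → ¬ bad A) :
    Tendsto (fun Y : ℕ => (Set.ncard {A : ℤ | |A| ≤ Y ∧ 4 * A ^ 3 + 27 * B ^ 2 ≠ 0 ∧ bad A} : ℝ) /
      (2 * Y + 1)) atTop (𝓝 0) := by
  refine FA.OneParameter.tendsto_of_generic (fun A => (A, B)) (fun q => exists_goodClass B)
    (fun p hp => ?_)
    (C := B.natAbs) (fun A p hp hlt hd => ?_)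
    {q | (q.Prime ∧ 5 ≤ q) ∧ ¬ (q : ℤ) ∣ B ∧ q % 3 = 2} (fun F hs => ?_)
    (lineTrans B) (fun q hq => ⟨hq.1, card_lineTrans hq.1.1 hq.1.2 hq.2.1 hq.2.2, fun A hA =>
      trans_of_mem hq.1.1 hq.1.2 (AB := (A, B)) ((mem_lineTrans hq.1.1.ne_zero).mp hA)⟩) bad h
  · intro hs
    refine not_summable_irrFrob hB hp ∅ (hs.of_nonneg_of_le (fun n => ?_) fun n => ?_)
    · exact Set.indicator_nonneg (fun i _ => by positivity) n
    · refine Set.indicator_le_indicator_of_subset (fun q hq => ?_) (fun i => by positivity) n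
      exact ⟨hq.1.1, hq.2.2.2⟩
  · have := Nat.le_of_dvd (Int.natAbs_pos.mpr hB) (Int.natCast_dvd.mp hd.2)
    omega
  · refine not_summable_irrFrob hB Nat.prime_three (F ∪ B.natAbs.primeFactors)
      (hs.of_nonneg_of_le (fun n => ?_) fun n => ?_)
    · exact Set.indicator_nonneg (fun i _ => by positivity) n
    · refine Set.indicator_le_indicator_of_subset (fun q hq => ?_) (fun i => by positivity) n
      exact ⟨⟨hq.1, fun hd => hq.2.1 (Finset.mem_union_right _ (Nat.mem_primeFactors.mpr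
        ⟨hq.1.1, Int.natCast_dvd.mp hd, Int.natAbs_ne_zero.mpr hB⟩)), hq.2.2.1⟩,
        fun hF => hq.2.1 (Finset.mem_union_left _ hF)⟩

end FA.FixedB

end
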