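import Fermat.Agent.SerreCurve.IndexTwoLevel

/-!
# Serre's character

In coordinates for `E[N]`, `N` even, let the sign of an automorphism be that of its permutation of
`E[2]`. If the square root `s` of the discriminant is fixed by what fixes the `N`-th roots of unity,
the sign of an element of Galois is read off from its determinant, so the product of the sign of an
automorphism and the sign belonging to its determinant is a character onto a group of order two,
trivial on Galois.
-/

set_option autoImplicit false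
set_option linter.style.haveILetI false
set_option linter.unusedSectionVars false

noncomputable section

open Matrix WeierstrassCurve WeierstrassCurve.Affine FA.EC FA.Frob FA.RT
open FA.RT.Tate (Pts)
open FA.Two (deltaRoot sgn)
open FA.Independence.Family (upMat)
open scoped WeierstrassCurve.Affine

local notation "Qb" => AlgebraicClosure ℚ
local notation "GQ" => AlgebraicClosure ℚ ≃ₐ[ℚ] AlgebraicClosure ℚ

namespace FA.SerreCurve

theorem sgn_eq_zero_cube : ∀ M : Matrix (Fin 2) (Fin 2) (ZMod 2), M.det ≠ 0 → sgn M = 0 →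
    M * M * M = 1 := by
  intro M hM
  rcases FA.Two.six_cases hM with rfl | rfl | rfl | rfl | rfl | rfl <;> decide

theorem sgn_ne_zero_sq : ∀ M : Matrix (Fin 2) (Fin 2) (ZMod 2), M.det ≠ 0 → sgn M ≠ 0 →
    M ≠ 1 ∧ M * M = 1 := by
  intro M hM
  rcases FA.Two.six_cases hM with rfl | rfl | rfl | rfl | rfl | rfl <;> decide

theorem sgn_upMat_one : sgn (!![1, 1; 0, 1] : Matrix (Fin 2) (Fin 2) (ZMod 2)) = 1 := by decide

variable {W : WeierstrassCurve ℤ} [(ratCurve W).IsElliptic] {N : ℕ} [NeZero N]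

/-- The automorphisms of the `N`-torsion. -/
abbrev AutTors (W : WeierstrassCurve ℤ) [(ratCurve W).IsElliptic] (N : ℕ) :=
  Submodule.torsionBy ℤ ((ratCurve W)⁄Qb).Point (N : ℤ) ≃ₗ[ℤ]
    Submodule.torsionBy ℤ ((ratCurve W)⁄Qb).Point (N : ℤ)

section Coordinates

variable (b : (Fin 2 → ZMod N) ≃ₗ[ZMod N] Submodule.torsionBy ℤ ((ratCurve W)⁄Qb).Point (N : ℤ))

/-- The matrix of an automorphism of `E[N]`. -/
def autMat (θ : AutTors W N) : Matrix (Fin 2) (Fin 2) (ZMod N) :=
  LinearMap.toMatrix'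
    (((b.symm.toAddEquiv.toAddMonoidHom.comp θ.toAddEquiv.toAddMonoidHom).comp
      b.toAddEquiv.toAddMonoidHom).toZModLinearMap N)

theorem autMat_spec (θ : AutTors W N) (v : Fin 2 → ZMod N) : b (autMat b θ *ᵥ v) = θ (b v) := by
  rw [autMat, LinearMap.toMatrix'_mulVec]
  exact b.apply_symm_apply _

theorem autMat_unique {θ : AutTors W N} {X : Matrix (Fin 2) (Fin 2) (ZMod N)}
    (h : ∀ v, b (X *ᵥ v) = θ (b v)) : autMat b θ = X :=
  Matrix.ext_of_mulVec_single fun i => b.injective ((autMat_spec b θ _).trans (h _).symm)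

theorem autMat_one : autMat b 1 = 1 := autMat_unique b fun v => by rw [one_mulVec]; rfl

theorem autMat_mul (θ η : AutTors W N) : autMat b (θ * η) = autMat b θ * autMat b η :=
  autMat_unique b fun v => by
    rw [← mulVec_mulVec, autMat_spec, autMat_spec]; rfl

/-- The automorphisms of `E[N]` as invertible matrices. -/
def autGL : AutTors W N →* GL (Fin 2) (ZMod N) :=
  ({ toFun := autMat b, map_one' := autMat_one b, map_mul' := autMat_mul b } :
    AutTors W N →* Matrix (Fin 2) (Fin 2) (ZMod N)).toHomUnits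

theorem autGL_bijective : Function.Bijective (autGL b) := by
  refine ⟨fun θ η h => LinearEquiv.ext fun x => ?_, fun g => ?_⟩
  · obtain ⟨v, rfl⟩ := b.surjective x
    rw [← autMat_spec, ← autMat_spec,
      show autMat b θ = autMat b η from congrArg Units.val h]
  · let e : (Fin 2 → ZMod N) ≃+ (Fin 2 → ZMod N) :=
      { toFun := fun v => g.1 *ᵥ v
        invFun := fun v => g⁻¹.1 *ᵥ v
        left_inv := fun v => by
          show g⁻¹.1 *ᵥ (g.1 *ᵥ v) = v
          rw [mulVec_mulVec, Units.inv_mul, one_mulVec]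
        right_inv := fun v => by
          show g.1 *ᵥ (g⁻¹.1 *ᵥ v) = v
          rw [mulVec_mulVec, Units.mul_inv, one_mulVec]
        map_add' := fun v w => mulVec_add _ v w }
    refine ⟨((b.toAddEquiv.symm.trans e).trans b.toAddEquiv).toIntLinearEquiv,
      Units.ext (autMat_unique b fun v => ?_)⟩
    show b (g.1 *ᵥ v) = b (g.1 *ᵥ b.symm (b v))
    rw [LinearEquiv.symm_apply_apply]

include b in
/-- The number of automorphisms of `E[N]`. -/
theorem natCard_autTors : Nat.card (AutTors W N) = Nat.card (GL (Fin 2) (ZMod N)) :=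
  Nat.card_eq_of_bijective _ (autGL_bijective b)

variable (h2 : 2 ∣ N)

/-- The sign of a matrix: that of its permutation of `E[2]`. -/
def signTwo (X : Matrix (Fin 2) (Fin 2) (ZMod N)) : ZMod 2 :=
  sgn (X.map (ZMod.castHom h2 (ZMod 2)))

theorem det_map_two_ne {X : Matrix (Fin 2) (Fin 2) (ZMod N)} (hX : IsUnit X.det) :
    (X.map (ZMod.castHom h2 (ZMod 2))).det ≠ 0 := by
  rw [← RingHom.mapMatrix_apply, ← RingHom.map_det]
  exact (hX.map _).ne_zero

theorem signTwo_mul {X Y : Matrix (Fin 2) (Fin 2) (ZMod N)} (hX : IsUnit X.det)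
    (hY : IsUnit Y.det) : signTwo h2 (X * Y) = signTwo h2 X + signTwo h2 Y := by
  rw [signTwo, Matrix.map_mul]
  exact FA.Two.sgn_mul_of_det (det_map_two_ne h2 hX) (det_map_two_ne h2 hY)

/-- Acting trivially on `E[2]` is being one modulo two. -/
theorem fix_two_iff {σ : GQ} {A : Matrix (Fin 2) (Fin 2) (ZMod N)}
    (hσ : ∀ v, σ • (b v).1 = (b (A *ᵥ v)).1) :
    (∀ x : Pts W, 2 • x = 0 → σ • x = x) ↔ A.map (ZMod.castHom h2 (ZMod 2)) = 1 := by
  obtain ⟨c, hc⟩ := id h2
  have hc0 : c ≠ 0 := fun e => NeZero.ne N (by rw [hc, e, mul_zero])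
  set π := ZMod.castHom h2 (ZMod 2)
  have hdvd : ∀ k : ℕ, N ∣ c * k ↔ 2 ∣ k := fun k => by
    rw [hc, mul_comm 2 c, Nat.mul_dvd_mul_iff_left (Nat.pos_of_ne_zero hc0)]
  have hdvd' : ∀ k : ℕ, N ∣ 2 * k ↔ c ∣ k := fun k => by
    rw [hc, Nat.mul_dvd_mul_iff_left two_pos]
  have hπ : ∀ z : ZMod N, (c : ZMod N) * z = 0 ↔ π z = 0 := fun z => by
    conv_lhs => rw [← ZMod.natCast_zmod_val z, ← Nat.cast_mul, ZMod.natCast_eq_zero_iff, hdvd]
    conv_rhs => rw [← ZMod.natCast_zmod_val z, map_natCast, ZMod.natCast_eq_zero_iff]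
  constructor
  · intro h
    ext i j
    have h1 := congrFun (b.injective (Subtype.ext ((hσ ((c : ZMod N) • Pi.single j 1)).symm.trans
      (h _ (by
        rw [← Submodule.coe_smul_of_tower, ← map_nsmul, ← Nat.cast_smul_eq_nsmul (ZMod N),
          smul_smul, ← Nat.cast_mul, ← hc, ZMod.natCast_self, zero_smul, map_zero,
          Submodule.coe_zero]))))) i
    rw [mulVec_smul, mulVec_single_one, Pi.smul_apply, Pi.smul_apply, col_apply, smul_eq_mul,
      smul_eq_mul, ← sub_eq_zero, ← mul_sub, hπ, map_sub, sub_eq_zero] at h1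
    rw [Matrix.map_apply, h1, Matrix.one_apply, Pi.single_apply]
    split_ifs <;> simp
  · intro h x hx
    obtain ⟨v, hv⟩ := b.surjective ⟨x, by
      rw [Submodule.mem_torsionBy_iff, natCast_zsmul, hc, mul_comm, mul_nsmul', hx, nsmul_zero]⟩
    have hv2 : 2 • v = 0 := b.injective (Subtype.ext (by
      rw [map_nsmul, Submodule.coe_smul_of_tower, hv, map_zero]; exact hx))
    have hvc : ∀ i, ∃ w : ZMod N, v i = (c : ZMod N) * w := fun i => by
      have h' := congrFun hv2 i
      rw [Pi.smul_apply, Pi.zero_apply, nsmul_eq_mul, ← ZMod.natCast_zmod_val (v i),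
        ← Nat.cast_mul, ZMod.natCast_eq_zero_iff, hdvd'] at h'
      obtain ⟨w, hw⟩ := h'
      exact ⟨(w : ZMod N), by rw [← Nat.cast_mul, ← hw, ZMod.natCast_zmod_val]⟩
    choose w hw using hvc
    have hvw : v = (c : ZMod N) • w := funext fun i => by
      rw [hw, Pi.smul_apply, smul_eq_mul]
    rw [show x = (b v).1 by rw [hv], hσ]
    refine congrArg (fun v => (b v).1) (funext fun i => sub_eq_zero.mp ?_)
    rw [hvw, mulVec_smul, Pi.smul_apply, Pi.smul_apply, smul_eq_mul, smul_eq_mul, ← mul_sub, hπ,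
      map_sub, sub_eq_zero, RingHom.map_mulVec, h, one_mulVec]
    rfl

/-- **The sign of an element of Galois tells what it does to `√Δ`.** -/
theorem signTwo_eq_zero_iff {σ : GQ} {A : Matrix (Fin 2) (Fin 2) (ZMod N)}
    (hσ : ∀ v, σ • (b v).1 = (b (A *ᵥ v)).1) (hA : IsUnit A.det) :
    signTwo h2 A = 0 ↔ σ (deltaRoot W) = deltaRoot W := by
  set M := A.map (ZMod.castHom h2 (ZMod 2)) with hM
  have hd : M.det ≠ 0 := det_map_two_ne h2 hA
  have hpow : ∀ v, (σ * σ) • (b v).1 = (b ((A * A) *ᵥ v)).1 := fun v => by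
    rw [mul_smul, hσ, hσ, mulVec_mulVec]
  have hcube : ∀ v, (σ * σ * σ) • (b v).1 = (b ((A * A * A) *ᵥ v)).1 := fun v => by
    rw [mul_smul, hσ, hpow, mulVec_mulVec]
  constructor
  · intro hs
    have h3 := deltaRoot_of_fix_two ((fix_two_iff b h2 hcube).mpr (by
      rw [Matrix.map_mul, Matrix.map_mul]; exact sgn_eq_zero_cube M hd hs))
    refine (apply_deltaRoot_cases (W := W) σ).resolve_right fun hneg => ?_
    rw [AlgEquiv.mul_apply, AlgEquiv.mul_apply, hneg, map_neg, hneg, neg_neg, hneg] at h3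
    exact neg_ne_self.mpr deltaRoot_ne_zero h3
  · intro hfix
    by_contra hs
    obtain ⟨h1, hsq⟩ := sgn_ne_zero_sq M hd hs
    rw [ne_eq, ← fix_two_iff b h2 hσ] at h1
    push Not at h1
    obtain ⟨x₀, hx₀, hne⟩ := h1
    have hneg := deltaRoot_of_involution (fun x hx => by
      rw [← mul_smul]
      exact (fix_two_iff b h2 hpow).mpr (by rw [Matrix.map_mul]; exact hsq) x hx) hx₀ hne
    exact neg_ne_self.mpr deltaRoot_ne_zero (hneg.symm.trans hfix)

/-- Elements of Galois with equal determinant on `E[N]` have equal signs. -/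
theorem signTwo_congr (hlev : IsLevel (deltaRoot W) N) {A A' : Matrix (Fin 2) (Fin 2) (ZMod N)}
    (hA : ActsBy b A) (hA' : ActsBy b A') (hu : IsUnit A.det) (hdet : A'.det = A.det) :
    signTwo h2 A' = signTwo h2 A := by
  obtain ⟨σ, hσ⟩ := hA
  obtain ⟨τ, hτ⟩ := hA'
  have h := hlev (σ⁻¹ * τ) fun μ hμ => by
    rw [AlgEquiv.mul_apply, smul_root_eq_pow_det b hτ hμ, hdet, ← smul_root_eq_pow_det b hσ hμ,
      ← AlgEquiv.mul_apply, inv_mul_cancel, AlgEquiv.one_apply]
  rw [AlgEquiv.mul_apply, AlgEquiv.aut_inv, AlgEquiv.symm_apply_eq] at h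
  have e := signTwo_eq_zero_iff b h2 hσ hu
  have e' := signTwo_eq_zero_iff b h2 hτ (hdet ▸ hu)
  rw [h] at e'
  have hmain : signTwo h2 A' = 0 ↔ signTwo h2 A = 0 := by
    rw [e', e]
  revert hmain
  generalize signTwo h2 A' = s
  generalize signTwo h2 A = t
  revert s t
  decide

include b h2 in
/-- **The character**: `0` on Galois and not identically `0`. -/
theorem exists_character (hlev : IsLevel (deltaRoot W) N) :
    ∃ χ : AutTors W N →* Multiplicative (ZMod 2), Function.Surjective χ ∧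
      ∀ σ : GQ, χ (levelAction (ratCurve W) N σ) = 1 := by
  choose A hA hact using fun u : (ZMod N)ˣ => exists_actsBy_det b u
  have hu : ∀ θ : AutTors W N, IsUnit (autMat b θ).det := fun θ =>
    (Matrix.isUnit_iff_isUnit_det _).mp (autGL b θ).isUnit
  have hAu : ∀ u, IsUnit (A u).det := fun u => (hA u).symm ▸ u.isUnit
  let f : AutTors W N → ZMod 2 := fun θ =>
    signTwo h2 (autMat b θ) + signTwo h2 (A (hu θ).unit)
  have hf : ∀ θ η, f (θ * η) = f θ + f η := fun θ η => by
    have e : signTwo h2 (A (hu (θ * η)).unit) =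
        signTwo h2 (A (hu θ).unit * A (hu η).unit) :=
      signTwo_congr b h2 hlev (actsBy_mul b (hact _) (hact _)) (hact _)
        (by rw [det_mul]; exact (hAu _).mul (hAu _))
        (by rw [det_mul, hA, hA, hA, IsUnit.unit_spec, IsUnit.unit_spec, IsUnit.unit_spec,
          autMat_mul, det_mul])
    simp only [f]
    rw [e, autMat_mul, signTwo_mul h2 (hu θ) (hu η), signTwo_mul h2 (hAu _) (hAu _)]
    abel
  have hf1 : f 1 = 0 := by
    have h := hf 1 1
    rw [mul_one] at h
    exact left_eq_add.mp h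
  refine ⟨{ toFun := fun θ => Multiplicative.ofAdd (f θ), map_one' := by rw [hf1]; rfl,
            map_mul' := fun θ η => by rw [hf]; rfl }, fun y => ?_, fun σ => ?_⟩
  · have hone : ∀ z : ZMod 2, z = 0 ∨ z = 1 := by decide
    rcases hone y.toAdd with h0 | h1
    · exact ⟨1, Multiplicative.toAdd.injective (by rw [h0]; exact hf1)⟩
    obtain ⟨θ, hθ⟩ := (autGL_bijective b).2 ⟨upMat 1, upMat (-1),
      by ext i j; fin_cases i <;> fin_cases j <;> simp [upMat, Matrix.mul_apply, Fin.sum_univ_two],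
      by ext i j; fin_cases i <;> fin_cases j <;> simp [upMat, Matrix.mul_apply, Fin.sum_univ_two]⟩
    have hm : autMat b θ = upMat 1 := congrArg Units.val hθ
    refine ⟨θ, Multiplicative.toAdd.injective ?_⟩
    show f θ = y.toAdd
    rw [h1]
    simp only [f]
    have hdet : (autMat b θ).det = 1 := by rw [hm]; simp [upMat, det_fin_two]
    rw [signTwo_congr b h2 hlev (A := 1) ⟨1, fun v => by rw [one_smul, one_mulVec]⟩ (hact _)
      (by rw [det_one]; exact isUnit_one) (by rw [hA, IsUnit.unit_spec, hdet, det_one]), hm]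
    have e1 : signTwo h2 (1 : Matrix (Fin 2) (Fin 2) (ZMod N)) = 0 := by
      rw [signTwo, Matrix.map_one _ (map_zero _) (map_one _)]; decide
    have e2 : (upMat (1 : ZMod N)).map (ZMod.castHom h2 (ZMod 2)) = !![1, 1; 0, 1] := by
      ext i j; fin_cases i <;> fin_cases j <;> simp [upMat, ZMod.cast_one h2]
    rw [e1, add_zero, signTwo, e2, sgn_upMat_one]
  · have hact' : ActsBy b (autMat b (levelAction (ratCurve W) N σ)) := ⟨σ, fun v => by
      rw [autMat_spec]; rfl⟩
    refine Multiplicative.toAdd.injective ?_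
    show f _ = 0
    simp only [f]
    rw [signTwo_congr b h2 hlev hact' (hact _) (hu _) (by rw [hA, IsUnit.unit_spec]),
      CharTwo.add_self_eq_zero]

end Coordinates

omit [NeZero N] in
/-- Restriction from all torsion to the `N`-torsion. -/
theorem exists_restrictHom (hN : N ≠ 0) :
    ∃ r : (Tors W ≃ₗ[ℤ] Tors W) →* AutTors W N, Function.Surjective r ∧
      ∀ σ : GQ, r (FA.OpenImage.torsionAction (ratCurve W) σ) = levelAction (ratCurve W) N σ := by
  choose φ hφ using fun ψ : Tors W ≃ₗ[ℤ] Tors W => exists_restrict_torsion hN ψ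
  have hT : ∀ x : Submodule.torsionBy ℤ ((ratCurve W)⁄Qb).Point (N : ℤ), x.1 ∈ Tors W := fun x =>
    isOfFinAddOrder_iff_nsmul_eq_zero.mpr ⟨N, Nat.pos_of_ne_zero hN, by
      rw [← natCast_zsmul]; exact (Submodule.mem_torsionBy_iff _ _).mp x.2⟩
  have key : ∀ ψ x, (φ ψ x).1 = (ψ ⟨x.1, hT x⟩).1 := fun ψ x => (hφ ψ x).2
  refine ⟨{ toFun := fun ψ => (φ ψ).toIntLinearEquiv
            map_one' := LinearEquiv.ext fun x => Subtype.ext (key 1 x)
            map_mul' := fun ψ χ => LinearEquiv.ext fun x => Subtype.ext ?_ }, fun θ => ?_,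
    fun σ => LinearEquiv.ext fun x => Subtype.ext (key _ x)⟩
  · show (φ (ψ * χ) x).1 = (φ ψ (φ χ x)).1
    rw [key, key]
    exact congrArg (fun y => (ψ y).1) (Subtype.ext (key χ x).symm)
  · obtain ⟨ψ, hψ⟩ := exists_extend_tors W hN θ.toAddEquiv
    exact ⟨ψ, LinearEquiv.ext fun x => Subtype.ext ((key ψ x).trans (hψ ⟨x.1, hT x⟩ x.2))⟩

/-- **Serre's subgroup**: for every curve a subgroup of index two contains the image. -/
theorem exists_index_two_ge (W : WeierstrassCurve ℤ) [(ratCurve W).IsElliptic] :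
    ∃ K : Subgroup (Tors W ≃ₗ[ℤ] Tors W), K.index = 2 ∧
      (FA.OpenImage.torsionAction (ratCurve W)).range ≤ K := by
  obtain ⟨D, hD, hroot⟩ := FA.OpenImage.exists_level_of_mem_rootsField
    (FA.OpenImage.mem_rootsField_of_sq_eq (d := (W.Δ : ℚ)) (s := deltaRoot W)
      (by rw [FA.Two.deltaRoot_sq, map_intCast]))
  haveI : NeZero (2 * D) := ⟨mul_ne_zero two_ne_zero hD.ne'⟩
  obtain ⟨b⟩ := FA.PadicImage.nonempty_torsion_equiv W (N := 2 * D)
  obtain ⟨χ, hχ, hχσ⟩ := exists_character b (dvd_mul_right 2 D) fun σ hσ =>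
    hroot σ fun μ hμ => hσ μ (by rw [mul_comm, pow_mul, hμ, one_pow])
  obtain ⟨r, hr, hrσ⟩ := exists_restrictHom (W := W) (NeZero.ne (2 * D))
  refine ⟨(χ.comp r).ker, ?_, ?_⟩
  · rw [Subgroup.index_ker, MonoidHom.range_eq_top.mpr (by exact hχ.comp hr), Subgroup.card_top,
      Nat.card_congr Multiplicative.toAdd, Nat.card_zmod]
  · rintro _ ⟨σ, rfl⟩
    rw [MonoidHom.mem_ker, MonoidHom.comp_apply, hrσ, hχσ]

/-- **At a level of `√Δ` the index on `E[N]` is even.** -/
theorem two_dvd_index_levelAction (W : WeierstrassCurve ℤ) [(ratCurve W).IsElliptic] {N : ℕ}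
    (hN : N ≠ 0) (h2 : 2 ∣ N) (hlev : IsLevel (deltaRoot W) N) :
    2 ∣ (levelAction (ratCurve W) N).range.index := by
  haveI : NeZero N := ⟨hN⟩
  obtain ⟨b⟩ := FA.PadicImage.nonempty_torsion_equiv W (N := N)
  obtain ⟨χ, hχ, hχσ⟩ := exists_character b h2 hlev
  have h : χ.ker.index = 2 := by
    rw [Subgroup.index_ker, MonoidHom.range_eq_top.mpr hχ, Subgroup.card_top,
      Nat.card_congr Multiplicative.toAdd, Nat.card_zmod]
  rw [← h]
  refine Subgroup.index_dvd_of_le ?_
  rintro _ ⟨σ, rfl⟩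
  exact hχσ σ

end FA.SerreCurve

end
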