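import Fermat.Agent.SerreCurve.SmallPrimesCriterion
import Fermat.Agent.Root.SummaryDivisionFieldAbelianPart
import Fermat.Agent.Root.SummarySerreCurveLevels

/-!
# Jones's criterion

If every automorphism of every `E[l ^ n]` is induced, the abelian part of `ℚ(E[3 ^ n])` is
cyclotomic, so unless `-3 Δ` is a square an element fixing `E[3 ^ n]` moves `√Δ`: the images at all
primes then glue to an image of index two. Conversely such an image is everything on `E[2 ^ n]`
unless one of `-Δ, 2 Δ, -2 Δ` is a square.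
-/

set_option autoImplicit false
set_option linter.style.haveILetI false
set_option linter.unusedSectionVars false

noncomputable section

open Matrix WeierstrassCurve WeierstrassCurve.Affine FA.EC FA.Frob FA.RT IntermediateField
open FA.RT.Tate (Pts)
open FA.Two (deltaRoot)
open FA.PadicImage (ReachAll)
open scoped WeierstrassCurve.Affine

local notation "Qb" => AlgebraicClosure ℚ
local notation "GQ" => AlgebraicClosure ℚ ≃ₐ[ℚ] AlgebraicClosure ℚ

namespace FA.SerreCurve

variable {W : WeierstrassCurve ℤ} [(ratCurve W).IsElliptic]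

/-- Galois induces every automorphism of `E[N]`. -/
def FullAt (W : WeierstrassCurve ℤ) [(ratCurve W).IsElliptic] (N : ℕ) : Prop :=
  ∀ φ : Submodule.torsionBy ℤ ((ratCurve W)⁄Qb).Point (N : ℤ) ≃+
      Submodule.torsionBy ℤ ((ratCurve W)⁄Qb).Point (N : ℤ),
    ∃ σ : GQ, ∀ x, σ • x.1 = (φ x).1

/-- A full image on the `p ^ n`-torsion reaches every matrix modulo `p ^ n`. -/
theorem reach_of_fullAt {p : ℕ} [hp : Fact p.Prime] (B : FA.RT.Tate.TateBasis p W) {n : ℕ}
    (hfull : FullAt W (p ^ n)) {M : Matrix (Fin 2) (Fin 2) ℤ_[p]} (hM : IsUnit M.det) :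
    FA.PadicImage.Reach B.rep n M := by
  set M' := M⁻¹ with hM'
  have h1 : M' * M = 1 := Matrix.nonsing_inv_mul M hM
  have h2 : M * M' = 1 := Matrix.mul_nonsing_inv M hM
  have hmem : ∀ v, B.φ n v ∈ Submodule.torsionBy ℤ ((ratCurve W)⁄Qb).Point ((p ^ n : ℕ) : ℤ) :=
    fun v => by rw [Submodule.mem_torsionBy_iff, natCast_zsmul]; exact B.nsmul_phi n v
  have hsurj : ∀ x : Submodule.torsionBy ℤ ((ratCurve W)⁄Qb).Point ((p ^ n : ℕ) : ℤ),
      ∃ v, B.φ n v = x.1 := fun x => B.surj n x.1 (by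
    rw [← natCast_zsmul]; exact (Submodule.mem_torsionBy_iff _ _).mp x.2)
  choose vec hvec using hsurj
  let act : Matrix (Fin 2) (Fin 2) ℤ_[p] →
      (Submodule.torsionBy ℤ ((ratCurve W)⁄Qb).Point ((p ^ n : ℕ) : ℤ) →+
        Submodule.torsionBy ℤ ((ratCurve W)⁄Qb).Point ((p ^ n : ℕ) : ℤ)) := fun X =>
    AddMonoidHom.mk' (fun x => ⟨B.φ n (X *ᵥ vec x), hmem _⟩) fun x y => Subtype.ext (by
      rw [Submodule.coe_add]
      show B.φ n (X *ᵥ vec (x + y)) = B.φ n (X *ᵥ vec x) + B.φ n (X *ᵥ vec y)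
      rw [← map_add, ← mulVec_add]
      exact B.phi_mulVec_congr X (by rw [map_add, hvec, hvec, hvec, Submodule.coe_add]))
  have hact : ∀ X v, (act X ⟨B.φ n v, hmem v⟩).1 = B.φ n (X *ᵥ v) := fun X v =>
    B.phi_mulVec_congr X (hvec ⟨B.φ n v, hmem v⟩)
  have hinv : ∀ X Y : Matrix (Fin 2) (Fin 2) ℤ_[p], X * Y = 1 → ∀ x, act X (act Y x) = x :=
    fun X Y hXY x => by
      have e : act Y x = ⟨B.φ n (Y *ᵥ vec x), hmem _⟩ := rfl
      refine Subtype.ext ?_
      rw [e, hact, mulVec_mulVec, hXY, one_mulVec, hvec]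
  let φ : Submodule.torsionBy ℤ ((ratCurve W)⁄Qb).Point ((p ^ n : ℕ) : ℤ) ≃+
      Submodule.torsionBy ℤ ((ratCurve W)⁄Qb).Point ((p ^ n : ℕ) : ℤ) :=
    { act M with invFun := act M', left_inv := hinv M' M h1, right_inv := hinv M M' h2 }
  obtain ⟨σ, hσ⟩ := hfull φ
  have hphi : ∀ v, B.φ n (B.rep σ *ᵥ v) = B.φ n (M *ᵥ v) := fun v => by
    rw [← B.rep_spec, ← hact M v]
    exact hσ ⟨B.φ n v, hmem v⟩
  have hdvd : ∀ i j, (p : ℤ_[p]) ^ n ∣ B.rep σ i j - M i j := fun i j => by
    have h := B.phi_eq_iff.mp (hphi (Pi.single j 1)) i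
    rw [mulVec_single_one, mulVec_single_one] at h
    rw [← Ideal.mem_span_singleton, ← PadicInt.ker_toZModPow, RingHom.mem_ker, map_sub, sub_eq_zero]
    exact h
  choose Y hY using hdvd
  exact ⟨σ, Matrix.of Y, Matrix.ext fun i j => by
    rw [Matrix.add_apply, Matrix.smul_apply, Matrix.of_apply, smul_eq_mul, ← hY,
      add_sub_cancel]⟩

/-- Full images on the `p`-power torsion reach every matrix. -/
theorem reachAll_of_fullAt {p : ℕ} [hp : Fact p.Prime] (hfull : ∀ n, FullAt W (p ^ n)) :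
    ReachAll p W := fun B n _ hM => reach_of_fullAt B (hfull n) hM

/-- The levels of `√Δ` from a squarefree part of the discriminant. -/
theorem exists_discriminant_part (W : WeierstrassCurve ℤ) [(ratCurve W).IsElliptic] :
    ∃ (c : ℚ) (d : ℤ), Squarefree d ∧ (W.Δ : ℚ) = c ^ 2 * (d : ℚ) ∧
      ∀ N : ℕ, N ≠ 0 →
        (IsLevel (deltaRoot W) N ↔ (if d % 4 = 1 then d.natAbs else 4 * d.natAbs) ∣ N) := by
  have hmodel : W.IsIntegralModelOf (ratCurve W) := ⟨1, one_smul _ _⟩
  have hΔ0 : W.Δ ≠ 0 := Δ_ne_zero_of_model hmodel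
  obtain ⟨a, b, -, -, hab, ha⟩ := Nat.sq_mul_squarefree_of_pos (Int.natAbs_pos.mpr hΔ0)
  set d : ℤ := W.Δ.sign * (a : ℤ) with hd
  have hsq : Squarefree d := by
    rw [← Int.squarefree_natAbs, hd, Int.natAbs_mul, Int.natAbs_sign_of_ne_zero hΔ0, one_mul,
      Int.natAbs_natCast]
    exact ha
  have hcd : (W.Δ : ℚ) = (b : ℚ) ^ 2 * (d : ℚ) := by
    have h : W.Δ = (b : ℤ) ^ 2 * d := by
      conv_lhs => rw [← Int.sign_mul_natAbs W.Δ, ← hab]
      rw [hd]; push_cast; ring
    rw [h]; push_cast; ring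
  exact ⟨b, d, hsq, hcd, fun N hN => isLevel_deltaRoot_of_model hmodel hsq
    (by rw [← hcd, map_Δ, eq_intCast]) hN⟩

theorem squarefree_dvd_prime_pow {p m n : ℕ} (hp : p.Prime) (hm : Squarefree m) (h : m ∣ p ^ n) :
    m = 1 ∨ m = p := by
  obtain ⟨i, -, rfl⟩ := (Nat.dvd_prime_pow hp).mp h
  rcases i with _ | _ | i
  · exact Or.inl (pow_zero p)
  · exact Or.inr (pow_one p)
  · exact absurd (hm p ⟨p ^ i, by ring⟩) hp.not_isUnit

/-- **An element fixing `E[3 ^ n]` moves `√Δ`.** -/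
theorem movesFixing_three [Fact (Nat.Prime 3)] (h2 : FullAt W 2) (hfull : ∀ n, FullAt W (3 ^ n))
    (h3 : ¬ IsSquare (-3 * (W.Δ : ℚ))) : MovesFixing 3 W := fun n => by
  by_contra hc
  push Not at hc
  have hN : Odd (3 ^ n) := Odd.pow (by decide)
  obtain ⟨c, d, hd, hcd, hiff⟩ := exists_discriminant_part W
  haveI := FA.TorsionField.isAbelianGalois_adjoin_sqrt (FA.Two.deltaRoot_sq W)
  have hfix : ∀ σ : GQ, σ (deltaRoot W) = deltaRoot W → ∀ x ∈ ℚ⟮deltaRoot W⟯, σ x = x :=
    fun σ hσ x hx => by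
      induction hx using IntermediateField.adjoin_induction with
      | mem μ hμ => rw [Set.mem_singleton_iff.mp hμ, hσ]
      | algebraMap r => exact σ.commutes r
      | add a b _ _ ha hb => rw [map_add, ha, hb]
      | inv a _ ha => rw [map_inv₀, ha]
      | mul a b _ _ ha hb => rw [map_mul, ha, hb]
  have hlev : IsLevel (deltaRoot W) (3 ^ n) := fun σ hσ =>
    FA.AbelianPart.fix_of_abelian hN (hfull n) ℚ⟮deltaRoot W⟯
      (fun τ hτ => hfix τ ((apply_deltaRoot_cases (W := W) τ).resolve_right (hc τ hτ)))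
      hσ _ (IntermediateField.mem_adjoin_simple_self ℚ _)
  have hdvd := (hiff _ (pow_ne_zero n three_ne_zero)).mp hlev
  split_ifs at hdvd with h4
  · rcases squarefree_dvd_prime_pow Nat.prime_three (Int.squarefree_natAbs.mpr hd) hdvd with h | h
    · obtain rfl : d = 1 := by omega
      exact (FA.SmallPrimes.full_two_iff.mp h2).1 ⟨c, by rw [hcd]; push_cast; ring⟩
    · obtain rfl : d = -3 := by omega
      exact h3 ⟨3 * c, by rw [hcd]; push_cast; ring⟩
  · have h2N : (2 : ℕ) ∣ 3 ^ n := (Dvd.intro (2 * d.natAbs) (by ring)).trans hdvd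
    exact absurd (Nat.prime_two.dvd_of_dvd_pow h2N) (by decide)

/-- **Full images at the prime powers and `-3 Δ` no square give index two.** -/
theorem index_range_of_fullAt (hfull : ∀ l : ℕ, l.Prime → ∀ n, FullAt W (l ^ n))
    (h3 : ¬ IsSquare (-3 * (W.Δ : ℚ))) :
    (FA.OpenImage.torsionAction (ratCurve W)).range.index = 2 :=
  haveI := Fact.mk Nat.prime_three
  index_range_of_separated ⟨fun l hl => reachAll_of_fullAt (hfull l hl.out),
    exists_mem_fixer_odd (by decide) (reachAll_of_fullAt (hfull 3 Nat.prime_three))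
      (movesFixing_three (by simpa using hfull 2 Nat.prime_two 1) (hfull 3 Nat.prime_three) h3)⟩

/-- **An image of index two is everything at the prime powers** unless one of `-Δ, 2 Δ, -2 Δ` is a
square. -/
theorem fullAt_of_index_two (h : (FA.OpenImage.torsionAction (ratCurve W)).range.index = 2)
    (h1 : ¬ IsSquare (-(W.Δ : ℚ))) (h2 : ¬ IsSquare (2 * (W.Δ : ℚ)))
    (h2' : ¬ IsSquare (-2 * (W.Δ : ℚ))) {l : ℕ} (hl : l.Prime) (n : ℕ) : FullAt W (l ^ n) := by
  rcases hl.eq_two_or_odd' with rfl | hodd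
  swap
  · exact fun φ => exists_smul_eq_of_index_two h hodd.pow φ
  obtain ⟨c, d, hd, hcd, hiff⟩ := exists_discriminant_part W
  have hN : (2 : ℕ) ^ n ≠ 0 := pow_ne_zero n two_ne_zero
  have hi := index_level_of_index_two h hiff hN (levelAction (ratCurve W) (2 ^ n))
    (fun σ x => rfl)
  have hnot : ¬ Nat.lcm 2 (if d % 4 = 1 then d.natAbs else 4 * d.natAbs) ∣ 2 ^ n := fun hdiv => by
    have hD := (Nat.dvd_lcm_right _ _).trans hdiv
    split_ifs at hD with h4
    · rcases squarefree_dvd_prime_pow Nat.prime_two (Int.squarefree_natAbs.mpr hd) hD with e | e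
      · obtain rfl : d = 1 := by omega
        exact not_isSquare_Δ h ⟨c, by rw [hcd]; push_cast; ring⟩
      · omega
    · rcases squarefree_dvd_prime_pow Nat.prime_two (Int.squarefree_natAbs.mpr hd)
        ((dvd_mul_left _ 4).trans hD) with e | e
      · obtain rfl : d = -1 := by omega
        exact h1 ⟨c, by rw [hcd]; push_cast; ring⟩
      · rcases Int.natAbs_eq d with hd' | hd' <;> rw [e] at hd' <;> subst hd'
        · exact h2 ⟨2 * c, by rw [hcd]; push_cast; ring⟩
        · exact h2' ⟨2 * c, by rw [hcd]; push_cast; ring⟩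
  rw [if_neg hnot] at hi
  intro φ
  exact (mem_range_level_iff _ (fun σ x => rfl) φ.toIntLinearEquiv).mp
    (Subgroup.index_eq_one.mp hi ▸ Subgroup.mem_top _)

end FA.SerreCurve

end
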