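import Fermat.Agent.SerreCurve.IndexTwoModule

/-!
# The torsion of a Serre curve over its division fields

If the image of Galois in the automorphisms of the torsion has index two and `m ∣ L`, `L ∤ m`, then
one of two elementary transvections and their product, all trivial on `E[m]` and none on `E[L]`,
comes from Galois. As the finite stable subgroups are the `E[k]`, a torsion point fixed by what
fixes `E[m]` lies in `E[m]`.
-/

set_option autoImplicit false
set_option linter.style.haveILetI false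
set_option linter.unusedSectionVars false

noncomputable section

open Matrix WeierstrassCurve WeierstrassCurve.Affine FA.EC FA.Frob FA.RT
open FA.RT.Tate (Pts)
open scoped WeierstrassCurve.Affine

local notation "Qb" => AlgebraicClosure ℚ
local notation "GQ" => AlgebraicClosure ℚ ≃ₐ[ℚ] AlgebraicClosure ℚ

namespace FA.SerreCurve

variable {W : WeierstrassCurve ℤ} [(ratCurve W).IsElliptic]

/-- Adding `c` times the `j`-th coordinate to the `i`-th one. -/
def shearEquiv {L : ℕ} {i j : Fin 2} (hij : i ≠ j) (c : ZMod L) :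
    (Fin 2 → ZMod L) ≃+ (Fin 2 → ZMod L) where
  toFun v := v + Pi.single i (c * v j)
  invFun v := v - Pi.single i (c * v j)
  left_inv v := by
    show v + Pi.single i (c * v j) -
      Pi.single i (c * ((v + Pi.single i (c * v j) : Fin 2 → ZMod L) j)) = v
    rw [Pi.add_apply, Pi.single_eq_of_ne hij.symm, add_zero, add_sub_cancel_right]
  right_inv v := by
    show v - Pi.single i (c * v j) +
      Pi.single i (c * ((v - Pi.single i (c * v j) : Fin 2 → ZMod L) j)) = v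
    rw [Pi.sub_apply, Pi.single_eq_of_ne hij.symm, sub_zero, sub_add_cancel]
  map_add' v w := by
    show v + w + Pi.single i (c * (v + w) j) = _
    rw [Pi.add_apply, mul_add, Pi.single_add]
    abel

/-- **Galois acts nontrivially on `E[L]` fixing `E[m]`** when `m ∣ L` and `L ∤ m`. -/
theorem exists_fix_move_of_index_two
    (h : (FA.OpenImage.torsionAction (ratCurve W)).range.index = 2) {m L : ℕ} (hL : L ≠ 0)
    (hmL : m ∣ L) (hne : ¬ L ∣ m) :
    ∃ σ : GQ, (∀ y : Pts W, m • y = 0 → σ • y = y) ∧ ∃ y : Pts W, L • y = 0 ∧ σ • y ≠ y := by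
  haveI : NeZero L := ⟨hL⟩
  obtain ⟨b⟩ := FA.PadicImage.nonempty_torsion_equiv W (N := L)
  have hbL : ∀ v, L • (b v).1 = 0 := fun v => by
    rw [← natCast_zsmul]; exact (Submodule.mem_torsionBy_iff _ _).mp (b v).2
  have hmem : ∀ v, (b v).1 ∈ Tors W := fun v =>
    isOfFinAddOrder_iff_nsmul_eq_zero.mpr ⟨L, Nat.pos_of_ne_zero hL, hbL v⟩
  set T := shearEquiv (show (0 : Fin 2) ≠ 1 by decide) (m : ZMod L)
  set U := shearEquiv (show (1 : Fin 2) ≠ 0 by decide) (m : ZMod L)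
  have act : ∀ e : (Fin 2 → ZMod L) ≃+ (Fin 2 → ZMod L), ∃ χ : Tors W ≃ₗ[ℤ] Tors W,
      ∀ (y : Tors W) v, y.1 = (b v).1 → (χ y).1 = (b (e v)).1 := fun e => by
    obtain ⟨χ, hχ⟩ := exists_extend_tors W hL ((b.toAddEquiv.symm.trans e).trans b.toAddEquiv)
    refine ⟨χ, fun y v hy => ?_⟩
    rw [hχ y (hy ▸ (b v).2), show (⟨y.1, hy ▸ (b v).2⟩ :
      Submodule.torsionBy ℤ ((ratCurve W)⁄Qb).Point (L : ℤ)) = b v from Subtype.ext hy]
    show (b (e (b.symm (b v)))).1 = _
    rw [LinearEquiv.symm_apply_apply]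
  obtain ⟨χ, hχ⟩ := act T
  obtain ⟨η, hη⟩ := act U
  obtain ⟨e, he, σ, hσ⟩ : ∃ e : (Fin 2 → ZMod L) ≃+ (Fin 2 → ZMod L),
      (e = T ∨ e = U ∨ e = U.trans T) ∧ ∃ σ : GQ, ∀ v, σ • (b v).1 = (b (e v)).1 := by
    have hout : ∀ (e : (Fin 2 → ZMod L) ≃+ (Fin 2 → ZMod L)) (θ : Tors W ≃ₗ[ℤ] Tors W),
        (∀ (y : Tors W) v, y.1 = (b v).1 → (θ y).1 = (b (e v)).1) →
        θ ∈ (FA.OpenImage.torsionAction (ratCurve W)).range →
          ∃ σ : GQ, ∀ v, σ • (b v).1 = (b (e v)).1 := fun e θ hθ ⟨σ, hσ⟩ => ⟨σ, fun v =>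
      (congrArg (fun χ : Tors W ≃ₗ[ℤ] Tors W => (χ ⟨_, hmem v⟩).1) hσ :).trans
        (hθ ⟨_, hmem v⟩ v rfl)⟩
    by_cases h1 : χ ∈ (FA.OpenImage.torsionAction (ratCurve W)).range
    · exact ⟨T, Or.inl rfl, hout T χ hχ h1⟩
    by_cases h2 : η ∈ (FA.OpenImage.torsionAction (ratCurve W)).range
    · exact ⟨U, Or.inr (Or.inl rfl), hout U η hη h2⟩
    refine ⟨U.trans T, Or.inr (Or.inr rfl), hout _ (χ * η) (fun y v hy => ?_)
      ((Subgroup.mul_mem_iff_of_index_two h).mpr (iff_of_false h1 h2))⟩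
    rw [LinearEquiv.mul_apply]
    exact hχ _ _ (hη y v hy)
  have hc : (m : ZMod L) ≠ 0 := fun h0 => hne ((ZMod.natCast_eq_zero_iff m L).mp h0)
  refine ⟨σ, fun y hy => ?_, ?_⟩
  · obtain ⟨c, rfl⟩ := hmL
    obtain ⟨v, hv⟩ := b.surjective ⟨y, by
      rw [Submodule.mem_torsionBy_iff, natCast_zsmul, mul_comm, mul_nsmul', hy, nsmul_zero]⟩
    have hv0 : ∀ k, (m : ZMod (m * c)) * v k = 0 := fun k => by
      have h0 : m • v = 0 := b.injective (Subtype.ext (by
        rw [map_nsmul, Submodule.coe_smul_of_tower, hv, map_zero]; exact hy))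
      simpa [nsmul_eq_mul] using congrFun h0 k
    rw [show y = (b v).1 by rw [hv], hσ]
    refine congrArg (fun u => (b u).1) ?_
    have hT : T v = v := by simp [T, shearEquiv, hv0]
    have hU : U v = v := by simp [U, shearEquiv, hv0]
    rcases he with rfl | rfl | rfl <;> simp [hT, hU]
  · obtain ⟨v, hv⟩ : ∃ v, e v ≠ v := by
      rcases he with rfl | rfl | rfl
      · exact ⟨Pi.single 1 1, fun h0 => hc (by simpa [T, shearEquiv] using congrFun h0 0)⟩
      · exact ⟨Pi.single 0 1, fun h0 => hc (by simpa [U, shearEquiv] using congrFun h0 1)⟩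
      · exact ⟨Pi.single 1 1, fun h0 => hc (by simpa [T, U, shearEquiv] using congrFun h0 0)⟩
    exact ⟨(b v).1, hbL v, fun h0 => hv (b.injective (Subtype.ext ((hσ v).symm.trans h0)))⟩

/-- **A torsion point fixed by what fixes `E[m]` lies in `E[m]`.** -/
theorem nsmul_eq_zero_of_fixed (h : (FA.OpenImage.torsionAction (ratCurve W)).range.index = 2)
    {m : ℕ} (hm : m ≠ 0) {x : Pts W} (hx : IsOfFinAddOrder x)
    (hfix : ∀ σ : GQ, (∀ y : Pts W, m • y = 0 → σ • y = y) → σ • x = x) : m • x = 0 := by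
  set n := addOrderOf x with hn
  set L := Nat.lcm m n with hLdef
  have hL : L ≠ 0 := Nat.lcm_ne_zero hm hx.addOrderOf_pos.ne'
  have hinv : ∀ (τ σ : GQ), (∀ y : Pts W, m • y = 0 → σ • y = y) →
      ∀ y : Pts W, m • y = 0 → (τ⁻¹ * σ * τ) • y = y := fun τ σ hσ y hy => by
    rw [mul_smul, mul_smul, hσ _ (by rw [smul_comm, hy]; exact FA.Local.gal_smul_zero _ τ),
      inv_smul_smul]
  let G : AddSubgroup (Pts W) :=
    { carrier := {y | L • y = 0 ∧ ∀ σ : GQ, (∀ z : Pts W, m • z = 0 → σ • z = z) → σ • y = y}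
      zero_mem' := ⟨nsmul_zero L, fun σ _ => FA.Local.gal_smul_zero _ σ⟩
      add_mem' := fun {a c} ha hc => ⟨by rw [nsmul_add, ha.1, hc.1, add_zero],
        fun σ hσ => (FA.Local.gal_smul_add _ σ a c).trans (by rw [ha.2 σ hσ, hc.2 σ hσ])⟩
      neg_mem' := fun {a} ha => ⟨(neg_nsmul a L).trans (by rw [ha.1, neg_zero]),
        fun σ hσ => (map_neg (DistribSMul.toAddMonoidHom (Pts W) σ) a).trans
          (congrArg Neg.neg (ha.2 σ hσ))⟩ }
  haveI : NeZero L := ⟨hL⟩
  obtain ⟨b⟩ := FA.PadicImage.nonempty_torsion_equiv W (N := L)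
  haveI : Finite G := Finite.of_injective (fun y => b.symm ⟨y.1, by
      rw [Submodule.mem_torsionBy_iff, natCast_zsmul]; exact y.2.1⟩) fun a c hac =>
    Subtype.ext (congrArg Subtype.val (b.symm.injective hac) :)
  obtain ⟨k, -, hkG⟩ := exists_eq_torsion_of_index_two h G fun τ y hy => ⟨by
    rw [smul_comm, hy.1]; exact FA.Local.gal_smul_zero _ τ, fun σ hσ => by
      have := hy.2 _ (hinv τ σ hσ)
      rwa [mul_smul, mul_smul, inv_smul_eq_iff] at this⟩
  have hnk : n ∣ k := addOrderOf_dvd_of_nsmul_eq_zero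
    ((hkG x).mp ⟨addOrderOf_dvd_iff_nsmul_eq_zero.mp (Nat.dvd_lcm_right m n), hfix⟩)
  haveI : NeZero m := ⟨hm⟩
  obtain ⟨c⟩ := FA.PadicImage.nonempty_torsion_equiv W (N := m)
  set z := c (Pi.single 0 1)
  have hz : m • z.1 = 0 := by
    rw [← natCast_zsmul]; exact (Submodule.mem_torsionBy_iff _ _).mp z.2
  have hkz : k • z.1 = 0 := (hkG z.1).mp ⟨by
    obtain ⟨a, ha⟩ := Nat.dvd_lcm_left m n
    rw [← hLdef] at ha
    rw [ha, mul_comm, mul_nsmul', hz, nsmul_zero], fun σ hσ => hσ _ hz⟩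
  have hmk : m ∣ k := by
    have h0 : k • (Pi.single 0 1 : Fin 2 → ZMod m) = 0 := c.injective (Subtype.ext (by
      rw [map_nsmul, Submodule.coe_smul_of_tower, map_zero]; exact hkz))
    exact (ZMod.natCast_eq_zero_iff k m).mp (by simpa [nsmul_eq_mul] using congrFun h0 0)
  by_contra hne
  obtain ⟨σ, hσ, y, hy, hmove⟩ := exists_fix_move_of_index_two h hL (Nat.dvd_lcm_left m n)
    fun hd => hne (addOrderOf_dvd_iff_nsmul_eq_zero.mp ((Nat.dvd_lcm_right m n).trans hd))
  obtain ⟨a, ha⟩ := Nat.lcm_dvd hmk hnk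
  exact hmove (((hkG y).mpr (by rw [ha, mul_comm, mul_nsmul', hy, nsmul_zero])).2 σ hσ)

end FA.SerreCurve

end
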