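import Fermat.Agent.SerreCurve.Moves
import Mathlib.Tactic.FieldSimp

/-!
# The square roots which decide the image at `4`

For a point of order two with abscissa `e` let `w = (e - e') (e - e'')` and `z = -Δ w`. The three
roots `√z` are fixed by whatever fixes `E[2]` exactly when a rational `r` has
`(r ^ 2 + c₄ Δ / 16) ^ 2 = 2 Δ ^ 2 r`, their sum with the right signs, which happens exactly when
the `j`-invariant is `-4 t ^ 3 (t + 8)` for a rational `t`.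
-/

set_option autoImplicit false
set_option linter.style.haveILetI false
set_option linter.unusedSectionVars false

noncomputable section

open Matrix WeierstrassCurve WeierstrassCurve.Affine FA.EC FA.Frob FA.RT
open FA.Two (eRoot deltaRoot sqrtQ)
open scoped WeierstrassCurve.Affine

local notation "Qb" => AlgebraicClosure ℚ
local notation "GQ" => AlgebraicClosure ℚ ≃ₐ[ℚ] AlgebraicClosure ℚ

namespace FA.LevelFour

theorem cycle_mulVec :
    (!![0, 1; 1, 1] : Matrix (Fin 2) (Fin 2) (ZMod 2)) *ᵥ ![1, 0] = ![0, 1] ∧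
      (!![0, 1; 1, 1] : Matrix (Fin 2) (Fin 2) (ZMod 2)) *ᵥ ![0, 1] = ![1, 1] ∧
      (!![0, 1; 1, 1] : Matrix (Fin 2) (Fin 2) (ZMod 2)) *ᵥ ![1, 1] = ![1, 0] ∧
      (!![1, 1; 0, 1] : Matrix (Fin 2) (Fin 2) (ZMod 2)) *ᵥ ![1, 0] = ![1, 0] := by decide

variable (W : WeierstrassCurve ℤ) [(ratCurve W).IsElliptic]

/-- The product of the differences of the abscissa of a point of order two to the other two. -/
def wRoot (v : Fin 2 → ZMod 2) : Qb :=
  (12 * eRoot W v ^ 2 + 2 * (W.b₂ : Qb) * eRoot W v + 2 * (W.b₄ : Qb)) / 4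

/-- Minus the discriminant times that. -/
def zRoot (v : Fin 2 → ZMod 2) : Qb := -(W.Δ : Qb) * wRoot W v

/-- Galois induces every automorphism of `E[2]`. -/
def FullTwo : Prop :=
  ∀ M : Matrix (Fin 2) (Fin 2) (ZMod 2), M.det ≠ 0 → ∃ σ : GQ, curveRep 2 W σ = M

/-- Whatever fixes `E[2]` fixes the square roots of the `zRoot`s. -/
def Exotic : Prop :=
  ∀ σ : GQ, curveRep 2 W σ = 1 → ∀ v : Fin 2 → ZMod 2, v ≠ 0 →
    σ (sqrtQ (zRoot W v)) = sqrtQ (zRoot W v)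

/-- The coefficients and the roots, from the abscissas of the points of order two. -/
theorem vieta {a b c : Qb} (ha : eRoot W ![1, 0] = a) (hb : eRoot W ![0, 1] = b)
    (hc : eRoot W ![1, 1] = c) :
    a ≠ b ∧ b ≠ c ∧ a ≠ c ∧ (W.b₂ : Qb) = -4 * (a + b + c) ∧
      (W.b₄ : Qb) = 2 * (a * b + a * c + b * c) ∧ (W.b₆ : Qb) = -4 * (a * b * c) := by
  have ea := FA.Two.eRoot_eq W (v := ![1, 0]) (by decide)
  have eb := FA.Two.eRoot_eq W (v := ![0, 1]) (by decide)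
  have ec := FA.Two.eRoot_eq W (v := ![1, 1]) (by decide)
  rw [ha] at ea
  rw [hb] at eb
  rw [hc] at ec
  have nab : a ≠ b := fun h =>
    absurd (FA.Two.eRoot_injective W (by decide) (by decide) (ha.trans (h.trans hb.symm)))
      (by decide)
  have nbc : b ≠ c := fun h =>
    absurd (FA.Two.eRoot_injective W (by decide) (by decide) (hb.trans (h.trans hc.symm)))
      (by decide)
  have nac : a ≠ c := fun h =>
    absurd (FA.Two.eRoot_injective W (by decide) (by decide) (ha.trans (h.trans hc.symm)))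
      (by decide)
  have dab : 4 * (a ^ 2 + a * b + b ^ 2) + (W.b₂ : Qb) * (a + b) + 2 * (W.b₄ : Qb) = 0 :=
    mul_left_cancel₀ (sub_ne_zero.mpr nab) (by rw [mul_zero]; linear_combination ea - eb)
  have dac : 4 * (a ^ 2 + a * c + c ^ 2) + (W.b₂ : Qb) * (a + c) + 2 * (W.b₄ : Qb) = 0 :=
    mul_left_cancel₀ (sub_ne_zero.mpr nac) (by rw [mul_zero]; linear_combination ea - ec)
  have h2 : (W.b₂ : Qb) = -4 * (a + b + c) := by
    have := mul_left_cancel₀ (sub_ne_zero.mpr nbc)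
      (show (b - c) * (4 * (a + b + c) + (W.b₂ : Qb)) = (b - c) * 0 by
        rw [mul_zero]; linear_combination dab - dac)
    linear_combination this
  have h4 : (W.b₄ : Qb) = 2 * (a * b + a * c + b * c) := by
    linear_combination (1 / 2 : Qb) * dab - (a + b) / 2 * h2
  exact ⟨nab, nbc, nac, h2, h4, by linear_combination ea - a ^ 2 * h2 - 2 * a * h4⟩

/-- The three values of `wRoot`. -/
theorem wRoot_values {a b c : Qb} (ha : eRoot W ![1, 0] = a) (hb : eRoot W ![0, 1] = b)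
    (hc : eRoot W ![1, 1] = c) :
    wRoot W ![1, 0] = (a - b) * (a - c) ∧ wRoot W ![0, 1] = (b - a) * (b - c) ∧
      wRoot W ![1, 1] = (c - a) * (c - b) := by
  obtain ⟨-, -, -, h2, h4, -⟩ := vieta W ha hb hc
  refine ⟨?_, ?_, ?_⟩ <;> simp only [wRoot, ha, hb, hc, h2, h4] <;> ring

theorem wRoot_mulVec (σ : GQ) (v : Fin 2 → ZMod 2) :
    wRoot W (curveRep 2 W σ *ᵥ v) = σ (wRoot W v) := by
  simp only [wRoot, FA.Two.eRoot_mulVec, map_div₀, map_add, map_mul, map_pow, map_ofNat,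
    map_intCast]

theorem zRoot_mulVec (σ : GQ) (v : Fin 2 → ZMod 2) :
    zRoot W (curveRep 2 W σ *ᵥ v) = σ (zRoot W v) := by
  simp only [zRoot, wRoot_mulVec, map_mul, map_neg, map_intCast]

theorem Δ_ne_zero_cast : (W.Δ : Qb) ≠ 0 := fun h => by
  have := (ratCurve W).isUnit_Δ
  rw [WeierstrassCurve.map_Δ, Int.cast_eq_zero.mp h, map_zero] at this
  exact not_isUnit_zero this

theorem wRoot_ne_zero {v : Fin 2 → ZMod 2} (hv : v ≠ 0) : wRoot W v ≠ 0 := by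
  obtain ⟨nab, nbc, nac, -⟩ := vieta W rfl rfl rfl
  obtain ⟨h1, h2, h3⟩ := wRoot_values W rfl rfl rfl
  have key : ∀ u : Fin 2 → ZMod 2, u ≠ 0 → u = ![1, 0] ∨ u = ![0, 1] ∨ u = ![1, 1] := by decide
  rcases key v hv with rfl | rfl | rfl
  · rw [h1]; exact mul_ne_zero (sub_ne_zero.mpr nab) (sub_ne_zero.mpr nac)
  · rw [h2]; exact mul_ne_zero (sub_ne_zero.mpr nab.symm) (sub_ne_zero.mpr nbc)
  · rw [h3]; exact mul_ne_zero (sub_ne_zero.mpr nac.symm) (sub_ne_zero.mpr nbc.symm)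

theorem zRoot_ne_zero {v : Fin 2 → ZMod 2} (hv : v ≠ 0) : zRoot W v ≠ 0 :=
  mul_ne_zero (neg_ne_zero.mpr (Δ_ne_zero_cast W)) (wRoot_ne_zero W hv)

/-- The elementary symmetric functions of the three `zRoot`s. -/
theorem zRoot_symm :
    zRoot W ![1, 0] + zRoot W ![0, 1] + zRoot W ![1, 1] = -((W.c₄ : Qb) * W.Δ / 16) ∧
      zRoot W ![1, 0] * zRoot W ![0, 1] + zRoot W ![0, 1] * zRoot W ![1, 1] +
        zRoot W ![1, 1] * zRoot W ![1, 0] = 0 ∧
      zRoot W ![1, 0] * zRoot W ![0, 1] * zRoot W ![1, 1] = ((W.Δ : Qb) ^ 2 / 4) ^ 2 := by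
  obtain ⟨-, -, -, h2, h4, -⟩ := vieta W rfl rfl rfl
  obtain ⟨e1, e2, e3⟩ := wRoot_values W rfl rfl rfl
  have hδ := FA.Two.deltaRoot_sq W
  rw [deltaRoot] at hδ
  have hc : (W.c₄ : Qb) = (W.b₂ : Qb) ^ 2 - 24 * (W.b₄ : Qb) := by
    rw [WeierstrassCurve.c₄]; push_cast; ring
  simp only [zRoot, e1, e2, e3, hc, h2, h4]
  refine ⟨by ring, by ring, ?_⟩
  linear_combination ((W.Δ : Qb) ^ 3 / 16) * hδ

/-- A square root of a `zRoot` is carried to one of the image of the point. -/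
theorem apply_root_cases {σ : GQ} {u u' : Qb} {v : Fin 2 → ZMod 2} (hu : u ^ 2 = zRoot W v)
    (hu' : u' ^ 2 = zRoot W (curveRep 2 W σ *ᵥ v)) : σ u = u' ∨ σ u = -u' := by
  rw [← sq_eq_sq_iff_eq_or_eq_neg, hu', ← map_pow, hu, zRoot_mulVec]

theorem root_fixed {σ : GQ} (hE : Exotic W) (hσ : curveRep 2 W σ = 1) {u : Qb}
    {v : Fin 2 → ZMod 2} (hv : v ≠ 0) (hu : u ^ 2 = zRoot W v) : σ u = u := by
  rcases sq_eq_sq_iff_eq_or_eq_neg.mp (hu.trans (FA.Two.sqrtQ_sq (zRoot W v)).symm) with h | h <;>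
    rw [h]
  · exact hE σ hσ v hv
  · rw [map_neg, hE σ hσ v hv]

/-- Elements with equal action on `E[2]` agree on the roots. -/
theorem root_congr {σ τ : GQ} (hE : Exotic W) (h : curveRep 2 W σ = curveRep 2 W τ) {u : Qb}
    {v : Fin 2 → ZMod 2} (hv : v ≠ 0) (hu : u ^ 2 = zRoot W v) : σ u = τ u := by
  have h1 := root_fixed W (σ := τ⁻¹ * σ) hE (by
    rw [map_mul, h, ← map_mul, inv_mul_cancel, map_one]) hv hu
  rw [AlgEquiv.mul_apply, AlgEquiv.aut_inv, AlgEquiv.symm_apply_eq] at h1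
  exact h1

/-- **In the exotic case the sum of the three roots is rational.** -/
theorem exists_rat_of_exotic (hfull : FullTwo W) (hE : Exotic W) :
    ∃ r : ℚ, (r ^ 2 + (W.c₄ : ℚ) * W.Δ / 16) ^ 2 = 2 * (W.Δ : ℚ) ^ 2 * r := by
  obtain ⟨σ, hσ⟩ := hfull !![0, 1; 1, 1] (by decide)
  obtain ⟨τ, hτ⟩ := hfull !![1, 1; 0, 1] (by decide)
  set u₁ := sqrtQ (zRoot W ![1, 0]) with hu₁
  set u₂ := σ u₁
  set u₃ := σ u₂
  have v1 : (![1, 0] : Fin 2 → ZMod 2) ≠ 0 := by decide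
  have v2 : (![0, 1] : Fin 2 → ZMod 2) ≠ 0 := by decide
  have v3 : (![1, 1] : Fin 2 → ZMod 2) ≠ 0 := by decide
  have q1 : u₁ ^ 2 = zRoot W ![1, 0] := FA.Two.sqrtQ_sq _
  have q2 : u₂ ^ 2 = zRoot W ![0, 1] := by
    rw [← map_pow, q1, ← zRoot_mulVec, hσ, cycle_mulVec.1]
  have q3 : u₃ ^ 2 = zRoot W ![1, 1] := by
    rw [← map_pow, q2, ← zRoot_mulVec, hσ, cycle_mulVec.2.1]
  have hσ3 : σ u₃ = u₁ := by
    rw [show σ u₃ = (σ * σ * σ) u₁ from rfl, root_congr W (σ := σ * σ * σ) (τ := 1) hE (by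
      rw [map_mul, map_mul, hσ, map_one]; decide) v1 q1]
    rfl
  have hτσ : ∀ u v, v ≠ 0 → u ^ 2 = zRoot W v → τ (σ u) = σ (σ (τ u)) := fun u v hv hu => by
    have := root_congr W (σ := τ * σ) (τ := σ * σ * τ) hE (by
      rw [map_mul, map_mul, map_mul, hσ, hτ]; decide) hv hu
    exact this
  obtain ⟨ε, hε, hτ1⟩ : ∃ ε : Qb, (ε = 1 ∨ ε = -1) ∧ τ u₁ = ε * u₁ := by
    rcases apply_root_cases W (σ := τ) q1 (u' := u₁) (by rw [q1, hτ, cycle_mulVec.2.2.2]) with h | h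
    · exact ⟨1, Or.inl rfl, by rw [h, one_mul]⟩
    · exact ⟨-1, Or.inr rfl, by rw [h, neg_one_mul]⟩
  have hεfix : ∀ g : GQ, g ε = ε := fun g => by rcases hε with rfl | rfl <;> simp
  have hτ2 : τ u₂ = ε * u₃ := by
    rw [show τ u₂ = σ (σ (τ u₁)) from hτσ u₁ _ v1 q1, hτ1, map_mul, hεfix, map_mul, hεfix]
  have hτ3 : τ u₃ = ε * u₂ := by
    rw [show τ u₃ = σ (σ (τ u₂)) from hτσ u₂ _ v2 q2, hτ2, map_mul, hεfix, map_mul, hεfix, hσ3]
  obtain ⟨hS1, hS2, hS3⟩ := zRoot_symm W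
  rw [← q1, ← q2, ← q3] at hS1 hS2 hS3
  rw [← mul_pow, ← mul_pow] at hS3
  obtain ⟨s, hs, hP⟩ : ∃ s : Qb, (s = 1 ∨ s = -1) ∧
      u₁ * u₂ * u₃ = s * ((W.Δ : Qb) ^ 2 / 4) := by
    rcases sq_eq_sq_iff_eq_or_eq_neg.mp hS3 with h | h
    · exact ⟨1, Or.inl rfl, by rw [h, one_mul]⟩
    · exact ⟨-1, Or.inr rfl, by rw [h, neg_one_mul]⟩
  have hsfix : ∀ g : GQ, g s = s := fun g => by rcases hs with rfl | rfl <;> simp
  have hΔ := Δ_ne_zero_cast W
  have hP0 : u₁ * u₂ * u₃ ≠ 0 := by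
    rw [hP]; rcases hs with rfl | rfl <;> simp [hΔ]
  have hε1 : ε = 1 := by
    have h : τ (u₁ * u₂ * u₃) = u₁ * u₂ * u₃ := by
      rw [hP, map_mul, hsfix, map_div₀, map_pow, map_intCast, map_ofNat]
    rw [map_mul, map_mul, hτ1, hτ2, hτ3] at h
    rcases hε with rfl | rfl
    · rfl
    · exact absurd (by linear_combination (-1 / 2 : Qb) * h) hP0
  rw [hε1, one_mul] at hτ1 hτ2 hτ3
  set R := s * (u₁ + u₂ + u₃) with hR
  have hσR : σ R = R := by
    rw [hR, map_mul, hsfix, map_add, map_add, hσ3]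
    show s * (u₂ + u₃ + u₁) = _
    ring
  have hτR : τ R = R := by
    rw [hR, map_mul, hsfix, map_add, map_add, hτ1, hτ2, hτ3]; ring
  have hfix : ∀ g : GQ, g R = R := fun g => by
    have hc : ∀ h : GQ, curveRep 2 W g = curveRep 2 W h → g R = h R := fun h e => by
      rw [hR, map_mul, map_mul, hsfix, hsfix, map_add, map_add, map_add, map_add,
        root_congr W hE e v1 q1, root_congr W hE e v2 q2, root_congr W hE e v3 q3]
    rcases FA.Two.six_cases (FA.Two.det_curveRep_two_ne W g) with e | e | e | e | e | e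
    · rw [hc 1 (e.trans (map_one _).symm)]; rfl
    · rw [hc σ (e.trans hσ.symm), hσR]
    · rw [hc (σ * σ) (by rw [e, map_mul, hσ]; decide), AlgEquiv.mul_apply, hσR, hσR]
    · rw [hc (σ * τ) (by rw [e, map_mul, hσ, hτ]; decide), AlgEquiv.mul_apply, hτR, hσR]
    · rw [hc τ (e.trans hτ.symm), hτR]
    · rw [hc (σ * σ * τ) (by rw [e, map_mul, map_mul, hσ, hτ]; decide), AlgEquiv.mul_apply,
        AlgEquiv.mul_apply, hτR, hσR, hσR]
  obtain ⟨r, hr⟩ := FA.EC.mem_range_of_fixed hfix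
  refine ⟨r, (algebraMap ℚ Qb).injective ?_⟩
  simp only [map_add, map_mul, map_pow, map_div₀, map_intCast, map_ofNat, hr]
  have hs2 : s ^ 2 = 1 := by rcases hs with rfl | rfl <;> norm_num
  have e1 : R ^ 2 + (W.c₄ : Qb) * W.Δ / 16 = 2 * (u₁ * u₂ + u₂ * u₃ + u₃ * u₁) := by
    rw [hR, mul_pow, hs2, one_mul]; linear_combination hS1
  rw [e1, hR]
  linear_combination 4 * hS2 + 8 * (u₁ + u₂ + u₃) * hP

/-- **A rational sum of the roots gives the exotic case.** -/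
theorem exotic_of_rat (hfull : FullTwo W) {r : ℚ}
    (hr : (r ^ 2 + (W.c₄ : ℚ) * W.Δ / 16) ^ 2 = 2 * (W.Δ : ℚ) ^ 2 * r) : Exotic W := by
  obtain ⟨hS1, hS2, hS3⟩ := zRoot_symm W
  have hΔ := Δ_ne_zero_cast W
  have v1 : (![1, 0] : Fin 2 → ZMod 2) ≠ 0 := by decide
  have v2 : (![0, 1] : Fin 2 → ZMod 2) ≠ 0 := by decide
  have v3 : (![1, 1] : Fin 2 → ZMod 2) ≠ 0 := by decide
  obtain ⟨u₁, u₂, u₃, q1, q2, q3, hP⟩ : ∃ u₁ u₂ u₃ : Qb, u₁ ^ 2 = zRoot W ![1, 0] ∧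
      u₂ ^ 2 = zRoot W ![0, 1] ∧ u₃ ^ 2 = zRoot W ![1, 1] ∧
      u₁ * u₂ * u₃ = (W.Δ : Qb) ^ 2 / 4 := by
    set a := sqrtQ (zRoot W ![1, 0])
    set b := sqrtQ (zRoot W ![0, 1])
    have hab : a * b ≠ 0 := mul_ne_zero (FA.Two.sqrtQ_ne_zero (zRoot_ne_zero W v1))
      (FA.Two.sqrtQ_ne_zero (zRoot_ne_zero W v2))
    refine ⟨a, b, (W.Δ : Qb) ^ 2 / 4 / (a * b), FA.Two.sqrtQ_sq _, FA.Two.sqrtQ_sq _, ?_,
      mul_div_cancel₀ _ hab⟩
    rw [div_pow, div_eq_iff (pow_ne_zero 2 hab), mul_pow, FA.Two.sqrtQ_sq, FA.Two.sqrtQ_sq, ← hS3]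
    ring
  -- a choice of signs with product `Δ² / 4` and sum `r`
  obtain ⟨s₁, s₂, s₃, p1, p2, p3, hsum, hprod⟩ : ∃ s₁ s₂ s₃ : Qb, s₁ ^ 2 = zRoot W ![1, 0] ∧
      s₂ ^ 2 = zRoot W ![0, 1] ∧ s₃ ^ 2 = zRoot W ![1, 1] ∧ s₁ + s₂ + s₃ = (r : Qb) ∧
      s₁ * s₂ * s₃ = (W.Δ : Qb) ^ 2 / 4 := by
    have hr' := congrArg (algebraMap ℚ Qb) hr
    simp only [map_add, map_mul, map_pow, map_div₀, map_intCast, map_ofNat, eq_ratCast] at hr'
    rw [← q1, ← q2, ← q3] at hS1 hS2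
    have h4 : ((r : Qb) - (u₁ + u₂ + u₃)) * ((r : Qb) - (u₁ - u₂ - u₃)) *
        (((r : Qb) - (-u₁ + u₂ - u₃)) * ((r : Qb) - (-u₁ - u₂ + u₃))) = 0 := by
      linear_combination hr' - 4 * hS2 - 8 * (r : Qb) * hP -
        (2 * (r : Qb) ^ 2 + (W.c₄ : Qb) * W.Δ / 16 - (u₁ ^ 2 + u₂ ^ 2 + u₃ ^ 2)) * hS1
    rcases mul_eq_zero.mp h4 with h | h <;> rcases mul_eq_zero.mp h with h | h
    · exact ⟨u₁, u₂, u₃, q1, q2, q3, (sub_eq_zero.mp h).symm, hP⟩
    · exact ⟨u₁, -u₂, -u₃, q1, by rw [neg_sq, q2], by rw [neg_sq, q3],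
        by linear_combination -h, by linear_combination hP⟩
    · exact ⟨-u₁, u₂, -u₃, by rw [neg_sq, q1], q2, by rw [neg_sq, q3],
        by linear_combination -h, by linear_combination hP⟩
    · exact ⟨-u₁, -u₂, u₃, by rw [neg_sq, q1], by rw [neg_sq, q2], q3,
        by linear_combination -h, by linear_combination hP⟩
  have hdist : zRoot W ![1, 0] ≠ zRoot W ![0, 1] ∧ zRoot W ![0, 1] ≠ zRoot W ![1, 1] ∧
      zRoot W ![1, 1] ≠ zRoot W ![1, 0] := by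
    obtain ⟨σ, hσ⟩ := hfull !![0, 1; 1, 1] (by decide)
    have z1 : zRoot W ![0, 1] = σ (zRoot W ![1, 0]) := by
      rw [← zRoot_mulVec, hσ, cycle_mulVec.1]
    have z2 : zRoot W ![1, 1] = σ (zRoot W ![0, 1]) := by
      rw [← zRoot_mulVec, hσ, cycle_mulVec.2.1]
    have z3 : zRoot W ![1, 0] = σ (zRoot W ![1, 1]) := by
      rw [← zRoot_mulVec, hσ, cycle_mulVec.2.2.1]
    have hne : zRoot W ![1, 0] ≠ zRoot W ![0, 1] := fun e => by
      obtain ⟨nab, -, nac, -⟩ := vieta W rfl rfl rfl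
      obtain ⟨e1, e2, -⟩ := wRoot_values W rfl rfl rfl
      have h0 := mul_left_cancel₀ (neg_ne_zero.mpr hΔ) e
      rw [e1, e2] at h0
      have f : eRoot W ![1, 0] + eRoot W ![0, 1] = 2 * eRoot W ![1, 1] :=
        mul_left_cancel₀ (sub_ne_zero.mpr nab) (by linear_combination h0)
      have f' := congrArg σ f
      rw [map_add, map_mul, map_ofNat, ← FA.Two.eRoot_mulVec, ← FA.Two.eRoot_mulVec,
        ← FA.Two.eRoot_mulVec, hσ,
        cycle_mulVec.1, cycle_mulVec.2.1, cycle_mulVec.2.2.1] at f'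
      exact nac (by linear_combination (1 / 3 : Qb) * (f - f'))
    refine ⟨hne, fun e => hne (σ.injective ?_), fun e => ?_⟩
    · rw [← z1, ← z2]; exact e
    · refine hne (σ.injective ((σ.injective ?_)))
      rw [← z1, ← z2, ← z3]
      exact e
  intro g hg v hv
  have hfix : ∀ {u : Qb} {v : Fin 2 → ZMod 2}, u ^ 2 = zRoot W v → g u = u ∨ g u = -u :=
    fun {u v} hu => apply_root_cases W hu (by rw [hg, one_mulVec, hu])
  have gsum : g s₁ + g s₂ + g s₃ = s₁ + s₂ + s₃ := by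
    rw [← map_add, ← map_add, hsum, map_ratCast]
  have gprod : g s₁ * g s₂ * g s₃ = s₁ * s₂ * s₃ := by
    rw [← map_mul, ← map_mul, hprod, map_div₀, map_pow, map_intCast, map_ofNat]
  have hne0 : s₁ * s₂ * s₃ ≠ 0 := by rw [hprod]; simp [hΔ]
  have hall : g s₁ = s₁ ∧ g s₂ = s₂ ∧ g s₃ = s₃ := by
    rcases hfix p1 with e1 | e1 <;> rcases hfix p2 with e2 | e2 <;> rcases hfix p3 with e3 | e3 <;>
      rw [e1, e2, e3] at gsum gprod
    · exact ⟨e1, e2, e3⟩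
    · exact absurd (by linear_combination (-1 / 2 : Qb) * gprod) hne0
    · exact absurd (by linear_combination (-1 / 2 : Qb) * gprod) hne0
    · exact absurd (by rw [← p2, ← p3, show s₂ = -s₃ by linear_combination (-1 / 2 : Qb) * gsum,
        neg_sq]) hdist.2.1
    · exact absurd (by linear_combination (-1 / 2 : Qb) * gprod) hne0
    · exact absurd (by rw [← p3, ← p1, show s₁ = -s₃ by linear_combination (-1 / 2 : Qb) * gsum,
        neg_sq]) hdist.2.2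
    · exact absurd (by rw [← p1, ← p2, show s₁ = -s₂ by linear_combination (-1 / 2 : Qb) * gsum,
        neg_sq]) hdist.1
    · exact absurd (by linear_combination (-1 / 2 : Qb) * gprod) hne0
  have key : ∀ {s : Qb} {v : Fin 2 → ZMod 2}, s ^ 2 = zRoot W v → g s = s →
      g (sqrtQ (zRoot W v)) = sqrtQ (zRoot W v) := fun {s v} hs hgs => by
    rcases sq_eq_sq_iff_eq_or_eq_neg.mp ((FA.Two.sqrtQ_sq (zRoot W v)).trans hs.symm) with h | h <;>
      rw [h]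
    · exact hgs
    · rw [map_neg, hgs]
  have hcases : ∀ u : Fin 2 → ZMod 2, u ≠ 0 → u = ![1, 0] ∨ u = ![0, 1] ∨ u = ![1, 1] := by decide
  rcases hcases v hv with rfl | rfl | rfl
  exacts [key p1 hall.1, key p2 hall.2.1, key p3 hall.2.2]

/-- **The exotic `j`-invariants.** -/
theorem exists_rat_iff_param {c Δ j : ℚ} (hΔ : Δ ≠ 0) (hj : j * Δ = c ^ 3) :
    (∃ r : ℚ, (r ^ 2 + c * Δ / 16) ^ 2 = 2 * Δ ^ 2 * r) ↔
      ∃ t : ℚ, j = -4 * t ^ 3 * (t + 8) := by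
  constructor
  · rintro ⟨r, hr⟩
    obtain ⟨q, hq⟩ : ∃ q : ℚ, r ^ 2 + c * Δ / 16 = 2 * q * Δ :=
      ⟨(r ^ 2 + c * Δ / 16) / (2 * Δ), by field_simp⟩
    rw [hq] at hr
    obtain rfl : r = 2 * q ^ 2 :=
      mul_left_cancel₀ (mul_ne_zero two_ne_zero (pow_ne_zero 2 hΔ)) (by linear_combination -hr)
    refine ⟨8 * (2 * q ^ 3 / Δ - 1), ?_⟩
    have hc : c = 32 * q - 64 * q ^ 4 / Δ := by field_simp; linear_combination 16 * hq
    refine mul_right_cancel₀ hΔ ?_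
    rw [hj, hc]
    field_simp
    ring
  · rintro ⟨t, rfl⟩
    rcases eq_or_ne t 0 with rfl | ht
    · have hc : c = 0 := pow_eq_zero_iff three_ne_zero |>.mp (by rw [← hj]; ring)
      exact ⟨0, by rw [hc]; ring⟩
    · refine ⟨2 * (-c / (4 * t)) ^ 2, ?_⟩
      set q := -c / (4 * t) with hq
      have hc : c = -4 * t * q := by rw [hq]; field_simp
      have hq3 : 16 * q ^ 3 = (t + 8) * Δ := by
        refine mul_left_cancel₀ (mul_ne_zero (by norm_num : (-4 : ℚ) ≠ 0) (pow_ne_zero 3 ht)) ?_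
        rw [hc] at hj
        linear_combination -hj
      have hk : (2 * q ^ 2) ^ 2 + c * Δ / 16 = 2 * q * Δ := by
        rw [hc]; linear_combination (q / 4) * hq3
      rw [hk]
      ring

end FA.LevelFour

end
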