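import Fermat.Agent.SerreCurve.EntangledSix
import Fermat.Agent.SerreCurve.LevelFourRoots
import Mathlib.Tactic.FieldSimp

/-!
# When `ℚ(E[2])` lies in `ℚ(E[3])`

Let both `E[2]` and `E[3]` carry everything. If no automorphism fixes `E[2]` and has order three on
`E[3]`, the cube roots of `Δ` and of unity lie in `ℚ(E[2])`, so the roots of `X³ - 3 c₄ X - 2 c₆`
are `b θ + c θ²` with rational `b, c` and `θ³ = Δ`, and `j = 27648 t³ (1 - 4 t³)` for a rational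
`t`. Conversely these invariants put `ℚ(E[2])` in `ℚ(E[3])`, which excludes such an automorphism.
-/

set_option autoImplicit false
set_option linter.unusedSectionVars false
set_option linter.style.haveILetI false

noncomputable section

open Matrix WeierstrassCurve WeierstrassCurve.Affine FA.EC FA.Frob FA.RT
open FA.RT.Tate (Pts)
open FA.Switch (psiQ)
open FA.Two (eRoot)
open FA.LevelFour (FullTwo)
open scoped WeierstrassCurve.Affine

local notation "Qb" => AlgebraicClosure ℚ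
local notation "GQ" => AlgebraicClosure ℚ ≃ₐ[ℚ] AlgebraicClosure ℚ
local notation "M2" => Matrix (Fin 2) (Fin 2)

namespace FA.SerreCurve

/-- What fixes `E[3]` fixes `E[2]`. -/
def SixContained (W : WeierstrassCurve ℤ) [(ratCurve W).IsElliptic] : Prop :=
  ∀ σ : GQ, (∀ x : Pts W, 3 • x = 0 → σ • x = x) → ∀ x : Pts W, 2 • x = 0 → σ • x = x

theorem commutator_pow_ne : ∀ M : M2 (ZMod 3), M.det = 2 →
    (M * !![1, 1; 0, 1] * ((-1 : ZMod 3) • !![M 1 1, -M 0 1; -M 1 0, M 0 0]) *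
        !![1, 2; 0, 1]) ^ 16 ≠ 1 ∨
      (M * !![1, 0; 1, 1] * ((-1 : ZMod 3) • !![M 1 1, -M 0 1; -M 1 0, M 0 0]) *
        !![1, 0; 2, 1]) ^ 16 ≠ 1 := by decide +kernel

theorem mul_inverse_three : ∀ M : M2 (ZMod 3), M.det = 2 →
    M * ((-1 : ZMod 3) • !![M 1 1, -M 0 1; -M 1 0, M 0 0]) = 1 := by decide +kernel

theorem elementary_inverse :
    (!![1, 1; 0, 1] : M2 (ZMod 3)) * !![1, 2; 0, 1] = 1 ∧
      (!![1, 0; 1, 1] : M2 (ZMod 3)) * !![1, 0; 2, 1] = 1 ∧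
      (!![1, 1; 0, 1] : M2 (ZMod 3)).det ≠ 0 ∧ (!![1, 0; 1, 1] : M2 (ZMod 3)).det ≠ 0 ∧
      (!![2, 0; 0, 1] : M2 (ZMod 3)).det = 2 := by decide +kernel

theorem pow_group_order : ∀ M : M2 (ZMod 3), M.det ≠ 0 → M ^ 48 = 1 := by decide +kernel

theorem det_three_cases : ∀ d : ZMod 3, d ≠ 0 → d = 1 ∨ d = 2 := by decide

theorem det_cube : ∀ d : ZMod 3, d * d * d = d := by decide

theorem even_cube : ∀ M : M2 (ZMod 2), M.det ≠ 0 → FA.Two.sgn M = 0 → M * M * M = 1 := by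
  decide +kernel

theorem even_or_even_mul : ∀ M : M2 (ZMod 2), M.det ≠ 0 →
    FA.Two.sgn M = 0 ∨ FA.Two.sgn ((!![1, 1; 0, 1] : M2 (ZMod 2)) * M) = 0 := by decide +kernel

theorem cycle_facts : FA.Two.sgn (!![0, 1; 1, 1] : M2 (ZMod 2)) = 0 ∧
    (!![1, 1; 0, 1] : M2 (ZMod 2)) *ᵥ ![0, 1] = ![1, 1] ∧
    (!![1, 1; 0, 1] : M2 (ZMod 2)) *ᵥ ![1, 1] = ![0, 1] ∧
    (!![0, 1; 1, 1] : M2 (ZMod 2)) * !![1, 1; 1, 0] = 1 ∧
    (!![1, 1; 0, 1] : M2 (ZMod 2)) * !![1, 1; 0, 1] = 1 ∧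
    (!![0, 1; 1, 1] : M2 (ZMod 2)) * !![1, 1; 0, 1] * !![1, 1; 1, 0] * !![1, 1; 0, 1] ≠ 1 := by
  decide +kernel

/-- The symmetric functions of the three values `u ω ^ k + v ω ^ (2 k)`. -/
theorem lagrange_symm {R : Type*} [CommRing R] {ω u v : R} (h : ω ^ 2 + ω + 1 = 0) :
    (u + v) + (ω * u + ω ^ 2 * v) + (ω ^ 2 * u + ω * v) = 0 ∧
      (u + v) * (ω * u + ω ^ 2 * v) + (u + v) * (ω ^ 2 * u + ω * v) +
          (ω * u + ω ^ 2 * v) * (ω ^ 2 * u + ω * v) = -3 * (u * v) ∧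
      (u + v) * (ω * u + ω ^ 2 * v) * (ω ^ 2 * u + ω * v) = u ^ 3 + v ^ 3 := by
  refine ⟨by linear_combination (u + v) * h, ?_, ?_⟩
  · linear_combination
      ((u + v) ^ 2 + (ω - 1) * (u ^ 2 + v ^ 2) + (ω ^ 2 - ω + 1) * (u * v)) * h
  · linear_combination
      (u + v) * ((ω - 1) * (u ^ 2 + v ^ 2) + (ω ^ 2 - ω + 1) * (u * v)) * h

/-- From the coefficients to the parameter. -/
theorem exists_param_of_coeff {c4 c6 Δ j b c : ℚ} (hΔ : Δ ≠ 0)
    (hrel : c4 ^ 3 - c6 ^ 2 = 1728 * Δ) (hj : j * Δ = c4 ^ 3) (h4 : c4 = b * c * Δ)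
    (h6 : 2 * c6 = Δ * (b ^ 3 + c ^ 3 * Δ)) : ∃ t : ℚ, j = 27648 * t ^ 3 * (1 - 4 * t ^ 3) := by
  set D := b ^ 3 - c ^ 3 * Δ with hDdef
  subst h4
  have hD : D ^ 2 * Δ = -6912 := mul_left_cancel₀ hΔ (by
    rw [hDdef]
    linear_combination -4 * hrel - (2 * c6 + Δ * (b ^ 3 + c ^ 3 * Δ)) * h6)
  have hD0 : D ≠ 0 := fun e => by rw [e] at hD; norm_num at hD
  have hj' : j = b ^ 3 * c ^ 3 * Δ ^ 2 := mul_right_cancel₀ hΔ (by rw [hj]; ring)
  have e1 : D ^ 3 - 6912 * c ^ 3 = D ^ 2 * b ^ 3 := by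
    rw [hDdef] at hD ⊢
    linear_combination -c ^ 3 * hD
  have e2 : D ^ 4 * Δ ^ 2 = 47775744 := by linear_combination (D ^ 2 * Δ - 6912) * hD
  refine ⟨12 * c / D, ?_⟩
  rw [div_pow]
  field_simp
  linear_combination D ^ 6 * hj' + b ^ 3 * c ^ 3 * D ^ 2 * e2 - 47775744 * c ^ 3 * e1

/-- From the parameter to the coefficients. -/
theorem exists_coeff_of_param {c4 c6 Δ j t : ℚ} (hΔ : Δ ≠ 0)
    (hrel : c4 ^ 3 - c6 ^ 2 = 1728 * Δ) (hj : j * Δ = c4 ^ 3) (h4 : c4 ≠ 0) (h6 : c6 ≠ 0)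
    (hjt : j = 27648 * t ^ 3 * (1 - 4 * t ^ 3)) :
    ∃ b c : ℚ, c4 = b * c * Δ ∧ 2 * c6 = Δ * (b ^ 3 + c ^ 3 * Δ) := by
  have hsq : c6 ^ 2 = -1728 * (1 - 8 * t ^ 3) ^ 2 * Δ := by
    linear_combination -hrel - hj + Δ * hjt
  have hk : 1 - 8 * t ^ 3 ≠ 0 := fun e => h6 (by
    rw [e] at hsq
    simpa using hsq)
  set D := 2 * c6 / (Δ * (1 - 8 * t ^ 3)) with hDdef
  have hD : D ^ 2 * Δ = -6912 := by
    rw [hDdef]
    field_simp
    linear_combination 4 * hsq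
  have hD0 : D ≠ 0 := fun e => by rw [e] at hD; norm_num at hD
  have e2 : D ^ 4 * Δ ^ 2 = 47775744 := by linear_combination (D ^ 2 * Δ - 6912) * hD
  have ht : t ≠ 0 := fun e => h4 (by
    have : c4 ^ 3 = 0 := by rw [← hj, hjt, e]; ring
    exact eq_zero_of_pow_eq_zero this)
  have hc0 : t * D / 12 * Δ ≠ 0 := mul_ne_zero (div_ne_zero (mul_ne_zero ht hD0) (by norm_num)) hΔ
  refine ⟨c4 / (t * D / 12 * Δ), t * D / 12, ?_, ?_⟩
  · rw [mul_assoc, div_mul_cancel₀ _ hc0]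
  have hb : (c4 / (t * D / 12 * Δ)) ^ 3 = (1 - 4 * t ^ 3) * D := by
    rw [div_pow, div_eq_iff (pow_ne_zero 3 hc0)]
    linear_combination -hj + Δ * hjt - Δ * t ^ 3 * (1 - 4 * t ^ 3) / 1728 * e2
  have hc : (t * D / 12) ^ 3 * Δ = -4 * t ^ 3 * D := by
    linear_combination t ^ 3 * D / 1728 * hD
  have h2 : 2 * c6 = Δ * (1 - 8 * t ^ 3) * D := by
    rw [hDdef, mul_div_cancel₀ _ (mul_ne_zero hΔ hk)]
  rw [hb, hc]
  linear_combination h2

variable {W : WeierstrassCurve ℤ} [(ratCurve W).IsElliptic]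

section Rep

variable {p : ℕ} [hp : Fact p.Prime]

/-- Fixing `E[p]` is having trivial matrix. -/
theorem fixes_iff_curveRep (σ : GQ) :
    (∀ x : Pts W, p • x = 0 → σ • x = x) ↔ curveRep p W σ = 1 :=
  ⟨fun h => (curveRep_eq_one_iff W σ).mpr fun x => Subtype.ext (h x.1 (FA.Frob.nsmul_torsion x)),
    fun h x hx => congrArg Subtype.val ((curveRep_eq_one_iff W σ).mp h
      ⟨x, by rw [Submodule.mem_torsionBy_iff, natCast_zsmul]; exact hx⟩)⟩

theorem curveRep_inv_eq {σ : GQ} {M N : M2 (ZMod p)} (h : curveRep p W σ = M) (hMN : M * N = 1) :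
    curveRep p W σ⁻¹ = N :=
  left_inv_eq_right_inv (by rw [← h, ← map_mul, inv_mul_cancel, map_one]) hMN

/-- A full image on `E[p]` gives every matrix. -/
theorem exists_curveRep_of_fullAt (h : FullAt W p) {K : M2 (ZMod p)} (hK : K.det ≠ 0) :
    ∃ σ : GQ, curveRep p W σ = K := by
  obtain ⟨B⟩ := FA.RT.Tate.exists_tateBasis (p := p) W
  set L : M2 ℤ_[p] := Matrix.of fun i j => (((K i j).val : ℕ) : ℤ_[p]) with hLdef
  have hL : L.map PadicInt.toZMod = K := by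
    ext i j
    simp [hLdef]
  obtain ⟨σ, Y, hY⟩ := reach_of_fullAt B (n := 1) (by rwa [pow_one]) (M := L)
    (FA.PadicImage.isUnit_iff_toZMod.mpr (by
      rw [RingHom.map_det, RingHom.mapMatrix_apply, hL]; exact hK))
  refine ⟨σ, ?_⟩
  rw [← FA.PadicImage.rep_map_toZMod B σ, hY, ← hL]
  ext i j
  rw [Matrix.map_apply, Matrix.map_apply, Matrix.add_apply, Matrix.smul_apply, smul_eq_mul,
    map_add, map_mul, map_pow, map_natCast, ZMod.natCast_self, zero_pow one_ne_zero, zero_mul,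
    add_zero]

end Rep

theorem sixWitness_iff_curveRep : SixWitness W ↔ ∃ g : GQ, curveRep 2 W g = 1 ∧
    curveRep 3 W g ^ 3 = 1 ∧ curveRep 3 W g ≠ 1 := by
  constructor
  · rintro ⟨g, h2, h3, x, hx, hne⟩
    exact ⟨g, (fixes_iff_curveRep g).mp h2, by rw [← map_pow]; exact (fixes_iff_curveRep _).mp h3,
      fun e => hne ((fixes_iff_curveRep g).mpr e x hx)⟩
  · rintro ⟨g, h2, h3, hne⟩
    refine ⟨g, (fixes_iff_curveRep g).mpr h2,
      (fixes_iff_curveRep _).mpr (by rw [map_pow]; exact h3), ?_⟩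
    by_contra hall
    push Not at hall
    exact hne ((fixes_iff_curveRep g).mp hall)

theorem det_curveRep_three_ne (σ : GQ) : (curveRep 3 W σ).det ≠ 0 := fun h => by
  have := congrArg Matrix.det (map_mul (curveRep 3 W) σ σ⁻¹)
  rw [mul_inv_cancel, map_one, det_one, det_mul, h, zero_mul] at this
  exact one_ne_zero this

/-- The action on the cube roots of unity, from the determinant. -/
theorem apply_cube_root (σ : GQ) {μ : Qb} (hμ : μ ^ 3 = 1) :
    σ μ = μ ^ (curveRep 3 W σ).det.val := by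
  obtain ⟨ω, hω⟩ := HasEnoughRootsOfUnity.exists_primitiveRoot Qb 3
  obtain ⟨a, -, ha⟩ := hω.eq_pow_of_pow_eq_one (ξ := σ ω) (by rw [← map_pow, hω.pow_eq_one,
    map_one])
  have hall : ∀ ν : Qb, ν ^ 3 = 1 → σ ν = ν ^ a := fun ν hν => by
    obtain ⟨i, -, rfl⟩ := hω.eq_pow_of_pow_eq_one hν
    rw [map_pow, ← ha, ← pow_mul, ← pow_mul, mul_comm]
  rw [det_curveRep (W := W) σ a hall, ZMod.val_natCast, hall μ hμ, ← pow_eq_pow_mod a hμ]

section NoWitness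

variable (hw : ¬ SixWitness W)
include hw

/-- The sixteenth power of what fixes `E[2]` fixes `E[3]`. -/
theorem pow_sixteen_eq_one {σ : GQ} (hσ : curveRep 2 W σ = 1) :
    curveRep 3 W σ ^ 16 = 1 := by
  by_contra hne
  refine hw (sixWitness_iff_curveRep.mpr ⟨σ ^ 16, by rw [map_pow, hσ, one_pow], ?_, ?_⟩)
  · rw [map_pow, ← pow_mul]
    exact pow_group_order _ (det_curveRep_three_ne σ)
  · rwa [map_pow]

/-- What fixes `E[2]` has determinant one on `E[3]`. -/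
theorem det_eq_one_of_fix_two (h3 : FullAt W 3) {σ : GQ} (hσ : curveRep 2 W σ = 1) :
    (curveRep 3 W σ).det = 1 := by
  refine (det_three_cases _ (det_curveRep_three_ne σ)).resolve_right fun h2 => ?_
  have key : ∀ U U' : M2 (ZMod 3), U.det ≠ 0 → U * U' = 1 →
      (curveRep 3 W σ * U * ((-1 : ZMod 3) • !![curveRep 3 W σ 1 1, -curveRep 3 W σ 0 1;
        -curveRep 3 W σ 1 0, curveRep 3 W σ 0 0]) * U') ^ 16 = 1 := fun U U' hU hUU => by
    obtain ⟨u, hu⟩ := exists_curveRep_of_fullAt h3 hU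
    have h := pow_sixteen_eq_one hw (σ := σ * u * σ⁻¹ * u⁻¹) (by
      rw [map_mul, map_mul, map_mul, hσ, curveRep_inv_eq hσ (mul_one 1), one_mul, mul_one,
        ← map_mul, mul_inv_cancel, map_one])
    rwa [map_mul, map_mul, map_mul, hu, curveRep_inv_eq rfl (mul_inverse_three _ h2),
      curveRep_inv_eq hu hUU] at h
  obtain ⟨e1, e2, d1, d2, -⟩ := elementary_inverse
  rcases commutator_pow_ne _ h2 with h | h
  · exact h (key _ _ d1 e1)
  · exact h (key _ _ d2 e2)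

/-- Even permutations of `E[2]` have determinant one on `E[3]`. -/
theorem det_eq_one_of_even (h3 : FullAt W 3) {σ : GQ}
    (hσ : FA.Two.sgn (curveRep 2 W σ) = 0) : (curveRep 3 W σ).det = 1 := by
  have h := det_eq_one_of_fix_two hw h3 (σ := σ * σ * σ) (by
    rw [map_mul, map_mul]; exact even_cube _ (FA.Two.det_curveRep_two_ne W σ) hσ)
  rwa [map_mul, map_mul, det_mul, det_mul, det_cube] at h

/-- A transposition has determinant `-1` on `E[3]`. -/
theorem det_eq_two_of_transp (h3 : FullAt W 3) {τ : GQ}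
    (hτ : curveRep 2 W τ = !![1, 1; 0, 1]) : (curveRep 3 W τ).det = 2 := by
  refine (det_three_cases _ (det_curveRep_three_ne τ)).resolve_left fun h1 => ?_
  obtain ⟨k, hk⟩ := exists_curveRep_of_fullAt h3 (K := !![2, 0; 0, 1])
    (by rw [elementary_inverse.2.2.2.2]; decide)
  have hk2 : (curveRep 3 W k).det = 2 := by rw [hk]; exact elementary_inverse.2.2.2.2
  have h21 : (2 : ZMod 3) ≠ 1 := by decide
  rcases even_or_even_mul _ (FA.Two.det_curveRep_two_ne W k) with h | h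
  · exact h21 (hk2.symm.trans (det_eq_one_of_even hw h3 h))
  · rw [← hτ, ← map_mul] at h
    have h' := det_eq_one_of_even hw h3 h
    rw [map_mul, det_mul, h1, one_mul, hk2] at h'
    exact h21 h'

/-- A cube root of `Δ` fixed by what fixes `E[2]`. -/
theorem exists_cubeRoot_fix_two (h3 : FullAt W 3) :
    ∃ θ : Qb, θ ^ 3 = (W.Δ : Qb) ∧ ∀ σ : GQ, curveRep 2 W σ = 1 → σ θ = θ := by
  obtain ⟨b⟩ := FA.PadicImage.nonempty_torsion_equiv W (N := 3)
  obtain ⟨r, hr⟩ := FA.SmallPrimes.exists_coordinateRep b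
  obtain ⟨θ, hθ, hfix⟩ := FA.SmallPrimes.exists_cubeRoot hr
  refine ⟨θ, hθ, fun σ hσ => ?_⟩
  have hθ0 : θ ≠ 0 := fun e => FA.LevelFour.Δ_ne_zero_cast W (by
    rw [← hθ, e, zero_pow three_ne_zero])
  have hω : (σ θ / θ) ^ 3 = 1 := by
    rw [div_pow, ← map_pow, hθ, map_intCast, div_self (FA.LevelFour.Δ_ne_zero_cast W)]
  have hfixω : σ (σ θ / θ) = σ θ / θ := by
    rw [apply_cube_root (W := W) σ hω, det_eq_one_of_fix_two hw h3 hσ]
    exact pow_one _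
  have hn : ∀ n : ℕ, (σ ^ n) θ = (σ θ / θ) ^ n * θ := fun n => by
    induction n with
    | zero => simp
    | succ m ih =>
      rw [pow_succ', AlgEquiv.mul_apply, ih, map_mul, map_pow, hfixω, pow_succ, mul_assoc,
        div_mul_cancel₀ _ hθ0]
  have h16 : (σ ^ 16) θ = θ := hfix _ (Matrix.ext_of_mulVec_single fun i =>
    b.injective (Subtype.ext (by
      rw [← hr, one_mulVec]
      exact (fixes_iff_curveRep (p := 3) (σ ^ 16)).mpr (by
        rw [map_pow]; exact pow_sixteen_eq_one hw hσ) _ (by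
          rw [← natCast_zsmul]; exact (Submodule.mem_torsionBy_iff _ _).mp (b _).2))))
  have h := (hn 16).symm.trans h16
  rw [show (16 : ℕ) = 3 * 5 + 1 from rfl, pow_add, pow_mul, hω, one_pow, one_mul, pow_one,
    div_mul_cancel₀ _ hθ0] at h
  exact h

end NoWitness

/-- The roots of `X³ - 3 c₄ X - 2 c₆`. -/
def cubicRoot (W : WeierstrassCurve ℤ) [(ratCurve W).IsElliptic] (v : Fin 2 → ZMod 2) : Qb :=
  12 * eRoot W v + (W.b₂ : Qb)

theorem cubicRoot_mulVec (σ : GQ) (v : Fin 2 → ZMod 2) :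
    cubicRoot W (curveRep 2 W σ *ᵥ v) = σ (cubicRoot W v) := by
  simp only [cubicRoot, FA.Two.eRoot_mulVec, map_add, map_mul, map_ofNat, map_intCast]

theorem cubicRoot_symm :
    cubicRoot W ![1, 0] + cubicRoot W ![0, 1] + cubicRoot W ![1, 1] = 0 ∧
      cubicRoot W ![1, 0] * cubicRoot W ![0, 1] + cubicRoot W ![1, 0] * cubicRoot W ![1, 1] +
        cubicRoot W ![0, 1] * cubicRoot W ![1, 1] = -3 * (W.c₄ : Qb) ∧
      cubicRoot W ![1, 0] * cubicRoot W ![0, 1] * cubicRoot W ![1, 1] = 2 * (W.c₆ : Qb) := by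
  obtain ⟨-, -, -, h2, h4, h6⟩ := FA.LevelFour.vieta W rfl rfl rfl
  simp only [cubicRoot, WeierstrassCurve.c₄, WeierstrassCurve.c₆, Int.cast_sub, Int.cast_add,
    Int.cast_mul, Int.cast_pow, Int.cast_neg, Int.cast_ofNat, h2, h4, h6]
  exact ⟨by ring, by ring, by ring⟩

theorem rel_cast : (W.c₄ : ℚ) ^ 3 - (W.c₆ : ℚ) ^ 2 = 1728 * (W.Δ : ℚ) := by
  have h := congrArg (Int.cast : ℤ → ℚ) W.c_relation
  push_cast at h
  linear_combination -h

theorem Δ_ne_zero_rat : (W.Δ : ℚ) ≠ 0 :=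
  Int.cast_ne_zero.mpr (Δ_ne_zero_of_model (E := ratCurve W) ⟨1, one_smul _ _⟩)

theorem fullTwo_of_fullAt (h2 : FullAt W 2) : FullTwo W := fun _ hM =>
  exists_curveRep_of_fullAt h2 hM

/-- **No witness at six gives the parameter.** -/
theorem exists_coeff_of_not_witness (h2 : FullAt W 2) (h3 : FullAt W 3) (hw : ¬ SixWitness W) :
    ∃ b c : ℚ, (W.c₄ : ℚ) = b * c * (W.Δ : ℚ) ∧
      2 * (W.c₆ : ℚ) = (W.Δ : ℚ) * (b ^ 3 + c ^ 3 * (W.Δ : ℚ)) := by
  obtain ⟨g, hg⟩ := fullTwo_of_fullAt h2 !![0, 1; 1, 1] (by decide)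
  obtain ⟨τ, hτ⟩ := fullTwo_of_fullAt h2 !![1, 1; 0, 1] (by decide)
  have hgω : ∀ μ : Qb, μ ^ 3 = 1 → g μ = μ := fun μ hμ => by
    rw [apply_cube_root (W := W) g hμ,
      det_eq_one_of_even hw h3 (by rw [hg]; exact cycle_facts.1)]
    exact pow_one μ
  have hτω : ∀ μ : Qb, μ ^ 3 = 1 → τ μ = μ ^ 2 := fun μ hμ => by
    rw [apply_cube_root (W := W) τ hμ, det_eq_two_of_transp hw h3 hτ]
    rfl
  have hrat : ∀ R : Qb, (∀ σ : GQ, curveRep 2 W σ = 1 → σ R = R) → g R = R → τ R = R →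
      ∃ q : ℚ, (q : Qb) = R := fun R hR hgR hτR => FA.EC.mem_range_of_fixed fun s => by
    have hc : ∀ h : GQ, curveRep 2 W s = curveRep 2 W h → s R = h R := fun h e => by
      have h1 := hR (h⁻¹ * s) (by rw [map_mul, e, ← map_mul, inv_mul_cancel, map_one])
      rwa [AlgEquiv.mul_apply, AlgEquiv.aut_inv, AlgEquiv.symm_apply_eq] at h1
    rcases FA.Two.six_cases (FA.Two.det_curveRep_two_ne W s) with e | e | e | e | e | e
    · rw [hc 1 (e.trans (map_one _).symm)]; rfl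
    · rw [hc g (e.trans hg.symm), hgR]
    · rw [hc (g * g) (by rw [e, map_mul, hg]; decide), AlgEquiv.mul_apply, hgR, hgR]
    · rw [hc (g * τ) (by rw [e, map_mul, hg, hτ]; decide), AlgEquiv.mul_apply, hτR, hgR]
    · rw [hc τ (e.trans hτ.symm), hτR]
    · rw [hc (g * g * τ) (by rw [e, map_mul, map_mul, hg, hτ]; decide), AlgEquiv.mul_apply,
        AlgEquiv.mul_apply, hτR, hgR, hgR]
  obtain ⟨θ₀, hθ₀, hfix₀⟩ := exists_cubeRoot_fix_two hw h3
  have hΔ := FA.LevelFour.Δ_ne_zero_cast W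
  have hθ₀0 : θ₀ ≠ 0 := fun e => hΔ (by rw [← hθ₀, e, zero_pow three_ne_zero])
  -- the cube root fixed by the transposition
  set κ := τ θ₀ / θ₀
  have hκ : κ ^ 3 = 1 := by rw [div_pow, ← map_pow, hθ₀, map_intCast, div_self hΔ]
  have hτθ₀ : τ θ₀ = κ * θ₀ := (div_mul_cancel₀ _ hθ₀0).symm
  set θ := κ ^ 2 * θ₀
  have hθ : θ ^ 3 = (W.Δ : Qb) := by
    rw [mul_pow, ← pow_mul, mul_comm 2, pow_mul, hκ, one_pow, one_mul, hθ₀]
  have hθ0 : θ ≠ 0 := fun e => hΔ (by rw [← hθ, e, zero_pow three_ne_zero])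
  have hτθ : τ θ = θ := by
    show τ (κ ^ 2 * θ₀) = _
    rw [map_mul, map_pow, hτω κ hκ, hτθ₀]
    linear_combination κ ^ 2 * θ₀ * hκ
  have hfixμ : ∀ σ : GQ, curveRep 2 W σ = 1 → ∀ μ : Qb, μ ^ 3 = 1 → σ μ = μ := fun σ hσ μ hμ => by
    rw [apply_cube_root (W := W) σ hμ, det_eq_one_of_fix_two hw h3 hσ]
    exact pow_one μ
  have hfix : ∀ σ : GQ, curveRep 2 W σ = 1 → σ θ = θ := fun σ hσ => by
    rw [map_mul, map_pow, hfixμ σ hσ κ hκ, hfix₀ σ hσ]
  set ω := g θ / θ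
  have hω3 : ω ^ 3 = 1 := by rw [div_pow, ← map_pow, hθ, map_intCast, div_self hΔ]
  have hgθ : g θ = ω * θ := (div_mul_cancel₀ _ hθ0).symm
  have hω1 : ω ≠ 1 := fun e => by
    obtain ⟨q, hq⟩ := hrat θ hfix (by rw [hgθ, e, one_mul]) hτθ
    exact not_full_three_of_cube (t := q) ((algebraMap ℚ Qb).injective (by
      rw [map_pow, eq_ratCast, eq_ratCast, hq, hθ, Rat.cast_intCast])) h3
  have hω : ω ^ 2 + ω + 1 = 0 := mul_left_cancel₀ (sub_ne_zero.mpr hω1) (by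
    rw [mul_zero]; linear_combination hω3)
  have hgX : ∀ v w, (!![0, 1; 1, 1] : M2 (ZMod 2)) *ᵥ v = w →
      g (cubicRoot W v) = cubicRoot W w := fun v w h => by rw [← cubicRoot_mulVec, hg, h]
  have hτX : ∀ v w, (!![1, 1; 0, 1] : M2 (ZMod 2)) *ᵥ v = w →
      τ (cubicRoot W v) = cubicRoot W w := fun v w h => by rw [← cubicRoot_mulVec, hτ, h]
  have hXfix : ∀ σ : GQ, curveRep 2 W σ = 1 → ∀ v, σ (cubicRoot W v) = cubicRoot W v :=
    fun σ hσ v => by rw [← cubicRoot_mulVec, hσ, one_mulVec]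
  obtain ⟨c1, c2, c3, c4⟩ := FA.LevelFour.cycle_mulVec
  have g1 := hgX _ _ c1
  have g2 := hgX _ _ c2
  have g3 := hgX _ _ c3
  have t1 := hτX _ _ c4
  have t2 := hτX _ _ cycle_facts.2.1
  have t3 := hτX _ _ cycle_facts.2.2.1
  obtain ⟨hs1, hs2, hs3⟩ := cubicRoot_symm (W := W)
  set X₁ := cubicRoot W ![1, 0] with hX₁
  set X₂ := cubicRoot W ![0, 1] with hX₂
  set X₃ := cubicRoot W ![1, 1] with hX₃
  obtain ⟨l, hl⟩ := hrat ((X₁ + ω ^ 2 * X₂ + ω * X₃) / θ)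
    (fun σ hσ => by
      simp only [map_div₀, map_add, map_mul, map_pow, hfix σ hσ, hfixμ σ hσ ω hω3, hX₁, hX₂, hX₃,
        hXfix σ hσ])
    (by
      simp only [map_div₀, map_add, map_mul, map_pow, hgθ, hgω ω hω3, g1, g2, g3]
      rw [div_eq_div_iff (mul_ne_zero (fun e => by simp [e] at hω3) hθ0) hθ0]
      linear_combination -(θ * X₂) * hω3)
    (by
      simp only [map_div₀, map_add, map_mul, map_pow, hτθ, hτω ω hω3, t1, t2, t3]
      rw [div_eq_div_iff hθ0 hθ0]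
      linear_combination ω * θ * X₃ * hω3)
  obtain ⟨m, hm⟩ := hrat ((X₁ + ω * X₂ + ω ^ 2 * X₃) / θ ^ 2)
    (fun σ hσ => by
      simp only [map_div₀, map_add, map_mul, map_pow, hfix σ hσ, hfixμ σ hσ ω hω3, hX₁, hX₂, hX₃,
        hXfix σ hσ])
    (by
      simp only [map_div₀, map_add, map_mul, map_pow, hgθ, hgω ω hω3, g1, g2, g3]
      rw [div_eq_div_iff (pow_ne_zero 2 (mul_ne_zero (fun e => by simp [e] at hω3) hθ0))
        (pow_ne_zero 2 hθ0)]
      linear_combination -(θ ^ 2 * (X₂ + ω * X₃)) * hω3)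
    (by
      simp only [map_div₀, map_add, map_mul, map_pow, hτθ, hτω ω hω3, t1, t2, t3]
      rw [div_eq_div_iff (pow_ne_zero 2 hθ0) (pow_ne_zero 2 hθ0)]
      linear_combination ω * θ ^ 2 * X₂ * hω3)
  rw [eq_div_iff hθ0] at hl
  rw [eq_div_iff (pow_ne_zero 2 hθ0)] at hm
  set u := ((l / 3 : ℚ) : Qb) * θ with hu
  set v := ((m / 3 : ℚ) : Qb) * θ ^ 2 with hv
  have hu' : 3 * u = X₁ + ω ^ 2 * X₂ + ω * X₃ := by rw [hu, ← hl]; push_cast; ring
  have hv' : 3 * v = X₁ + ω * X₂ + ω ^ 2 * X₃ := by rw [hv, ← hm]; push_cast; ring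
  have e1 : X₁ = u + v := mul_left_cancel₀ (three_ne_zero (α := Qb)) (by
    linear_combination -hu' - hv' + hs1 - (X₂ + X₃) * hω)
  have e2 : X₂ = ω * u + ω ^ 2 * v := mul_left_cancel₀ (three_ne_zero (α := Qb)) (by
    linear_combination -ω * hu' - ω ^ 2 * hv' + hs1 - (2 * X₂) * hω3 - (X₁ + X₃) * hω -
      ω * X₃ * hω3)
  have e3 : X₃ = ω ^ 2 * u + ω * v := mul_left_cancel₀ (three_ne_zero (α := Qb)) (by
    linear_combination -ω ^ 2 * hu' - ω * hv' + hs1 - (2 * X₃) * hω3 - (X₁ + X₂) * hω -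
      ω * X₂ * hω3)
  obtain ⟨-, q2, q3⟩ := lagrange_symm (u := u) (v := v) hω
  rw [← e1, ← e2, ← e3, hs2] at q2
  rw [← e1, ← e2, ← e3, hs3] at q3
  refine ⟨l / 3, m / 3, (algebraMap ℚ Qb).injective ?_, (algebraMap ℚ Qb).injective ?_⟩
  · simp only [eq_ratCast, Rat.cast_intCast, Rat.cast_mul]
    rw [hu, hv] at q2
    linear_combination (-1 / 3 : Qb) * q2 + ((l / 3 : ℚ) : Qb) * ((m / 3 : ℚ) : Qb) * hθ
  · simp only [eq_ratCast, Rat.cast_intCast, Rat.cast_mul, Rat.cast_add, Rat.cast_pow,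
      Rat.cast_ofNat]
    rw [hu, hv] at q3
    linear_combination q3 + (((l / 3 : ℚ) : Qb) ^ 3 + ((m / 3 : ℚ) : Qb) ^ 3 * θ ^ 3 +
      ((m / 3 : ℚ) : Qb) ^ 3 * (W.Δ : Qb)) * hθ

/-- The coefficients put `ℚ(E[2])` in `ℚ(E[3])`. -/
theorem sixContained_of_coeff {b c : ℚ} (h4 : (W.c₄ : ℚ) = b * c * (W.Δ : ℚ))
    (h6 : 2 * (W.c₆ : ℚ) = (W.Δ : ℚ) * (b ^ 3 + c ^ 3 * (W.Δ : ℚ))) : SixContained W := by
  intro σ hσ
  have hσ3 := (fixes_iff_curveRep (p := 3) σ).mp hσ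
  refine (fixes_iff_curveRep (p := 2) σ).mpr ?_
  obtain ⟨bas⟩ := FA.PadicImage.nonempty_torsion_equiv W (N := 3)
  obtain ⟨r, hr⟩ := FA.SmallPrimes.exists_coordinateRep bas
  obtain ⟨θ, hθ, hfix⟩ := FA.SmallPrimes.exists_cubeRoot hr
  have hσθ : σ θ = θ := hfix σ (Matrix.ext_of_mulVec_single fun i =>
    bas.injective (Subtype.ext (by
      rw [← hr, one_mulVec]
      exact hσ _ (by rw [← natCast_zsmul]; exact (Submodule.mem_torsionBy_iff _ _).mp (bas _).2))))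
  obtain ⟨ω, hω⟩ := HasEnoughRootsOfUnity.exists_primitiveRoot Qb 3
  have hσω : σ ω = ω := by
    rw [apply_cube_root (W := W) σ hω.pow_eq_one, hσ3, det_one]
    exact pow_one ω
  have hω0 : ω ^ 2 + ω + 1 = 0 := mul_left_cancel₀ (sub_ne_zero.mpr (hω.ne_one (by norm_num))) (by
    rw [mul_zero]; linear_combination hω.pow_eq_one)
  obtain ⟨q1, q2, q3⟩ := lagrange_symm (u := (b : Qb) * θ) (v := (c : Qb) * θ ^ 2) hω0
  obtain ⟨hs1, hs2, hs3⟩ := cubicRoot_symm (W := W)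
  have h4' := congrArg (algebraMap ℚ Qb) h4
  have h6' := congrArg (algebraMap ℚ Qb) h6
  simp only [eq_ratCast, Rat.cast_intCast, Rat.cast_mul, Rat.cast_add, Rat.cast_pow,
    Rat.cast_ofNat] at h4' h6'
  have hX : ∀ v : Fin 2 → ZMod 2, v = ![1, 0] ∨ v = ![0, 1] ∨ v = ![1, 1] →
      σ (cubicRoot W v) = cubicRoot W v := fun v hv => by
    have hcub : cubicRoot W v ^ 3 - 3 * (W.c₄ : Qb) * cubicRoot W v - 2 * (W.c₆ : Qb) = 0 := by
      set A := cubicRoot W ![1, 0] with hA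
      set B := cubicRoot W ![0, 1] with hB
      set C := cubicRoot W ![1, 1] with hC
      rcases hv with rfl | rfl | rfl
      · rw [← hA]; linear_combination A ^ 2 * hs1 - A * hs2 + hs3
      · rw [← hB]; linear_combination B ^ 2 * hs1 - B * hs2 + hs3
      · rw [← hC]; linear_combination C ^ 2 * hs1 - C * hs2 + hs3
    set X := cubicRoot W v
    have hprod : (X - ((b : Qb) * θ + c * θ ^ 2)) * (X - (ω * ((b : Qb) * θ) + ω ^ 2 * (c * θ ^ 2)))
        * (X - (ω ^ 2 * ((b : Qb) * θ) + ω * (c * θ ^ 2))) = 0 := by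
      linear_combination hcub - X ^ 2 * q1 + X * q2 - q3 + 3 * X * h4' + h6' -
        (3 * X * (b : Qb) * c + (b : Qb) ^ 3 + (c : Qb) ^ 3 * θ ^ 3 +
          (c : Qb) ^ 3 * (W.Δ : Qb)) * hθ
    rcases mul_eq_zero.mp hprod with h | h
    · rcases mul_eq_zero.mp h with h | h <;> rw [sub_eq_zero.mp h] <;>
        simp only [map_add, map_mul, map_pow, map_ratCast, hσθ, hσω]
    · rw [sub_eq_zero.mp h]
      simp only [map_add, map_mul, map_pow, map_ratCast, hσθ, hσω]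
  have key : ∀ v : Fin 2 → ZMod 2, v = ![1, 0] ∨ v = ![0, 1] ∨ v = ![1, 1] →
      curveRep 2 W σ *ᵥ v = v := fun v hv => by
    have hv0 : v ≠ 0 := by rcases hv with rfl | rfl | rfl <;> decide
    refine FA.Two.eRoot_injective W (fun e => ?_) hv0 ?_
    · have h := congrArg (fun w => curveRep 2 W σ⁻¹ *ᵥ w) e
      simp only [mulVec_mulVec, ← map_mul, inv_mul_cancel, map_one, one_mulVec, mulVec_zero] at h
      exact hv0 h
    · have h := (cubicRoot_mulVec σ v).trans (hX v hv)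
      simp only [cubicRoot] at h
      exact mul_left_cancel₀ (by norm_num : (12 : Qb) ≠ 0) (add_right_cancel h)
  refine Matrix.ext_of_mulVec_single fun i => ?_
  rw [one_mulVec]
  fin_cases i
  · exact key _ (Or.inl (by decide))
  · exact key _ (Or.inr (Or.inl (by decide)))

/-- With everything on `E[3]`, `c₄ ≠ 0`. -/
theorem c₄_ne_zero_of_full (h3 : FullAt W 3) : W.c₄ ≠ 0 := fun h0 => by
  obtain ⟨b⟩ := FA.PadicImage.nonempty_torsion_equiv W (N := 3)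
  let y : (Fin 2 → ZMod 3) → Qb := fun v => 12 * xc (b v).1 + (W.b₂ : Qb)
  have hnz : ∀ v, v ≠ 0 → (b v).1 ≠ 0 := fun v hv e => hv (by
    rw [← LinearEquiv.map_eq_zero_iff b]; exact Subtype.ext e)
  have h3v : ∀ v, 3 • (b v).1 = 0 := fun v => by
    rw [← natCast_zsmul]; exact (Submodule.mem_torsionBy_iff _ _).mp (b v).2
  have hroot : ∀ v, v ≠ 0 → psiQ (y v) (W.c₄ : Qb) (W.c₆ : Qb) = 0 := fun v hv =>
    psiQ_of_three (hnz v hv) (h3v v)
  have hne : ∀ v w, v ≠ 0 → w ≠ 0 → v ≠ w → v ≠ -w → y v ≠ y w := fun v w hv hw h1 h2 e => by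
    rcases eq_or_eq_neg_of_xc_eq (hnz v hv) (hnz w hw)
      (mul_left_cancel₀ (by norm_num : (12 : Qb) ≠ 0) (add_right_cancel e)) with h | h
    · exact h1 (b.injective (Subtype.ext h))
    · exact h2 (b.injective (Subtype.ext (by rw [map_neg, Submodule.coe_neg]; exact h)))
  obtain ⟨-, -, -, e4⟩ := vieta_psiQ (a := y ![1, 0]) (b := y ![0, 1]) (c := y ![1, 1])
    (d := y ![2, 1])
    (hne _ _ (by decide) (by decide) (by decide) (by decide))
    (hne _ _ (by decide) (by decide) (by decide) (by decide))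
    (hne _ _ (by decide) (by decide) (by decide) (by decide))
    (hne _ _ (by decide) (by decide) (by decide) (by decide))
    (hne _ _ (by decide) (by decide) (by decide) (by decide))
    (hne _ _ (by decide) (by decide) (by decide) (by decide))
    (hroot _ (by decide)) (hroot _ (by decide)) (hroot _ (by decide))
    (hroot _ (by decide))
  obtain ⟨v, hv, hy⟩ : ∃ v, v ≠ 0 ∧ y v = 0 := by
    rw [h0, Int.cast_zero, zero_pow two_ne_zero, mul_zero, neg_zero] at e4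
    rcases mul_eq_zero.mp e4 with h | h
    · rcases mul_eq_zero.mp h with h | h
      · rcases mul_eq_zero.mp h with h | h
        · exact ⟨_, by decide, h⟩
        · exact ⟨_, by decide, h⟩
      · exact ⟨_, by decide, h⟩
    · exact ⟨_, by decide, h⟩
  obtain ⟨σ, hσ⟩ := FA.SmallPrimes.no_line_of_full h3 (J := !![0, -1; 1, 0])
    (by decide) (by decide) (hnz v hv) (h3v v)
  have hP0 : σ • (b v).1 ≠ 0 := fun e => hnz v hv (MulAction.injective σ
    (e.trans (map_zero (DistribSMul.toAddMonoidHom (Pts W) σ)).symm))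
  have hx : xc (W := (ratCurve W)⁄Qb) (σ • (b v).1) = xc (b v).1 := by
    rw [xc_smul]
    have e : xc (b v).1 = ((-(W.b₂ : ℚ) / 12 : ℚ) : Qb) := by
      push_cast
      linear_combination hy / 12
    rw [e, map_ratCast]
  rcases eq_or_eq_neg_of_xc_eq hP0 (hnz v hv) hx with h | h
  · exact hσ 1 (by rw [one_nsmul, h])
  · refine hσ 2 (h.trans ?_)
    rw [neg_eq_iff_add_eq_zero, two_nsmul, ← h3v v, succ_nsmul, two_nsmul, add_comm]

/-- With everything on `E[2]`, `c₆ ≠ 0`. -/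
theorem c₆_ne_zero_of_full (h2 : FullAt W 2) : W.c₆ ≠ 0 := fun h0 => by
  obtain ⟨g, hg⟩ := fullTwo_of_fullAt h2 !![0, 1; 1, 1] (by decide)
  obtain ⟨-, -, hs3⟩ := cubicRoot_symm (W := W)
  rw [h0, Int.cast_zero, mul_zero] at hs3
  obtain ⟨v, hv, hy⟩ : ∃ v : Fin 2 → ZMod 2, v ≠ 0 ∧ cubicRoot W v = 0 := by
    rcases mul_eq_zero.mp hs3 with h | h
    · rcases mul_eq_zero.mp h with h | h
      · exact ⟨_, by decide, h⟩
      · exact ⟨_, by decide, h⟩
    · exact ⟨_, by decide, h⟩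
  have h := cubicRoot_mulVec (W := W) g v
  rw [hy, map_zero, ← hy, hg] at h
  simp only [cubicRoot] at h
  have hne : ∀ u : Fin 2 → ZMod 2, u ≠ 0 →
      (!![0, 1; 1, 1] : M2 (ZMod 2)) *ᵥ u ≠ u ∧ (!![0, 1; 1, 1] : M2 (ZMod 2)) *ᵥ u ≠ 0 := by
    decide
  exact (hne v hv).1 (FA.Two.eRoot_injective W (hne v hv).2 hv
    (mul_left_cancel₀ (by norm_num : (12 : Qb) ≠ 0) (add_right_cancel h)))

/-- Containment of `ℚ(E[2])` in `ℚ(E[3])` excludes a witness at six. -/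
theorem not_sixWitness_of_contained (h2 : FullAt W 2) (h3 : FullAt W 3) (hc : SixContained W) :
    ¬ SixWitness W := by
  intro hw
  obtain ⟨g, hg2, hg3, hgne⟩ := sixWitness_iff_curveRep.mp hw
  rw [pow_three'] at hg3
  let H : Submonoid (M2 (ZMod 3)) :=
    { carrier := {M | ∃ σ : GQ, curveRep 2 W σ = 1 ∧ curveRep 3 W σ = M}
      one_mem' := ⟨1, map_one _, map_one _⟩
      mul_mem' := fun ⟨a, ha, ha'⟩ ⟨b, hb, hb'⟩ =>
        ⟨a * b, by rw [map_mul, ha, hb, one_mul], by rw [map_mul, ha', hb']⟩ }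
  have hconj : ∀ {M P P' : M2 (ZMod 3)}, M ∈ H → P * P' = 1 → P * M * P' ∈ H := by
    rintro M P P' ⟨a, ha, ha'⟩ hPP
    obtain ⟨k, hk⟩ := exists_curveRep_of_fullAt h3 (K := P)
      (IsUnit.of_mul_eq_one P'.det (by rw [← det_mul, hPP, det_one])).ne_zero
    exact ⟨k * a * k⁻¹, by
      rw [map_mul, map_mul, ha, mul_one, ← map_mul, mul_inv_cancel, map_one], by
      rw [map_mul, map_mul, ha', hk, curveRep_inv_eq hk hPP]⟩
  obtain ⟨P, hP, hgP⟩ := exists_upper_basis _ hg3 hgne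
  have hU1 : (!![1, 1; 0, 1] : M2 (ZMod 3)) ∈ H := by
    have hPu : IsUnit P.det := isUnit_iff_ne_zero.mpr hP
    convert hconj (P := P⁻¹) (P' := P) ⟨g, hg2, rfl⟩ (Matrix.nonsing_inv_mul P hPu) using 1
    rw [mul_assoc, hgP, ← mul_assoc, Matrix.nonsing_inv_mul P hPu, one_mul]
  have hU : ∀ z, (!![1, z; 0, 1] : M2 (ZMod 3)) ∈ H := fun z => by
    have hpow : ∀ k : ℕ, (!![1, (k : ZMod 3); 0, 1] : M2 (ZMod 3)) ∈ H := fun k => by
      induction k with
      | zero => simp [← one_fin_two, one_mem H]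
      | succ k ih =>
        convert mul_mem ih hU1 using 1
        ext i j; fin_cases i <;> fin_cases j <;>
          simp [Matrix.mul_apply, Fin.sum_univ_two, add_comm]
    have := hpow z.val
    rwa [ZMod.natCast_zmod_val] at this
  have hL : ∀ z, (!![1, 0; z, 1] : M2 (ZMod 3)) ∈ H := fun z => by
    convert hconj (P := !![0, 1; 1, 0]) (P' := !![0, 1; 1, 0]) (hU z) (by simp [one_fin_two])
      using 1
    ext i j; fin_cases i <;> fin_cases j <;> simp [Matrix.mul_apply, Fin.sum_univ_two]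
  obtain ⟨c, hc2⟩ := fullTwo_of_fullAt h2 !![0, 1; 1, 1] (by decide)
  obtain ⟨τ, hτ⟩ := fullTwo_of_fullAt h2 !![1, 1; 0, 1] (by decide)
  obtain ⟨s, hs2, hs3⟩ := FA.PadicImage.mem_of_elementary_local H hU hL
    (M := curveRep 3 W (c * τ * c⁻¹ * τ⁻¹)) (by
      have hi : ∀ x : GQ, (curveRep 3 W x⁻¹).det * (curveRep 3 W x).det = 1 := fun x => by
        rw [← det_mul, ← map_mul, inv_mul_cancel, map_one, det_one]
      rw [map_mul, map_mul, map_mul, det_mul, det_mul, det_mul]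
      linear_combination (curveRep 3 W τ⁻¹).det * (curveRep 3 W τ).det * hi c + hi τ)
  have hfix := (fixes_iff_curveRep (p := 2) _).mp (hc (c * τ * c⁻¹ * τ⁻¹ * s⁻¹)
    ((fixes_iff_curveRep (p := 3) _).mpr (by
      rw [map_mul, ← hs3, ← map_mul, mul_inv_cancel, map_one])))
  obtain ⟨-, -, -, i1, i2, hne⟩ := cycle_facts
  rw [map_mul, map_mul, map_mul, map_mul, hc2, hτ, curveRep_inv_eq hc2 i1, curveRep_inv_eq hτ i2,
    curveRep_inv_eq hs2 (mul_one 1), mul_one] at hfix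
  exact hne hfix

/-- **The entanglement is parametrised**: with everything on `E[2]` and `E[3]` there is no witness
at six exactly when `j = 27648 t³ (1 - 4 t³)` for a rational `t`. -/
theorem not_sixWitness_iff_param (h2 : FullAt W 2) (h3 : FullAt W 3) {j : ℚ}
    (hj : j * (W.Δ : ℚ) = (W.c₄ : ℚ) ^ 3) :
    ¬ SixWitness W ↔ ∃ t : ℚ, j = 27648 * t ^ 3 * (1 - 4 * t ^ 3) := by
  constructor
  · intro hw
    obtain ⟨b, c, e4, e6⟩ := exists_coeff_of_not_witness h2 h3 hw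
    exact exists_param_of_coeff Δ_ne_zero_rat rel_cast hj e4 e6
  · rintro ⟨t, ht⟩
    obtain ⟨b, c, e4, e6⟩ := exists_coeff_of_param Δ_ne_zero_rat rel_cast hj
      (Int.cast_ne_zero.mpr (c₄_ne_zero_of_full h3))
      (Int.cast_ne_zero.mpr (c₆_ne_zero_of_full h2)) ht
    exact not_sixWitness_of_contained h2 h3 (sixContained_of_coeff e4 e6)

/-- **`ℚ(E[2]) ⊆ ℚ(E[3])` is parametrised.** -/
theorem sixContained_iff_param (h2 : FullAt W 2) (h3 : FullAt W 3) {j : ℚ}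
    (hj : j * (W.Δ : ℚ) = (W.c₄ : ℚ) ^ 3) :
    SixContained W ↔ ∃ t : ℚ, j = 27648 * t ^ 3 * (1 - 4 * t ^ 3) := by
  refine ⟨fun h => (not_sixWitness_iff_param h2 h3 hj).mp (not_sixWitness_of_contained h2 h3 h),
    fun ⟨t, ht⟩ => ?_⟩
  obtain ⟨b, c, e4, e6⟩ := exists_coeff_of_param Δ_ne_zero_rat rel_cast hj
    (Int.cast_ne_zero.mpr (c₄_ne_zero_of_full h3))
    (Int.cast_ne_zero.mpr (c₆_ne_zero_of_full h2)) ht
  exact sixContained_of_coeff e4 e6

end FA.SerreCurve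

end
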