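import Fermat.Agent.SerreCurve.Criterion

/-!
# The torsion at six and the images of index two

If some automorphism fixes `E[2]` and has order three on `E[3]`, its commutators and the commutators
of squares split the prime `3` off the prime `2`, with no hypothesis on the discriminant. So full
images at the prime powers give index two exactly when such an automorphism exists, and an image
of index two always contains one, the square of a transvection at six.
-/

set_option autoImplicit false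
set_option linter.unusedSectionVars false
set_option linter.style.haveILetI false

noncomputable section

open Matrix WeierstrassCurve WeierstrassCurve.Affine FA.EC FA.Frob FA.RT FA.PadicImage
open FA.RT.Tate (TateBasis Pts)
open FA.TW (rootsFix mem_rootsFix commutator_mem_rootsFix)
open FA.Two (deltaRoot)
open scoped WeierstrassCurve.Affine

local notation "Qb" => AlgebraicClosure ℚ
local notation "GQ" => AlgebraicClosure ℚ ≃ₐ[ℚ] AlgebraicClosure ℚ
local notation "M2" => Matrix (Fin 2) (Fin 2)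

namespace FA.SerreCurve

/-- Some automorphism fixes `E[2]` and has order three on `E[3]`. -/
def SixWitness (W : WeierstrassCurve ℤ) [(ratCurve W).IsElliptic] : Prop :=
  ∃ g : GQ, (∀ x : Pts W, 2 • x = 0 → g • x = x) ∧
    (∀ x : Pts W, 3 • x = 0 → g ^ 3 • x = x) ∧ ∃ x : Pts W, 3 • x = 0 ∧ g • x ≠ x

theorem exists_inverting : ∀ M : M2 (ZMod 3), M * M * M = 1 → M ≠ 1 →
    ∃ K : M2 (ZMod 3), K.det ≠ 0 ∧ K * M = M * M * K := by decide +kernel

theorem exists_upper_basis : ∀ M : M2 (ZMod 3), M * M * M = 1 → M ≠ 1 →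
    ∃ P : M2 (ZMod 3), P.det ≠ 0 ∧ M * P = P * !![1, 1; 0, 1] := by decide +kernel

theorem two_ne_zero_three : (2 : ZMod 3) ≠ 0 := by decide

theorem six_upper : ∀ v : Fin 2 → ZMod 6,
    (2 • v = 0 → (!![1, 2; 0, 1] * !![1, 2; 0, 1] : M2 (ZMod 6)) *ᵥ v = v) ∧
    (!![1, 2; 0, 1] * !![1, 2; 0, 1] : M2 (ZMod 6)) *ᵥ
      ((!![1, 2; 0, 1] * !![1, 2; 0, 1] : M2 (ZMod 6)) *ᵥ
        ((!![1, 2; 0, 1] * !![1, 2; 0, 1] : M2 (ZMod 6)) *ᵥ v)) = v := by decide +kernel

theorem six_moved : (3 : ℕ) • (![0, 2] : Fin 2 → ZMod 6) = 0 ∧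
    (!![1, 2; 0, 1] * !![1, 2; 0, 1] : M2 (ZMod 6)) *ᵥ ![0, 2] ≠ ![0, 2] := by decide +kernel

variable {W : WeierstrassCurve ℤ} [(ratCurve W).IsElliptic]

/-- A square fixes `s`. -/
theorem sq_fix_deltaRoot (σ : GQ) : (σ * σ) (deltaRoot W) = deltaRoot W := by
  rcases apply_deltaRoot_cases (W := W) σ with h | h <;>
    rw [AlgEquiv.mul_apply, h]
  · exact h
  · rw [map_neg, h, neg_neg]

/-- Galois commutes with multiplication by an integer. -/
theorem nsmul_smul_zero (σ : GQ) {N : ℕ} {x : Pts W} (hx : N • x = 0) : N • (σ • x) = 0 := by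
  show N • DistribSMul.toAddMonoidHom (Pts W) σ x = 0
  rw [← map_nsmul, hx, map_zero]

section Split

variable {B : TateBasis 3 W} {n : ℕ}

/-- What fixes the roots of unity and the `2`-power torsion is stable under conjugation. -/
theorem reps_conj (hreach : ReachAll 3 W) {f : ℕ → ℕ} {S T : Finset ℕ} {M P P' : M2 ℤ_[3]}
    (hM : M ∈ reps B n f S T) (hPP : P * P' = 1) : P * M * P' ∈ reps B n f S T := by
  obtain ⟨τ, hτ, hτM⟩ := hM
  obtain ⟨k, hk⟩ := exists_acts (B := B) (n := n) hreach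
    (M := P) (IsUnit.of_mul_eq_one P'.det (by rw [← det_mul, hPP, det_one]))
  refine ⟨k * τ * k⁻¹, ⟨fun l hl => (FA.TW.rootsFix_normal l (f l)).conj_mem _ (hτ.1 l hl) k,
    fun l hl x hx => ?_⟩, (hk.mul hτM).mul (hk.inv hPP)⟩
  rw [mul_smul, mul_smul, hτ.2 l hl _ (nsmul_smul_zero k⁻¹ hx), smul_inv_smul]

/-- An element reaching `M` has residual matrix `M`. -/
theorem exists_curveRep_eq (hreach : ReachAll 3 W) {K : M2 (ZMod 3)} (hK : K.det ≠ 0) :
    ∃ k : GQ, curveRep 3 W k = K := by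
  obtain ⟨B⟩ := FA.RT.Tate.exists_tateBasis (p := 3) W
  set L : M2 ℤ_[3] := Matrix.of fun i j => (((K i j).val : ℕ) : ℤ_[3]) with hLdef
  have hL : L.map PadicInt.toZMod = K := by
    ext i j
    simp [hLdef]
  obtain ⟨k, Y, hY⟩ := hreach B 1 L (isUnit_iff_toZMod.mpr (by
    rw [RingHom.map_det, RingHom.mapMatrix_apply, hL]; exact hK))
  refine ⟨k, ?_⟩
  rw [← rep_map_toZMod B k, hY, ← hL]
  ext i j
  rw [Matrix.map_apply, Matrix.map_apply, Matrix.add_apply, Matrix.smul_apply, smul_eq_mul,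
    map_add, map_mul, map_pow, map_natCast, ZMod.natCast_self, zero_pow one_ne_zero, zero_mul,
    add_zero]

/-- **Splitting `3` off `2` with a witness at six.** -/
theorem exists_mem_fixer_three (hreach : ReachAll 3 W) (hw : SixWitness W) (f : ℕ → ℕ)
    {S T : Finset ℕ} (hS : ∀ l ∈ S, l = 2) (hT : ∀ l ∈ T, l.Prime) (g : GQ)
    (hg : g ∈ rootsFix 3 (f 3)) :
    ∃ τ ∈ fixer W f S T, ∀ x : ((ratCurve W)⁄Qb).Point, 3 ^ f 3 • x = 0 → τ • x = g • x := by
  rcases Nat.eq_zero_or_pos (f 3) with h0 | hpos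
  · refine ⟨1, one_mem _, fun x hx => ?_⟩
    rw [h0, pow_zero, one_nsmul] at hx
    rw [hx, FA.Local.gal_smul_zero, FA.Local.gal_smul_zero]
  obtain ⟨B⟩ := FA.RT.Tate.exists_tateBasis (p := 3) W
  set n := f 3
  set m := 2 ^ f 2
  have : NeZero (3 ^ n) := ⟨pow_ne_zero _ three_ne_zero⟩
  have hm3 : ¬ 3 ∣ m := fun hd => absurd (Nat.prime_three.dvd_of_dvd_pow hd) (by decide)
  obtain ⟨m', hm''⟩ : ∃ c, c * (m : ℤ_[3]) = 1 := (isUnit_iff_toZMod.mpr (by
    rw [map_natCast, Ne, ZMod.natCast_eq_zero_iff]; exact hm3)).exists_left_inv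
  obtain ⟨w, hw2⟩ : ∃ w, w * (2 : ℤ_[3]) = 1 := (isUnit_iff_toZMod.mpr (by
    rw [map_ofNat]; exact two_ne_zero_three)).exists_left_inv
  -- multiples of three above the diagonal, from commutators of squares
  obtain ⟨a, ha⟩ := exists_acts (B := B) (n := n) hreach (M := !![2, 0; 0, 1])
    (IsUnit.of_mul_eq_one w (by simp [det_fin_two, mul_comm (2 : ℤ_[3]) w, hw2]))
  obtain ⟨b, hb⟩ := exists_acts (B := B) (n := n) hreach (M := !![1, w; 0, 1])
    (by simp [det_fin_two])
  have hc : Acts B n (a * a * (b * b) * (a * a)⁻¹ * (b * b)⁻¹) !![1, 3; 0, 1] := by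
    have h := acts_commutator (ha.mul ha) (hb.mul hb)
      (M' := !![w * w, 0; 0, 1]) (N' := !![1, -1; 0, 1])
      (by
        ext i j; fin_cases i <;> fin_cases j <;> simp [Matrix.mul_apply, Fin.sum_univ_two]
        linear_combination (2 * w + 1) * hw2)
      (by
        ext i j; fin_cases i <;> fin_cases j <;> simp [Matrix.mul_apply, Fin.sum_univ_two]
        linear_combination hw2)
    convert h using 1
    ext i j; fin_cases i <;> fin_cases j <;> simp [Matrix.mul_apply, Fin.sum_univ_two]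
    · linear_combination -(2 * w + 1) * hw2
    · linear_combination (-4 + (2 * w + 1)) * hw2
  have hone := curveRep_commutator (W := W) (sq_fix_deltaRoot a) (sq_fix_deltaRoot b)
  have hU3 : ∀ z, (!![1, 3 * z; 0, 1] : M2 ℤ_[3]) ∈ reps B n f S T := fun z => by
    obtain ⟨y, hy⟩ := (toZModPow_eq_iff (n := n)
      (x := ((PadicInt.toZModPow n (z * m')).val : ℤ_[3])) (y := z * m')).mp
      (by rw [map_natCast, ZMod.natCast_zmod_val])
    set c := a * a * (b * b) * (a * a)⁻¹ * (b * b)⁻¹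
    have hmem : c ^ m ∈ fixer W f S T :=
      ⟨fun l hl => pow_mem (commutator_mem_rootsFix (hT l hl) (f l) _ _) m, fun l hl x hx => by
        rw [hS l hl] at hx; exact pow_two_smul hone hx⟩
    refine ⟨(c ^ m) ^ (PadicInt.toZModPow n (z * m')).val, pow_mem hmem _, ?_⟩
    rw [← pow_mul]
    refine (acts_pow hc _).congr ⟨((m : ℤ_[3]) * y) • (!![1, 3; 0, 1] - 1), ?_⟩
    rw [pow_eq_of_sq_eq_zero (by
      ext i j; fin_cases i <;> fin_cases j <;> simp [Matrix.mul_apply, Fin.sum_univ_two]),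
      smul_smul, Nat.cast_mul, hy]
    ext i j; fin_cases i <;> fin_cases j <;> simp
    linear_combination 3 * z * hm''
  -- congruent to one
  have hJ : (!![0, 1; 1, 0] : M2 ℤ_[3]) * !![0, 1; 1, 0] = 1 := by simp [one_fin_two]
  have hL3 : ∀ z, (!![1, 0; 3 * z, 1] : M2 ℤ_[3]) ∈ reps B n f S T := fun z => by
    convert reps_conj hreach (hU3 z) hJ using 1
    ext i j; fin_cases i <;> fin_cases j <;> simp [Matrix.mul_apply, Fin.sum_univ_two]
  have hK : ∀ M : M2 ℤ_[3], M.det = 1 → M.map PadicInt.toZMod = 1 → M ∈ reps B n f S T := by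
    intro M hdet h1
    obtain ⟨X, hX⟩ := exists_eq_add (A := M) (B := 1)
      (h1.trans (map_one (PadicInt.toZMod (p := 3)).mapMatrix).symm)
    have h00 : PadicInt.toZMod (M 0 0) = 1 := congrFun (congrFun h1 0) 0
    obtain ⟨t', ht⟩ := (isUnit_iff_toZMod.mpr (by rw [h00]; exact one_ne_zero)).exists_right_inv
    have e00 : M 0 0 = 1 + 3 * X 0 0 := by rw [hX]; simp
    have e10 : M 1 0 = 3 * X 1 0 := by rw [hX]; simp
    have e01 : M 0 1 = 3 * X 0 1 := by rw [hX]; simp
    have hQ : (!![M 0 0, -(3 * X 0 0); 3 * X 0 0, 1 - 3 * X 0 0] : M2 ℤ_[3]) ∈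
        reps B n f S T := by
      convert reps_conj hreach (P := !![1, 0; 1, 1]) (P' := !![1, 0; -1, 1]) (hU3 (-(X 0 0)))
        (by simp [one_fin_two]) using 1
      ext i j; fin_cases i <;> fin_cases j <;>
        simp [Matrix.mul_apply, Fin.sum_univ_two, e00] <;> ring
    have hD : (!![M 0 0, 0; 0, t'] : M2 ℤ_[3]) ∈ reps B n f S T := by
      convert mul_mem (mul_mem (hL3 (-(X 0 0) * t')) hQ) (hU3 (X 0 0 * t')) using 1
      ext i j; fin_cases i <;> fin_cases j <;> simp [Matrix.mul_apply, Fin.sum_univ_two]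
      · linear_combination -(3 * X 0 0) * ht
      · linear_combination (3 * X 0 0) * ht
      · rw [e00] at ht ⊢
        linear_combination ((3 * X 0 0) ^ 2 * t' + 1 - 3 * X 0 0) * ht
    have e : M = !![1, 0; 3 * (X 1 0 * t'), 1] * !![M 0 0, 0; 0, t'] *
        !![1, 3 * (X 0 1 * t'); 0, 1] := by
      rw [det_fin_two] at hdet
      ext i j; fin_cases i <;> fin_cases j <;> simp [Matrix.mul_apply, Fin.sum_univ_two]
      · linear_combination e01 - 3 * X 0 1 * ht
      · linear_combination e10 - 3 * X 1 0 * ht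
      · rw [e01, e10] at hdet
        linear_combination t' * hdet - (M 1 1 + 9 * X 1 0 * X 0 1 * t') * ht
    rw [e]
    exact mul_mem (mul_mem (hL3 _) hD) (hU3 _)
  -- the witness gives a transvection
  obtain ⟨g₀, hg2, hg3, x₀, hx₀, hne⟩ := hw
  set Mb := curveRep 3 W g₀ with hMb
  have hone3 : Mb * Mb * Mb = 1 := by
    rw [hMb, ← map_mul, ← map_mul, ← pow_three', (curveRep_eq_one_iff W _).mpr fun x =>
      Subtype.ext (hg3 x.1 (FA.Frob.nsmul_torsion x))]
  have hMne : Mb ≠ 1 := fun e => hne (congrArg Subtype.val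
    ((curveRep_eq_one_iff W g₀).mp e ⟨x₀, by
      rw [Submodule.mem_torsionBy_iff, natCast_zsmul]; exact hx₀⟩))
  obtain ⟨K, hKdet, hKM⟩ := exists_inverting Mb hone3 hMne
  obtain ⟨k, hk⟩ := exists_curveRep_eq hreach hKdet
  have h2g : curveRep 2 W g₀ = 1 := (curveRep_eq_one_iff W _).mpr fun x =>
    Subtype.ext (hg2 x.1 (FA.Frob.nsmul_torsion x))
  have hc2 : curveRep 2 W (k * g₀ * k⁻¹ * g₀⁻¹) = 1 := by
    have h2g' : curveRep 2 W g₀⁻¹ = 1 := by
      have h := map_mul (curveRep 2 W) g₀⁻¹ g₀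
      rwa [inv_mul_cancel, map_one, h2g, mul_one, eq_comm] at h
    rw [map_mul, map_mul, map_mul, h2g, h2g', mul_one, mul_one, ← map_mul, mul_inv_cancel,
      map_one]
  have hc3 : curveRep 3 W (k * g₀ * k⁻¹ * g₀⁻¹) = Mb := by
    rw [mul_assoc, map_mul, map_mul, hk, hKM, ← hk, hMb, ← map_mul, ← map_mul, ← map_mul]
    congr 1
    group
  have hmm : ∃ j, m * m = 3 * j + 1 := ⟨m * m / 3, by
    have : m * m % 3 = 1 := by
      rw [← Nat.pow_two, ← pow_mul, mul_comm, pow_mul, Nat.pow_mod]; norm_num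
    omega⟩
  set τ := (k * g₀ * k⁻¹ * g₀⁻¹) ^ (m * m) with hτdef
  have hτ : τ ∈ fixer W f S T := by
    refine ⟨fun l hl => pow_mem (commutator_mem_rootsFix (hT l hl) (f l) _ _) _,
      fun l hl x hx => ?_⟩
    rw [hS l hl] at hx
    rw [hτdef, pow_mul]
    exact pow_two_smul (by rw [map_pow, hc2, one_pow]) hx
  have hτ3 : curveRep 3 W τ = Mb := by
    obtain ⟨j, hj⟩ := hmm
    rw [hτdef, map_pow, hc3, hj, pow_succ, pow_mul, pow_three', hone3, one_pow, one_mul]
  obtain ⟨M₀, hM₀det, hM₀act, hM₀mod⟩ := exists_det_one (B := B) hpos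
    (g := τ) (pow_mem (commutator_mem_rootsFix Nat.prime_three n _ _) _)
  rw [rep_map_toZMod, hτ3] at hM₀mod
  obtain ⟨P, hPdet, hPM⟩ := exists_upper_basis Mb hone3 hMne
  set L : M2 ℤ_[3] := Matrix.of fun i j => (((P i j).val : ℕ) : ℤ_[3]) with hLdef
  have hL : L.map PadicInt.toZMod = P := by
    ext i j
    simp [hLdef]
  have hLu : IsUnit L.det := isUnit_iff_toZMod.mpr (by
    rw [RingHom.map_det, RingHom.mapMatrix_apply, hL]; exact hPdet)
  set M₁ := L⁻¹ * M₀ * L
  have hM₁ : M₁ ∈ reps B n f S T :=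
    reps_conj hreach ⟨τ, hτ, hM₀act⟩ (Matrix.nonsing_inv_mul L hLu)
  have hM₁det : M₁.det = 1 := by
    rw [det_mul, det_mul, hM₀det, mul_one, ← det_mul, Matrix.nonsing_inv_mul L hLu, det_one]
  have hM₁mod : M₁.map PadicInt.toZMod = !![1, 1; 0, 1] := by
    rw [Matrix.map_mul, Matrix.map_mul, hM₀mod, mul_assoc, hL, hPM, ← mul_assoc, ← hL,
      ← Matrix.map_mul, Matrix.nonsing_inv_mul L hLu]
    exact (congrArg (· * _) (map_one (PadicInt.toZMod (p := 3)).mapMatrix)).trans (one_mul _)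
  have hM₁inv : M₁.adjugate * M₁ = 1 := by rw [adjugate_mul, hM₁det, one_smul]
  have hU1 : (!![1, 1; 0, 1] : M2 ℤ_[3]) ∈ reps B n f S T := by
    rw [show (!![1, 1; 0, 1] : M2 ℤ_[3]) = !![1, 1; 0, 1] * M₁.adjugate * M₁ by
      rw [mul_assoc, hM₁inv, mul_one]]
    refine mul_mem (hK _ ?_ ?_) hM₁
    · rw [det_mul, det_fin_two_of, det_adjugate, hM₁det]; simp
    · have h := congrArg (fun X : M2 ℤ_[3] => X.map PadicInt.toZMod) hM₁inv
      simp only [Matrix.map_mul, hM₁mod] at h
      replace h := h.trans (map_one (PadicInt.toZMod (p := 3)).mapMatrix)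
      rw [Matrix.map_mul, show (!![1, 1; 0, 1] : M2 ℤ_[3]).map PadicInt.toZMod = !![1, 1; 0, 1] by
        ext i j; fin_cases i <;> fin_cases j <;> simp]
      exact (mul_eq_one_comm.mp h).trans (by simp)
  have hUpow : ∀ k : ℕ, (!![1, (k : ℤ_[3]); 0, 1] : M2 ℤ_[3]) ∈ reps B n f S T := fun k => by
    induction k with
    | zero => simp [← one_fin_two, one_mem (reps B n f S T)]
    | succ k ih =>
      convert mul_mem ih hU1 using 1
      ext i j; fin_cases i <;> fin_cases j <;> simp [Matrix.mul_apply, Fin.sum_univ_two, add_comm]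
  have hU : ∀ z, (!![1, z; 0, 1] : M2 ℤ_[3]) ∈ reps B n f S T := fun z => by
    obtain ⟨y, hy⟩ := toZMod_eq_zero_iff.mp (show PadicInt.toZMod
      (z - (((PadicInt.toZMod z).val : ℕ) : ℤ_[3])) = 0 by
        rw [map_sub, map_natCast, ZMod.natCast_zmod_val, sub_self])
    generalize (PadicInt.toZMod z).val = k at hy
    convert mul_mem (hU3 y) (hUpow k) using 1
    ext i j; fin_cases i <;> fin_cases j <;> simp [Matrix.mul_apply, Fin.sum_univ_two]
    push_cast at hy
    linear_combination hy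
  have hLz : ∀ z, (!![1, 0; z, 1] : M2 ℤ_[3]) ∈ reps B n f S T := fun z => by
    convert reps_conj hreach (hU z) hJ using 1
    ext i j; fin_cases i <;> fin_cases j <;> simp [Matrix.mul_apply, Fin.sum_univ_two]
  obtain ⟨M, hdet, hact, -⟩ := exists_det_one (B := B) hpos hg
  obtain ⟨σ, hσ, hσM⟩ := mem_of_elementary_local (reps B n f S T) hU hLz hdet
  refine ⟨σ, hσ, fun x hx => ?_⟩
  obtain ⟨v, rfl⟩ := B.surj _ x hx
  exact (hσM v).trans (hact v).symm

end Split

/-- **An image of index two has a witness at six.** -/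
theorem sixWitness_of_index_two
    (h : (FA.OpenImage.torsionAction (ratCurve W)).range.index = 2) : SixWitness W := by
  haveI : NeZero (6 : ℕ) := ⟨by norm_num⟩
  obtain ⟨b⟩ := FA.PadicImage.nonempty_torsion_equiv W (N := 6)
  obtain ⟨σ, hσ⟩ := actsBy_sq b h (X := (!![1, 2; 0, 1] : M2 (ZMod 6))) (Y := !![1, -2; 0, 1])
    (by decide +kernel) (by decide +kernel)
  have hmem : ∀ {d : ℕ}, d ∣ 6 → ∀ x : Pts W, d • x = 0 →
      ∃ v, (b v).1 = x ∧ d • v = 0 := fun {d} ⟨c, hc⟩ x hx => by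
    obtain ⟨v, hv⟩ := b.surjective ⟨x, by
      rw [Submodule.mem_torsionBy_iff, natCast_zsmul, hc, mul_comm, mul_nsmul', hx, nsmul_zero]⟩
    refine ⟨v, by rw [hv], b.injective ?_⟩
    rw [map_nsmul, map_zero, hv]
    exact Subtype.ext hx
  refine ⟨σ, fun x hx => ?_, fun x hx => ?_, (b ![0, 2]).1, ?_, fun e => ?_⟩
  · obtain ⟨v, rfl, hv⟩ := hmem (by decide) x hx
    rw [hσ, (six_upper v).1 hv]
  · obtain ⟨v, rfl, -⟩ := hmem (by decide) x hx
    rw [pow_three, mul_smul, mul_smul, hσ, hσ, hσ, (six_upper v).2]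
  · have h6 := six_moved.1
    rw [← Submodule.coe_smul_of_tower, ← map_nsmul, h6, map_zero]
    rfl
  · rw [hσ] at e
    exact six_moved.2 (b.injective (Subtype.ext e))

/-- **Full images at the prime powers and a witness at six give index two.** -/
theorem index_range_of_witness (hfull : ∀ l : ℕ, l.Prime → ∀ n, FullAt W (l ^ n))
    (hw : SixWitness W) : (FA.OpenImage.torsionAction (ratCurve W)).range.index = 2 :=
  haveI := Fact.mk Nat.prime_three
  index_range_of_separated ⟨fun l hl => reachAll_of_fullAt (hfull l hl.out),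
    exists_mem_fixer_three (reachAll_of_fullAt (hfull 3 Nat.prime_three)) hw⟩

/-- **With full images at the prime powers the index is two exactly when there is a witness at
six.** -/
theorem index_two_iff_sixWitness (hfull : ∀ l : ℕ, l.Prime → ∀ n, FullAt W (l ^ n)) :
    (FA.OpenImage.torsionAction (ratCurve W)).range.index = 2 ↔ SixWitness W :=
  ⟨sixWitness_of_index_two, index_range_of_witness hfull⟩

end FA.SerreCurve

end
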