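import Fermat.Agent.Root.SummaryAlmostAllSerreCurves

/-!
# Genericity in one-parameter families

The two-parameter sieve with classes free in the first variable sieves one integer `n`. So a family
`n ↦ (A, B)` is almost always generic as soon as modulo each prime `q ≥ 5` some class has good
reduction, for each prime `p` classes at divergently many primes have a Frobenius without eigenvalue
modulo `p`, the large primes do not divide both coefficients, and at divergently many primes `q`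
about `q` classes modulo `q²` make `q` a transvection prime.
-/

set_option autoImplicit false
set_option linter.style.haveILetI false

noncomputable section

open Filter Topology WeierstrassCurve WeierstrassCurve.Affine FA.EC FA.Frob FA.RT FA.AlmostAll
open scoped WeierstrassCurve.Affine

namespace FA.OneParameter

/-- The classes with a given second coordinate. -/
def lineClasses (b : ℕ → ℤ) (q : ℕ) : Finset (ZMod q × ZMod q) :=
  if h : q = 0 then ∅ else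
    have : NeZero q := ⟨h⟩
    Finset.univ ×ˢ {(b q : ZMod q)}

theorem card_lineClasses (b : ℕ → ℤ) {q : ℕ} (hq : q ≠ 0) : (lineClasses b q).card = q := by
  haveI : NeZero q := ⟨hq⟩
  rw [lineClasses, dif_neg hq, Finset.card_product, Finset.card_singleton, mul_one,
    Finset.card_univ, ZMod.card]

theorem mem_lineClasses {b : ℕ → ℤ} {q : ℕ} (hq : q ≠ 0) {x y : ZMod q} :
    (x, y) ∈ lineClasses b q ↔ y = b q := by
  haveI : NeZero q := ⟨hq⟩
  simp [lineClasses, hq, eq_comm]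

/-- The classes modulo `q²` of a set of second coordinates. -/
def sqClasses (T : ∀ q : ℕ, Finset (ZMod (q ^ 2))) (q : ℕ) :
    Finset (ZMod (q ^ 2) × ZMod (q ^ 2)) :=
  if h : q = 0 then ∅ else
    have : NeZero (q ^ 2) := ⟨pow_ne_zero 2 h⟩
    Finset.univ ×ˢ T q

theorem mem_sqClasses {T : ∀ q : ℕ, Finset (ZMod (q ^ 2))} {q : ℕ} (hq : q ≠ 0)
    {x y : ZMod (q ^ 2)} : (x, y) ∈ sqClasses T q ↔ y ∈ T q := by
  haveI : NeZero (q ^ 2) := ⟨pow_ne_zero 2 hq⟩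
  simp [sqClasses, hq]

/-- **Almost every member of a one-parameter family is generic.** -/
theorem tendsto_of_generic (φ : ℤ → ℤ × ℤ)
    (hgood : ∀ q : ℕ, q.Prime → 5 ≤ q →
      ∃ b : ℤ, ∀ n : ℤ, (n : ZMod q) = b → ¬ (q : ℤ) ∣ (shortInt (φ n)).Δ)
    (hirr : ∀ p : ℕ, p.Prime → ¬ Summable ({q : ℕ | q.Prime ∧ ∃ b : ℤ, ∀ n : ℤ,
      (n : ZMod q) = b → IrrFrob p (φ n)}.indicator fun n : ℕ => (1 : ℝ) / n))
    {C : ℕ} (hC : ∀ n : ℤ, ∀ p : ℕ, p.Prime → C < p → ¬ ((p : ℤ) ∣ (φ n).1 ∧ (p : ℤ) ∣ (φ n).2))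
    (R : Set ℕ)
    (hR : ∀ F : Finset ℕ, ¬ Summable ({q : ℕ | q ∈ R ∧ q ∉ F}.indicator fun n : ℕ => (1 : ℝ) / n))
    (T : ∀ q : ℕ, Finset (ZMod (q ^ 2)))
    (hT : ∀ q ∈ R, (q.Prime ∧ 5 ≤ q) ∧ q ≤ 2 * (T q).card ∧ ∀ n : ℤ, (n : ZMod (q ^ 2)) ∈ T q →
      (q : ℤ) ∣ (shortInt (φ n)).Δ ∧ ¬ (q : ℤ) ∣ (shortInt (φ n)).c₄ ∧
        padicValInt q (shortInt (φ n)).Δ = 1)
    (bad : ℤ → Prop)
    (h : ∀ n : ℤ, ∀ [(shortRat (φ n)).IsElliptic] [(ratCurve (shortInt (φ n))).IsElliptic],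
      Generic (φ n) → ¬ bad n) :
    Tendsto (fun Y : ℕ => (Set.ncard {n : ℤ | |n| ≤ Y ∧
        4 * (φ n).1 ^ 3 + 27 * (φ n).2 ^ 2 ≠ 0 ∧ bad n} : ℝ) / (2 * Y + 1)) atTop (𝓝 0) := by
  classical
  rw [Metric.tendsto_atTop]
  intro ε hε
  -- a good prime in a finite set
  let b : ℕ → ℤ := fun q => if h : q.Prime ∧ 5 ≤ q then (hgood q h.1 h.2).choose else 0
  obtain ⟨S, hS, hSavoid⟩ := exists_avoid_finset (Q := {q | q.Prime ∧ 5 ≤ q}) (m := fun q => q)
    (fun i hi j hj hij => (Nat.coprime_primes hi.1 hj.1).mpr hij) (fun q hq => hq.1.pos)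
    (w := fun n => 1 / (n : ℝ)) (fun n => by positivity) not_summable_five_le (lineClasses b)
    (fun q hq => by
      have : (q : ℝ) ≠ 0 := Nat.cast_ne_zero.mpr hq.1.ne_zero
      rw [card_lineClasses b hq.1.ne_zero, sq, ← mul_assoc, one_div_mul_cancel this, one_mul])
    (show 0 < ε / 4 by positivity)
  obtain ⟨B₁, hB₁⟩ := exists_isogeny_bound hS
  -- the small primes
  set B₀ := B₁ ⊔ C
  have hI := tendsto_exists (bad := fun (i : (Finset.range (B₀ + 1)).filter Nat.Prime)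
      (AB : ℤ × ℤ) => ¬ IrrFrob (i : ℕ) (φ AB.2)) fun i => by
    let c : ℕ → ℤ := fun q =>
      if h : ∃ c : ℤ, ∀ n : ℤ, (n : ZMod q) = c → IrrFrob (i : ℕ) (φ n) then h.choose else 0
    refine tendsto_avoid (fun q hq => hq.1) (hirr _ (Finset.mem_filter.mp i.2).2) one_pos
      (lineClasses c) (fun q hq => by rw [card_lineClasses c hq.1.ne_zero, one_mul]) _
      fun AB hbad q hq hmem => ?_
    rw [mem_lineClasses hq.1.ne_zero] at hmem
    simp only [c, dif_pos hq.2] at hmem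
    exact hbad (hq.2.choose_spec _ hmem)
  rw [Metric.tendsto_atTop] at hI
  obtain ⟨N, hN⟩ := hI (ε / 4) (by positivity)
  -- the transvection primes
  have hdiv : ∀ F : Finset ℕ, ¬ Summable ({q : ℕ | q ∈ R ∧ q ∉ F}.indicator
      fun n : ℕ => 1 / (2 * (n : ℝ))) := fun F hs => hR F ((hs.mul_left 2).congr fun n => by
    simp only [Set.indicator_apply]
    split_ifs
    · ring
    · rw [mul_zero])
  have hcard : ∀ F : Finset ℕ, ∀ q ∈ {q : ℕ | q ∈ R ∧ q ∉ F},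
      1 / (2 * (q : ℝ)) * ((q ^ 2 : ℕ) : ℝ) ^ 2 ≤ (sqClasses T q).card := fun F q hq => by
    obtain ⟨⟨hp, -⟩, hc, -⟩ := hT q hq.1
    haveI : NeZero (q ^ 2) := ⟨pow_ne_zero 2 hp.ne_zero⟩
    rw [sqClasses, dif_neg hp.ne_zero, Finset.card_product, Finset.card_univ, ZMod.card]
    have hc' : (q : ℝ) ≤ 2 * (T q).card := by exact_mod_cast hc
    have hq0 : (q : ℝ) ≠ 0 := Nat.cast_ne_zero.mpr hp.ne_zero
    rw [Nat.cast_mul, Nat.cast_pow]
    field_simp
    nlinarith [pow_nonneg (Nat.cast_nonneg q : (0 : ℝ) ≤ q) 2]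
  have hcop : ∀ F : Finset ℕ, {q : ℕ | q ∈ R ∧ q ∉ F}.Pairwise fun i j =>
      (i ^ 2).Coprime (j ^ 2) := fun F i hi j hj hij =>
    Nat.Coprime.pow 2 2 ((Nat.coprime_primes (hT i hi.1).1.1 (hT j hj.1).1.1).mpr hij)
  obtain ⟨T₁, hT₁, hT₁avoid⟩ := exists_avoid_finset (m := fun q => q ^ 2) (hcop ∅)
    (fun q hq => pow_pos (hT q hq.1).1.1.pos 2) (fun n => by positivity) (hdiv ∅) (sqClasses T)
    (hcard ∅) (show 0 < ε / 4 by positivity)
  obtain ⟨U, hU, hUavoid⟩ := exists_avoid_finset (m := fun q => q ^ 2) (hcop T₁)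
    (fun q hq => pow_pos (hT q hq.1).1.1.pos 2) (fun n => by positivity) (hdiv T₁) (sqClasses T)
    (hcard T₁) (show 0 < ε / 4 by positivity)
  set K := (∏ q ∈ S, q) ⊔ (∏ q ∈ T₁, q ^ 2) ⊔ (∏ q ∈ U, q ^ 2) ⊔ N.1 ⊔ N.2
  refine ⟨K, fun Y hY => ?_⟩
  obtain ⟨⟨⟨hKS, hKT⟩, hKU⟩, hN1, hN2⟩ : (((∏ q ∈ S, q) ≤ Y ∧ (∏ q ∈ T₁, q ^ 2) ≤ Y) ∧
      (∏ q ∈ U, q ^ 2) ≤ Y) ∧ N.1 ≤ Y ∧ N.2 ≤ Y := by
    simp only [K, ge_iff_le, sup_le_iff] at hY
    tauto
  have h1 := hN (Y, Y) ⟨hN1, hN2⟩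
  rw [Real.dist_eq, sub_zero, abs_of_nonneg (by positivity)] at h1 ⊢
  let avoids : Finset ℕ → ℤ × ℤ → Prop := fun R AB =>
    ∀ q ∈ R, ((AB.1 : ZMod (q ^ 2)), (AB.2 : ZMod (q ^ 2))) ∉ sqClasses T q
  let noGood : ℤ × ℤ → Prop := fun AB =>
    ∀ q ∈ S, ((AB.1 : ZMod q), (AB.2 : ZMod q)) ∉ lineClasses b q
  have h2 := hSavoid noGood (fun _ hAB => hAB) Y Y hKS hKS
  have h3 := hT₁avoid (avoids T₁) (fun _ hAB => hAB) Y Y hKT hKT
  have h4 := hUavoid (avoids U) (fun _ hAB => hAB) Y Y hKU hKU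
  set I := Finset.Icc (-(Y : ℤ)) Y
  set Bad := I.filter fun n => 4 * (φ n).1 ^ 3 + 27 * (φ n).2 ^ 2 ≠ 0 ∧ bad n
  have heq : {n : ℤ | |n| ≤ Y ∧ 4 * (φ n).1 ^ 3 + 27 * (φ n).2 ^ 2 ≠ 0 ∧ bad n} =
      (Bad : Set ℤ) := by
    ext n
    simp [Bad, I, abs_le]
  rw [heq, Set.ncard_coe_finset]
  have hsub : I ×ˢ Bad ⊆
      (((box Y Y).filter noGood) ∪ (box Y Y).filter (avoids T₁)) ∪
        ((box Y Y).filter (avoids U) ∪ (box Y Y).filter fun AB =>
          ∃ i : (Finset.range (B₀ + 1)).filter Nat.Prime, ¬ IrrFrob (i : ℕ) (φ AB.2)) := by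
    rintro ⟨a, n⟩ hmem
    obtain ⟨ha, hn⟩ := Finset.mem_product.mp hmem
    obtain ⟨hn, hne, hbad⟩ := Finset.mem_filter.mp hn
    have hb : (a, n) ∈ box Y Y := Finset.mem_product.mpr ⟨ha, hn⟩
    simp only [Finset.mem_union, Finset.mem_filter, hb, true_and]
    by_contra hc
    simp only [not_or, not_not, not_exists, avoids, noGood, not_forall] at hc
    obtain ⟨⟨⟨s, hsS, hs⟩, q, hqT, hq⟩, ⟨r, hrU, hr⟩, hirr'⟩ := hc
    obtain ⟨hq0, -, hqtrans⟩ := hT q (hT₁ q hqT).1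
    obtain ⟨hr0, -, hrtrans⟩ := hT r (hU r hrU).1
    rw [mem_sqClasses hq0.1.ne_zero] at hq
    rw [mem_sqClasses hr0.1.ne_zero] at hr
    rw [mem_lineClasses (hS s hsS).1.ne_zero] at hs
    simp only [b, dif_pos (show s.Prime ∧ 5 ≤ s from hS s hsS)] at hs
    have hg : HasGoodIn S (φ n) :=
      ⟨s, hsS, (hgood s (hS s hsS).1 (hS s hsS).2).choose_spec n hs⟩
    haveI : (shortRat (φ n)).IsElliptic := isElliptic_of_ne hne
    have hW := shortInt_isIntegralModelOf (φ n)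
    haveI := ratCurve_isElliptic_of_Δ (Δ_ne_zero_of_model hW)
    refine h n ⟨fun p hp => ?_, fun l => ?_⟩ hbad
    · rcases le_or_gt p B₀ with hle | hlt
      · exact irreducible_of_irrFrob (hirr' ⟨p, Finset.mem_filter.mpr
          ⟨Finset.mem_range.mpr (Nat.lt_succ_of_le hle), hp.out⟩⟩)
      · refine FA.Root.Irred.modRepIsIrreducible_of_noStableSubgroup hW fun G hG hst => ?_
        obtain ⟨g, hg0, hgp, hgst⟩ := FA.IsogenyPrimes.exists_stable_point hW hp.out G hG hst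
        exact hg0 (hB₁ (φ n) hg p hp.out (le_sup_left.trans_lt hlt)
          (hC n p hp.out (le_sup_right.trans_lt hlt)) g hgp hgst)
    · by_cases hql : q = l
      · exact ⟨r, hr0.1, hr0.2, fun e => (hU r hrU).2 ((e.trans hql.symm) ▸ hqT), hrtrans n hr⟩
      · exact ⟨q, hq0.1, hq0.2, hql, hqtrans n hq⟩
  have hI' : (I.card : ℝ) = 2 * Y + 1 := by
    rw [Int.card_Icc, show (Y : ℤ) + 1 - -(Y : ℤ) = ((2 * Y + 1 : ℕ) : ℤ) by push_cast; ring,
      Int.toNat_natCast]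
    push_cast
    ring
  have hle := Nat.cast_le (α := ℝ).mpr ((Finset.card_le_card hsub).trans
    ((Finset.card_union_le _ _).trans
      (Nat.add_le_add (Finset.card_union_le _ _) (Finset.card_union_le _ _))))
  rw [Finset.card_product] at hle
  push_cast at hle
  rw [hI'] at hle
  have hpos : (0 : ℝ) < 2 * Y + 1 := by positivity
  rw [div_lt_iff₀ hpos]
  rw [div_lt_iff₀ (by positivity)] at h1 h2 h3 h4
  nlinarith

end FA.OneParameter

end
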