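import Fermat.Agent.Root.SummaryAlmostAllSerreCurves
import Fermat.Agent.SerreCurve.Param
import Fermat.Agent.SerreLarge.Field

/-!
# Almost every member of a family with fixed `A`

For a fixed `A ≠ 0` the two-parameter sieve with classes free in the first variable sieves the `B`
alone. Almost every `B` makes `(A, B)` generic: modulo a prime `q` at which `-3 A` is a square there
are `q - 1` classes modulo `q²` with `q ∥ Δ` and `q ∤ A`, and for each prime `p` one class modulo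
`q` is a twist of `y² = x³ - 16 x + 16` with a Frobenius without eigenvalue modulo `p`, where `q`
is such that the Frobenius on that curve is the square of such an element and fixes `√(-A)`.
-/

set_option autoImplicit false
set_option linter.style.haveILetI false

noncomputable section

open Filter Topology IsDedekindDomain NumberField Matrix WeierstrassCurve WeierstrassCurve.Affine
  FA.EC FA.Frob FA.RT FA.AlmostAll
open scoped WeierstrassCurve.Affine

local notation "Qb" => AlgebraicClosure ℚ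
local notation "GQ" => AlgebraicClosure ℚ ≃ₐ[ℚ] AlgebraicClosure ℚ

namespace FA.FixedA

/-! ### Primes whose Frobenius fixes a square root -/

/-- An open normal subgroup fixing a given element. -/
theorem exists_normal_fix (x : Qb) :
    ∃ N : Subgroup GQ, N.Normal ∧ IsOpen (N : Set GQ) ∧ ∀ n ∈ N, n x = x := by
  haveI : FiniteDimensional ℚ (IntermediateField.adjoin ℚ {x}) :=
    IntermediateField.adjoin.finiteDimensional (Algebra.IsIntegral.isIntegral x)
  set L := IntermediateField.normalClosure ℚ (IntermediateField.adjoin ℚ {x}) Qb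
  refine ⟨L.fixingSubgroup, ?_, IntermediateField.fixingSubgroup_isOpen L, fun n hn =>
    (IntermediateField.mem_fixingSubgroup_iff L n).mp hn x
      (IntermediateField.le_normalClosure (IntermediateField.adjoin ℚ {x})
        (IntermediateField.mem_adjoin_simple_self ℚ x))⟩
  rw [← IntermediateField.restrictNormalHom_ker L]
  infer_instance

/-- Primes with a Frobenius conjugate to a given element modulo an open normal subgroup have
divergent sum of inverses. -/
theorem not_summable_class {N : Subgroup GQ} [N.Normal] (hN : IsOpen (N : Set GQ)) (g : GQ)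
    {Q : Set ℕ} (F : Finset ℕ)
    (h : ∀ q : ℕ, q.Prime → q ∉ F → ∀ A : ValuationSubring Qb, A.LiesOverPrime q → ∀ σ : GQ,
      A.IsFrobeniusAt σ q → ∀ c : GQ, (c * g * c⁻¹)⁻¹ * σ ∈ N → q ∈ Q) :
    ¬ Summable (Q.indicator fun n : ℕ => (1 : ℝ) / n) := by
  haveI : Finite (GQ ⧸ N) := Subgroup.quotient_finite_of_isOpen N hN
  letI := Fintype.ofFinite (GQ ⧸ N)
  have hdens := FA.Chebotarev.hasDirichletDensity_frobSet (QuotientGroup.mk' N)
    (QuotientGroup.mk'_surjective N) (by rwa [QuotientGroup.ker_mk'])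
    (X := {y | IsConj (QuotientGroup.mk' N g) y})
    fun y hy x => IsConj.trans hy (isConj_iff.mpr ⟨x, rfl⟩)
  refine FA.PrimeDivisors.not_summable_of_density hdens ?_
    (F := {v | Ideal.absNorm v.asIdeal ∈ F})
    ((Finset.finite_toSet _).preimage fun a _ b _ e => FA.PrimeDivisors.absNorm_injective e)
    fun v hv => or_iff_not_imp_left.mpr fun hF => ?_
  · haveI : Nonempty {y : GQ ⧸ N | IsConj (QuotientGroup.mk' N g) y} := ⟨⟨_, IsConj.refl _⟩⟩
    exact div_ne_zero (Nat.cast_ne_zero.mpr Nat.card_pos.ne')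
      (Nat.cast_ne_zero.mpr Fintype.card_ne_zero)
  obtain ⟨A, hA⟩ := FA.Deform.exists_liesOverPrime (FA.Chebotarev.absNorm_prime v)
  obtain ⟨σ, hσ⟩ := FA.Deform.exists_isFrobeniusAt (FA.Chebotarev.absNorm_prime v) hA
  obtain ⟨c, hc⟩ := isConj_iff.mp (show IsConj (QuotientGroup.mk' N g) (QuotientGroup.mk' N σ)
    from hv A hA σ hσ)
  obtain ⟨c, rfl⟩ := QuotientGroup.mk'_surjective N c
  refine h _ (FA.Chebotarev.absNorm_prime v) hF A hA σ hσ c ?_
  rw [← QuotientGroup.eq, ← QuotientGroup.mk'_apply, ← QuotientGroup.mk'_apply, map_mul, map_mul,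
    map_inv]
  exact hc

/-- Whatever fixes a square root of `d` is Frobenius only where `d` is a square. -/
theorem isSquare_of_fixed {q : ℕ} (hq : q.Prime) {d : ℤ} {A : ValuationSubring Qb}
    (hA : A.LiesOverPrime q) {σ : GQ} (hσ : A.IsFrobeniusAt σ q) {s : Qb}
    (hs : s ^ 2 = (d : Qb)) (hfix : σ s = s) : IsSquare (d : ZMod q) :=
  by_contra fun h => FA.SerreLarge.frobenius_apply_ne hq h hA hσ hs hfix

/-- The primes at which `-3 A` is a square, outside a finite set, have a divergent sum. -/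
theorem not_summable_square (A : ℤ) (F : Finset ℕ) :
    ¬ Summable ({q : ℕ | (q.Prime ∧ 5 ≤ q) ∧ q ∉ F ∧ IsSquare ((-3 * A : ℤ) : ZMod q)}.indicator
      fun n : ℕ => (1 : ℝ) / n) := by
  obtain ⟨s, hs⟩ := IsAlgClosed.exists_pow_nat_eq ((-3 * A : ℤ) : Qb) (n := 2) two_pos
  obtain ⟨N, hN, hopen, hfix⟩ := exists_normal_fix s
  refine not_summable_class hopen 1 (F ∪ {2, 3}) fun q hq hqF B hB σ hσ c hc => ?_
  simp only [Finset.mem_union, Finset.mem_insert, Finset.mem_singleton, not_or] at hqF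
  refine ⟨⟨hq, hq.five_le_of_ne_two_of_ne_three hqF.2.1 hqF.2.2⟩, hqF.1,
    isSquare_of_fixed hq hB hσ hs (hfix σ ?_)⟩
  simpa using hc

/-! ### A Frobenius without eigenvalue -/

/-- The reduction of `y² = x³ - 16 x + 16` modulo three and its six affine points. -/
theorem base_three : ((-16 : ℤ) : ZMod 3) = 2 ∧ ((16 : ℤ) : ZMod 3) = 1 ∧
    (FA.Ribet.nsPts (n := 3) 0 0 0 2 1).card = 6 := by decide

/-- An element of trace one without eigenvalue on the torsion of `y² = x³ - 16 x + 16`. -/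
theorem exists_base_element {p : ℕ} [hp : Fact p.Prime]
    [(ratCurve (shortInt (-16, 16))).IsElliptic] :
    ∃ (τ : GQ) (d : ZMod p), (∀ x : ZMod p, x ^ 2 - x + d ≠ 0) ∧
      (curveRep p (shortInt (-16, 16)) τ).trace = 1 ∧
      (curveRep p (shortInt (-16, 16)) τ).det = d := by
  classical
  rcases eq_or_ne p 2 with rfl | hp2
  · haveI : Fact (Nat.Prime 3) := ⟨Nat.prime_three⟩
    have hgood : (shortInt (-16, 16)).IsGoodPrimeFor 3 := by
      norm_num [IsGoodPrimeFor, shortInt, WeierstrassCurve.Δ, WeierstrassCurve.b₂,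
        WeierstrassCurve.b₄, WeierstrassCurve.b₆, WeierstrassCurve.b₈]
    have hred : (shortInt (-16, 16)).reductionMod 3 = ⟨0, 0, 0, 2, 1⟩ := by
      ext <;> simp [reductionMod, base_three.1, base_three.2.1, -Int.cast_neg, -Int.cast_ofNat]
    have ha : (shortInt (-16, 16)).apOfModel 3 = -3 := by
      rw [FA.Ribet.apOfModel_eq_nsPts hred, base_three.2.2]
      norm_num
    obtain ⟨A, hA⟩ := FA.Deform.exists_liesOverPrime Nat.prime_three
    obtain ⟨σ, hσ⟩ := FA.Deform.exists_isFrobeniusAt Nat.prime_three hA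
    obtain ⟨e1, e2⟩ :=
      FA.Ribet.curveRep_frobenius (p := 2) Nat.prime_three (by norm_num) hgood hA hσ
    refine ⟨σ, 1, fun x => by simp, ?_, ?_⟩
    · rw [e1, ha]; rfl
    · rw [e2]; rfl
  · obtain ⟨d, hd0, hns⟩ := FA.CharPolys.exists_nonsquare_disc (p := p) hp2
    let E₀ : WeierstrassCurve ℚ := ⟨0, 0, 1, -1, ((0 : ℤ) : ℚ)⟩
    haveI : E₀.IsElliptic :=
      ⟨isUnit_iff_ne_zero.mpr (by norm_num [E₀, WeierstrassCurve.Δ, WeierstrassCurve.b₂,
        WeierstrassCurve.b₄, WeierstrassCurve.b₆, WeierstrassCurve.b₈])⟩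
    have hdens := FA.Summary.traceDistribution E₀ hp.out.ne_zero (fun φ =>
      FA.Summary.serreCurves_odd_torsion (k := 0) (dvd_zero _) (hp.out.odd_of_ne_two hp2) φ) 1 d
    have hne : (Nat.card {M : GL (Fin 2) (ZMod p) // M.val.trace = 1 ∧ M.val.det = d} : ℝ) /
        Nat.card (GL (Fin 2) (ZMod p)) ≠ 0 := by
      have hdet : IsUnit (!![1, -d; 1, 0] : Matrix (Fin 2) (Fin 2) (ZMod p)) :=
        (Matrix.isUnit_iff_isUnit_det _).mpr (by simpa [det_fin_two_of] using hd0)
      have : Nonempty {M : GL (Fin 2) (ZMod p) // M.val.trace = 1 ∧ M.val.det = d} :=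
        ⟨⟨hdet.unit, by simp [trace_fin_two], by simp [det_fin_two]⟩⟩
      exact div_ne_zero (Nat.cast_ne_zero.mpr Nat.card_pos.ne')
        (Nat.cast_ne_zero.mpr Nat.card_pos.ne')
    obtain ⟨q, hq, h5, h37, hqp, ha, hqd⟩ : ∃ q : ℕ, q.Prime ∧ 5 ≤ q ∧ q ≠ 37 ∧ q ≠ p ∧
        (E₀.LFunction q : ZMod p) = 1 ∧ (q : ZMod p) = d := by
      by_contra hno
      refine FA.PrimeDivisors.not_summable_of_density hdens hne (Q := ∅)
        (F := {v | Ideal.absNorm v.asIdeal ∈ (insert 37 (insert p (Finset.range 5)) : Finset ℕ)})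
        ((Finset.finite_toSet _).preimage fun a _ b _ e => FA.PrimeDivisors.absNorm_injective e)
        (fun v hv => Or.inl ?_) (by rw [Set.indicator_empty]; exact summable_zero)
      by_contra hF
      simp only [Set.mem_ofPred_eq, Finset.mem_insert, Finset.mem_range, not_or, not_lt] at hF
      exact hno ⟨_, FA.Chebotarev.absNorm_prime v, hF.2.2, hF.1, hF.2.1, hv⟩
    obtain ⟨hgood, ha'⟩ := apOfModel_of_twistClass hq h5 h37 (AB := (-16, 16)) (by
      rw [twistClasses, dif_neg hq.ne_zero, Finset.mem_image]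
      haveI := Fact.mk hq
      exact ⟨1, Finset.mem_erase.mpr ⟨one_ne_zero, Finset.mem_univ _⟩, by simp⟩)
    obtain ⟨A, hA⟩ := FA.Deform.exists_liesOverPrime hq
    obtain ⟨σ, hσ⟩ := FA.Deform.exists_isFrobeniusAt hq hA
    obtain ⟨e1, e2⟩ := FA.Ribet.curveRep_frobenius (p := p) hq hqp hgood hA hσ
    refine ⟨σ, d, fun x hx => hns ⟨2 * x - 1, ?_⟩, ?_, ?_⟩
    · linear_combination -4 * hx
    · rw [e1, ha', ha]
    · rw [e2, hqd]

/-- Twists by `s` modulo `q` change the trace at most by a sign. -/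
theorem apOfModel_sq_twist {q : ℕ} [hq : Fact q.Prime] (h5 : 5 ≤ q) {AB AB' : ℤ × ℤ} {s : ZMod q}
    (hs : s ≠ 0) (hA : (AB.1 : ZMod q) = s ^ 2 * AB'.1) (hB : (AB.2 : ZMod q) = s ^ 3 * AB'.2)
    (hgood : (shortInt AB').IsGoodPrimeFor q) :
    (shortInt AB).IsGoodPrimeFor q ∧
      ((shortInt AB).apOfModel q = (shortInt AB').apOfModel q ∨
        (shortInt AB).apOfModel q = -(shortInt AB').apOfModel q) := by
  have hq2 : ringChar (ZMod q) ≠ 2 := by rw [ZMod.ringChar_zmod_n]; omega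
  have h3 : (3 : ZMod q) ≠ 0 := fun e => by
    have := Nat.le_of_dvd three_pos ((ZMod.natCast_eq_zero_iff 3 q).mp (by exact_mod_cast e))
    omega
  have h2 : (2 : ZMod q) ≠ 0 := fun e => by
    have := Nat.le_of_dvd two_pos ((ZMod.natCast_eq_zero_iff 2 q).mp (by exact_mod_cast e))
    omega
  have h27 : (27 : ZMod q) ≠ 0 := by
    rw [show (27 : ZMod q) = 3 ^ 3 by norm_num]; exact pow_ne_zero 3 h3
  have h54 : (54 : ZMod q) ≠ 0 := by
    rw [show (54 : ZMod q) = 2 * 27 by norm_num]; exact mul_ne_zero h2 h27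
  have hred' : (shortInt AB').reductionMod q =
      FA.Twists.short (-(AB'.1 : ZMod q) / 27) (-(AB'.2 : ZMod q) / 54) := by
    ext <;> simp [reductionMod, FA.Twists.short] <;> field_simp
  have hred : (shortInt AB).reductionMod q =
      FA.Twists.short (s ^ 2 * (-(AB'.1 : ZMod q) / 27)) (s ^ 3 * (-(AB'.2 : ZMod q) / 54)) := by
    ext <;> simp [reductionMod, FA.Twists.short, hA, hB] <;> field_simp
  have hΔ : (FA.Twists.short (-(AB'.1 : ZMod q) / 27) (-(AB'.2 : ZMod q) / 54)).Δ ≠ 0 := fun e =>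
    hgood ((ZMod.intCast_zmod_eq_zero_iff_dvd _ q).mp (by
      rw [← e, ← hred', reductionMod, map_Δ, eq_intCast]))
  refine ⟨fun hd => ?_, ?_⟩
  · rw [← ZMod.intCast_zmod_eq_zero_iff_dvd, ← eq_intCast (Int.castRingHom (ZMod q)),
      ← map_Δ, show (shortInt AB).map (Int.castRingHom (ZMod q)) = _ from hred,
      FA.Twists.short_Δ] at hd
    rw [FA.Twists.short_Δ] at hΔ
    exact hΔ ((mul_eq_zero.mp (show s ^ 6 * (1259712 *
      ((-(AB'.1 : ZMod q) / 27) ^ 3 - (-(AB'.2 : ZMod q) / 54) ^ 2)) = 0 by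
        linear_combination hd)).resolve_left (pow_ne_zero 6 hs))
  · rw [apOfModel, apOfModel, hred, hred', FA.Twists.traceOfFrobenius_short_twist hq2 hs hΔ]
    rcases quadraticChar_dichotomy hs with e | e <;> rw [e] <;> simp

/-- **For each prime, one class of `B` at each of divergently many primes** has a Frobenius without
eigenvalue. -/
theorem not_summable_irrFrob {A : ℤ} (hA : A ≠ 0) {p : ℕ} (hp : p.Prime) :
    ¬ Summable ({q : ℕ | q.Prime ∧ ∃ b : ℤ, ∀ B : ℤ, (B : ZMod q) = b → IrrFrob p (A, B)}.indicator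
      fun n : ℕ => (1 : ℝ) / n) := by
  classical
  haveI := Fact.mk hp
  haveI : (ratCurve (shortInt (-16, 16))).IsElliptic := ratCurve_isElliptic_of_Δ (by
    norm_num [shortInt, WeierstrassCurve.Δ, WeierstrassCurve.b₂, WeierstrassCurve.b₄,
      WeierstrassCurve.b₆, WeierstrassCurve.b₈])
  set W₀ := shortInt (-16, 16) with hW₀
  obtain ⟨τ, d, hroot, ht, hd⟩ := exists_base_element (p := p)
  obtain ⟨x, hx⟩ := IsAlgClosed.exists_pow_nat_eq ((-A : ℤ) : Qb) (n := 2) two_pos
  obtain ⟨L, hL, hLopen, hfix⟩ := exists_normal_fix x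
  refine not_summable_class (N := (curveRep p W₀).ker ⊓ L)
    (by rw [Subgroup.coe_inf]; exact (isOpen_ker_curveRep W₀).inter hLopen) (τ * τ)
    (insert 37 (insert p (Finset.range 5)) ∪ A.natAbs.primeFactors)
    fun q hq hqF V hV σ hσ c hc => ?_
  simp only [Finset.mem_union, Finset.mem_insert, Finset.mem_range, not_or, not_lt,
    Nat.mem_primeFactors, not_and] at hqF
  obtain ⟨⟨h37, hqp, h5⟩, hqA⟩ := hqF
  haveI := Fact.mk hq
  have hA0 : (A : ZMod q) ≠ 0 := fun e => hqA hq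
    (Int.natCast_dvd.mp ((ZMod.intCast_zmod_eq_zero_iff_dvd _ q).mp e)) (Int.natAbs_ne_zero.mpr hA)
  obtain ⟨hcp, hcx⟩ := Subgroup.mem_inf.mp hc
  -- the Frobenius on the base curve
  obtain ⟨hgood₀, -⟩ := apOfModel_of_twistClass hq h5 h37 (AB := (-16, 16)) (by
    rw [twistClasses, dif_neg hq.ne_zero, Finset.mem_image]
    exact ⟨1, Finset.mem_erase.mpr ⟨one_ne_zero, Finset.mem_univ _⟩, by simp⟩)
  obtain ⟨e1, e2⟩ := FA.Ribet.curveRep_frobenius (p := p) hq hqp hgood₀ hV hσ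
  have hσM : curveRep p W₀ σ =
      curveRep p W₀ c * (curveRep p W₀ τ * curveRep p W₀ τ) * curveRep p W₀ c⁻¹ := by
    conv_lhs => rw [← mul_inv_cancel_left (c * (τ * τ) * c⁻¹) σ]
    simp only [map_mul, MonoidHom.mem_ker.mp hcp, mul_one]
  have hcc : curveRep p W₀ c⁻¹ * curveRep p W₀ c = 1 := by
    rw [← map_mul, inv_mul_cancel, map_one]
  have htr : (W₀.apOfModel q : ZMod p) = 1 - 2 * d := by
    rw [← e1, hσM, Matrix.trace_mul_cycle, hcc, one_mul, ← hd]
    rw [trace_fin_two] at ht ⊢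
    simp only [Matrix.mul_apply, Fin.sum_univ_two, det_fin_two]
    linear_combination (curveRep p W₀ τ 0 0 + curveRep p W₀ τ 1 1 + 1) * ht
  have hdet : (q : ZMod p) = d ^ 2 := by
    rw [← e2, hσM, det_mul, det_mul, det_mul, hd, mul_comm (curveRep p W₀ c).det, mul_assoc,
      ← det_mul, show curveRep p W₀ c * curveRep p W₀ c⁻¹ = 1 by
        rw [← map_mul, mul_inv_cancel, map_one], det_one, mul_one, sq]
  -- `-A` is a square modulo `q`
  have hσx : σ x = x := by
    have h := hfix _ hcx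
    have hcy : (c⁻¹ * σ) x = τ (τ (c⁻¹ x)) := by
      conv_rhs => rw [← h]
      simp [AlgEquiv.mul_apply, mul_assoc]
    have hy : (c⁻¹ x) ^ 2 = ((-A : ℤ) : Qb) := by rw [← map_pow, hx, map_intCast]
    have hτ : τ (τ (c⁻¹ x)) = c⁻¹ x := by
      have h1 : (τ (c⁻¹ x)) ^ 2 = (c⁻¹ x) ^ 2 := by rw [← map_pow, hy, map_intCast]
      rcases sq_eq_sq_iff_eq_or_eq_neg.mp h1 with e | e
      · rw [e, e]
      · rw [e, map_neg, e, neg_neg]
    exact c⁻¹.injective (hcy.trans hτ)
  obtain ⟨r, hr⟩ := isSquare_of_fixed hq hV hσ hx hσx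
  push_cast at hr
  have h4 : (4 : ZMod q) ≠ 0 := fun e => by
    have := Nat.le_of_dvd four_pos ((ZMod.natCast_eq_zero_iff 4 q).mp (by exact_mod_cast e))
    omega
  set s : ZMod q := r / 4 with hsdef
  have hs : s ≠ 0 := div_ne_zero (fun e => hA0 (neg_eq_zero.mp (by rw [hr, e, mul_zero]))) h4
  obtain ⟨b, hb⟩ := ZMod.intCast_surjective (s ^ 3 * ((16 : ℤ) : ZMod q))
  refine ⟨hq, b, fun B hB => ?_⟩
  have hAs : (A : ZMod q) = s ^ 2 * ((-16 : ℤ) : ZMod q) := by
    rw [hsdef, div_pow, div_mul_eq_mul_div, eq_div_iff (pow_ne_zero 2 h4)]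
    push_cast
    linear_combination -16 * hr
  obtain ⟨hgood, ha⟩ := apOfModel_sq_twist h5 (AB := (A, B)) (AB' := (-16, 16)) hs hAs
    (hB.trans hb) hgood₀
  refine ⟨((shortInt (A, B)).apOfModel q : ZMod p), d ^ 2, fun z hz => ?_, q, hq, hqp, hgood, rfl,
    hdet⟩
  rcases ha with e | e <;> rw [e] at hz
  · rw [htr] at hz
    exact hroot (z + d) (by linear_combination hz)
  · rw [Int.cast_neg, htr] at hz
    exact hroot (-z + d) (by linear_combination hz)

/-! ### The transvection classes -/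

/-- The classes of the `B` modulo `q²` with `q ∥ Δ` and `q ∤ A` for the given `A`. -/
def lineTrans (A : ℤ) (q : ℕ) : Finset (ZMod (q ^ 2)) :=
  if h : q = 0 then ∅ else
    have : NeZero (q ^ 2) := ⟨pow_ne_zero 2 h⟩
    Finset.univ.filter fun b => ((A : ZMod (q ^ 2)), b) ∈ transClasses q

theorem mem_lineTrans {A : ℤ} {q : ℕ} (hq : q ≠ 0) {y : ZMod (q ^ 2)} :
    y ∈ lineTrans A q ↔ ((A : ZMod (q ^ 2)), y) ∈ transClasses q := by
  haveI : NeZero (q ^ 2) := ⟨pow_ne_zero 2 hq⟩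
  simp [lineTrans, hq]

/-- There are `q - 1` such classes when `-3 A` is a nonzero square modulo `q`. -/
theorem card_lineTrans {A : ℤ} {q : ℕ} (hq : q.Prime) (h5 : 5 ≤ q) (hA : ¬ (q : ℤ) ∣ A)
    (hsq : IsSquare ((-3 * A : ℤ) : ZMod q)) :
    q ≤ 2 * (lineTrans A q).card := by
  classical
  haveI := Fact.mk hq
  haveI : NeZero (q ^ 2) := ⟨pow_ne_zero 2 hq.ne_zero⟩
  obtain ⟨r, hr⟩ := hsq
  push_cast at hr
  have h3 : (3 : ZMod q) ≠ 0 := fun e => by
    have := Nat.le_of_dvd three_pos ((ZMod.natCast_eq_zero_iff 3 q).mp (by exact_mod_cast e))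
    omega
  have h2 : (2 : ZMod q) ≠ 0 := fun e => by
    have := Nat.le_of_dvd two_pos ((ZMod.natCast_eq_zero_iff 2 q).mp (by exact_mod_cast e))
    omega
  have hA0 : (A : ZMod q) ≠ 0 := fun e => hA ((ZMod.intCast_zmod_eq_zero_iff_dvd _ q).mp e)
  have hr0 : r ≠ 0 := fun e => mul_ne_zero (neg_ne_zero.mpr h3) hA0 (by rw [hr, e, mul_zero])
  have hAr : (A : ZMod q) = -3 * (r / 3) ^ 2 := by
    rw [div_pow, mul_div, eq_div_iff (pow_ne_zero 2 h3)]
    linear_combination -3 * hr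
  obtain ⟨B₁, hB₁⟩ := ZMod.intCast_surjective (2 * (r / 3) ^ 3)
  obtain ⟨k, hk⟩ : (q : ℤ) ∣ 4 * A ^ 3 + 27 * B₁ ^ 2 := by
    rw [← ZMod.intCast_zmod_eq_zero_iff_dvd]
    push_cast
    rw [hB₁, hAr]
    ring
  set u : ZMod q := 54 * (B₁ : ZMod q) with hudef
  have hu : u ≠ 0 := by
    rw [hudef, hB₁, show (54 : ZMod q) = 2 * 3 ^ 3 by norm_num]
    exact mul_ne_zero (mul_ne_zero h2 (pow_ne_zero 3 h3))
      (mul_ne_zero h2 (pow_ne_zero 3 (div_ne_zero hr0 h3)))
  set E := Finset.univ.filter fun e : ZMod q => (k : ZMod q) + u * e ≠ 0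
  have hE : q - 1 ≤ E.card := by
    refine le_trans (le_of_eq ?_) (Finset.card_le_card (s := Finset.univ.erase (-(k : ZMod q) / u))
      fun e he => Finset.mem_filter.mpr ⟨Finset.mem_univ _, fun h0 =>
        Finset.ne_of_mem_erase he ?_⟩)
    · rw [Finset.card_erase_of_mem (Finset.mem_univ _), Finset.card_univ, ZMod.card]
    · rw [eq_div_iff hu]
      linear_combination h0
  let f : ZMod q → ZMod (q ^ 2) := fun e => ((B₁ + q * (e.val : ℤ) : ℤ) : ZMod (q ^ 2))
  have hf : Function.Injective f := fun e e' h => by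
    have h' := (ZMod.intCast_eq_intCast_iff_dvd_sub _ _ _).mp h
    rw [show B₁ + q * (e'.val : ℤ) - (B₁ + q * (e.val : ℤ)) =
      (q : ℤ) * ((e'.val : ℤ) - e.val) by ring, Nat.cast_pow, sq] at h'
    have h'' := (ZMod.intCast_eq_intCast_iff_dvd_sub _ _ q).mpr
      (Int.dvd_of_mul_dvd_mul_left (Int.natCast_ne_zero.mpr hq.ne_zero) h')
    simpa using h''
  have hmem : ∀ e ∈ E, f e ∈ Finset.univ.filter fun b =>
      ((A : ZMod (q ^ 2)), b) ∈ transClasses q := fun e he => by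
    refine Finset.mem_filter.mpr ⟨Finset.mem_univ _, ?_⟩
    rw [transClasses, dif_neg hq.ne_zero, Finset.mem_filter]
    refine ⟨Finset.mem_univ _, ?_, fun h0 => (Finset.mem_filter.mp he).2 ?_, ?_⟩
    · simp only [f, map_add, map_mul, map_pow, map_intCast, map_ofNat]
      push_cast
      rw [ZMod.natCast_self, zero_mul, add_zero, hB₁, hAr]
      ring
    · simp only [f] at h0
      have h1 : ((4 * A ^ 3 + 27 * (B₁ + q * (e.val : ℤ)) ^ 2 : ℤ) : ZMod (q ^ 2)) = 0 := by
        push_cast at h0 ⊢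
        exact h0
      rw [ZMod.intCast_zmod_eq_zero_iff_dvd, show 4 * A ^ 3 + 27 * (B₁ + q * (e.val : ℤ)) ^ 2 =
        (q : ℤ) * (k + 54 * B₁ * e.val + 27 * q * (e.val : ℤ) ^ 2) by linear_combination hk,
        Nat.cast_pow, sq] at h1
      have h2 := (ZMod.intCast_zmod_eq_zero_iff_dvd _ q).mpr
        (Int.dvd_of_mul_dvd_mul_left (Int.natCast_ne_zero.mpr hq.ne_zero) h1)
      push_cast at h2
      rw [ZMod.natCast_self, ZMod.natCast_zmod_val] at h2
      rw [hudef]
      linear_combination h2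
    · rw [show redSq q ((A : ZMod (q ^ 2))) = (A : ZMod q) from map_intCast _ _]
      exact hA0
  rw [lineTrans, dif_neg hq.ne_zero]
  have := hE.trans (Finset.card_le_card_of_injOn f hmem hf.injOn)
  show q ≤ 2 * (Finset.univ.filter fun b => ((A : ZMod (q ^ 2)), b) ∈ transClasses q).card
  omega

/-- Some class of `B` modulo `q` has good reduction at `q`. -/
theorem exists_goodClass (A : ℤ) {q : ℕ} (hq : q.Prime) (h5 : 5 ≤ q) :
    ∃ b : ℤ, ∀ B : ℤ, (B : ZMod q) = b → ¬ (q : ℤ) ∣ (shortInt (A, B)).Δ := by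
  haveI := Fact.mk hq
  have hne : ∀ k : ℕ, 0 < k → k < 5 → (k : ZMod q) ≠ 0 := fun k hk hk5 h => by
    have := Nat.le_of_dvd hk ((ZMod.natCast_eq_zero_iff k q).mp h)
    omega
  have h2 : (2 : ZMod q) ≠ 0 := by exact_mod_cast hne 2 (by norm_num) (by norm_num)
  have h3 : (3 : ZMod q) ≠ 0 := by exact_mod_cast hne 3 (by norm_num) (by norm_num)
  by_cases hA : (q : ℤ) ∣ A
  · refine ⟨1, fun B hB hd => ?_⟩
    rw [← ZMod.intCast_zmod_eq_zero_iff_dvd] at hd hA
    simp only [WeierstrassCurve.Δ, WeierstrassCurve.b₂, WeierstrassCurve.b₄, WeierstrassCurve.b₆,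
      WeierstrassCurve.b₈] at hd
    push_cast at hd hB
    rw [hB, hA] at hd
    refine mul_ne_zero (pow_ne_zero 4 h2) (pow_ne_zero 3 h3) ?_
    linear_combination -hd
  · refine ⟨0, fun B hB hd => hA ?_⟩
    rw [← ZMod.intCast_zmod_eq_zero_iff_dvd] at hd ⊢
    simp only [WeierstrassCurve.Δ, WeierstrassCurve.b₂, WeierstrassCurve.b₄, WeierstrassCurve.b₆,
      WeierstrassCurve.b₈] at hd
    push_cast at hd hB
    rw [hB] at hd
    by_contra hA0
    refine mul_ne_zero (pow_ne_zero 6 h2) (pow_ne_zero 3 hA0) ?_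
    linear_combination -hd

/-- **Almost every member of the family is generic.** -/
theorem tendsto_of_generic_line {A : ℤ} (hA : A ≠ 0) (bad : ℤ → Prop)
    (h : ∀ B : ℤ, ∀ [(shortRat (A, B)).IsElliptic] [(ratCurve (shortInt (A, B))).IsElliptic],
      Generic (A, B) → ¬ bad B) :
    Tendsto (fun Y : ℕ => (Set.ncard {B : ℤ | |B| ≤ Y ∧ 4 * A ^ 3 + 27 * B ^ 2 ≠ 0 ∧ bad B} : ℝ) /
      (2 * Y + 1)) atTop (𝓝 0) := by
  refine FA.OneParameter.tendsto_of_generic (fun B => (A, B)) (fun q => exists_goodClass A)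
    (fun p => not_summable_irrFrob hA) (C := A.natAbs) (fun B p hp hlt hd => ?_)
    {q | (q.Prime ∧ 5 ≤ q) ∧ ¬ (q : ℤ) ∣ A ∧ IsSquare ((-3 * A : ℤ) : ZMod q)} (fun F hs => ?_)
    (lineTrans A) (fun q hq => ⟨hq.1, card_lineTrans hq.1.1 hq.1.2 hq.2.1 hq.2.2, fun B hB =>
      trans_of_mem hq.1.1 hq.1.2 (AB := (A, B)) ((mem_lineTrans hq.1.1.ne_zero).mp hB)⟩) bad h
  · have := Nat.le_of_dvd (Int.natAbs_pos.mpr hA) (Int.natCast_dvd.mp hd.1)
    omega
  · refine not_summable_square A (F ∪ A.natAbs.primeFactors) (hs.of_nonneg_of_le (fun n => ?_)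
      fun n => ?_)
    · exact Set.indicator_nonneg (fun i _ => by positivity) n
    · refine Set.indicator_le_indicator_of_subset (fun q hq => ?_) (fun i => by positivity) n
      exact ⟨⟨hq.1, fun hd => hq.2.1 (Finset.mem_union_right _ (Nat.mem_primeFactors.mpr
        ⟨hq.1.1, Int.natCast_dvd.mp hd, Int.natAbs_ne_zero.mpr hA⟩)), hq.2.2⟩,
        fun hF => hq.2.1 (Finset.mem_union_left _ hF)⟩

end FA.FixedA

end
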