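import Fermat.Agent.SerreCurve.IndexTwoOrbit
import Fermat.Agent.Independence.AdelicGlue
import Fermat.Agent.EC.S51Aux
import Fermat.Agent.Switch.Hilbert

/-!
# A cubic discriminant and the image on `E[3]`

With `y = 12 x + b₂` the four lines of `E[3]` give the roots of `y⁴ - 6 c₄ y² - 8 c₆ y - 3 c₄²`,
whose resolvent `(z - 4 c₄)³ + 64 · 1728 Δ` has the roots `(y_i + y_j)²`. If `Δ = t³` one of these is
`4 c₄ - 48 t`, fixed by Galois; a transvection on `E[3]` fixes one `y` and moves the other three in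
a cycle, so it would make them all equal.
-/

set_option autoImplicit false
set_option linter.style.haveILetI false
set_option linter.unusedSectionVars false

noncomputable section

open Polynomial Matrix WeierstrassCurve WeierstrassCurve.Affine FA.EC FA.Frob FA.RT
open FA.RT.Tate (Pts)
open FA.Switch (psiQ)
open FA.Independence.Family (upMat)
open scoped WeierstrassCurve.Affine

local notation "Qb" => AlgebraicClosure ℚ
local notation "GQ" => AlgebraicClosure ℚ ≃ₐ[ℚ] AlgebraicClosure ℚ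

namespace FA.SerreCurve

/-- The resolvent of a quartic in the sums of its roots. -/
theorem resolvent_eq {K : Type*} [CommRing K] (a b c d z : K) (hs : a + b + c + d = 0) :
    (z - (a + b) ^ 2) * (z - (a + c) ^ 2) * (z - (a + d) ^ 2) =
      z ^ 3 + 2 * (a * b + a * c + a * d + b * c + b * d + c * d) * z ^ 2 +
        ((a * b + a * c + a * d + b * c + b * d + c * d) ^ 2 - 4 * (a * b * c * d)) * z -
        (a * b * c + a * b * d + a * c * d + b * c * d) ^ 2 := by
  obtain rfl : d = -a - b - c := by linear_combination hs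
  ring

/-- The symmetric functions of four distinct roots of the quartic. -/
theorem vieta_psiQ {K : Type*} [Field K] {a b c d u v : K} (hab : a ≠ b) (hac : a ≠ c) (had : a ≠ d)
    (hbc : b ≠ c) (hbd : b ≠ d) (hcd : c ≠ d) (ha : psiQ a u v = 0) (hb : psiQ b u v = 0)
    (hc : psiQ c u v = 0) (hd : psiQ d u v = 0) :
    a + b + c + d = 0 ∧ a * b + a * c + a * d + b * c + b * d + c * d = -(6 * u) ∧
      a * b * c + a * b * d + a * c * d + b * c * d = 8 * v ∧ a * b * c * d = -(3 * u ^ 2) := by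
  simp only [psiQ] at ha hb hc hd
  have h2 : ∀ {x y : K}, x ≠ y → x ^ 4 - 6 * u * x ^ 2 - 8 * v * x - 3 * u ^ 2 = 0 →
      y ^ 4 - 6 * u * y ^ 2 - 8 * v * y - 3 * u ^ 2 = 0 →
      (x + y) * (x ^ 2 + y ^ 2) - 6 * u * (x + y) - 8 * v = 0 := fun {x y} hne hx hy =>
    mul_left_cancel₀ (sub_ne_zero.mpr hne) (by linear_combination hx - hy)
  have g1 := h2 hab ha hb
  have g2 := h2 hac ha hc
  have g3 := h2 had ha hd
  have k1 : a ^ 2 + b ^ 2 + c ^ 2 + a * b + a * c + b * c - 6 * u = 0 :=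
    mul_left_cancel₀ (sub_ne_zero.mpr hbc) (by linear_combination g1 - g2)
  have k2 : a ^ 2 + b ^ 2 + d ^ 2 + a * b + a * d + b * d - 6 * u = 0 :=
    mul_left_cancel₀ (sub_ne_zero.mpr hbd) (by linear_combination g1 - g3)
  have hs : a + b + c + d = 0 :=
    mul_left_cancel₀ (sub_ne_zero.mpr hcd) (by linear_combination k1 - k2)
  obtain rfl : d = -a - b - c := by linear_combination hs
  exact ⟨by ring, by linear_combination -k1, by linear_combination g1 - (a + b) * k1,
    by linear_combination -ha + a ^ 2 * k1 + a * (g1 - (a + b) * k1)⟩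

variable {W : WeierstrassCurve ℤ} [(ratCurve W).IsElliptic]

/-- The quartic in `12 x + b₂` is the third division polynomial. -/
theorem psiQ_eq_Ψ₃ {K : Type*} [CommRing K] (E : WeierstrassCurve K) (x : K) :
    psiQ (12 * x + E.b₂) E.c₄ E.c₆ = 6912 * E.Ψ₃.eval x := by
  simp only [psiQ, WeierstrassCurve.Ψ₃, WeierstrassCurve.c₄, WeierstrassCurve.c₆, eval_add,
    eval_mul, eval_ofNat, eval_pow, eval_X, eval_C]
  linear_combination -1728 * E.b_relation

/-- The quartic vanishes at the points of order three. -/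
theorem psiQ_of_three {P : Pts W} (hP : P ≠ 0) (h3 : 3 • P = 0) :
    psiQ (12 * xc P + (W.b₂ : Qb)) (W.c₄ : Qb) (W.c₆ : Qb) = 0 := by
  obtain ⟨x, y, h, rfl⟩ := exists_some_of_ne_zero (W := (ratCurve W)⁄Qb) hP
  have hroot : ((ratCurve W)⁄Qb).Ψ₃.eval x = 0 := by simpa using (nsmul_eq_zero_iff h 3).mp h3
  have hb2 : ((ratCurve W).map (algebraMap ℚ Qb)).b₂ = (W.b₂ : Qb) := by
    rw [WeierstrassCurve.map_b₂, ratCurve, WeierstrassCurve.map_b₂, eq_intCast, map_intCast]
  have hc4 : ((ratCurve W).map (algebraMap ℚ Qb)).c₄ = (W.c₄ : Qb) := by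
    rw [WeierstrassCurve.map_c₄, ratCurve, WeierstrassCurve.map_c₄, eq_intCast, map_intCast]
  have hc6 : ((ratCurve W).map (algebraMap ℚ Qb)).c₆ = (W.c₆ : Qb) := by
    rw [WeierstrassCurve.map_c₆, ratCurve, WeierstrassCurve.map_c₆, eq_intCast, map_intCast]
  have e := psiQ_eq_Ψ₃ ((ratCurve W).map (algebraMap ℚ Qb)) x
  rw [hb2, hc4, hc6, show ((ratCurve W).map (algebraMap ℚ Qb)).Ψ₃.eval x = 0 from hroot,
    mul_zero] at e
  rw [xc_some]
  exact e

/-- **A transvection on `E[3]` is not induced when the discriminant is a cube.** -/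
theorem false_of_cube {t : ℚ} (hΔ : (W.Δ : ℚ) = t ^ 3)
    (b : (Fin 2 → ZMod 3) ≃ₗ[ZMod 3] Submodule.torsionBy ℤ ((ratCurve W)⁄Qb).Point (3 : ℕ))
    {σ : GQ} (hσ : ∀ v, σ • (b v).1 = (b (upMat 1 *ᵥ v)).1) : False := by
  let y : (Fin 2 → ZMod 3) → Qb := fun v => 12 * xc (b v).1 + (W.b₂ : Qb)
  have h0 : ∀ v, v ≠ 0 → (b v).1 ≠ 0 := fun v hv e => hv (by
    rw [← LinearEquiv.map_eq_zero_iff b]; exact Subtype.ext e)
  have h3 : ∀ v, 3 • (b v).1 = 0 := fun v => by
    rw [← natCast_zsmul]; exact (Submodule.mem_torsionBy_iff _ _).mp (b v).2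
  have hroot : ∀ v, v ≠ 0 → psiQ (y v) (W.c₄ : Qb) (W.c₆ : Qb) = 0 := fun v hv =>
    psiQ_of_three (h0 v hv) (h3 v)
  have hne : ∀ v w, v ≠ 0 → w ≠ 0 → v ≠ w → v ≠ -w → y v ≠ y w := fun v w hv hw h1 h2 e => by
    rcases eq_or_eq_neg_of_xc_eq (h0 v hv) (h0 w hw)
      (mul_left_cancel₀ (by norm_num : (12 : Qb) ≠ 0) (add_right_cancel e)) with h | h
    · exact h1 (b.injective (Subtype.ext h))
    · exact h2 (b.injective (Subtype.ext (by rw [map_neg, Submodule.coe_neg]; exact h)))
  have hgal : ∀ v w, upMat 1 *ᵥ v = w → σ (y v) = y w := fun v w hvw => by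
    rw [map_add, map_mul, map_ofNat, map_intCast, ← xc_smul, hσ, hvw]
  set a := y ![1, 0]
  set p := y ![0, 1]
  set q := y ![1, 1]
  set r := y ![2, 1]
  have ga : σ a = a := hgal _ _ (by decide)
  have gp : σ p = q := hgal _ _ (by decide)
  have gq : σ q = r := hgal _ _ (by decide)
  have gr : σ r = p := hgal _ _ (by decide)
  have hap : a ≠ p := hne _ _ (by decide) (by decide) (by decide) (by decide)
  have haq : a ≠ q := hne _ _ (by decide) (by decide) (by decide) (by decide)
  have har : a ≠ r := hne _ _ (by decide) (by decide) (by decide) (by decide)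
  have hpq : p ≠ q := hne _ _ (by decide) (by decide) (by decide) (by decide)
  have hpr : p ≠ r := hne _ _ (by decide) (by decide) (by decide) (by decide)
  have hqr : q ≠ r := hne _ _ (by decide) (by decide) (by decide) (by decide)
  obtain ⟨hs, e2, e3, e4⟩ := vieta_psiQ hap haq har hpq hpr hqr (hroot _ (by decide))
    (hroot _ (by decide)) (hroot _ (by decide)) (hroot _ (by decide))
  set z : Qb := 4 * (W.c₄ : Qb) - 48 * (t : Qb)
  have gz : σ z = z := by
    simp only [z, map_sub, map_mul, map_ofNat, map_intCast, map_ratCast]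
  have hprod : (z - (a + p) ^ 2) * (z - (a + q) ^ 2) * (z - (a + r) ^ 2) = 0 := by
    have hrel : (1728 : Qb) * (W.Δ : Qb) = (W.c₄ : Qb) ^ 3 - (W.c₆ : Qb) ^ 2 := by
      have := congrArg (Int.cast : ℤ → Qb) W.c_relation
      push_cast at this
      exact this
    have hΔ' : (W.Δ : Qb) = (t : Qb) ^ 3 := by
      rw [← Rat.cast_intCast, hΔ, Rat.cast_pow]
    rw [hΔ'] at hrel
    rw [resolvent_eq a p q r z hs, e2, e3, e4]
    simp only [z]
    linear_combination -64 * hrel
  have h1 : z = (a + p) ^ 2 → z = (a + q) ^ 2 := fun h => by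
    have := congrArg σ h
    rwa [gz, map_pow, map_add, ga, gp] at this
  have h2 : z = (a + q) ^ 2 → z = (a + r) ^ 2 := fun h => by
    have := congrArg σ h
    rwa [gz, map_pow, map_add, ga, gq] at this
  have h3' : z = (a + r) ^ 2 → z = (a + p) ^ 2 := fun h => by
    have := congrArg σ h
    rwa [gz, map_pow, map_add, ga, gr] at this
  have hall : z = (a + p) ^ 2 ∧ z = (a + q) ^ 2 := by
    rcases mul_eq_zero.mp hprod with h | h
    · rcases mul_eq_zero.mp h with h | h
      · exact ⟨sub_eq_zero.mp h, h1 (sub_eq_zero.mp h)⟩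
      · exact ⟨h3' (h2 (sub_eq_zero.mp h)), sub_eq_zero.mp h⟩
    · exact ⟨h3' (sub_eq_zero.mp h), h1 (h3' (sub_eq_zero.mp h))⟩
  have h0' : (p - q) * (a - r) = 0 := by
    linear_combination hall.2 - hall.1 - (p - q) * hs
  rcases mul_eq_zero.mp h0' with h | h
  exacts [hpq (sub_eq_zero.mp h), har (sub_eq_zero.mp h)]

/-- **With a cubic discriminant Galois does not induce every automorphism of `E[3]`.** -/
theorem not_full_three_of_cube {t : ℚ} (hΔ : (W.Δ : ℚ) = t ^ 3) :
    ¬ ∀ ψ : Submodule.torsionBy ℤ ((ratCurve W)⁄Qb).Point ((3 : ℕ) : ℤ) ≃+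
        Submodule.torsionBy ℤ ((ratCurve W)⁄Qb).Point ((3 : ℕ) : ℤ),
      ∃ σ : GQ, ∀ y, σ • y.1 = (ψ y).1 := fun hfull => by
  obtain ⟨b⟩ := FA.PadicImage.nonempty_torsion_equiv W (N := 3)
  obtain ⟨φ, hφ⟩ := FA.Independence.Adelic.exists_addEquiv b.symm.toAddEquiv (A := upMat 1)
    (by simp [upMat, det_fin_two_of])
  obtain ⟨σ, hσ⟩ := hfull φ
  exact false_of_cube hΔ b fun v => by rw [hσ, hφ]; simp

end FA.SerreCurve

end
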