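import Fermat.Agent.SerreCurve.IndexTwo
import Fermat.Agent.SerreCurve.Level

/-!
# The levels of a curve with image of index two

At an even `N` where the square root of the discriminant is cyclotomic a transvection does not come
from Galois, whatever the curve. Where it is not, some automorphism of the torsion is trivial on
`E[N]` and does not come from Galois, so with index two everything on `E[N]` does. Conversely the
index of the image is the largest index at a finite level.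
-/

set_option autoImplicit false
set_option linter.style.haveILetI false
set_option linter.unusedSectionVars false

noncomputable section

open Matrix WeierstrassCurve WeierstrassCurve.Affine FA.EC FA.Frob FA.RT
open FA.RT.Tate (Pts)
open FA.Two (deltaRoot)
open FA.Independence.Family (upMat)
open scoped WeierstrassCurve.Affine

local notation "Qb" => AlgebraicClosure ℚ
local notation "GQ" => AlgebraicClosure ℚ ≃ₐ[ℚ] AlgebraicClosure ℚ

namespace FA.SerreCurve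

variable {W : WeierstrassCurve ℤ} [(ratCurve W).IsElliptic]

theorem sgn_ne_zero_of_involution : ∀ M : Matrix (Fin 2) (Fin 2) (ZMod 2),
    M ≠ 1 → M * M = 1 → FA.Two.sgn M ≠ 0 := by
  unfold FA.Two.sgn
  decide

/-- An element acting on `E[2]` as a transposition moves `√Δ`. -/
theorem deltaRoot_of_involution {σ : GQ}
    (h : ∀ x : Pts W, 2 • x = 0 → σ • (σ • x) = x) {x₀ : Pts W} (hx₀ : 2 • x₀ = 0)
    (hne : σ • x₀ ≠ x₀) : σ (deltaRoot W) = -deltaRoot W := by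
  refine (apply_deltaRoot_cases (W := W) σ).resolve_left fun hs => ?_
  refine sgn_ne_zero_of_involution _ (fun h1 => hne ?_) ?_ ((sgn_eq_zero_iff σ).mpr hs)
  · exact congrArg Subtype.val ((curveRep_eq_one_iff W σ).mp h1
      ⟨x₀, by rw [Submodule.mem_torsionBy_iff, natCast_zsmul]; exact hx₀⟩)
  · rw [← map_mul, curveRep_eq_one_iff W (σ * σ)]
    intro x
    refine Subtype.ext ?_
    show (σ * σ) • x.1 = x.1
    rw [mul_smul, h x.1 (by rw [← natCast_zsmul]; exact (Submodule.mem_torsionBy_iff _ _).mp x.2)]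

/-- **At an even level containing `√Δ` some automorphism does not come from Galois**: for every
curve. -/
theorem exists_not_galois_of_level {N : ℕ} (hN : N ≠ 0) (h2 : 2 ∣ N)
    (hlev : IsLevel (deltaRoot W) N) :
    ∃ θ : Submodule.torsionBy ℤ ((ratCurve W)⁄Qb).Point (N : ℤ) ≃+
        Submodule.torsionBy ℤ ((ratCurve W)⁄Qb).Point (N : ℤ),
      ∀ σ : GQ, ∃ x, σ • x.1 ≠ (θ x).1 := by
  haveI : NeZero N := ⟨hN⟩
  obtain ⟨b⟩ := FA.PadicImage.nonempty_torsion_equiv W (N := N)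
  let e : (Fin 2 → ZMod N) ≃+ (Fin 2 → ZMod N) :=
    { toFun := fun v => upMat 1 *ᵥ v
      invFun := fun v => upMat (-1) *ᵥ v
      left_inv := fun v => by
        show upMat (-1) *ᵥ (upMat 1 *ᵥ v) = v
        funext i; fin_cases i <;> simp [upMat, Matrix.mulVec, dotProduct, Fin.sum_univ_two]
      right_inv := fun v => by
        show upMat 1 *ᵥ (upMat (-1) *ᵥ v) = v
        funext i; fin_cases i <;> simp [upMat, Matrix.mulVec, dotProduct, Fin.sum_univ_two]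
      map_add' := fun v w => mulVec_add _ v w }
  refine ⟨(b.toAddEquiv.symm.trans e).trans b.toAddEquiv, fun σ => ?_⟩
  by_contra hc
  push Not at hc
  have hσ : ∀ v, σ • (b v).1 = (b (upMat 1 *ᵥ v)).1 := fun v => by
    rw [hc]
    show (b (upMat 1 *ᵥ b.symm (b v))).1 = _
    rw [LinearEquiv.symm_apply_apply]
  have hfix : σ (deltaRoot W) = deltaRoot W := hlev σ fun μ hμ => by
    rw [smul_root_eq_pow_det b hσ hμ, show (upMat (1 : ZMod N)).det = 1 by
      simp [upMat, det_fin_two], ZMod.val_one_eq_one_mod, ← pow_eq_pow_mod 1 hμ, pow_one]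
  obtain ⟨c, hc2⟩ := h2
  have hc0 : c ≠ 0 := fun h => hN (by rw [hc2, h, mul_zero])
  have htwo : ((2 * c : ℕ) : ZMod N) = 0 := by rw [← hc2, ZMod.natCast_self]
  set v₀ : Fin 2 → ZMod N := ![0, (c : ZMod N)]
  have hv₀ : 2 • v₀ = 0 := by
    funext i
    fin_cases i
    · simp [v₀]
    · simp only [v₀, Pi.smul_apply, nsmul_eq_mul]
      simpa using htwo
  have hinv : ∀ x : Pts W, 2 • x = 0 → σ • (σ • x) = x := fun x hx => by
    obtain ⟨v, hv⟩ := b.surjective ⟨x, by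
      rw [Submodule.mem_torsionBy_iff, natCast_zsmul, hc2, mul_comm, mul_nsmul', hx, nsmul_zero]⟩
    have hv2 : 2 • v = 0 := b.injective (Subtype.ext (by
      rw [map_nsmul, Submodule.coe_smul_of_tower, hv, map_zero]; exact hx))
    have e1 := congrFun hv2 1
    rw [Pi.smul_apply, two_nsmul, Pi.zero_apply] at e1
    rw [show x = (b v).1 by rw [hv], hσ, hσ, mulVec_mulVec, show (upMat (1 : ZMod N) * upMat 1) *ᵥ v
      = v by
        funext i
        fin_cases i <;>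
          simp [upMat, Matrix.mulVec, dotProduct, Fin.sum_univ_two, Matrix.mul_apply, add_mul, e1]]
  have hflip := deltaRoot_of_involution hinv (x₀ := (b v₀).1)
    (by rw [← Submodule.coe_smul_of_tower, ← map_nsmul, hv₀, map_zero, Submodule.coe_zero])
    (fun heq => hc0 (by
      rw [hσ] at heq
      have h0 := congrFun (b.injective (Subtype.ext heq)) 0
      simp [upMat, Matrix.mulVec, dotProduct, Fin.sum_univ_two, v₀, ZMod.natCast_eq_zero_iff] at h0
      by_contra hne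
      have := Nat.le_of_dvd (Nat.pos_of_ne_zero hne) h0
      omega))
  exact neg_ne_self.mpr deltaRoot_ne_zero (hflip.symm.trans hfix)

/-- **Where `√Δ` is not cyclotomic**, some automorphism of the torsion which is trivial on `E[N]`
does not come from Galois. -/
theorem exists_fix_not_galois {N : ℕ} (hN : N ≠ 0) (h2 : 2 ∣ N)
    (hlev : ¬ IsLevel (deltaRoot W) N) :
    ∃ ψ : Tors W ≃ₗ[ℤ] Tors W, ψ ∉ (FA.OpenImage.torsionAction (ratCurve W)).range ∧
      ∀ x : Tors W, N • x.1 = 0 → ψ x = x := by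
  simp only [IsLevel, not_forall] at hlev
  obtain ⟨k, hk, hks⟩ := hlev
  obtain ⟨D, hD, hroot⟩ := FA.OpenImage.exists_level_of_mem_rootsField
    (FA.OpenImage.mem_rootsField_of_sq_eq (d := (W.Δ : ℚ)) (s := deltaRoot W)
      (by rw [FA.Two.deltaRoot_sq, map_intCast]))
  haveI : NeZero (N * D) := ⟨mul_ne_zero hN hD.ne'⟩
  haveI : NeZero N := ⟨hN⟩
  obtain ⟨b⟩ := FA.PadicImage.nonempty_torsion_equiv W (N := N * D)
  obtain ⟨A, hA⟩ := exists_matrix_smul b k
  haveI : NeZero ((N * D : ℕ) : Qb) := ⟨Nat.cast_ne_zero.mpr (NeZero.ne _)⟩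
  obtain ⟨ζ, hζ⟩ := HasEnoughRootsOfUnity.exists_primitiveRoot Qb (N * D)
  have hkζ := smul_root_eq_pow_det b hA hζ.pow_eq_one
  have hcop : A.det.val.Coprime (N * D) := (hζ.pow_iff_coprime (NeZero.pos _) _).mp
    (hkζ ▸ hζ.map_of_injective k.injective)
  set u : (ZMod (N * D))ˣ := ZMod.unitOfCoprime _ hcop
  have hu : (u : ZMod (N * D)) = A.det := by
    rw [ZMod.coe_unitOfCoprime, ZMod.natCast_zmod_val]
  have hμ : IsPrimitiveRoot (ζ ^ D) N := hζ.pow (NeZero.pos _) (mul_comm N D)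
  have hmod : A.det.val % N = 1 % N := by
    have e : (ζ ^ D) ^ A.det.val = (ζ ^ D) ^ 1 := by
      rw [pow_one, ← smul_root_eq_pow_det b hA (μ := ζ ^ D) (by
        rw [pow_right_comm, hζ.pow_eq_one, one_pow]), hk _ hμ.pow_eq_one]
    rw [pow_eq_pow_mod A.det.val hμ.pow_eq_one, pow_eq_pow_mod 1 hμ.pow_eq_one] at e
    exact hμ.pow_inj (Nat.mod_lt _ (NeZero.pos N)) (Nat.mod_lt _ (NeZero.pos N)) e
  let e : (Fin 2 → ZMod (N * D)) ≃+ (Fin 2 → ZMod (N * D)) :=
    { toFun := fun v => !![(u : ZMod (N * D)), 0; 0, 1] *ᵥ v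
      invFun := fun v => !![((u⁻¹ : (ZMod (N * D))ˣ) : ZMod (N * D)), 0; 0, 1] *ᵥ v
      left_inv := fun v => by
        show _ *ᵥ (_ *ᵥ v) = v
        funext i; fin_cases i <;> simp [Matrix.mulVec, dotProduct, Fin.sum_univ_two]
      right_inv := fun v => by
        show _ *ᵥ (_ *ᵥ v) = v
        funext i; fin_cases i <;> simp [Matrix.mulVec, dotProduct, Fin.sum_univ_two]
      map_add' := fun v w => mulVec_add _ v w }
  obtain ⟨ψ, hψ⟩ := exists_extend_tors W (NeZero.ne (N * D))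
    ((b.toAddEquiv.symm.trans e).trans b.toAddEquiv)
  have hfix : ∀ x : Tors W, N • x.1 = 0 → ψ x = x := fun x hx => by
    obtain ⟨v, hv⟩ := b.surjective ⟨x.1, by
      rw [Submodule.mem_torsionBy_iff, natCast_zsmul, mul_comm, mul_nsmul', hx, nsmul_zero]⟩
    have hvN : N • v = 0 := b.injective (Subtype.ext (by
      rw [map_nsmul, Submodule.coe_smul_of_tower, hv, map_zero]; exact hx))
    have h0 : (u : ZMod (N * D)) * v 0 = v 0 := by
      have h1 := congrFun hvN 0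
      rw [Pi.smul_apply, Pi.zero_apply] at h1
      have hmodv : ∀ a : ℕ, a • v 0 = (a % N) • v 0 := fun a => by
        conv_lhs => rw [← Nat.mod_add_div a N, add_nsmul, mul_comm N (a / N), mul_nsmul', h1,
          nsmul_zero, add_zero]
      rw [hu, ← ZMod.natCast_zmod_val A.det, ← nsmul_eq_mul, hmodv, hmod, ← hmodv, one_nsmul]
    refine Subtype.ext ((hψ x (by
      rw [Submodule.mem_torsionBy_iff, natCast_zsmul, mul_comm, mul_nsmul', hx, nsmul_zero])).trans ?_)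
    show (b (!![(u : ZMod (N * D)), 0; 0, 1] *ᵥ b.symm _)).1 = x.1
    rw [← hv, LinearEquiv.symm_apply_apply, show !![(u : ZMod (N * D)), 0; 0, 1] *ᵥ v = v by
      funext i; fin_cases i <;> simp [Matrix.mulVec, dotProduct, Fin.sum_univ_two, h0], hv]
  refine ⟨ψ, ?_, hfix⟩
  rintro ⟨τ, hτ⟩
  have hτx : ∀ x : Tors W, τ • x.1 = (ψ x).1 := fun x =>
    (congrArg (fun χ : Tors W ≃ₗ[ℤ] Tors W => (χ x).1) hτ :)
  have hT : ∀ {n : ℕ}, n ≠ 0 → ∀ {x : Pts W}, n • x = 0 → x ∈ Tors W := fun {n} hn {x} hx =>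
    isOfFinAddOrder_iff_nsmul_eq_zero.mpr ⟨n, Nat.pos_of_ne_zero hn, hx⟩
  have hτs : τ (deltaRoot W) = deltaRoot W := deltaRoot_of_fix_two fun x hx => by
    have h := hτx ⟨x, hT two_ne_zero hx⟩
    rw [hfix ⟨x, hT two_ne_zero hx⟩ (by
      obtain ⟨c, hc⟩ := h2
      rw [hc, mul_comm, mul_nsmul', hx, nsmul_zero])] at h
    exact h
  have hτb : ∀ v, τ • (b v).1 = (b (!![(u : ZMod (N * D)), 0; 0, 1] *ᵥ v)).1 := fun v => by
    have hm : N * D ≠ 0 := NeZero.ne _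
    have h0 : (N * D) • (b v).1 = 0 := by
      rw [← natCast_zsmul]; exact (Submodule.mem_torsionBy_iff _ _).mp (b v).2
    refine (hτx ⟨(b v).1, hT hm h0⟩).trans ((hψ _ (b v).2).trans ?_)
    show (b (!![(u : ZMod (N * D)), 0; 0, 1] *ᵥ b.symm (b v))).1 = _
    rw [LinearEquiv.symm_apply_apply]
  have hsame : (k⁻¹ * τ) (deltaRoot W) = deltaRoot W := hroot _ fun μ hμD => by
    have hμM : μ ^ (N * D) = 1 := by rw [mul_comm, pow_mul, hμD, one_pow]
    rw [AlgEquiv.mul_apply, smul_root_eq_pow_det b hτb hμM, show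
      (!![(u : ZMod (N * D)), 0; 0, 1]).det = A.det by simp [det_fin_two, hu],
      ← smul_root_eq_pow_det b hA hμM, ← AlgEquiv.mul_apply, inv_mul_cancel, AlgEquiv.one_apply]
  rw [AlgEquiv.mul_apply, hτs, AlgEquiv.aut_inv, AlgEquiv.symm_apply_eq] at hsame
  exact hks hsame.symm

/-- Membership in the image at a level. -/
theorem mem_range_level_iff {N : ℕ}
    (ρ : GQ →* (Submodule.torsionBy ℤ ((ratCurve W)⁄Qb).Point (N : ℤ) ≃ₗ[ℤ]
      Submodule.torsionBy ℤ ((ratCurve W)⁄Qb).Point (N : ℤ)))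
    (hρ : ∀ σ x, (ρ σ x).1 = σ • x.1)
    (φ : Submodule.torsionBy ℤ ((ratCurve W)⁄Qb).Point (N : ℤ) ≃ₗ[ℤ]
      Submodule.torsionBy ℤ ((ratCurve W)⁄Qb).Point (N : ℤ)) :
    φ ∈ ρ.range ↔ ∃ σ : GQ, ∀ x, σ • x.1 = (φ x).1 :=
  ⟨fun ⟨σ, hσ⟩ => ⟨σ, fun x => by rw [← hρ, hσ]⟩,
    fun ⟨σ, hσ⟩ => ⟨σ, LinearEquiv.ext fun x => Subtype.ext ((hρ σ x).trans (hσ x))⟩⟩

/-- An automorphism of all torsion in the image induces one in the image at every level. -/
theorem mem_range_level_of_mem {N : ℕ} (hN : N ≠ 0)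
    (ρ : GQ →* (Submodule.torsionBy ℤ ((ratCurve W)⁄Qb).Point (N : ℤ) ≃ₗ[ℤ]
      Submodule.torsionBy ℤ ((ratCurve W)⁄Qb).Point (N : ℤ)))
    (hρ : ∀ σ x, (ρ σ x).1 = σ • x.1) {χ : Tors W ≃ₗ[ℤ] Tors W}
    (hχ : χ ∈ (FA.OpenImage.torsionAction (ratCurve W)).range)
    {φ : Submodule.torsionBy ℤ ((ratCurve W)⁄Qb).Point (N : ℤ) ≃ₗ[ℤ]
      Submodule.torsionBy ℤ ((ratCurve W)⁄Qb).Point (N : ℤ)}
    (h : ∀ (x : Tors W) (hx : x.1 ∈ Submodule.torsionBy ℤ ((ratCurve W)⁄Qb).Point (N : ℤ)),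
      (χ x).1 = (φ ⟨x.1, hx⟩).1) : φ ∈ ρ.range := by
  obtain ⟨σ, hσ⟩ := hχ
  refine (mem_range_level_iff ρ hρ φ).mpr ⟨σ, fun x => ?_⟩
  have hx : x.1 ∈ Tors W := isOfFinAddOrder_iff_nsmul_eq_zero.mpr ⟨N, Nat.pos_of_ne_zero hN, by
    rw [← natCast_zsmul]; exact (Submodule.mem_torsionBy_iff _ _).mp x.2⟩
  exact (congrArg (fun χ : Tors W ≃ₗ[ℤ] Tors W => (χ ⟨x.1, hx⟩).1) hσ :).trans
    (h ⟨x.1, hx⟩ x.2)

/-- **The index on `E[N]` of every curve with image of index two.** -/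
theorem index_level_of_index_two
    (h : (FA.OpenImage.torsionAction (ratCurve W)).range.index = 2) {D : ℕ}
    (hiff : ∀ N : ℕ, N ≠ 0 → (IsLevel (deltaRoot W) N ↔ D ∣ N)) {N : ℕ} (hN : N ≠ 0)
    (ρ : GQ →* (Submodule.torsionBy ℤ ((ratCurve W)⁄Qb).Point (N : ℤ) ≃ₗ[ℤ]
      Submodule.torsionBy ℤ ((ratCurve W)⁄Qb).Point (N : ℤ)))
    (hρ : ∀ σ x, (ρ σ x).1 = σ • x.1) :
    ρ.range.index = if Nat.lcm 2 D ∣ N then 2 else 1 := by
  have hcomp : ∀ {χ χ' : Tors W ≃ₗ[ℤ] Tors W}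
      {φ φ' : Submodule.torsionBy ℤ ((ratCurve W)⁄Qb).Point (N : ℤ) ≃ₗ[ℤ]
        Submodule.torsionBy ℤ ((ratCurve W)⁄Qb).Point (N : ℤ)},
      (∀ (x : Tors W) hx, (χ x).1 = (φ ⟨x.1, hx⟩).1) →
      (∀ (x : Tors W) hx, (χ' x).1 = (φ' ⟨x.1, hx⟩).1) →
      ∀ (x : Tors W) hx, ((χ * χ') x).1 = ((φ * φ') ⟨x.1, hx⟩).1 := by
    intro χ χ' φ φ' h1 h2 x hx
    rw [LinearEquiv.mul_apply, LinearEquiv.mul_apply]
    have e := h2 x hx
    rw [h1 (χ' x) (by rw [e]; exact (φ' _).2)]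
    exact congrArg (fun y => (φ y).1) (Subtype.ext e)
  split_ifs with hm
  · obtain ⟨θ, hθ⟩ := exists_not_galois_of_level hN ((Nat.dvd_lcm_left 2 D).trans hm)
      ((hiff N hN).mpr ((Nat.dvd_lcm_right 2 D).trans hm))
    have hnot : θ.toIntLinearEquiv ∉ ρ.range := fun hmem => by
      obtain ⟨σ, hσ⟩ := (mem_range_level_iff ρ hρ _).mp hmem
      obtain ⟨x, hx⟩ := hθ σ
      exact hx (hσ x)
    refine Subgroup.index_eq_two_iff_exists_notMem_and.mpr ⟨_, hnot, fun φ => ?_⟩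
    by_contra hc
    push Not at hc
    obtain ⟨χ₀, hχ₀⟩ := exists_extend_tors W hN θ
    obtain ⟨χ, hχ⟩ := exists_extend_tors W hN φ.toAddEquiv
    have h1 : χ₀ ∉ (FA.OpenImage.torsionAction (ratCurve W)).range := fun hmem =>
      hnot (mem_range_level_of_mem hN ρ hρ hmem hχ₀)
    have h2 : χ ∉ (FA.OpenImage.torsionAction (ratCurve W)).range := fun hmem =>
      hc.2 (mem_range_level_of_mem hN ρ hρ hmem hχ)
    exact hc.1 (mem_range_level_of_mem hN ρ hρ
      ((Subgroup.mul_mem_iff_of_index_two h).mpr (iff_of_false h2 h1)) (hcomp hχ hχ₀))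
  · refine Subgroup.index_eq_one.mpr (eq_top_iff.mpr fun φ _ => ?_)
    by_cases h2 : 2 ∣ N
    · obtain ⟨ψ, hψ, hψfix⟩ := exists_fix_not_galois hN h2
        (fun hl => hm (Nat.lcm_dvd h2 ((hiff N hN).mp hl)))
      obtain ⟨χ, hχ⟩ := exists_extend_tors W hN φ.toAddEquiv
      by_cases hmem : χ ∈ (FA.OpenImage.torsionAction (ratCurve W)).range
      · exact mem_range_level_of_mem hN ρ hρ hmem hχ
      refine mem_range_level_of_mem hN ρ hρ
        ((Subgroup.mul_mem_iff_of_index_two h).mpr (iff_of_false hmem hψ)) fun x hx => ?_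
      rw [LinearEquiv.mul_apply, hψfix x (by
        rw [← natCast_zsmul]; exact (Submodule.mem_torsionBy_iff _ _).mp hx)]
      exact hχ x hx
    · exact (mem_range_level_iff ρ hρ φ).mpr (exists_smul_eq_of_index_two h
        (Nat.not_even_iff_odd.mp (fun he => h2 (even_iff_two_dvd.mp he))) φ.toAddEquiv)

/-- Galois on the `N`-torsion. -/
def levelAction (E : WeierstrassCurve ℚ) (N : ℕ) :
    GQ →* (Submodule.torsionBy ℤ (E.toAffine⁄Qb).Point (N : ℤ) ≃ₗ[ℤ]
      Submodule.torsionBy ℤ (E.toAffine⁄Qb).Point (N : ℤ)) :=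
  have hmem : ∀ (σ : GQ) (x : Submodule.torsionBy ℤ (E.toAffine⁄Qb).Point (N : ℤ)),
      Affine.Point.map σ.toAlgHom x.1 ∈ Submodule.torsionBy ℤ (E.toAffine⁄Qb).Point (N : ℤ) :=
    fun σ x => by
      rw [Submodule.mem_torsionBy_iff, ← map_zsmul, (Submodule.mem_torsionBy_iff _ _).mp x.2,
        map_zero]
  { toFun := fun σ =>
      { toFun := fun x => ⟨Affine.Point.map σ.toAlgHom x.1, hmem σ x⟩
        invFun := fun x => ⟨Affine.Point.map (σ⁻¹).toAlgHom x.1, hmem σ⁻¹ x⟩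
        left_inv := fun x => Subtype.ext (by
          show Affine.Point.map (σ⁻¹).toAlgHom (Affine.Point.map σ.toAlgHom x.1) = x.1
          rw [← FA.OpenImage.map_mul_apply, inv_mul_cancel, FA.OpenImage.map_one_apply])
        right_inv := fun x => Subtype.ext (by
          show Affine.Point.map σ.toAlgHom (Affine.Point.map (σ⁻¹).toAlgHom x.1) = x.1
          rw [← FA.OpenImage.map_mul_apply, mul_inv_cancel, FA.OpenImage.map_one_apply])
        map_add' := fun x y => Subtype.ext (map_add _ x.1 y.1)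
        map_smul' := fun n x => Subtype.ext (map_zsmul _ n x.1) }
    map_one' := LinearEquiv.ext fun x => Subtype.ext (FA.OpenImage.map_one_apply E x.1)
    map_mul' := fun σ τ => LinearEquiv.ext fun x =>
      Subtype.ext (FA.OpenImage.map_mul_apply E σ τ x.1) }

theorem levelAction_apply (E : WeierstrassCurve ℚ) (N : ℕ) (σ : GQ)
    (x : Submodule.torsionBy ℤ (E.toAffine⁄Qb).Point (N : ℤ)) :
    (levelAction E N σ x).1 = Affine.Point.map σ.toAlgHom x.1 := rfl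

/-- **The index at a level does not depend on the model.** -/
theorem index_level_of_equiv {E : WeierstrassCurve ℚ}
    (e : ((ratCurve W)⁄Qb).Point ≃+ (E.toAffine⁄Qb).Point)
    (he : ∀ (σ : GQ) Q, e (σ • Q) = Affine.Point.map (W' := E.toAffine) σ.toAlgHom (e Q)) {N : ℕ}
    (ρ : GQ →* (Submodule.torsionBy ℤ (E.toAffine⁄Qb).Point (N : ℤ) ≃ₗ[ℤ]
      Submodule.torsionBy ℤ (E.toAffine⁄Qb).Point (N : ℤ)))
    (hρ : ∀ σ x, (ρ σ x).1 = Affine.Point.map σ.toAlgHom x.1) :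
    ρ.range.index = (levelAction (ratCurve W) N).range.index := by
  let eT : Submodule.torsionBy ℤ (E.toAffine⁄Qb).Point (N : ℤ) ≃ₗ[ℤ]
      Submodule.torsionBy ℤ ((ratCurve W)⁄Qb).Point (N : ℤ) :=
    AddEquiv.toIntLinearEquiv
      { toEquiv := e.symm.toEquiv.subtypeEquiv fun Q => by
          simp only [Submodule.mem_torsionBy_iff]
          exact ⟨fun hQ => (map_zsmul e.symm _ Q).symm.trans (by rw [hQ, map_zero]),
            fun hQ => e.symm.injective (by rw [map_zsmul, map_zero]; exact hQ)⟩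
        map_add' := fun a b => Subtype.ext (map_add e.symm a.1 b.1) }
  let Φ : (Submodule.torsionBy ℤ (E.toAffine⁄Qb).Point (N : ℤ) ≃ₗ[ℤ]
      Submodule.torsionBy ℤ (E.toAffine⁄Qb).Point (N : ℤ)) ≃*
      (Submodule.torsionBy ℤ ((ratCurve W)⁄Qb).Point (N : ℤ) ≃ₗ[ℤ]
        Submodule.torsionBy ℤ ((ratCurve W)⁄Qb).Point (N : ℤ)) :=
    { toFun := fun ψ => eT.symm.trans (ψ.trans eT)
      invFun := fun χ => eT.trans (χ.trans eT.symm)
      left_inv := fun ψ => LinearEquiv.ext fun x => by simp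
      right_inv := fun χ => LinearEquiv.ext fun x => by simp
      map_mul' := fun ψ χ => LinearEquiv.ext fun x => by simp [LinearEquiv.mul_apply] }
  have h : Φ.toMonoidHom.comp ρ = levelAction (ratCurve W) N :=
    MonoidHom.ext fun σ => LinearEquiv.ext fun x => Subtype.ext (e.injective (by
      rw [show (levelAction (ratCurve W) N σ x).1 = σ • x.1 from rfl, he]
      show e (e.symm (ρ σ (eT.symm x)).1) = _
      rw [AddEquiv.apply_symm_apply, hρ]
      rfl))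
  rw [← h, MonoidHom.range_comp]
  exact (Subgroup.index_map_equiv _ Φ).symm

/-- **Index at most two at every level makes the index two.** -/
theorem index_two_of_levels
    (h : ∀ N : ℕ, N ≠ 0 → (levelAction (ratCurve W) N).range.index ≤ 2) :
    (FA.OpenImage.torsionAction (ratCurve W)).range.index = 2 := by
  obtain ⟨ψ, hψ⟩ := FA.Summary.serreAdelicNotSurjective (ratCurve W)
  set R := (FA.OpenImage.torsionAction (ratCurve W)).range with hR
  have hψR : ψ ∉ R := by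
    rintro ⟨σ, rfl⟩
    obtain ⟨x, hx⟩ := hψ σ
    exact hx (FA.OpenImage.torsionAction_apply _ σ x).symm
  refine Subgroup.index_eq_two_iff_exists_notMem_and.mpr ⟨ψ, hψR, fun χ => ?_⟩
  by_contra hc
  push Not at hc
  have hlevel : ∀ φ : Tors W ≃ₗ[ℤ] Tors W, φ ∉ R → ∃ N : ℕ, N ≠ 0 ∧ ∀ σ : GQ,
      ∃ x : Tors W, N • x.1 = 0 ∧ σ • x.1 ≠ (φ x).1 := fun φ hφ => by
    by_contra hcon
    push Not at hcon
    exact hφ (FA.OpenImage.mem_range_of_levels (ratCurve W) φ hcon)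
  obtain ⟨N₁, hN₁, h₁⟩ := hlevel ψ hψR
  obtain ⟨N₂, hN₂, h₂⟩ := hlevel χ hc.2
  obtain ⟨N₃, hN₃, h₃⟩ := hlevel (χ * ψ) hc.1
  set M := N₁ * N₂ * N₃ with hMdef
  have hM : M ≠ 0 := mul_ne_zero (mul_ne_zero hN₁ hN₂) hN₃
  have hres : ∀ φ : Tors W ≃ₗ[ℤ] Tors W,
      ∃ φ' : Submodule.torsionBy ℤ ((ratCurve W)⁄Qb).Point (M : ℤ) ≃ₗ[ℤ]
        Submodule.torsionBy ℤ ((ratCurve W)⁄Qb).Point (M : ℤ),
        ∀ x, ∃ hx, (φ' x).1 = (φ ⟨x.1, hx⟩).1 := fun φ => by
    obtain ⟨φ', hφ'⟩ := exists_restrict_torsion hM φ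
    exact ⟨φ'.toIntLinearEquiv, hφ'⟩
  obtain ⟨ψ', hψ'⟩ := hres ψ
  obtain ⟨χ', hχ'⟩ := hres χ
  have hout : ∀ {φ : Tors W ≃ₗ[ℤ] Tors W} {φ' : Submodule.torsionBy ℤ ((ratCurve W)⁄Qb).Point
      (M : ℤ) ≃ₗ[ℤ] Submodule.torsionBy ℤ ((ratCurve W)⁄Qb).Point (M : ℤ)} {n : ℕ}, n ∣ M →
      (∀ σ : GQ, ∃ x : Tors W, n • x.1 = 0 ∧ σ • x.1 ≠ (φ x).1) →
      (∀ x, ∃ hx, (φ' x).1 = (φ ⟨x.1, hx⟩).1) → φ' ∉ (levelAction (ratCurve W) M).range := by
    intro φ φ' n hn hne hφ' hmem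
    obtain ⟨σ, hσ⟩ := (mem_range_level_iff (levelAction (ratCurve W) M) (fun _ _ => rfl) _).mp hmem
    obtain ⟨x, hx, hne⟩ := hne σ
    have hxM : x.1 ∈ Submodule.torsionBy ℤ ((ratCurve W)⁄Qb).Point (M : ℤ) := by
      obtain ⟨c, hc⟩ := hn
      rw [Submodule.mem_torsionBy_iff, natCast_zsmul, hc, mul_comm, mul_nsmul', hx, nsmul_zero]
    obtain ⟨_, e⟩ := hφ' ⟨x.1, hxM⟩
    exact hne ((hσ ⟨x.1, hxM⟩).trans e)
  have e₁ := hout (dvd_mul_of_dvd_left (dvd_mul_right N₁ N₂) N₃) h₁ hψ'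
  have e₂ := hout (dvd_mul_of_dvd_left (dvd_mul_left N₂ N₁) N₃) h₂ hχ'
  have e₃ : χ' * ψ' ∉ (levelAction (ratCurve W) M).range :=
    hout (dvd_mul_left N₃ (N₁ * N₂)) h₃ fun x => by
      obtain ⟨hx, e⟩ := hψ' x
      obtain ⟨hy, e'⟩ := hχ' (ψ' x)
      refine ⟨hx, ?_⟩
      rw [LinearEquiv.mul_apply, LinearEquiv.mul_apply, e']
      exact congrArg (fun y => (χ y).1) (Subtype.ext e)
  haveI := FA.EC.finite_torsion (ratCurve W) hM
  haveI : Finite (Submodule.torsionBy ℤ ((ratCurve W)⁄Qb).Point (M : ℤ) ≃ₗ[ℤ]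
      Submodule.torsionBy ℤ ((ratCurve W)⁄Qb).Point (M : ℤ)) :=
    Finite.of_injective _ DFunLike.coe_injective
  have hle := h M hM
  have h0 : (levelAction (ratCurve W) M).range.index ≠ 0 := Subgroup.index_ne_zero_of_finite
  have h1 : (levelAction (ratCurve W) M).range.index ≠ 1 := fun h1 =>
    e₁ (Subgroup.index_eq_one.mp h1 ▸ Subgroup.mem_top _)
  exact e₃ ((Subgroup.mul_mem_iff_of_index_two (by omega)).mpr (iff_of_false e₂ e₁))

end FA.SerreCurve

end
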