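import Fermat.Agent.SerreCurve.IndexTwoOrbit
import Mathlib.GroupTheory.Exponent

/-!
# The Galois module of the torsion for an image of index two

A finite stable subgroup of exponent `n` contains a point of order `n`, so all of them, so all of
`E[n]`. An endomorphism of `E[N]` commuting with Galois commutes with `upMat 2` and
`S = !![0, -1; 1, -1]`, so it is `a + c S` with `2 c = 0`; if `c ≠ 0` all of Galois would commute
with `S` modulo `2`, and its commutators would fix `E[2]`.
-/

set_option autoImplicit false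
set_option linter.style.haveILetI false
set_option linter.unusedSectionVars false

noncomputable section

open Matrix WeierstrassCurve WeierstrassCurve.Affine FA.EC FA.Frob FA.RT
open FA.RT.Tate (Pts)
open FA.Independence.Family (upMat)
open scoped WeierstrassCurve.Affine

local notation "Qb" => AlgebraicClosure ℚ
local notation "GQ" => AlgebraicClosure ℚ ≃ₐ[ℚ] AlgebraicClosure ℚ

namespace FA.SerreCurve

variable {W : WeierstrassCurve ℤ} [(ratCurve W).IsElliptic]

/-- Where a nonzero `c` with `2 c = 0` kills `x`, the element `x` is even. -/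
theorem exists_two_mul {N : ℕ} [NeZero N] {c x : ZMod N} (hc : c ≠ 0) (h2 : c + c = 0)
    (hx : c * x = 0) : ∃ y, x = 2 * y := by
  have hk : 0 < c.val := Nat.pos_of_ne_zero fun e => hc ((ZMod.val_eq_zero c).mp e)
  have hlt := ZMod.val_lt c
  have hd : N ∣ c.val + c.val := (ZMod.natCast_eq_zero_iff _ _).mp (by
    rw [Nat.cast_add, ZMod.natCast_zmod_val]; exact h2)
  obtain ⟨j, hj⟩ := hd
  have hj1 : j = 1 := by
    rcases j with _ | _ | j
    · omega
    · rfl
    · nlinarith
  subst hj1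
  obtain ⟨i, hi⟩ : N ∣ c.val * x.val := (ZMod.natCast_eq_zero_iff _ _).mp (by
    rw [Nat.cast_mul, ZMod.natCast_zmod_val, ZMod.natCast_zmod_val]; exact hx)
  have hx2 : x.val = 2 * i :=
    Nat.eq_of_mul_eq_mul_left hk (by rw [hi]; linear_combination (i : ℕ) * hj.symm)
  exact ⟨(i : ℕ), by rw [← ZMod.natCast_zmod_val x, hx2, Nat.cast_mul, Nat.cast_ofNat]⟩

/-- **An endomorphism of `E[N]` commuting with Galois is a scalar.** -/
theorem exists_scalar_of_index_two (h : (FA.OpenImage.torsionAction (ratCurve W)).range.index = 2)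
    {N : ℕ} (hN : N ≠ 0)
    (f : Submodule.torsionBy ℤ ((ratCurve W)⁄Qb).Point (N : ℤ) →+
      Submodule.torsionBy ℤ ((ratCurve W)⁄Qb).Point (N : ℤ))
    (hf : ∀ (σ : GQ) x y, σ • x.1 = y.1 → σ • (f x).1 = (f y).1) :
    ∃ a : ℤ, ∀ x, f x = a • x := by
  haveI : NeZero N := ⟨hN⟩
  obtain ⟨b⟩ := FA.PadicImage.nonempty_torsion_equiv W (N := N)
  set M : Matrix (Fin 2) (Fin 2) (ZMod N) := LinearMap.toMatrix'
    (((b.symm.toAddEquiv.toAddMonoidHom.comp f).comp
      b.toAddEquiv.toAddMonoidHom).toZModLinearMap N) with hM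
  have hspec : ∀ v, f (b v) = b (M *ᵥ v) := fun v => by
    rw [hM, LinearMap.toMatrix'_mulVec]
    exact (b.apply_symm_apply _).symm
  have hcomm : ∀ X, ActsBy b X → M * X = X * M := fun X ⟨σ, hσ⟩ =>
    Matrix.ext_of_mulVec_single fun i => b.injective (Subtype.ext (by
      rw [← mulVec_mulVec, ← mulVec_mulVec, ← hspec, ← hσ (M *ᵥ _), ← hspec]
      exact (hf σ (b _) (b (X *ᵥ _)) (hσ _)).symm))
  have hu := hcomm _ (actsBy_sq b h (X := upMat 1) (Y := upMat (-1))
    (by ext i j; fin_cases i <;> fin_cases j <;>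
      simp [upMat, Matrix.mul_apply, Fin.sum_univ_two])
    (by ext i j; fin_cases i <;> fin_cases j <;>
      simp [upMat, Matrix.mul_apply, Fin.sum_univ_two]))
  have hs := hcomm _ (actsBy_sq b h (X := !![-1, 1; -1, 0]) (Y := !![0, -1; 1, -1])
    (by ext i j; fin_cases i <;> fin_cases j <;> simp)
    (by ext i j; fin_cases i <;> fin_cases j <;> simp))
  set a := M 0 0
  set c := M 1 0
  have h2 : c + c = 0 := by
    have := congrFun (congrFun hu 0) 0
    simp [upMat, Matrix.mul_apply, Fin.sum_univ_two] at this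
    linear_combination this
  have hbc : M 0 1 = -c := by
    have := congrFun (congrFun hs 0) 0
    simp [Matrix.mul_apply, Fin.sum_univ_two] at this
    linear_combination this
  have hd : M 1 1 = a - c := by
    have := congrFun (congrFun hs 1) 0
    simp [Matrix.mul_apply, Fin.sum_univ_two] at this
    linear_combination this
  have hc : c = 0 := by
    by_contra hc
    -- then every element of Galois commutes with `S` modulo `2`
    have heven : ∀ σ : GQ, ∃ A, (∀ v, σ • (b v).1 = (b (A *ᵥ v)).1) ∧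
        (∃ y, A 0 1 + A 1 0 = 2 * y) ∧ ∃ z, A 1 1 - A 0 0 + A 1 0 = 2 * z := fun σ => by
      obtain ⟨A, hA⟩ := exists_matrix_smul b σ
      have e := hcomm A ⟨σ, hA⟩
      have e0 := congrFun (congrFun e 0) 0
      have e1 := congrFun (congrFun e 1) 0
      simp [Matrix.mul_apply, Fin.sum_univ_two, hbc, hd] at e0 e1
      exact ⟨A, hA, exists_two_mul hc h2 (by linear_combination -e0),
        exists_two_mul hc h2 (by linear_combination -e1)⟩
    set v₀ : Fin 2 → ZMod N := ![c, 0]
    have hv₀ : v₀ + v₀ = 0 := by funext i; fin_cases i <;> simp [v₀, h2]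
    have hP : 2 • (b v₀).1 = 0 := by
      rw [← Submodule.coe_smul_of_tower, ← map_nsmul, two_nsmul, hv₀, map_zero,
        Submodule.coe_zero]
    have hfix : ∀ σ τ : GQ, (σ * τ * σ⁻¹ * τ⁻¹) • (b v₀).1 = (b v₀).1 := fun σ τ => by
      obtain ⟨A, hA, ⟨y, hy⟩, z, hz⟩ := heven σ
      obtain ⟨B, hB, ⟨y', hy'⟩, z', hz'⟩ := heven τ
      obtain ⟨C, hC⟩ := exists_matrix_smul b (σ⁻¹ * τ⁻¹)
      have hw : C *ᵥ v₀ + C *ᵥ v₀ = 0 := by rw [← mulVec_add, hv₀, mulVec_zero]
      have key : ∀ w : Fin 2 → ZMod N, w + w = 0 → A *ᵥ (B *ᵥ w) = B *ᵥ (A *ᵥ w) := fun w hw => by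
        have w0 := congrFun hw 0
        have w1 := congrFun hw 1
        simp only [Pi.add_apply, Pi.zero_apply] at w0 w1
        have a01 : A 0 1 = 2 * y - A 1 0 := by linear_combination hy
        have a11 : A 1 1 = 2 * z + A 0 0 - A 1 0 := by linear_combination hz
        have b01 : B 0 1 = 2 * y' - B 1 0 := by linear_combination hy'
        have b11 : B 1 1 = 2 * z' + B 0 0 - B 1 0 := by linear_combination hz'
        funext i
        fin_cases i <;> simp [Matrix.mulVec, dotProduct, Fin.sum_univ_two, a01, a11, b01, b11] <;>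
          grind
      calc (σ * τ * σ⁻¹ * τ⁻¹) • (b v₀).1 = σ • (τ • ((σ⁻¹ * τ⁻¹) • (b v₀).1)) := by
            simp only [mul_smul]
        _ = (b (B *ᵥ (A *ᵥ (C *ᵥ v₀)))).1 := by rw [hC, hB, hA, key _ hw]
        _ = τ • (σ • ((σ⁻¹ * τ⁻¹) • (b v₀).1)) := by rw [hC, hA, hB]
        _ = (b v₀).1 := by simp only [mul_smul, smul_inv_smul]
    have h0 := eq_zero_of_prime_of_commutators h Nat.prime_two hP hfix
    have h1 : b v₀ = 0 := Subtype.ext h0
    rw [LinearEquiv.map_eq_zero_iff] at h1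
    exact hc (congrFun h1 0)
  refine ⟨(a.val : ℤ), fun x => ?_⟩
  obtain ⟨v, rfl⟩ := b.surjective x
  rw [hspec, natCast_zsmul, ← map_nsmul]
  refine congrArg b (funext fun i => ?_)
  rw [Pi.smul_apply, nsmul_eq_mul, ZMod.natCast_zmod_val]
  have hc' : M 1 0 = 0 := hc
  fin_cases i <;> simp [Matrix.mulVec, dotProduct, Fin.sum_univ_two, hbc, hd, hc, hc', a]

/-- **A finite stable subgroup is the group of all points killed by one number.** -/
theorem exists_eq_torsion_of_index_two
    (h : (FA.OpenImage.torsionAction (ratCurve W)).range.index = 2) (G : AddSubgroup (Pts W))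
    [Finite G] (hst : ∀ σ : GQ, ∀ P ∈ G, σ • P ∈ G) :
    ∃ n : ℕ, 0 < n ∧ ∀ P, P ∈ G ↔ n • P = 0 := by
  obtain ⟨x, hx⟩ := AddMonoid.exists_addOrderOf_eq_exponent (G := G) AddMonoid.ExponentExists.of_finite
  set n := AddMonoid.exponent G
  have hn : 0 < n := hx ▸ addOrderOf_pos x
  haveI : NeZero n := ⟨hn.ne'⟩
  have hxn : addOrderOf x.1 = n := (AddSubgroup.addOrderOf_coe x).trans hx
  have hall : ∀ y : Pts W, addOrderOf y = n → y ∈ G := fun y hy => by
    have hx' : IsOfFinAddOrder x.1 := addOrderOf_pos_iff.mp (hxn.symm ▸ hn)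
    have := (Set.ext_iff.mp (orbit_eq_of_index_two h hx') y).mpr (hy.trans hxn.symm)
    obtain ⟨σ, rfl⟩ := this
    exact hst σ _ x.2
  refine ⟨n, hn, fun P => ⟨fun hP => ?_, fun hP => ?_⟩⟩
  · exact congrArg Subtype.val (AddMonoid.exponent_nsmul_eq_zero (G := G) ⟨P, hP⟩)
  obtain ⟨b⟩ := FA.PadicImage.nonempty_torsion_equiv W (N := n)
  obtain ⟨v, hv⟩ := b.surjective ⟨P, by rw [Submodule.mem_torsionBy_iff, natCast_zsmul]; exact hP⟩
  have hord : ∀ i, (b (Pi.single i (1 : ZMod n))).1 ∈ G := fun i => hall _ (by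
    refine Eq.trans ?_ (ZMod.addOrderOf_one n)
    exact (AddSubgroup.addOrderOf_coe (H := (Submodule.torsionBy ℤ ((ratCurve W)⁄Qb).Point
      (n : ℤ)).toAddSubgroup) _).trans
      ((addOrderOf_injective b.toAddEquiv.toAddMonoidHom b.injective _).trans
        (addOrderOf_injective (AddMonoidHom.single (fun _ : Fin 2 => ZMod n) i)
          (fun u w h => Pi.single_injective (M := fun _ : Fin 2 => ZMod n) i h) _)))
  have hv' : v = (v 0).val • Pi.single 0 (1 : ZMod n) + (v 1).val • Pi.single 1 1 := by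
    funext i
    rw [Pi.add_apply, Pi.smul_apply, Pi.smul_apply, nsmul_eq_mul, nsmul_eq_mul,
      ZMod.natCast_zmod_val, ZMod.natCast_zmod_val]
    fin_cases i <;> simp
  rw [show P = (b v).1 by rw [hv], hv', map_add, map_nsmul, map_nsmul]
  exact add_mem (nsmul_mem (hord 0) _) (nsmul_mem (hord 1) _)

end FA.SerreCurve

end
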