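import Fermat.Agent.Root.SummaryTateModules
import Fermat.Agent.SerreCurve.IndexTwo
import Mathlib.Algebra.DirectSum.Module

/-!
# Curves without isogenies are alone in their class

A nonzero Galois stable finite subgroup of the `p`-power torsion of a curve without stable lines
contains all of `E[p]`, so an equivariant surjection with finite kernel between points of `p`-power
order can be divided by `p` until it is an isomorphism. The torsion is the direct sum of these
parts, so the isomorphisms give one of all torsion.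
-/

set_option autoImplicit false
set_option linter.style.haveILetI false

noncomputable section

open WeierstrassCurve WeierstrassCurve.Affine DirectSum
open scoped WeierstrassCurve.Affine

local notation "Qb" => AlgebraicClosure ℚ
local notation "GQ" => AlgebraicClosure ℚ ≃ₐ[ℚ] AlgebraicClosure ℚ

namespace FA.SerreCurve

/-- The points of `p`-power order. -/
abbrev Prim (E : WeierstrassCurve ℚ) (p : ℕ) :=
  AddCommGroup.primaryComponent (E.toAffine⁄Qb).Point p

/-- No line in the `p`-torsion is stable under Galois, for any prime `p`. -/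
def NoStableLine (E : WeierstrassCurve ℚ) : Prop :=
  ∀ p : ℕ, p.Prime → ∀ a : (E.toAffine⁄Qb).Point, a ≠ 0 → p • a = 0 →
    ∃ σ : GQ, ∀ k : ℕ, Affine.Point.map (W' := E.toAffine) σ.toAlgHom a ≠ k • a

/-- A map commuting with Galois. -/
def Equivariant {E E' : WeierstrassCurve ℚ} {p : ℕ} (f : Prim E p →+ Prim E' p) : Prop :=
  ∀ (σ : GQ) P Q, Affine.Point.map σ.toAlgHom P.1 = Q.1 →
    Affine.Point.map σ.toAlgHom (f P).1 = (f Q).1

theorem map_mem_prim {E : WeierstrassCurve ℚ} {p : ℕ} (σ : GQ) (P : Prim E p) :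
    Affine.Point.map (W' := E.toAffine) σ.toAlgHom P.1 ∈ Prim E p := by
  obtain ⟨k, hk⟩ := AddCommGroup.mem_primaryComponent.mp P.2
  exact AddCommGroup.mem_primaryComponent.mpr ⟨k, by rw [← map_nsmul, hk, map_zero]⟩

variable {E E' : WeierstrassCurve ℚ} [E.IsElliptic]

/-- **A nonzero stable kernel contains all of `E[p]`.** -/
theorem torsion_le_ker (h : NoStableLine E) {p : ℕ} (hp : p.Prime) {f : Prim E p →+ Prim E' p}
    (hf : Equivariant f) (hne : f.ker ≠ ⊥) (x : Prim E p) (hx : p • x = 0) : f x = 0 := by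
  obtain ⟨b, hb, hb0⟩ : ∃ b ∈ f.ker, b ≠ 0 := by
    by_contra hc
    push Not at hc
    exact hne ((AddSubgroup.eq_bot_iff_forall _).mpr hc)
  obtain ⟨a, ha, ha0, hpa⟩ : ∃ a ∈ f.ker, a ≠ 0 ∧ p • a = 0 := by
    classical
    have hex : ∃ k, p ^ k • b = 0 := by
      obtain ⟨k, hk⟩ := AddCommGroup.mem_primaryComponent.mp b.2
      exact ⟨k, Subtype.ext hk⟩
    obtain ⟨m, hm⟩ : ∃ m, Nat.find hex = m + 1 := Nat.exists_eq_succ_of_ne_zero fun h0 => hb0 (by
      have := Nat.find_spec hex
      rwa [h0, pow_zero, one_nsmul] at this)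
    refine ⟨p ^ m • b, nsmul_mem hb _, Nat.find_min hex (by omega), ?_⟩
    rw [← mul_nsmul', ← pow_succ', ← hm]
    exact Nat.find_spec hex
  obtain ⟨σ, hσ⟩ := h p hp a.1 (fun e => ha0 (Subtype.ext e)) (by
    rw [← AddSubgroup.coe_nsmul, hpa, ZeroMemClass.coe_zero])
  have hσa : f ⟨_, map_mem_prim σ a⟩ = 0 := by
    refine Subtype.ext ((hf σ a ⟨_, map_mem_prim σ a⟩ rfl).symm.trans ?_)
    rw [AddMonoidHom.mem_ker.mp ha, ZeroMemClass.coe_zero, map_zero]
  haveI := Fact.mk hp
  have hT : ∀ {y : (E.toAffine⁄Qb).Point},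
      y ∈ Submodule.torsionBy ℤ (E.toAffine⁄Qb).Point (p : ℤ) ↔ p • y = 0 := fun {y} => by
    rw [Submodule.mem_torsionBy_iff, natCast_zsmul]
  obtain ⟨H, hH⟩ : ∃ H : AddSubgroup (Submodule.torsionBy ℤ (E.toAffine⁄Qb).Point (p : ℤ)),
      ∀ y, y ∈ H ↔ ∃ hy : y.1 ∈ Prim E p, f ⟨y.1, hy⟩ = 0 := ⟨
    { carrier := {y | ∃ hy : y.1 ∈ Prim E p, f ⟨y.1, hy⟩ = 0}
      zero_mem' := ⟨zero_mem _, map_zero f⟩
      add_mem' := fun {y z} ⟨hy, ey⟩ ⟨hz, ez⟩ => ⟨add_mem hy hz, by
        rw [show (⟨(y + z).1, add_mem hy hz⟩ : Prim E p) = ⟨y.1, hy⟩ + ⟨z.1, hz⟩ from rfl, map_add,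
          ey, ez, add_zero]⟩
      neg_mem' := fun {y} ⟨hy, ey⟩ => ⟨neg_mem hy, by
        rw [show (⟨(-y).1, neg_mem hy⟩ : Prim E p) = -⟨y.1, hy⟩ from rfl, map_neg, ey, neg_zero]⟩ },
    fun _ => Iff.rfl⟩
  have hamem : a.1 ∈ Submodule.torsionBy ℤ (E.toAffine⁄Qb).Point (p : ℤ) := hT.mpr (by
    rw [← AddSubgroup.coe_nsmul, hpa, ZeroMemClass.coe_zero])
  have hle : AddSubgroup.zmultiples (⟨a.1, hamem⟩ :
      Submodule.torsionBy ℤ (E.toAffine⁄Qb).Point (p : ℤ)) < H := by
    refine lt_of_le_of_ne (AddSubgroup.zmultiples_le.mpr ((hH _).mpr ⟨a.2, ha⟩)) fun heq => ?_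
    have hmem : (⟨Affine.Point.map (W' := E.toAffine) σ.toAlgHom a.1, hT.mpr (by
        rw [← map_nsmul, hT.mp hamem, map_zero])⟩ :
        Submodule.torsionBy ℤ (E.toAffine⁄Qb).Point (p : ℤ)) ∈ H :=
      (hH _).mpr ⟨map_mem_prim σ a, hσa⟩
    rw [← heq] at hmem
    obtain ⟨i, hi⟩ := AddSubgroup.mem_zmultiples_iff.mp hmem
    refine hσ (i % (p : ℤ)).toNat (((congrArg Subtype.val hi).symm :).trans ?_)
    show i • a.1 = _
    conv_lhs => rw [← Int.emod_add_mul_ediv i p, add_zsmul, mul_comm (p : ℤ), mul_zsmul, natCast_zsmul,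
      hT.mp hamem, zsmul_zero, add_zero,
      ← Int.toNat_of_nonneg (Int.emod_nonneg i (Int.natCast_ne_zero.mpr hp.ne_zero)), natCast_zsmul]
  haveI := FA.EC.finite_torsion E hp.ne_zero
  have hcard : Nat.card H = p ^ 2 := by
    have hdvd := (AddSubgroup.card_addSubgroup_dvd_card H).trans
      (dvd_of_eq (FA.EC.natCard_torsion E hp.ne_zero))
    obtain ⟨i, hi, e⟩ := (Nat.dvd_prime_pow hp).mp hdvd
    have hz : Nat.card (AddSubgroup.zmultiples (⟨a.1, hamem⟩ :
        Submodule.torsionBy ℤ (E.toAffine⁄Qb).Point (p : ℤ))) = p := by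
      rw [Nat.card_zmultiples]
      exact addOrderOf_eq_prime (Subtype.ext (hT.mp hamem))
        fun e0 => ha0 (Subtype.ext (congrArg Subtype.val e0 :))
    have hlt : p < p ^ i := by
      rw [← e]
      haveI : Finite H := Finite.of_injective (fun y => y.1) Subtype.val_injective
      refine lt_of_le_of_ne ?_ fun e0 => hle.ne ?_
      · conv_lhs => rw [← hz]
        exact Nat.card_le_card_of_injective _ (AddSubgroup.inclusion_injective hle.le)
      exact AddSubgroup.eq_of_le_of_card_ge hle.le (by rw [← e0, hz])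
    obtain rfl : i = 2 := le_antisymm hi (by
      by_contra hc
      have := Nat.pow_le_pow_right hp.pos (show i ≤ 1 by omega)
      rw [pow_one] at this
      omega)
    exact e
  have htop : H = ⊤ := AddSubgroup.eq_top_of_card_eq H
    (hcard.trans (FA.EC.natCard_torsion E hp.ne_zero).symm)
  obtain ⟨hy, e⟩ := (hH ⟨x.1, hT.mpr (by
    rw [← AddSubgroup.coe_nsmul, hx, ZeroMemClass.coe_zero])⟩).mp (by
      rw [htop]; exact AddSubgroup.mem_top _)
  exact e

/-- **Dividing by `p` until injective.** -/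
theorem exists_bijective (h : NoStableLine E) {p : ℕ} (hp : p.Prime) :
    ∀ (n : ℕ) (f : Prim E p →+ Prim E' p), Nat.card f.ker ≤ n → Function.Surjective f →
      Finite f.ker → Equivariant f →
      ∃ g : Prim E p →+ Prim E' p, Function.Bijective g ∧ Equivariant g := by
  intro n
  induction n with
  | zero => exact fun f hn _ _ _ => absurd hn (Nat.not_le.mpr Nat.card_pos)
  | succ n ih =>
    intro f hn hsurj hfin hf
    by_cases hker : f.ker = ⊥
    · exact ⟨f, ⟨(AddMonoidHom.ker_eq_bot_iff f).mp hker, hsurj⟩, hf⟩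
    choose r hr using fun x : Prim E p => FA.TateModules.exists_divisible E hp 1 x
    simp only [pow_one] at hr
    have key : ∀ {x y : Prim E p}, p • y = x → f (r x) = f y := fun {x y} e => by
      rw [← sub_eq_zero, ← map_sub]
      exact torsion_le_ker h hp hf hker _ (by rw [smul_sub, hr, e, sub_self])
    let f' : Prim E p →+ Prim E' p := AddMonoidHom.mk' (fun x => f (r x)) fun x y => by
      rw [key (y := r x + r y) (by rw [nsmul_add, hr, hr]), map_add]
    have hf' : Equivariant f' := fun σ P Q e => by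
      show Affine.Point.map σ.toAlgHom (f (r P)).1 = (f (r Q)).1
      rw [hf σ (r P) ⟨_, map_mem_prim σ (r P)⟩ rfl]
      refine congrArg Subtype.val (key (Subtype.ext ?_)).symm
      show p • Affine.Point.map σ.toAlgHom (r P).1 = Q.1
      rw [← map_nsmul, ← AddSubgroup.coe_nsmul, hr, e]
    let φ : f.ker → f'.ker := fun y => ⟨p • y.1, by
      rw [AddMonoidHom.mem_ker]
      exact (key rfl).trans (AddMonoidHom.mem_ker.mp y.2)⟩
    have hφs : Function.Surjective φ := fun x =>
      ⟨⟨r x.1, AddMonoidHom.mem_ker.mp x.2⟩, Subtype.ext (hr x.1)⟩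
    have hφi : ¬ Function.Injective φ := fun hi => hker ((AddSubgroup.eq_bot_iff_forall _).mpr
      fun b hb => by
        by_contra hb0
        classical
        have hex : ∃ k, p ^ k • b = 0 := by
          obtain ⟨k, hk⟩ := AddCommGroup.mem_primaryComponent.mp b.2
          exact ⟨k, Subtype.ext hk⟩
        obtain ⟨m, hm⟩ : ∃ m, Nat.find hex = m + 1 := Nat.exists_eq_succ_of_ne_zero fun h0 => hb0 (by
          have := Nat.find_spec hex
          rwa [h0, pow_zero, one_nsmul] at this)
        have e := @hi ⟨p ^ m • b, nsmul_mem hb _⟩ ⟨0, zero_mem _⟩ (Subtype.ext (by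
          show p • p ^ m • b = p • 0
          rw [nsmul_zero, ← mul_nsmul', ← pow_succ', ← hm]
          exact Nat.find_spec hex))
        exact Nat.find_min hex (by omega) (congrArg Subtype.val e))
    haveI : Finite f'.ker := Finite.of_surjective φ hφs
    have hle : Nat.card f'.ker < Nat.card f.ker := lt_of_le_of_ne
      (Nat.card_le_card_of_surjective φ hφs) fun e =>
        hφi ((Nat.bijective_iff_surjective_and_card φ).mpr ⟨hφs, e.symm⟩).1
    refine ih f' (by omega) (fun z => ?_) inferInstance hf'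
    obtain ⟨y, rfl⟩ := hsurj z
    exact ⟨p • y, key rfl⟩

/-- The sum of the points of prime power orders. -/
def primSum (E : WeierstrassCurve ℚ) :
    (⨁ p : Nat.Primes, Prim E p.1) →+ (E.toAffine⁄Qb).Point :=
  DirectSum.toAddMonoid fun p : Nat.Primes => (Prim E p.1).subtype

theorem primSum_of (E : WeierstrassCurve ℚ) (p : Nat.Primes) (x : Prim E p.1) :
    primSum E (DirectSum.of (fun p : Nat.Primes => Prim E p.1) p x) = x.1 := by
  rw [primSum, DirectSum.toAddMonoid_of]
  rfl

omit [E.IsElliptic] in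
theorem primSum_mem (v : ⨁ p : Nat.Primes, Prim E p.1) :
    primSum E v ∈ AddCommGroup.torsion (E.toAffine⁄Qb).Point := by
  classical
  induction v using DirectSum.induction_on with
  | zero => rw [map_zero]; exact zero_mem _
  | of p x =>
    rw [primSum_of]
    obtain ⟨k, hk⟩ := AddCommGroup.mem_primaryComponent.mp x.2
    exact isOfFinAddOrder_iff_nsmul_eq_zero.mpr ⟨_, pow_pos p.2.pos k, hk⟩
  | add v w hv hw => rw [map_add]; exact add_mem hv hw

omit [E.IsElliptic] in
theorem exists_primSum_eq {x : (E.toAffine⁄Qb).Point}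
    (hx : x ∈ AddCommGroup.torsion (E.toAffine⁄Qb).Point) : ∃ v, primSum E v = x := by
  obtain ⟨n, hn, hnx⟩ := isOfFinAddOrder_iff_nsmul_eq_zero.mp hx
  clear hx
  revert x
  induction n using Nat.recOnPosPrimePosCoprime with
  | prime_pow p k hp _ =>
    intro x hnx
    let q : Nat.Primes := ⟨p, hp⟩
    let y : Prim E q.1 := ⟨x, AddCommGroup.mem_primaryComponent.mpr ⟨k, hnx⟩⟩
    exact ⟨DirectSum.of (fun p : Nat.Primes => Prim E p.1) q y, primSum_of E q y⟩
  | zero => exact absurd hn (lt_irrefl 0)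
  | one => intro x hnx; exact ⟨0, by rw [map_zero]; rw [one_nsmul] at hnx; exact hnx.symm⟩
  | coprime a b ha hb hab iha ihb =>
    intro x hnx
    obtain ⟨u, v, huv⟩ := Int.isCoprime_iff_nat_coprime.mpr (by simpa using hab :
      (a : ℤ).natAbs.Coprime (b : ℤ).natAbs)
    obtain ⟨va, hva⟩ := iha (by omega) (x := b • x) (by rw [← mul_nsmul', hnx])
    obtain ⟨vb, hvb⟩ := ihb (by omega) (x := a • x) (by rw [← mul_nsmul', mul_comm, hnx])
    refine ⟨u • vb + v • va, ?_⟩
    rw [map_add, map_zsmul, map_zsmul, hva, hvb, ← natCast_zsmul x, ← natCast_zsmul x,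
      ← mul_zsmul, ← mul_zsmul, ← add_zsmul, huv, one_zsmul]

omit [E.IsElliptic] in
theorem primSum_injective : Function.Injective (primSum E) := by
  classical
  refine (injective_iff_map_eq_zero _).mpr fun v hv => ?_
  choose k hk using fun p : Nat.Primes => AddCommGroup.mem_primaryComponent.mp (v p).2
  refine DFinsupp.ext fun p => ?_
  by_cases hp : p ∈ DFinsupp.support v
  swap
  · exact DFinsupp.notMem_support_iff.mp hp
  set s := DFinsupp.support v
  set m := ∏ q ∈ s.erase p, q.1 ^ k q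
  have hsum : ∑ q ∈ s, (v q).1 = 0 := by
    rw [← hv]
    conv_rhs => rw [← DirectSum.sum_support_of v, map_sum]
    exact Finset.sum_congr rfl fun q _ => (primSum_of E q _).symm
  have hzero : ∀ q ∈ s.erase p, m • (v q).1 = 0 := fun q hq => by
    obtain ⟨c, hc⟩ := Finset.dvd_prod_of_mem (fun q : Nat.Primes => q.1 ^ k q) hq
    rw [show m = q.1 ^ k q * c from hc, mul_comm, mul_nsmul', hk q, nsmul_zero]
  have hmp : m • (v p).1 = 0 := by
    have h := congrArg (m • ·) hsum
    simp only [Finset.smul_sum, nsmul_zero] at h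
    rwa [← Finset.add_sum_erase _ _ hp, Finset.sum_eq_zero hzero, add_zero] at h
  have hco : m.Coprime (p.1 ^ k p) := Nat.Coprime.prod_left fun q hq =>
    ((Nat.coprime_primes q.2 p.2).mpr fun e => (Finset.mem_erase.mp hq).1 (Subtype.ext e)).pow _ _
  refine Subtype.ext (AddMonoid.addOrderOf_eq_one_iff.mp ?_)
  exact Nat.eq_one_of_dvd_coprimes hco (addOrderOf_dvd_of_nsmul_eq_zero hmp)
    (addOrderOf_dvd_of_nsmul_eq_zero (hk p))

omit [E.IsElliptic] in
/-- **Equivariant isomorphisms of the parts of prime power order give one of all torsion.** -/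
theorem exists_torsion_equiv
    (h : ∀ p : ℕ, p.Prime → ∃ g : Prim E p →+ Prim E' p, Function.Bijective g ∧ Equivariant g) :
    ∃ e : AddCommGroup.torsion (E.toAffine⁄Qb).Point ≃+ AddCommGroup.torsion (E'.toAffine⁄Qb).Point,
      ∀ (σ : GQ) P Q, Affine.Point.map σ.toAlgHom P.1 = Q.1 →
        Affine.Point.map σ.toAlgHom (e P).1 = (e Q).1 := by
  classical
  choose g hg hgσ using fun p : Nat.Primes => h p.1 p.2
  let T : ∀ F : WeierstrassCurve ℚ,
      (⨁ p : Nat.Primes, Prim F p.1) ≃+ AddCommGroup.torsion (F.toAffine⁄Qb).Point := fun F =>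
    AddEquiv.ofBijective ((primSum F).codRestrict _ fun v => primSum_mem (E := F) v)
      ⟨fun v w e => primSum_injective (E := F) (congrArg Subtype.val e), fun x => by
        obtain ⟨v, hv⟩ := exists_primSum_eq (E := F) x.2
        exact ⟨v, Subtype.ext hv⟩⟩
  let G : (⨁ p : Nat.Primes, Prim E p.1) ≃+ (⨁ p : Nat.Primes, Prim E' p.1) :=
    DFinsupp.mapRange.addEquiv fun p => AddEquiv.ofBijective (g p) (hg p)
  refine ⟨((T E).symm.trans G).trans (T E'), fun σ P Q hPQ => ?_⟩
  obtain ⟨v, rfl⟩ := (T E).surjective P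
  let S : (⨁ p : Nat.Primes, Prim E p.1) →+ (⨁ p : Nat.Primes, Prim E p.1) :=
    DFinsupp.mapRange.addMonoidHom fun p => AddMonoidHom.mk'
      (fun x => (⟨_, map_mem_prim σ x⟩ : Prim E p.1))
      fun x y => Subtype.ext (map_add (Affine.Point.map σ.toAlgHom) x.1 y.1)
  have hSof : ∀ p x, S (DirectSum.of _ p x) = DirectSum.of (fun p : Nat.Primes => Prim E p.1) p
      ⟨_, map_mem_prim σ x⟩ := fun p x => DFinsupp.mapRange_single (hf := fun i => map_zero _)
  have hQ : Q = T E (S v) := Subtype.ext (hPQ.symm.trans (DFunLike.congr_fun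
    (DirectSum.addHom_ext (f := (Affine.Point.map (W' := E.toAffine) σ.toAlgHom).comp (primSum E))
      (g := (primSum E).comp S) fun p x => by
      rw [AddMonoidHom.comp_apply, AddMonoidHom.comp_apply, hSof, primSum_of, primSum_of]) v :))
  subst hQ
  simp only [AddEquiv.trans_apply, AddEquiv.symm_apply_apply]
  have hGof : ∀ p x, G (DirectSum.of _ p x) = DirectSum.of (fun p : Nat.Primes => Prim E' p.1) p
      (g p x) := fun p x => DFinsupp.mapRange_single (hf := fun i => map_zero _)
  exact (DFunLike.congr_fun (DirectSum.addHom_ext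
    (f := (Affine.Point.map (W' := E'.toAffine) σ.toAlgHom).comp ((primSum E').comp G.toAddMonoidHom))
    (g := ((primSum E').comp G.toAddMonoidHom).comp S) fun p x => by
    simp only [AddMonoidHom.comp_apply, AddEquiv.coe_toAddMonoidHom, hSof, hGof, primSum_of]
    exact hgσ p σ x ⟨_, map_mem_prim σ x⟩ rfl) v :)

end FA.SerreCurve

end
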