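import Fermat.Agent.SerreCurve.Lifting
import Fermat.Agent.SerreCurve.Character

/-!
# The image at `2` is decided at `4`

A group of matrices over `ℤ_2` which is everything modulo `4` contains, by squaring, all `1 + 4 X`
with `X` of even trace modulo `8`. An element fixing `√Δ` whose cyclotomic character is `5` modulo
`8` gives the last dimension; it exists unless `2 Δ` or `-2 Δ` is a square.
-/

set_option autoImplicit false
set_option linter.style.haveILetI false
set_option linter.unusedSectionVars false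

noncomputable section

open Matrix WeierstrassCurve WeierstrassCurve.Affine FA.EC FA.Frob FA.RT
open FA.RT.Tate (Pts)
open FA.Two (deltaRoot)
open FA.JTorsion (cycP)
open FA.PadicImage (Reach Tangent ReachAll)
open scoped WeierstrassCurve.Affine

local notation "Qb" => AlgebraicClosure ℚ
local notation "GQ" => AlgebraicClosure ℚ ≃ₐ[ℚ] AlgebraicClosure ℚ

namespace FA.SerreCurve

theorem zmod_two_cases : ∀ x : ZMod (2 ^ 1), x = 0 ∨ x = 1 := by decide

theorem five_unit_two : (5 : ZMod 2) ≠ 0 := by decide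

theorem unit_sq_mod_eight : ∀ x y : ZMod (2 ^ 3), x * y = 1 → x * x = 1 := by decide

theorem five_cube : (5 : ZMod (2 ^ 3)) * 5 * 5 = 5 := by decide

theorem five_ne_one : (5 : ZMod (2 ^ 3)) ≠ 1 := by decide

variable [hp : Fact (Nat.Prime 2)]

local notation "M2" => Matrix (Fin 2) (Fin 2) ℤ_[2]

theorem exists_of_toZModPow {n : ℕ} {a b : ℤ_[2]}
    (h : PadicInt.toZModPow n a = PadicInt.toZModPow n b) : ∃ c, a = b + 2 ^ n * c := by
  have h' : a - b ∈ Ideal.span {((2 : ℕ) : ℤ_[2]) ^ n} := by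
    rw [← PadicInt.ker_toZModPow, RingHom.mem_ker, map_sub, h, sub_self]
  obtain ⟨c, hc⟩ := Ideal.mem_span_singleton.mp h'
  exact ⟨c, by rw [Nat.cast_ofNat] at hc; linear_combination hc⟩

theorem two_dvd_or_two_dvd_sub_one (a : ℤ_[2]) : (2 : ℤ_[2]) ∣ a ∨ (2 : ℤ_[2]) ∣ a - 1 := by
  rcases zmod_two_cases (PadicInt.toZModPow 1 a) with h | h
  · obtain ⟨c, hc⟩ := exists_of_toZModPow (b := 0) (h.trans (map_zero _).symm)
    exact Or.inl ⟨c, by linear_combination hc⟩
  · obtain ⟨c, hc⟩ := exists_of_toZModPow (b := 1) (h.trans (map_one _).symm)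
    exact Or.inr ⟨c, by linear_combination hc⟩

variable {G : Type*} [Group G] (r : G →* M2)

/-- An element `1 + 2 Z` modulo `4` of determinant one modulo `8`. -/
def DoubleTangent (Z : M2) : Prop :=
  ∃ g Y, r g = 1 + (2 : ℤ_[2]) • Z + (4 : ℤ_[2]) • Y ∧ PadicInt.toZModPow 3 (r g).det = 1

theorem DoubleTangent.add {Z Z' : M2} (h : DoubleTangent r Z) (h' : DoubleTangent r Z') :
    DoubleTangent r (Z + Z') := by
  obtain ⟨g, Y, hg, hd⟩ := h
  obtain ⟨g', Y', hg', hd'⟩ := h'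
  refine ⟨g * g', Y + Y' + Z * Z' + (2 : ℤ_[2]) • (Z * Y' + Y * Z') + (4 : ℤ_[2]) • (Y * Y'),
    ?_, ?_⟩
  · rw [map_mul, hg, hg']
    simp only [mul_add, add_mul, mul_one, one_mul, smul_mul_assoc, Algebra.mul_smul_comm,
      smul_smul, smul_add]
    module
  · rw [map_mul, det_mul, map_mul, hd, hd', one_mul]

theorem DoubleTangent.congr {Z : M2} (h : DoubleTangent r Z) (K : M2) :
    DoubleTangent r (Z + (2 : ℤ_[2]) • K) := by
  obtain ⟨g, Y, hg, hd⟩ := h
  exact ⟨g, Y - K, by rw [hg]; module, hd⟩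

/-- A matrix of even trace is, modulo `2`, a sum of three matrices of square zero. -/
theorem exists_nilpotent_decomp {Z : M2} (hZ : (2 : ℤ_[2]) ∣ Z 0 0 + Z 1 1) :
    ∃ A B C K : M2, A * A = 0 ∧ B * B = 0 ∧ C * C = 0 ∧ Z = A + B + C + (2 : ℤ_[2]) • K := by
  obtain ⟨k, hk⟩ := hZ
  refine ⟨Z 0 0 • !![1, 1; -1, -1], !![0, Z 0 1 - Z 0 0; 0, 0], !![0, 0; Z 1 0 + Z 0 0, 0],
    !![0, 0; 0, k], ?_, ?_, ?_, ?_⟩
  all_goals ext i j; fin_cases i <;> fin_cases j
  all_goals simp [Matrix.mul_apply, Fin.sum_univ_two]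
  all_goals linear_combination hk

variable (h4 : ∀ M : M2, IsUnit M.det → Reach r 2 M)

include h4

/-- Squares give every `1 + 2 Z` modulo `4`, `Z` of square zero. -/
theorem doubleTangent_of_sq_zero {X : M2} (hX : X * X = 0) : DoubleTangent r X := by
  have hu : IsUnit (1 + X).det := IsUnit.of_mul_eq_one (1 - X).det (by
    rw [← det_mul, add_mul, one_mul, mul_sub, mul_one, hX, sub_zero, sub_add_cancel, det_one])
  obtain ⟨g, Y, hg⟩ := h4 (1 + X) hu
  refine ⟨g * g, (2 : ℤ_[2]) • Y + X * Y + Y * X + (4 : ℤ_[2]) • (Y * Y), ?_, ?_⟩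
  · rw [map_mul, hg]
    simp only [mul_add, add_mul, mul_one, one_mul, smul_mul_assoc, Algebra.mul_smul_comm,
      smul_smul, smul_add, hX, Nat.cast_ofNat]
    module
  · have h1 : (r g).det * (r g⁻¹).det = 1 := by
      rw [← det_mul, ← map_mul, mul_inv_cancel, map_one, det_one]
    rw [map_mul, det_mul, map_mul]
    exact unit_sq_mod_eight _ (PadicInt.toZModPow 3 (r g⁻¹).det) (by rw [← map_mul, h1, map_one])

theorem doubleTangent_of_trace {Z : M2} (hZ : (2 : ℤ_[2]) ∣ Z 0 0 + Z 1 1) : DoubleTangent r Z := by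
  obtain ⟨A, B, C, K, hA, hB, hC, rfl⟩ := exists_nilpotent_decomp hZ
  exact (((doubleTangent_of_sq_zero r h4 hA).add r (doubleTangent_of_sq_zero r h4 hB)).add r
    (doubleTangent_of_sq_zero r h4 hC)).congr r K

/-- Squares give every `1 + 4 X` modulo `8`, `X` of even trace. -/
theorem tangent_of_trace {X : M2} (hX : (2 : ℤ_[2]) ∣ X 0 0 + X 1 1) : Tangent r 2 X := by
  have sq : ∀ A : M2, A * A = 0 → Tangent r 2 A := fun A hA => by
    obtain ⟨g, Y, hg, -⟩ := doubleTangent_of_sq_zero r h4 hA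
    refine ⟨g * g, Y + A * Y + Y * A + (2 : ℤ_[2]) • (Y * Y), ?_⟩
    rw [map_mul, hg]
    simp only [mul_add, add_mul, mul_one, one_mul, smul_mul_assoc, Algebra.mul_smul_comm,
      smul_smul, smul_add, hA, Nat.cast_ofNat]
    module
  obtain ⟨A, B, C, K, hA, hB, hC, rfl⟩ := exists_nilpotent_decomp hX
  simpa only [Nat.cast_ofNat] using
    (((sq A hA).add one_le_two (sq B hB)).add one_le_two (sq C hC)).congr K

/-- **From `4` to `8`**: one more element suffices. -/
theorem reach_three_of_two {σ : G} {Z : M2} (hσ : r σ = 1 + (2 : ℤ_[2]) • Z)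
    (hdet : PadicInt.toZModPow 3 (r σ).det = 5) {M : M2} (hM : IsUnit M.det) : Reach r 3 M := by
  have hdetσ : (r σ).det = 1 + 2 * (Z 0 0 + Z 1 1) + 4 * (Z 0 0 * Z 1 1 - Z 0 1 * Z 1 0) := by
    rw [hσ, det_fin_two]
    simp only [Matrix.add_apply, Matrix.smul_apply, smul_eq_mul]
    simp
    ring
  obtain ⟨c, hc⟩ := exists_of_toZModPow (b := (5 : ℤ_[2])) (hdet.trans (map_ofNat _ 5).symm)
  obtain ⟨h, Y, hh, hhd⟩ := doubleTangent_of_trace r h4 (Z := Z)
    ⟨1 + 2 * c - (Z 0 0 * Z 1 1 - Z 0 1 * Z 1 0),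
      mul_left_cancel₀ (two_ne_zero (α := ℤ_[2])) (by linear_combination hc - hdetσ)⟩
  set R := r h⁻¹ with hR
  have hhR : r h * R = 1 := by rw [hR, ← map_mul, mul_inv_cancel, map_one]
  have hX : r (σ * h⁻¹) = 1 + (4 : ℤ_[2]) • -(Y * R) := by
    rw [map_mul, show r σ = r h - (4 : ℤ_[2]) • Y by rw [hσ, hh]; abel, ← hR, sub_mul, hhR,
      smul_mul_assoc, smul_neg, sub_eq_add_neg]
  set X₀ := -(Y * R)
  have hodd : ¬ (2 : ℤ_[2]) ∣ X₀ 0 0 + X₀ 1 1 := fun ⟨k, hk⟩ => by
    have h1 : PadicInt.toZModPow 3 (r (σ * h⁻¹)).det = 5 := by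
      have e : PadicInt.toZModPow 3 (r h⁻¹).det = 1 := by
        have : PadicInt.toZModPow 3 ((r h).det * (r h⁻¹).det) = 1 := by
          rw [← det_mul, ← hR, hhR, det_one, map_one]
        rwa [map_mul, hhd, one_mul] at this
      rw [map_mul, det_mul, map_mul, hdet, e, mul_one]
    have h2 : (r (σ * h⁻¹)).det =
        1 + 8 * (k + 2 * (X₀ 0 0 * X₀ 1 1 - X₀ 0 1 * X₀ 1 0)) := by
      rw [hX, det_fin_two]
      simp only [Matrix.add_apply, Matrix.smul_apply, smul_eq_mul]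
      simp
      linear_combination 4 * hk
    rw [h2, map_add, map_one, map_mul, map_ofNat] at h1
    exact absurd (h1.symm.trans (by rw [show (8 : ZMod (2 ^ 3)) = 0 from rfl, zero_mul, add_zero]))
      five_ne_one
  have htan₀ : Tangent r 2 X₀ := ⟨σ * h⁻¹, 0, by rw [hX]; simp; norm_num⟩
  have htan : ∀ X : M2, Tangent r 2 X := fun X => by
    rcases two_dvd_or_two_dvd_sub_one (X 0 0 + X 1 1) with e | e
    · exact tangent_of_trace r h4 e
    · have e' := (two_dvd_or_two_dvd_sub_one (X₀ 0 0 + X₀ 1 1)).resolve_left hodd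
      simpa using (tangent_of_trace r h4 (X := X - X₀) (by
        obtain ⟨a, ha⟩ := e; obtain ⟨b, hb⟩ := e'
        exact ⟨a - b, by simp only [Matrix.sub_apply]; linear_combination ha - hb⟩)).add
          one_le_two htan₀
  obtain ⟨g, Y', hg⟩ := h4 M hM
  obtain ⟨q, W', hq⟩ := htan (-(r g⁻¹ * Y'))
  have hgg : r g * r g⁻¹ = 1 := by rw [← map_mul, mul_inv_cancel, map_one]
  refine ⟨g * q, r g * W', ?_⟩
  rw [map_mul, hq, mul_add, mul_add, mul_one, Algebra.mul_smul_comm, Algebra.mul_smul_comm,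
    mul_neg, ← mul_assoc, hgg, one_mul, smul_neg, hg, add_neg_cancel_right]

omit h4

variable {W : WeierstrassCurve ℤ} [(ratCurve W).IsElliptic]

/-- The determinant modulo `8`, from the eighth roots of unity. -/
theorem det_rep_eq_of_roots (B : FA.RT.Tate.TateBasis 2 W) {σ : GQ} {a : ℕ}
    (h : ∀ μ : Qb, μ ^ 8 = 1 → σ μ = μ ^ a) :
    PadicInt.toZModPow 3 (B.rep σ).det = (a : ZMod (2 ^ 3)) := by
  rw [B.det_rep]
  exact FA.RT.Tate.cycP_eq_natCast h

/-- An element with cyclotomic character `5` modulo `8` fixing `√Δ`. -/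
theorem exists_five_fixing (h2 : ¬ IsSquare (2 * (W.Δ : ℚ)))
    (h2' : ¬ IsSquare (-2 * (W.Δ : ℚ))) :
    ∃ σ : GQ, (∀ μ : Qb, μ ^ 8 = 1 → σ μ = μ ^ 5) ∧ σ (deltaRoot W) = deltaRoot W := by
  obtain ⟨τ, hτ⟩ := exists_pow_roots (M := 8) (by norm_num) (a := 5) (by norm_num)
  rcases apply_deltaRoot_cases (W := W) τ with h | h
  · exact ⟨τ, hτ, h⟩
  by_cases hlev : IsLevel (deltaRoot W) 8
  swap
  · simp only [IsLevel, not_forall] at hlev
    obtain ⟨ρ, hρ, hmove⟩ := hlev
    refine ⟨τ * ρ, fun μ hμ => by rw [AlgEquiv.mul_apply, hρ μ hμ, hτ μ hμ], ?_⟩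
    rw [AlgEquiv.mul_apply, (apply_deltaRoot_cases (W := W) ρ).resolve_left hmove, map_neg, h,
      neg_neg]
  exfalso
  obtain ⟨c, d, hd, hcd, hiff⟩ := exists_discriminant_part W
  have hnot : ¬ (if d % 4 = 1 then d.natAbs else 4 * d.natAbs) ∣ 4 := fun hdiv => by
    have h' := (hiff 4 four_ne_zero).mpr hdiv τ fun μ hμ => by
      rw [hτ μ (by rw [show 8 = 4 * 2 from rfl, pow_mul, hμ, one_pow]), pow_succ, hμ, one_mul]
    rw [h] at h'
    exact neg_ne_self.mpr deltaRoot_ne_zero h'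
  have hdvd := (hiff 8 (by norm_num)).mp hlev
  split_ifs at hdvd hnot with hd4
  · rcases squarefree_dvd_prime_pow (p := 2) (n := 3) Nat.prime_two (Int.squarefree_natAbs.mpr hd)
      hdvd with e | e <;> rw [e] at hnot <;> norm_num at hnot
  · rcases squarefree_dvd_prime_pow (p := 2) (n := 1) Nat.prime_two (Int.squarefree_natAbs.mpr hd)
      (Nat.dvd_of_mul_dvd_mul_left (by norm_num : 0 < 4) hdvd) with e | e
    · rw [e] at hnot; norm_num at hnot
    · rcases Int.natAbs_eq d with hd' | hd' <;> rw [e] at hd' <;> subst hd'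
      · exact h2 ⟨2 * c, by rw [hcd]; push_cast; ring⟩
      · exact h2' ⟨2 * c, by rw [hcd]; push_cast; ring⟩

/-- **The image at `2` is decided at `4`**, unless `2 Δ` or `-2 Δ` is a square. -/
theorem fullAt_two_pow_of_four (hfull : FullAt W 4) (h2 : ¬ IsSquare (2 * (W.Δ : ℚ)))
    (h2' : ¬ IsSquare (-2 * (W.Δ : ℚ))) (n : ℕ) : FullAt W (2 ^ n) := by
  obtain ⟨σ, hσ, hfix⟩ := exists_five_fixing h2 h2'
  have hreach : ReachAll 2 W := fun B k M hM => by
    refine reach_all_small B.rep (Or.inl rfl) (fun N hN => ?_) k hM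
    have h4 : ∀ N : M2, IsUnit N.det → Reach B.rep 2 N := fun N hN =>
      reach_of_fullAt B (n := 2) hfull hN
    have hdet : (FA.RT.curveRep 2 W σ).det ≠ 0 := fun e => by
      have := congrArg Matrix.det (map_mul (FA.RT.curveRep 2 W) σ σ⁻¹)
      rw [mul_inv_cancel, map_one, det_one, det_mul, e, zero_mul] at this
      exact one_ne_zero this
    have hcube : FA.RT.curveRep 2 W (σ * σ * σ) = 1 := by
      rw [map_mul, map_mul]
      exact sgn_eq_zero_cube _ hdet ((sgn_eq_zero_iff σ).mpr hfix)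
    have hone := B.rep_congr_one (σ := σ * σ * σ) (n := 1) fun x hx =>
      congrArg Subtype.val ((curveRep_eq_one_iff W _).mp hcube
        ⟨x, by rw [Submodule.mem_torsionBy_iff, natCast_zsmul]; simpa using hx⟩)
    choose Z hZ using fun i j => exists_of_toZModPow (n := 1) (a := B.rep (σ * σ * σ) i j)
      (b := (1 : M2) i j) (by
        rw [show PadicInt.toZModPow 1 (B.rep (σ * σ * σ) i j) =
          ((B.rep (σ * σ * σ)).map (PadicInt.toZModPow 1)) i j from rfl, hone]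
        rcases eq_or_ne i j with rfl | hij
        · simp
        · simp [hij])
    refine reach_three_of_two B.rep h4 (σ := σ * σ * σ) (Z := Matrix.of Z)
      (Matrix.ext fun i j => by simpa using hZ i j) ?_ hN
    rw [map_mul, map_mul, det_mul, det_mul, map_mul, map_mul, det_rep_eq_of_roots B hσ]
    simpa using five_cube
  unfold FullAt
  rw [Nat.cast_pow]
  exact FA.PadicImage.exists_smul_eq_pow_of_reach hreach n

/-- With everything on `E[8]` neither `2 Δ` nor `-2 Δ` is a square. -/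
theorem not_isSquare_of_fullAt_eight (hfull : FullAt W 8) :
    ¬ IsSquare (2 * (W.Δ : ℚ)) ∧ ¬ IsSquare (-2 * (W.Δ : ℚ)) := by
  obtain ⟨B⟩ := FA.RT.Tate.exists_tateBasis (p := 2) (W := W)
  obtain ⟨σ, Y, hσ⟩ := reach_of_fullAt B (n := 3) hfull (M := !![5, 0; 0, 1]) (by
    rw [det_fin_two, FA.PadicImage.isUnit_iff_toZMod]
    simpa [map_ofNat] using five_unit_two)
  have hfix : σ (deltaRoot W) = deltaRoot W := deltaRoot_of_fix_two fun x hx => by
    obtain ⟨v, rfl⟩ := B.surj 1 x (by simpa using hx)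
    rw [B.rep_spec, hσ]
    refine B.phi_eq_iff.mpr fun i => ?_
    rw [RingHom.map_mulVec]
    have hone : ((!![5, 0; 0, 1] : M2) + ((2 : ℕ) : ℤ_[2]) ^ 3 • Y).map
        (PadicInt.toZModPow 1) = (1 : Matrix (Fin 2) (Fin 2) (ZMod (2 ^ 1))) := by
      ext i j
      have e2 : (2 : ZMod (2 ^ 1)) = 0 := rfl
      fin_cases i <;> fin_cases j <;> simp [map_ofNat, e2] <;> rfl
    rw [hone, one_mulVec]
    rfl
  have hdet : PadicInt.toZModPow 3 (B.rep σ).det = 5 := by
    rw [hσ, det_fin_two]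
    have e8 : (2 : ZMod (2 ^ 3)) ^ 3 = 0 := rfl
    simp [map_ofNat, e8]
  obtain ⟨i, j, hi, hj, hi4, hj8, hsq⟩ := exists_eighth_root
  have hj0 : j ≠ 0 := fun e => by simp [e] at hj8
  have hj4 : j ^ 4 = -1 := by rw [show 4 = 2 * 2 from rfl, pow_mul, hj, hi]
  have hprim : IsPrimitiveRoot j 8 :=
    IsPrimitiveRoot.mk_of_lt j (by norm_num) hj8 fun l hl0 hl hlj => by
      have h8 : orderOf j ∣ 8 := orderOf_dvd_of_pow_eq_one hj8
      have hl' : orderOf j ∣ l := orderOf_dvd_of_pow_eq_one hlj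
      have h48 : ¬ orderOf j ∣ 4 := fun hd => by
        rw [orderOf_dvd_iff_pow_eq_one, hj4] at hd
        norm_num at hd
      have : orderOf j ≤ l := Nat.le_of_dvd hl0 hl'
      obtain ⟨k, hk, hke⟩ := (Nat.dvd_prime_pow Nat.prime_two).mp
        (show orderOf j ∣ 2 ^ 3 from h8)
      interval_cases k <;> rw [hke] at h48 this <;> omega
  obtain ⟨a, -, ha⟩ := hprim.eq_pow_of_pow_eq_one (ξ := σ j) (by rw [← map_pow, hj8, map_one])
  have hroots : ∀ μ : Qb, μ ^ 8 = 1 → σ μ = μ ^ a := fun μ hμ => by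
    obtain ⟨k, -, rfl⟩ := hprim.eq_pow_of_pow_eq_one hμ
    rw [map_pow, ← ha, ← pow_mul, ← pow_mul, mul_comm]
  have ha5 : a % 8 = 5 := by
    have h := (det_rep_eq_of_roots B hroots).symm.trans hdet
    have h' := congrArg ZMod.val h
    rwa [ZMod.val_natCast] at h'
  have hσj : σ j = -j := by
    rw [← ha, pow_eq_pow_mod a hj8, ha5, pow_succ, hj4, neg_one_mul]
  have hσi : σ i = i := by rw [← hj, map_pow, hσj, neg_sq]
  have hσs : σ (j + j⁻¹) = -(j + j⁻¹) := by rw [map_add, map_inv₀, hσj, inv_neg]; ring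
  have hδ := FA.Two.deltaRoot_sq W
  have key : ∀ (q : ℚ) (t : Qb), σ t = -t → (2 * deltaRoot W) ^ 2 = ((q : Qb) * t) ^ 2 → False :=
    fun q t ht he => by
      have hne : 2 * deltaRoot W ≠ 0 := mul_ne_zero two_ne_zero deltaRoot_ne_zero
      rcases sq_eq_sq_iff_eq_or_eq_neg.mp he with he' | he' <;>
      · have h' := congrArg σ he'
        simp only [map_mul, map_neg, map_ofNat, hfix, map_ratCast, ht] at h'
        exact hne (by linear_combination (h' + he') / 2)
  refine ⟨fun ⟨q, hq⟩ => key q _ hσs ?_, fun ⟨q, hq⟩ => key q (i * (j + j⁻¹))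
    (by rw [map_mul, hσi, hσs, mul_neg]) ?_⟩
  all_goals
    have hq' := congrArg (fun x : ℚ => (x : Qb)) hq
    push_cast at hq'
  · rw [mul_pow, hδ, mul_pow, hsq]
    linear_combination 2 * hq'
  · rw [mul_pow, hδ, mul_pow, mul_pow, hsq, hi]
    linear_combination -2 * hq'

end FA.SerreCurve

end
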