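import Fermat.Agent.SerreCurve.LevelFourRoots
import Fermat.Agent.SerreCurve.LevelEight

/-!
# The image at `4`

An element fixing `E[2]` acts on `E[4]` as `1 + 2 X`. If the image on `E[2]` is everything the
classes of these `X` are stable under conjugation; with one of odd trace, which exists unless `-Δ`
is a square, they are everything unless all of them lie among `0, 1, ω, ω²`, which by halving the
points of order two is the exotic case.
-/

set_option autoImplicit false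
set_option linter.style.haveILetI false
set_option linter.unusedSectionVars false

noncomputable section

open Matrix WeierstrassCurve WeierstrassCurve.Affine FA.EC FA.Frob FA.RT
open FA.RT.Tate (Pts)
open FA.Two (eRoot torsPt deltaRoot sqrtQ)
open FA.PadicImage (Reach Tangent)
open FA.SerreCurve (FullAt exists_of_toZModPow)
open scoped WeierstrassCurve.Affine

local notation "Qb" => AlgebraicClosure ℚ
local notation "GQ" => AlgebraicClosure ℚ ≃ₐ[ℚ] AlgebraicClosure ℚ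
local notation "MF" => Matrix (Fin 2) (Fin 2) (ZMod 2)

namespace FA.LevelFour

/-- A tangent matrix of an element fixing the three roots. -/
def FixesRoots (X : MF) : Prop :=
  ∀ v : Fin 2 → ZMod 2, v ≠ 0 → (X 0 0 + X 1 1 = 0 ↔ X *ᵥ v = 0 ∨ X *ᵥ v = v)

instance (X : MF) : Decidable (FixesRoots X) := inferInstanceAs (Decidable (∀ _, _))

/-- The six invertible matrices with their inverses. -/
def unitPairs : List (MF × MF) :=
  [(1, 1), (!![0, 1; 1, 1], !![1, 1; 1, 0]), (!![1, 1; 1, 0], !![0, 1; 1, 1]),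
    (!![0, 1; 1, 0], !![0, 1; 1, 0]), (!![1, 1; 0, 1], !![1, 1; 0, 1]),
    (!![1, 0; 1, 1], !![1, 0; 1, 1])]

theorem unitPairs_spec : ∀ q ∈ unitPairs, q.1 * q.2 = 1 ∧ q.1.det ≠ 0 := by decide +kernel

theorem exists_nilpotent_closure : ∀ X M : MF, ¬ FixesRoots X → M 0 0 + M 1 1 = 1 →
    (X ≠ 0 ∧ X * X = 0) ∨ ∃ q ∈ unitPairs,
      (X + q.1 * X * q.2 ≠ 0 ∧ (X + q.1 * X * q.2) * (X + q.1 * X * q.2) = 0) ∨
      (M + q.1 * M * q.2 ≠ 0 ∧ (M + q.1 * M * q.2) * (M + q.1 * M * q.2) = 0) ∨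
      (X + (M + q.1 * M * q.2) ≠ 0 ∧
        (X + (M + q.1 * M * q.2)) * (X + (M + q.1 * M * q.2)) = 0) := by
  decide +kernel

theorem exists_conj_nilpotent : ∀ N N' : MF, N ≠ 0 → N * N = 0 → N' ≠ 0 → N' * N' = 0 →
    ∃ q ∈ unitPairs, q.1 * N * q.2 = N' := by
  decide +kernel

theorem sgn_one : FA.Two.sgn (1 : MF) = 0 := by decide

theorem three_ne_zero_two : (3 : ZMod 2) ≠ 0 := by decide

theorem fixesRoots_elementary : ¬ FixesRoots !![0, 1; 0, 0] := by decide

theorem val_cast_two : ∀ x : ZMod 2, ((x.val : ℕ) : ZMod 2) = x := by decide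

theorem sum_coords : ∀ u : Fin 2 → ZMod 2, u = u 0 • Pi.single 0 1 + u 1 • Pi.single 1 1 := by
  decide

theorem nonzero_cases : ∀ x : ZMod 2, x ≠ 0 → x = 1 := by decide

theorem trace_pow_four : ∀ t : ZMod (2 ^ 2), 1 + 2 * t = 1 ∨ 1 + 2 * t = 3 := by decide

variable [hp : Fact (Nat.Prime 2)]

local notation "M2" => Matrix (Fin 2) (Fin 2) ℤ_[2]

/-- Reduction modulo `2`. -/
def red : ℤ_[2] →+* ZMod 2 := PadicInt.toZModPow 1

theorem red_eq_iff {a b : ℤ_[2]} : red a = red b ↔ ∃ c, a = b + 2 * c := by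
  refine ⟨fun h => ?_, fun ⟨c, hc⟩ => ?_⟩
  · simpa using exists_of_toZModPow (n := 1) h
  · rw [hc, map_add, map_mul, map_ofNat, show (2 : ZMod 2) = 0 from rfl, zero_mul, add_zero]

theorem red_surjective (x : ZMod 2) : red ((x.val : ℕ) : ℤ_[2]) = x := by
  rw [map_natCast, val_cast_two]

theorem isUnit_iff_red {a : ℤ_[2]} : IsUnit a ↔ red a ≠ 0 := by
  refine ⟨fun h => (h.map red).ne_zero, fun h => FA.PadicImage.isUnit_iff_toZMod.mpr fun h0 => ?_⟩
  obtain ⟨c, hc⟩ := (red_eq_iff (b := 1)).mp ((nonzero_cases _ h).trans (map_one red).symm)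
  rw [hc, map_add, map_one, map_mul, map_ofNat, show (2 : ZMod 2) = 0 from rfl, zero_mul,
    add_zero] at h0
  exact one_ne_zero h0

theorem map_red_congr {A B : M2} (h : A.map red = B.map red) :
    ∃ K : M2, A = B + (2 : ℤ_[2]) • K := by
  choose K hK using fun i j => red_eq_iff.mp
    (show red (A i j) = red (B i j) from congrFun (congrFun h i) j)
  exact ⟨Matrix.of K, Matrix.ext fun i j => by simpa using hK i j⟩

/-- A lift of a matrix modulo `2`. -/
def liftMat (X : MF) : M2 := Matrix.of fun i j => (((X i j).val : ℕ) : ℤ_[2])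

theorem map_liftMat (X : MF) : (liftMat X).map red = X :=
  Matrix.ext fun i j => red_surjective (X i j)

variable {W : WeierstrassCurve ℤ} [(ratCurve W).IsElliptic] (B : FA.RT.Tate.TateBasis 2 W)

theorem curveRep_eq_map (σ : GQ) : curveRep 2 W σ = (B.rep σ).map red := by
  ext i j
  rw [B.rep_toZMod]
  exact val_cast_two _

theorem phi_one_eq_iff {v w : Fin 2 → ℤ_[2]} : B.φ 1 v = B.φ 1 w ↔ red ∘ v = red ∘ w :=
  B.phi_eq_iff.trans ⟨fun h => funext h, fun h i => congrFun h i⟩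

theorem torsPt_eq_phi (u : Fin 2 → ZMod 2) :
    (torsPt W u).1 = B.φ 1 fun i => (((u i).val : ℕ) : ℤ_[2]) := by
  have hv : (fun i => (((u i).val : ℕ) : ℤ_[2])) =
      (u 0).val • Pi.single 0 1 + (u 1).val • Pi.single 1 1 := by
    funext i
    fin_cases i <;> simp [nsmul_eq_mul, -ZMod.natCast_val]
  rw [hv, map_add, map_nsmul, map_nsmul, B.base, B.base, torsPt, Module.Basis.equivFun_symm_apply,
    Fin.sum_univ_two, Submodule.coe_add, ← Submodule.coe_smul_of_tower,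
    ← Submodule.coe_smul_of_tower, ← Nat.cast_smul_eq_nsmul (ZMod 2),
    ← Nat.cast_smul_eq_nsmul (ZMod 2), val_cast_two, val_cast_two]

/-- **Halving a point of order two**: the abscissa of a half differs from `e` by a square root of
`w`. -/
theorem sub_eRoot_sq {v : Fin 2 → ZMod 2} (hv : v ≠ 0) {P : Pts W} (hP : 2 • P = (torsPt W v).1) :
    (xc (W := (ratCurve W)⁄Qb) P - eRoot W v) ^ 2 = wRoot W v := by
  obtain ⟨e, η, he, hT, hee, -⟩ := FA.Two.exists_coords W hv
  have hroot := FA.Two.eRoot_eq W hv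
  rw [hT] at hP
  have hP0 : P ≠ 0 := fun h => by
    rw [h, nsmul_zero] at hP
    exact (Affine.Point.some_ne_zero he) hP.symm
  obtain ⟨x, y, hxy, rfl⟩ := exists_some_of_ne_zero hP0
  rw [two_nsmul] at hP
  have hy : y ≠ ((ratCurve W)⁄Qb).toAffine.negY x y := fun h => by
    rw [Affine.Point.add_self_of_Y_eq h] at hP
    exact (Affine.Point.some_ne_zero he) hP.symm
  rw [Affine.Point.add_self_of_Y_ne hy, Affine.Point.some.injEq] at hP
  obtain ⟨hx, -⟩ := hP
  rw [Affine.slope_of_Y_ne rfl hy, Affine.addX] at hx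
  obtain ⟨hb2, hb4, hb6, -⟩ := FA.Two.baseChange_coeffs W
  have hsq := pc_sq (W := (ratCurve W)⁄Qb) (P := .some x y hxy) hP0
  simp only [pc_some, xc_some, WeierstrassCurve.Ψ₂Sq, Polynomial.eval_add, Polynomial.eval_mul,
    Polynomial.eval_pow, Polynomial.eval_C, Polynomial.eval_X, hb2, hb4, hb6] at hsq
  rw [xc_some]
  unfold wRoot
  rw [hee] at hroot ⊢
  set π := y - ((ratCurve W)⁄Qb).toAffine.negY x y with hπ
  have hπ0 : π ≠ 0 := sub_ne_zero.mpr hy
  set lam := (3 * x ^ 2 + 2 * ((ratCurve W)⁄Qb).a₂ * x + ((ratCurve W)⁄Qb).a₄ -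
    ((ratCurve W)⁄Qb).a₁ * y) / π with hlam
  have hN : π * (lam + ((ratCurve W)⁄Qb).a₁ / 2) =
      (12 * x ^ 2 + 2 * (W.b₂ : Qb) * x + 2 * (W.b₄ : Qb)) / 4 := by
    rw [hlam, mul_add, mul_div_cancel₀ _ hπ0, ← hb2, ← hb4, hπ, Affine.negY]
    simp only [WeierstrassCurve.b₂, WeierstrassCurve.b₄]
    ring
  have hL : (lam + ((ratCurve W)⁄Qb).a₁ / 2) ^ 2 = e + 2 * x + (W.b₂ : Qb) / 4 := by
    rw [← hb2, WeierstrassCurve.b₂]
    linear_combination hx
  set A := x - e
  set w := (12 * e ^ 2 + 2 * (W.b₂ : Qb) * e + 2 * (W.b₄ : Qb)) / 4 with hw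
  set N := (12 * x ^ 2 + 2 * (W.b₂ : Qb) * x + 2 * (W.b₄ : Qb)) / 4
  have h0 : (w - A ^ 2) ^ 2 = 0 := by
    have h1 : N ^ 2 = (4 * x ^ 3 + (W.b₂ : Qb) * x ^ 2 + 2 * (W.b₄ : Qb) * x + (W.b₆ : Qb)) *
        (e + 2 * x + (W.b₂ : Qb) / 4) := by
      rw [← hN, mul_pow, hL]
      linear_combination (e + 2 * x + (W.b₂ : Qb) / 4) * hsq
    simp only [A, w, N] at h1 ⊢
    linear_combination h1 + (e + 2 * x + (W.b₂ : Qb) / 4) * hroot
  linear_combination -(pow_eq_zero_iff two_ne_zero).mp h0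

theorem exists_tangent_of_fix {σ : GQ} (hσ : curveRep 2 W σ = 1) :
    ∃ X : M2, B.rep σ = 1 + (2 : ℤ_[2]) • X :=
  map_red_congr (by rw [← curveRep_eq_map, hσ, Matrix.map_one red (map_zero _) (map_one _)])

theorem apply_i_iff {σ : GQ} {X : M2} (hX : B.rep σ = 1 + (2 : ℤ_[2]) • X) {i : Qb}
    (hi : i ^ 2 = -1) : σ i = i ↔ (X.map red) 0 0 + (X.map red) 1 1 = 0 := by
  have hi0 : i ≠ 0 := fun h => by simp [h] at hi
  have hi4 : i ^ 4 = 1 := by rw [show 4 = 2 * 2 from rfl, pow_mul, hi, neg_one_sq]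
  have hprim : IsPrimitiveRoot i 4 :=
    IsPrimitiveRoot.mk_of_lt i (by norm_num) hi4 fun l h0 hl h => by
      interval_cases l
      · rw [pow_one] at h; rw [h] at hi; norm_num at hi
      · rw [hi] at h; norm_num at h
      · rw [pow_succ, hi, neg_one_mul, neg_eq_iff_eq_neg] at h; rw [h] at hi; norm_num at hi
  have key : ∀ a : ℕ, σ i = i ^ a → PadicInt.toZModPow 2 (B.rep σ).det = (a : ZMod (2 ^ 2)) :=
    fun a ha => by
      rw [B.det_rep]
      refine FA.RT.Tate.cycP_eq_natCast fun μ hμ => ?_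
      obtain ⟨k, -, rfl⟩ := hprim.eq_pow_of_pow_eq_one (ξ := μ) hμ
      rw [map_pow, ha, ← pow_mul, ← pow_mul, mul_comm]
  have hdet : PadicInt.toZModPow 2 (B.rep σ).det =
      1 + 2 * PadicInt.toZModPow 2 (X 0 0 + X 1 1) := by
    rw [hX, det_fin_two]
    simp only [Matrix.add_apply, Matrix.smul_apply, smul_eq_mul]
    simp [map_ofNat]
    ring_nf
    rw [show (4 : ZMod (2 ^ 2)) = 0 from rfl, mul_zero, mul_zero]
    abel
  rcases apply_i_cases hi (σ := σ) with h | h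
  · refine iff_of_true h ?_
    have h1 := (key 1 (by rw [pow_one]; exact h)).symm.trans hdet
    rw [Matrix.map_apply, Matrix.map_apply, ← map_add]
    obtain ⟨c, hc⟩ := exists_of_toZModPow (n := 2) (a := 2 * (X 0 0 + X 1 1)) (b := 0) (by
      rw [map_mul, map_ofNat, map_zero]
      rw [Nat.cast_one] at h1
      exact left_eq_add.mp h1)
    rw [← map_zero red]
    exact red_eq_iff.mpr ⟨c, mul_left_cancel₀ (two_ne_zero (α := ℤ_[2]))
      (by linear_combination hc)⟩
  · refine iff_of_false (fun h' => FA.Two.neg_ne_self hi0 (h.symm.trans h')) fun ht => ?_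
    rw [Matrix.map_apply, Matrix.map_apply, ← map_add, ← map_zero red] at ht
    obtain ⟨c, hc⟩ := red_eq_iff.mp ht
    have h3 := (key 3 (by rw [h, pow_succ, hi, neg_one_mul])).symm.trans hdet
    rw [hc, map_add, map_zero, zero_add, map_mul, map_ofNat, ← mul_assoc,
      show (2 : ZMod (2 ^ 2)) * 2 = 0 from rfl, zero_mul, add_zero] at h3
    exact absurd h3 (by simpa using three_ne_one)
where
  apply_i_cases {i : Qb} (hi : i ^ 2 = -1) {σ : GQ} : σ i = i ∨ σ i = -i :=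
    sq_eq_sq_iff_eq_or_eq_neg.mp (by rw [← map_pow, hi, map_neg, map_one])
  three_ne_one : ((3 : ℕ) : ZMod (2 ^ 2)) ≠ 1 := by decide

/-- **Which elements fix the roots.** -/
theorem fixes_iff {σ : GQ} (hσ : curveRep 2 W σ = 1) {X : M2}
    (hX : B.rep σ = 1 + (2 : ℤ_[2]) • X) :
    (∀ v : Fin 2 → ZMod 2, v ≠ 0 → σ (sqrtQ (zRoot W v)) = sqrtQ (zRoot W v)) ↔
      FixesRoots (X.map red) := by
  refine forall₂_congr fun v hv => ?_
  obtain ⟨i, hi⟩ := IsAlgClosed.exists_pow_nat_eq (-1 : Qb) (n := 2) two_pos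
  set vl : Fin 2 → ℤ_[2] := fun i => (((v i).val : ℕ) : ℤ_[2]) with hvl
  have hvred : red ∘ vl = v := funext fun i => red_surjective (v i)
  set P := B.φ 2 vl with hP
  have h2P : 2 • P = B.φ 1 vl := B.compat 1 vl
  have hsq := sub_eRoot_sq hv (h2P.trans (torsPt_eq_phi B v).symm)
  set A := xc (W := (ratCurve W)⁄Qb) P - eRoot W v with hA
  have hA0 : A ≠ 0 := fun h => wRoot_ne_zero W hv (by
    rw [← hsq, h, zero_pow two_ne_zero])
  have hu : (i * deltaRoot W * A) ^ 2 = zRoot W v := by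
    rw [mul_pow, mul_pow, hi, FA.Two.deltaRoot_sq, hsq, zRoot]; ring
  have hδ : σ (deltaRoot W) = deltaRoot W :=
    (FA.Two.apply_deltaRoot W σ).1 (by rw [hσ]; exact sgn_one)
  have hev : σ (eRoot W v) = eRoot W v := by rw [← FA.Two.eRoot_mulVec, hσ, one_mulVec]
  have hPσ : σ • P = P + B.φ 1 (X *ᵥ vl) := by
    rw [hP, B.rep_spec, hX, add_mulVec, one_mulVec, map_add, smul_mulVec,
      show (2 : ℤ_[2]) • (X *ᵥ vl) = 2 • (X *ᵥ vl) from
        Nat.cast_smul_eq_nsmul ℤ_[2] 2 (X *ᵥ vl), map_nsmul]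
    exact congrArg _ (B.compat 1 _)
  have hP0 : P ≠ 0 := fun h => by
    have h1 : B.φ 1 vl = B.φ 1 0 := by rw [← h2P, h, nsmul_zero, map_zero]
    rw [phi_one_eq_iff, hvred] at h1
    exact hv (h1.trans (funext fun _ => map_zero red))
  have hxc : σ A = A ↔ (X.map red) *ᵥ v = 0 ∨ (X.map red) *ᵥ v = v := by
    have hmul : red ∘ (X *ᵥ vl) = (X.map red) *ᵥ v := by
      rw [← hvred]; exact funext fun i => RingHom.map_mulVec red X vl i
    have h2 : B.φ 1 vl + B.φ 1 vl = 0 := by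
      rw [← two_nsmul]; exact B.nsmul_phi 1 vl
    have hσP0 : σ • P ≠ 0 := fun h => hP0 ((smul_eq_zero_iff_eq σ).mp h)
    rw [hA, map_sub, hev, sub_left_inj, ← FA.EC.xc_smul (ratCurve W) σ P]
    constructor
    · intro h
      rcases eq_or_eq_neg_of_xc_eq hσP0 hP0 h with h' | h'
      · refine Or.inl ?_
        rw [hPσ, add_eq_left, ← map_zero (B.φ 1), phi_one_eq_iff, hmul] at h'
        exact h'.trans (funext fun _ => map_zero red)
      · refine Or.inr ?_
        have : B.φ 1 (X *ᵥ vl) = B.φ 1 vl := by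
          rw [hPσ] at h'
          have h3 : B.φ 1 (X *ᵥ vl) + (P + P) = 0 := by
            rw [← eq_neg_iff_add_eq_zero.mp h']; abel
          rw [← two_nsmul, h2P] at h3
          exact (eq_neg_of_add_eq_zero_left h3).trans (neg_eq_of_add_eq_zero_left h2)
        rwa [phi_one_eq_iff, hmul, hvred] at this
    · rintro (h | h)
      · have : B.φ 1 (X *ᵥ vl) = B.φ 1 0 := (phi_one_eq_iff B).mpr
          (hmul.trans (h.trans (funext fun _ => (map_zero red).symm)))
        rw [hPσ, this, map_zero, add_zero]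
      · have : B.φ 1 (X *ᵥ vl) = B.φ 1 vl := (phi_one_eq_iff B).mpr
          (hmul.trans (h.trans hvred.symm))
        rw [hPσ, this, show P + B.φ 1 vl = -P by
          rw [← h2P, two_nsmul, eq_neg_iff_add_eq_zero, add_assoc,
            show P + (P + P + P) = (P + P) + (P + P) by abel, ← two_nsmul P, h2P, h2]]
        exact xc_neg P
  have hu0 : i * deltaRoot W * A ≠ 0 := mul_ne_zero (mul_ne_zero (fun h => by simp [h] at hi)
    (FA.SerreCurve.deltaRoot_ne_zero)) hA0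
  have hfix : σ (sqrtQ (zRoot W v)) = sqrtQ (zRoot W v) ↔
      σ (i * deltaRoot W * A) = i * deltaRoot W * A := by
    rcases sq_eq_sq_iff_eq_or_eq_neg.mp ((FA.Two.sqrtQ_sq (zRoot W v)).trans hu.symm) with h | h <;>
      rw [h]
    rw [map_neg, neg_inj]
  rw [hfix, ← hxc, ← apply_i_iff B hX hi, map_mul, map_mul, hδ]
  have hAσ : σ A = A ∨ σ A = -A := sq_eq_sq_iff_eq_or_eq_neg.mp (by
    rw [← map_pow, hsq, ← wRoot_mulVec, hσ, one_mulVec])
  rcases apply_i_iff.apply_i_cases hi (σ := σ) with e1 | e1 <;> rcases hAσ with e2 | e2 <;>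
    rw [e1, e2]
  · simp
  · simp only [mul_neg, true_iff]
    exact iff_of_false (FA.Two.neg_ne_self hu0) (FA.Two.neg_ne_self hA0)
  · simp only [neg_mul, iff_true]
    exact iff_of_false (FA.Two.neg_ne_self hu0) (FA.Two.neg_ne_self (fun h => by simp [h] at hi))
  · simp only [neg_mul, mul_neg, neg_neg, true_iff]
    exact iff_of_false (FA.Two.neg_ne_self (fun h => by simp [h] at hi))
      (FA.Two.neg_ne_self hA0)

theorem fullTwo_of_reach {n : ℕ} (hn : 1 ≤ n)
    (h : ∀ M : M2, IsUnit M.det → Reach B.rep n M) : FullTwo W := fun M hM => by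
  obtain ⟨σ, Y, hσ⟩ := h (liftMat M) (isUnit_iff_red.mpr (by
    rw [RingHom.map_det, RingHom.mapMatrix_apply, map_liftMat]; exact hM))
  obtain ⟨m, rfl⟩ := Nat.exists_eq_add_of_le' hn
  refine ⟨σ, ?_⟩
  rw [curveRep_eq_map B, hσ]
  ext i j
  rw [Matrix.map_apply, Matrix.add_apply, Matrix.smul_apply, smul_eq_mul, map_add, map_mul,
    map_pow, map_natCast, show ((2 : ℕ) : ZMod 2) = 0 from rfl, pow_succ, mul_zero, zero_mul,
    add_zero]
  exact red_surjective (M i j)

theorem exotic_false_of_reach (h : ∀ M : M2, IsUnit M.det → Reach B.rep 2 M) : ¬ Exotic W := by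
  intro hE
  obtain ⟨σ, Y, hσ⟩ := h !![1, 2; 0, 1] (by simp [det_fin_two])
  have hX : B.rep σ = 1 + (2 : ℤ_[2]) • (!![0, 1; 0, 0] + (2 : ℤ_[2]) • Y) := by
    rw [hσ, smul_add, ← add_assoc, smul_smul, Nat.cast_ofNat, sq]
    congr 1
    ext i j; fin_cases i <;> fin_cases j <;> simp
  have hfix : curveRep 2 W σ = 1 := by
    rw [curveRep_eq_map B, hX]
    ext i j
    have e : red (2 : ℤ_[2]) = 0 := (map_ofNat red 2).trans rfl
    rw [Matrix.map_apply, Matrix.add_apply, Matrix.smul_apply, smul_eq_mul, map_add, map_mul, e,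
      zero_mul, add_zero, Matrix.one_apply, Matrix.one_apply, apply_ite red, map_one, map_zero]
  refine fixesRoots_elementary ?_
  have := (fixes_iff B hfix hX).mp (hE σ hfix)
  rwa [show ((!![0, 1; 0, 0] : M2) + (2 : ℤ_[2]) • Y).map red = (!![0, 1; 0, 0] : MF) by
    ext i j
    have e : red (2 : ℤ_[2]) = 0 := (map_ofNat red 2).trans rfl
    fin_cases i <;> fin_cases j <;> simp [e]] at this

/-- An element fixing `E[2]` which moves the fourth roots of unity. -/
theorem exists_fix_moving (h1 : ¬ IsSquare (-(W.Δ : ℚ))) :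
    ∃ σ : GQ, curveRep 2 W σ = 1 ∧ ∀ i : Qb, i ^ 2 = -1 → σ i = -i := by
  obtain ⟨i, hi⟩ := IsAlgClosed.exists_pow_nat_eq (-1 : Qb) (n := 2) two_pos
  have hi0 : i ≠ 0 := fun h => by simp [h] at hi
  have hcases : ∀ g : GQ, g i = i ∨ g i = -i := fun g =>
    sq_eq_sq_iff_eq_or_eq_neg.mp (by rw [← map_pow, hi, map_neg, map_one])
  obtain ⟨g, hg, hgδ⟩ : ∃ g : GQ, g i = -i ∧ g (deltaRoot W) = deltaRoot W := by
    by_contra hc
    push Not at hc
    -- otherwise `i √Δ` is fixed by everything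
    have hneg : ∀ g : GQ, g i = -i → g (deltaRoot W) = -deltaRoot W := fun g hg =>
      (FA.SerreCurve.apply_deltaRoot_cases g).resolve_left (hc g hg)
    obtain ⟨τ, hτ⟩ : ∃ τ : GQ, τ i = -i := by
      by_contra hn
      push Not at hn
      obtain ⟨q, hq⟩ := FA.EC.mem_range_of_fixed fun g => (hcases g).resolve_right (hn g)
      have : q ^ 2 = -1 := (algebraMap ℚ Qb).injective (by
        rw [map_pow, hq, hi, map_neg, map_one])
      nlinarith
    have hfix : ∀ g : GQ, g (i * deltaRoot W) = i * deltaRoot W := fun g => by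
      rcases hcases g with h | h
      · have e := hneg (g * τ) (by rw [AlgEquiv.mul_apply, hτ, map_neg, h])
        rw [AlgEquiv.mul_apply, hneg τ hτ, map_neg, neg_inj] at e
        rw [map_mul, h, e]
      · rw [map_mul, h, hneg g h, neg_mul_neg]
    obtain ⟨q, hq⟩ := FA.EC.mem_range_of_fixed hfix
    refine h1 ⟨q, (algebraMap ℚ Qb).injective ?_⟩
    rw [map_mul, hq, map_neg, map_intCast, ← sq, mul_pow, hi, FA.Two.deltaRoot_sq, neg_one_mul]
  have h3 : curveRep 2 W (g * g * g) = 1 := by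
    rw [map_mul, map_mul]
    exact FA.SerreCurve.sgn_eq_zero_cube _ (FA.Two.det_curveRep_two_ne W g)
      ((FA.SerreCurve.sgn_eq_zero_iff g).mpr hgδ)
  refine ⟨g * g * g, h3, fun j hj => ?_⟩
  rcases sq_eq_sq_iff_eq_or_eq_neg.mp (hj.trans hi.symm) with rfl | rfl
  · rw [AlgEquiv.mul_apply, AlgEquiv.mul_apply, hg, map_neg, hg, neg_neg, hg]
  · rw [AlgEquiv.mul_apply, AlgEquiv.mul_apply, map_neg, hg, neg_neg, hg, map_neg, hg, neg_neg]

/-- **Everything modulo `4`**: from everything modulo `2`, an element of odd trace and one outside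
the exotic subgroup. -/
theorem reach_two_of_not_exotic (h2 : FullTwo W) (h1 : ¬ IsSquare (-(W.Δ : ℚ)))
    (hE : ¬ Exotic W) {M : M2} (hM : IsUnit M.det) : Reach B.rep 2 M := by
  -- the classes of the tangents
  let T : MF → Prop := fun X => ∃ Z : M2, Z.map red = X ∧ Tangent B.rep 1 Z
  have htan : ∀ {σ : GQ} {Z : M2}, B.rep σ = 1 + (2 : ℤ_[2]) • Z → Tangent B.rep 1 Z :=
    fun {σ Z} h => ⟨σ, 0, by rw [h, smul_zero, add_zero, pow_one, Nat.cast_ofNat]⟩
  have hadd : ∀ {X Y : MF}, T X → T Y → T (X + Y) := fun {X Y} ⟨Z, hZ, hz⟩ ⟨Z', hZ', hz'⟩ =>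
    ⟨Z + Z', by rw [Matrix.map_add red (fun a b => map_add red a b), hZ, hZ'], hz.add le_rfl hz'⟩
  have hconj : ∀ {X : MF}, T X → ∀ q ∈ unitPairs, T (q.1 * X * q.2) :=
    fun {X} ⟨Z, hZ, hz⟩ q hq => by
    obtain ⟨g, hg⟩ := h2 q.1 (unitPairs_spec q hq).2
    obtain ⟨σ, Y, hσ⟩ := hz
    refine ⟨B.rep g * Z * B.rep g⁻¹, ?_, g * σ * g⁻¹, B.rep g * Y * B.rep g⁻¹, ?_⟩
    · have e : curveRep 2 W g⁻¹ = q.2 := by
        have : curveRep 2 W g⁻¹ * curveRep 2 W g = 1 := by
          rw [← map_mul, inv_mul_cancel, map_one]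
        calc curveRep 2 W g⁻¹ = curveRep 2 W g⁻¹ * (q.1 * q.2) := by
              rw [(unitPairs_spec q hq).1, mul_one]
          _ = q.2 := by rw [← hg, ← mul_assoc, this, one_mul]
      rw [Matrix.map_mul, Matrix.map_mul, ← curveRep_eq_map, ← curveRep_eq_map, hg, e, hZ]
    · have hgg : B.rep g * B.rep g⁻¹ = 1 := by rw [← map_mul, mul_inv_cancel, map_one]
      rw [map_mul, map_mul, hσ]
      simp only [mul_add, add_mul, mul_one, Algebra.mul_smul_comm, smul_mul_assoc, hgg]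
  obtain ⟨σ₀, hσ₀, hmove⟩ := exists_fix_moving h1
  obtain ⟨Z₀, hZ₀⟩ := exists_tangent_of_fix B hσ₀
  have hodd : (Z₀.map red) 0 0 + (Z₀.map red) 1 1 = 1 := nonzero_cases _ fun h0 => by
    obtain ⟨i, hi⟩ := IsAlgClosed.exists_pow_nat_eq (-1 : Qb) (n := 2) two_pos
    exact FA.Two.neg_ne_self (fun h => by simp [h] at hi)
      ((hmove i hi).symm.trans ((apply_i_iff B hZ₀ hi).mpr h0))
  have hT₀ : T (Z₀.map red) := ⟨Z₀, rfl, htan hZ₀⟩
  obtain ⟨σ₁, hσ₁, hne⟩ : ∃ σ : GQ, curveRep 2 W σ = 1 ∧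
      ¬ ∀ v : Fin 2 → ZMod 2, v ≠ 0 → σ (sqrtQ (zRoot W v)) = sqrtQ (zRoot W v) := by
    simp only [Exotic, not_forall] at hE ⊢
    obtain ⟨σ, hσ, h⟩ := hE
    exact ⟨σ, hσ, h⟩
  obtain ⟨Z₁, hZ₁⟩ := exists_tangent_of_fix B hσ₁
  rw [fixes_iff B hσ₁ hZ₁] at hne
  have hT₁ : T (Z₁.map red) := ⟨Z₁, rfl, htan hZ₁⟩
  obtain ⟨N, hN0, hNN, hN⟩ : ∃ N : MF, N ≠ 0 ∧ N * N = 0 ∧ T N := by
    rcases exists_nilpotent_closure _ _ hne hodd with h | ⟨q, hq, h | h | h⟩
    · exact ⟨_, h.1, h.2, hT₁⟩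
    · exact ⟨_, h.1, h.2, hadd hT₁ (hconj hT₁ q hq)⟩
    · exact ⟨_, h.1, h.2, hadd hT₀ (hconj hT₀ q hq)⟩
    · exact ⟨_, h.1, h.2, hadd hT₁ (hadd hT₀ (hconj hT₀ q hq))⟩
  have hof : ∀ {Z : M2}, T (Z.map red) → Tangent B.rep 1 Z := fun {Z} ⟨Z', hZ', hz⟩ => by
    obtain ⟨K, hK⟩ := map_red_congr hZ'.symm
    rw [hK]
    simpa only [Nat.cast_ofNat] using hz.congr K
  have hnil : ∀ A : M2, A * A = 0 → Tangent B.rep 1 A := fun A hA => hof (by
    rcases eq_or_ne (A.map red) 0 with h | h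
    · exact ⟨0, by rw [h, Matrix.map_zero red (map_zero _)], 1, 0, by simp⟩
    · obtain ⟨q, hq, e⟩ := exists_conj_nilpotent N (A.map red) hN0 hNN h (by
        rw [← Matrix.map_mul, hA, Matrix.map_zero red (map_zero _)])
      exact e ▸ hconj hN q hq)
  have heven : ∀ Z : M2, (2 : ℤ_[2]) ∣ Z 0 0 + Z 1 1 → Tangent B.rep 1 Z := fun Z hZ => by
    obtain ⟨A, C, D, K, hA, hC, hD, rfl⟩ := FA.SerreCurve.exists_nilpotent_decomp hZ
    simpa only [Nat.cast_ofNat] using
      (((hnil A hA).add le_rfl (hnil C hC)).add le_rfl (hnil D hD)).congr K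
  have hall : ∀ Z : M2, Tangent B.rep 1 Z := fun Z => by
    rcases FA.SerreCurve.two_dvd_or_two_dvd_sub_one (Z 0 0 + Z 1 1) with e | e
    · exact heven Z e
    · have e' : (2 : ℤ_[2]) ∣ Z₀ 0 0 + Z₀ 1 1 - 1 := by
        obtain ⟨c, hc⟩ := (red_eq_iff (b := 1)).mp (show red (Z₀ 0 0 + Z₀ 1 1) = red 1 by
          rw [map_add, map_one]; exact hodd)
        exact ⟨c, by linear_combination hc⟩
      simpa using (heven (Z - Z₀) (by
        obtain ⟨a, ha⟩ := e; obtain ⟨b, hb⟩ := e'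
        exact ⟨a - b, by simp only [Matrix.sub_apply]; linear_combination ha - hb⟩)).add
          le_rfl (htan hZ₀)
  obtain ⟨g, hg⟩ := h2 (M.map red) (by
    have := isUnit_iff_red.mp hM
    rwa [RingHom.map_det, RingHom.mapMatrix_apply] at this)
  obtain ⟨Y, hY⟩ := map_red_congr ((curveRep_eq_map B g).symm.trans hg)
  obtain ⟨q, U, hq⟩ := hall (-(B.rep g⁻¹ * Y))
  have hgg : B.rep g * B.rep g⁻¹ = 1 := by rw [← map_mul, mul_inv_cancel, map_one]
  refine ⟨g * q, B.rep g * U, ?_⟩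
  rw [map_mul, hq, pow_one, Nat.cast_ofNat, mul_add, mul_add, mul_one, Algebra.mul_smul_comm,
    Algebra.mul_smul_comm, mul_neg, ← mul_assoc, hgg, one_mul, smul_neg, hY, add_neg_cancel_right]

/-- Everything modulo `p ^ n` is every automorphism of `E[p ^ n]`. -/
theorem fullAt_of_reach {n : ℕ} (hn : 1 ≤ n)
    (hreach : ∀ M : M2, IsUnit M.det → Reach B.rep n M) : FullAt W (2 ^ n) := by
  unfold FA.SerreCurve.FullAt
  rw [Nat.cast_pow]
  intro φ
  have mem : ∀ v, B.φ n v ∈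
      Submodule.torsionBy ℤ ((ratCurve W)⁄Qb).Point (((2 : ℕ) : ℤ) ^ n) :=
    fun v => FA.PadicImage.mem_torsionBy_pow_iff.mpr (B.nsmul_phi n v)
  obtain ⟨M, hM⟩ := FA.PadicImage.exists_matrix_of_addHom B n φ.toAddMonoidHom mem
  obtain ⟨N, hN⟩ := FA.PadicImage.exists_matrix_of_addHom B n φ.symm.toAddMonoidHom mem
  have hMN : ∀ v, B.φ n ((N * M) *ᵥ v) = B.φ n v := fun v => by
    rw [← mulVec_mulVec, ← hN]
    have e : (⟨B.φ n (M *ᵥ v), mem _⟩ :
        Submodule.torsionBy ℤ ((ratCurve W)⁄Qb).Point (((2 : ℕ) : ℤ) ^ n)) = φ ⟨B.φ n v, mem v⟩ :=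
      Subtype.ext (hM v).symm
    rw [e]
    exact congrArg Subtype.val (φ.symm_apply_apply _)
  have hdet : IsUnit M.det := by
    refine isUnit_iff_red.mpr fun h0 => ?_
    have h1 : (N * M).map red = 1 := by
      ext i j
      have h := B.phi_eq_iff.mp (hMN (Pi.single j 1)) i
      rw [mulVec_single_one] at h
      obtain ⟨c, hc⟩ := exists_of_toZModPow h
      obtain ⟨m, rfl⟩ := Nat.exists_eq_add_of_le' hn
      rw [Matrix.map_apply]
      show red ((N * M).col j i) = _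
      rw [hc, map_add, map_mul, map_pow, map_ofNat, show (2 : ZMod 2) = 0 from rfl, pow_succ,
        mul_zero, zero_mul, add_zero, Matrix.one_apply, Pi.single_apply, apply_ite red, map_one,
        map_zero]
    have h2 := congrArg Matrix.det h1
    rw [← RingHom.mapMatrix_apply, ← RingHom.map_det, det_mul, map_mul, h0, mul_zero,
      det_one] at h2
    exact zero_ne_one h2
  obtain ⟨σ, Y, hσ⟩ := hreach M hdet
  refine ⟨σ, fun x => ?_⟩
  obtain ⟨v, hv⟩ := B.surj n x.1 (FA.PadicImage.mem_torsionBy_pow_iff.mp x.2)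
  rw [show x = ⟨B.φ n v, mem v⟩ from Subtype.ext hv.symm]
  refine (B.rep_spec σ n v).trans ((B.phi_eq_iff.mpr fun i => ?_).trans (hM v).symm)
  rw [hσ, add_mulVec, smul_mulVec, Pi.add_apply, Pi.smul_apply, smul_eq_mul, map_add, map_mul,
    map_pow, map_natCast, ← Nat.cast_pow, ZMod.natCast_self, zero_mul, add_zero]

/-- **The criterion modulo `4`.** -/
theorem fullAt_four_iff : FullAt W 4 ↔
    FullAt W 2 ∧ ¬ IsSquare (-(W.Δ : ℚ)) ∧ ¬ Exotic W := by
  obtain ⟨B⟩ := FA.RT.Tate.exists_tateBasis (p := 2) (W := W)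
  constructor
  · intro h
    have h4 : ∀ M : M2, IsUnit M.det → Reach B.rep 2 M := fun M hM =>
      FA.SerreCurve.reach_of_fullAt B (n := 2) h hM
    refine ⟨fullAt_of_reach B (n := 1) le_rfl fun M hM => ?_, ?_, exotic_false_of_reach B h4⟩
    · obtain ⟨σ, Y, hσ⟩ := h4 M hM
      exact ⟨σ, ((2 : ℕ) : ℤ_[2]) • Y, by rw [hσ, smul_smul, pow_one, sq]⟩
    · rintro ⟨q, hq⟩
      obtain ⟨σ, Y, hσ⟩ := h4 !![3, 0; 0, 1] (isUnit_iff_red.mpr (by
        simpa [det_fin_two, map_ofNat] using three_ne_zero_two))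
      have hX : B.rep σ = 1 + (2 : ℤ_[2]) • (!![1, 0; 0, 0] + (2 : ℤ_[2]) • Y) := by
        rw [hσ, smul_add, ← add_assoc, smul_smul, Nat.cast_ofNat, sq]
        congr 1
        ext i j; fin_cases i <;> fin_cases j <;> norm_num
      have e : red (2 : ℤ_[2]) = 0 := (map_ofNat red 2).trans rfl
      have hfix : curveRep 2 W σ = 1 := by
        rw [curveRep_eq_map B, hX]
        ext i j
        rw [Matrix.map_apply, Matrix.add_apply, Matrix.smul_apply, smul_eq_mul, map_add, map_mul, e,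
          zero_mul, add_zero, Matrix.one_apply, Matrix.one_apply, apply_ite red, map_one, map_zero]
      obtain ⟨i, hi⟩ := IsAlgClosed.exists_pow_nat_eq (-1 : Qb) (n := 2) two_pos
      have hδ : σ (deltaRoot W) = deltaRoot W :=
        (FA.Two.apply_deltaRoot W σ).1 (by rw [hfix]; exact sgn_one)
      have hd : deltaRoot W = i * (q : Qb) ∨ deltaRoot W = -(i * (q : Qb)) := by
        have hq' := congrArg (fun x : ℚ => (x : Qb)) hq
        push_cast at hq'
        rw [← sq_eq_sq_iff_eq_or_eq_neg, FA.Two.deltaRoot_sq, mul_pow, hi]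
        linear_combination -hq'
      have hmove : ¬ σ i = i := fun h' => by
        have h0 := (apply_i_iff B hX hi).mp h'
        simp [e] at h0
      refine hmove (mul_right_cancel₀ (b := (q : Qb)) (fun h0 => ?_) ?_)
      · rcases hd with h' | h' <;> rw [h0, mul_zero] at h'
        · exact FA.SerreCurve.deltaRoot_ne_zero h'
        · exact FA.SerreCurve.deltaRoot_ne_zero (h'.trans neg_zero)
      · rcases hd with h' | h' <;> rw [h'] at hδ
        · rwa [map_mul, map_ratCast] at hδ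
        · rw [map_neg, map_mul, map_ratCast, neg_inj] at hδ; exact hδ
  · rintro ⟨h, h1, hE⟩
    rw [show (4 : ℕ) = 2 ^ 2 from rfl]
    rw [show (2 : ℕ) = 2 ^ 1 from rfl] at h
    have h2 : FullTwo W := fullTwo_of_reach B le_rfl fun N hN =>
      FA.SerreCurve.reach_of_fullAt B (n := 1) h hN
    exact fullAt_of_reach B (n := 2) one_le_two fun M hM =>
      reach_two_of_not_exotic B h2 h1 hE hM

end FA.LevelFour

end
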