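import Fermat.Agent.SerreCurve.Criterion

/-!
# Serre's lifting lemma at every prime

A group of matrices over `ℤ_p` which is everything modulo `p ^ (k + 1)`, `k = 2` at `2` and `k = 1`
at `3`, contains every `1 + p ^ k X` modulo `p ^ (k + 1)`; the `p`-th powers carry these to every
higher level, so it is everything modulo every power of `p`. From `5` on it suffices modulo `p`.
-/

set_option autoImplicit false
set_option linter.style.haveILetI false
set_option linter.unusedSectionVars false

noncomputable section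

open Matrix WeierstrassCurve WeierstrassCurve.Affine FA.EC FA.Frob FA.RT
open FA.RT.Tate (Pts)
open FA.PadicImage (Reach Tangent ReachAll)
open scoped WeierstrassCurve.Affine

local notation "Qb" => AlgebraicClosure ℚ
local notation "GQ" => AlgebraicClosure ℚ ≃ₐ[ℚ] AlgebraicClosure ℚ

namespace FA.SerreCurve

variable {p : ℕ} [hp : Fact p.Prime]

local notation "Mp" => Matrix (Fin 2) (Fin 2) ℤ_[p]

/-- The exponent from which `p`-th powers raise congruences to one. -/
def liftExponent (p : ℕ) : ℕ := if p = 2 then 2 else 1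

/-- `p`-th powers at the small primes. -/
theorem exists_pow_eq_small (h : p = 2 ∨ p = 3) {n : ℕ} (hn : liftExponent p ≤ n) (X Y : Mp) :
    ∃ Z : Mp, (1 + (p : ℤ_[p]) ^ n • X + (p : ℤ_[p]) ^ (n + 1) • Y) ^ p =
      1 + (p : ℤ_[p]) ^ (n + 1) • X + (p : ℤ_[p]) ^ (n + 2) • Z := by
  rcases h with rfl | rfl
  · obtain ⟨j, rfl⟩ := Nat.exists_eq_add_of_le' (show 2 ≤ n from hn)
    refine ⟨Y + (2 : ℤ_[2]) ^ j • ((X + (2 : ℤ_[2]) • Y) * (X + (2 : ℤ_[2]) • Y)), ?_⟩
    rw [pow_two (1 + _ + _)]
    simp only [mul_add, add_mul, mul_one, one_mul, smul_mul_assoc, Algebra.mul_smul_comm, smul_smul,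
      smul_add, Nat.cast_ofNat]
    ring_nf
    module
  · obtain ⟨j, rfl⟩ := Nat.exists_eq_add_of_le' (show 1 ≤ n from hn)
    set A := X + (3 : ℤ_[3]) • Y
    refine ⟨Y + (3 : ℤ_[3]) ^ j • (A * A) + (3 : ℤ_[3]) ^ (2 * j) • (A * A * A), ?_⟩
    rw [show (1 : Matrix (Fin 2) (Fin 2) ℤ_[3]) + ((3 : ℕ) : ℤ_[3]) ^ (j + 1) • X +
        ((3 : ℕ) : ℤ_[3]) ^ (j + 1 + 1) • Y = 1 + (3 : ℤ_[3]) ^ (j + 1) • A by
      simp only [A, smul_add, smul_smul, Nat.cast_ofNat, pow_succ]; abel,
      pow_succ, pow_two]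
    simp only [mul_add, add_mul, mul_one, one_mul, smul_mul_assoc, Algebra.mul_smul_comm, smul_smul,
      smul_add, Nat.cast_ofNat]
    simp only [A, smul_add, smul_smul]
    ring_nf
    module

/-- **Serre's lifting lemma at `2` and `3`.** -/
theorem reach_all_small {G : Type*} [Group G] (r : G →* Mp) (h : p = 2 ∨ p = 3)
    (hbase : ∀ M : Mp, IsUnit M.det → Reach r (liftExponent p + 1) M) (n : ℕ) {M : Mp}
    (hM : IsUnit M.det) : Reach r n M := by
  set k := liftExponent p with hk
  have hk1 : 1 ≤ k := by rw [hk, liftExponent]; split <;> omega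
  rcases le_or_gt n (k + 1) with hle | hlt
  · obtain ⟨g, Y, hg⟩ := hbase M hM
    obtain ⟨j, hj⟩ := Nat.exists_eq_add_of_le hle
    exact ⟨g, (p : ℤ_[p]) ^ j • Y, by rw [hg, hj, smul_smul, pow_add]⟩
  have tangent : ∀ m, k ≤ m → ∀ X : Mp, Tangent r m X := fun m hm => by
    induction m, hm using Nat.le_induction with
    | base =>
      intro X
      refine hbase _ (FA.PadicImage.isUnit_iff_toZMod.mpr ?_)
      obtain ⟨i, hi⟩ := Nat.exists_eq_add_of_le' hk1
      rw [det_fin_two]
      simp [hi, pow_succ]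
    | succ m hm ih =>
      intro X
      obtain ⟨g, Y, hg⟩ := ih X
      obtain ⟨Z, hZ⟩ := exists_pow_eq_small h hm X Y
      exact ⟨g ^ p, Z, by rw [map_pow, hg, hZ]⟩
  obtain ⟨m, rfl⟩ := Nat.exists_eq_add_of_le hlt.le
  clear hlt
  induction m with
  | zero => exact hbase M hM
  | succ m ih =>
    obtain ⟨g, Y, hg⟩ := ih
    obtain ⟨q, Z, hq⟩ := tangent (k + 1 + m) (by omega) (-(M⁻¹ * Y))
    refine ⟨g * q, M * Z + (p : ℤ_[p]) ^ (k + m) • (Y * (-(M⁻¹ * Y) + (p : ℤ_[p]) • Z)), ?_⟩
    rw [map_mul, hg, hq]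
    simp only [mul_add, add_mul, mul_one, smul_mul_assoc, Algebra.mul_smul_comm, smul_smul,
      smul_add, mul_neg, smul_neg, mul_nonsing_inv_cancel_left M Y hM]
    ring_nf
    abel

/-- The level from which the image at `p` is decided: `8`, `9` or `p`. -/
def decidingLevel (p : ℕ) : ℕ := if p = 2 then 8 else if p = 3 then 9 else p

/-- **The image at `p` is decided at `8`, `9` or `p`.** -/
theorem fullAt_pow_of_decidingLevel {W : WeierstrassCurve ℤ} [(ratCurve W).IsElliptic]
    (hfull : FullAt W (decidingLevel p)) (n : ℕ) : FullAt W (p ^ n) := by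
  have hreach : ReachAll p W := by
    by_cases h : p = 2 ∨ p = 3
    · refine fun B n M hM => reach_all_small B.rep h (fun N hN => reach_of_fullAt B ?_ hN) n hM
      have e : p ^ (liftExponent p + 1) = decidingLevel p := by
        rcases h with rfl | rfl <;> rfl
      rw [e]; exact hfull
    · push Not at h
      have h5 : 5 ≤ p := by
        have h2 := hp.out.two_le
        rcases eq_or_ne p 4 with rfl | h4
        · exact absurd hp.out (by decide)
        · omega
      refine FA.PadicImage.reachAll_of_base h5 fun B X hX => ?_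
      let N : Mp := Matrix.of fun i j => ((X i j).val : ℤ_[p])
      have hN : N.map PadicInt.toZMod = X := by
        ext i j
        simp [N]
      have hu : IsUnit N.det := FA.PadicImage.isUnit_iff_toZMod.mpr (by
        rw [RingHom.map_det, RingHom.mapMatrix_apply, hN]; exact hX)
      obtain ⟨σ, Y, hσ⟩ := reach_of_fullAt B (n := 1) (by
        rw [pow_one]; simpa [decidingLevel, h.1, h.2] using hfull) hu
      refine ⟨σ, ?_⟩
      rw [hσ, ← hN]
      ext i j
      simp [Matrix.map_apply]
  unfold FullAt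
  rw [Nat.cast_pow]
  exact FA.PadicImage.exists_smul_eq_pow_of_reach hreach n

end FA.SerreCurve

end
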