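import Fermat.Agent.Root.SummarySurjectiveAdelicSharp
import Fermat.Agent.Root.SummaryAdelicNotSurjective

/-!
# Independence at `2` and `3` relative to a square root of the discriminant

Let `s` be a square root of the discriminant of `W`, attached to its `2`-torsion. Commutators of
automorphisms fixing `s` are trivial on `E[2]`, so their powers split an odd prime off the prime
`2`. At `2` itself the commutators give exactly the matrices of determinant one which are even
permutations of `E[2]`.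
-/

set_option autoImplicit false
set_option linter.unusedSectionVars false
set_option linter.style.haveILetI false

noncomputable section

open Matrix WeierstrassCurve FA.EC FA.Frob FA.RT FA.PadicImage
open FA.RT.Tate (TateBasis)
open FA.TW (rootsFix mem_rootsFix commutator_mem_rootsFix)
open FA.Two (deltaRoot)
open scoped WeierstrassCurve.Affine

local notation "Qb" => AlgebraicClosure ℚ
local notation "GQ" => AlgebraicClosure ℚ ≃ₐ[ℚ] AlgebraicClosure ℚ
local notation "M2" => Matrix (Fin 2) (Fin 2)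

namespace FA.SerreCurve

variable {W : WeierstrassCurve ℤ} [(ratCurve W).IsElliptic]

theorem deltaRoot_ne_zero : deltaRoot W ≠ 0 := fun h0 => by
  have h := FA.Two.deltaRoot_sq W
  rw [h0, zero_pow two_ne_zero, eq_comm, Int.cast_eq_zero] at h
  have := (ratCurve W).isUnit_Δ
  rw [WeierstrassCurve.map_Δ, h, map_zero] at this
  exact not_isUnit_zero this

theorem apply_deltaRoot_cases (σ : GQ) :
    σ (deltaRoot W) = deltaRoot W ∨ σ (deltaRoot W) = -deltaRoot W := by
  rcases em (FA.Two.sgn (curveRep 2 W σ) = 0) with h | h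
  exacts [Or.inl ((FA.Two.apply_deltaRoot W σ).1 h), Or.inr ((FA.Two.apply_deltaRoot W σ).2 h)]

theorem sgn_eq_zero_iff (σ : GQ) :
    FA.Two.sgn (curveRep 2 W σ) = 0 ↔ σ (deltaRoot W) = deltaRoot W := by
  refine ⟨(FA.Two.apply_deltaRoot W σ).1, fun h => by_contra fun hne => ?_⟩
  have h' := (FA.Two.apply_deltaRoot W σ).2 hne
  rw [h] at h'
  exact neg_ne_self.mpr deltaRoot_ne_zero h'.symm

/-- An element of inertia at a prime with odd exponent in the discriminant moves `s`. -/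
theorem exists_inertia_moves {q : ℕ} {A : ValuationSubring Qb} (hm : MultAt W q A) (hq2 : q ≠ 2)
    (hv : ¬ 2 ∣ padicValInt q W.Δ) :
    ∃ σ ∈ A.inertiaSubgroupIn ℚ, σ (deltaRoot W) = -deltaRoot W := by
  obtain ⟨σ, hσ, hne⟩ := exists_inertia_curveRep_ne_one hm hv
  obtain ⟨B⟩ := FA.RT.Tate.exists_tateBasis (p := 2) W
  have h0 := congrArg (PadicInt.toZMod (p := 2)).mapMatrix
    (FA.Two.rep_inertia_mult B hm hq2 hσ hσ)
  rw [map_mul, map_zero, map_sub, map_one, RingHom.mapMatrix_apply, rep_map_toZMod] at h0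
  refine ⟨σ, hσ, (FA.Two.apply_deltaRoot W σ).2 fun hs => ?_⟩
  rcases FA.Two.six_cases (FA.Two.det_curveRep_two_ne W σ) with e | e | e | e | e | e <;>
    rw [e] at h0 hs hne
  · exact hne rfl
  all_goals revert h0 hs; decide

section Fixing

variable {p : ℕ} [hp : Fact p.Prime] {B : TateBasis p W} {n : ℕ}

/-- Some automorphism trivial on the `p ^ n`-torsion moves `s`, for every `n`. -/
def MovesFixing (p : ℕ) (W : WeierstrassCurve ℤ) [(ratCurve W).IsElliptic] : Prop :=
  ∀ n : ℕ, ∃ σ : GQ, (∀ x : ((ratCurve W)⁄Qb).Point, p ^ n • x = 0 → σ • x = x) ∧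
    σ (deltaRoot W) = -deltaRoot W

/-- Inertia at a prime `q ≠ p` of odd exponent in the discriminant moves `s` and, to the power
`p ^ n`, fixes the `p ^ n`-torsion. -/
theorem movesFixing_of_mult {q : ℕ} {A : ValuationSubring Qb}
    (hm : MultAt W q A) (hq2 : q ≠ 2) (hv : ¬ 2 ∣ padicValInt q W.Δ) (hqp : q ≠ p) (hp2 : p ≠ 2) :
    MovesFixing p W := fun n => by
  obtain ⟨σ, hσ, hneg⟩ := exists_inertia_moves hm hq2 hv
  refine ⟨σ ^ p ^ n, fun x hx => inertia_pow_smul hm hqp hσ dvd_rfl hx, ?_⟩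
  have hpow : ∀ k : ℕ, (σ ^ k) (deltaRoot W) = (-1) ^ k * deltaRoot W := by
    intro k
    induction k with
    | zero => simp
    | succ k ih => rw [pow_succ, AlgEquiv.mul_apply, hneg, map_neg, ih, pow_succ]; ring
  rw [hpow, ((hp.out.odd_of_ne_two hp2).pow).neg_one_pow, neg_one_mul]

/-- A matrix modulo `p ^ n` is realised by an automorphism fixing `s`, if one trivial on the
`p ^ n`-torsion moves `s`. -/
theorem exists_acts_fixing (hreach : ReachAll p W) (hmoves : MovesFixing p W)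
    {M : M2 ℤ_[p]} (hM : IsUnit M.det) :
    ∃ d : GQ, Acts B n d M ∧ d (deltaRoot W) = deltaRoot W := by
  obtain ⟨g, hg⟩ := exists_acts (B := B) (n := n) hreach hM
  rcases apply_deltaRoot_cases (W := W) g with h | h
  · exact ⟨g, hg, h⟩
  obtain ⟨σ, hσ, hneg⟩ := hmoves n
  refine ⟨g * σ, fun v => ?_, ?_⟩
  · rw [mul_smul, hσ _ (B.nsmul_phi n v), hg]
  · rw [AlgEquiv.mul_apply, hneg, map_neg, h, neg_neg]

/-- A matrix of determinant one with the action of `g` on the `p ^ n`-torsion. -/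
theorem exists_det_one (hn : 0 < n) {g : GQ} (hg : g ∈ rootsFix p n) :
    ∃ M : M2 ℤ_[p], M.det = 1 ∧ Acts B n g M ∧
      M.map PadicInt.toZMod = (B.rep g).map PadicInt.toZMod := by
  have : NeZero (p ^ n) := ⟨pow_ne_zero _ hp.out.ne_zero⟩
  obtain ⟨y, hy⟩ : ∃ y, (B.rep g).det = 1 + (p : ℤ_[p]) ^ n * y :=
    toZModPow_eq_iff.mp (by
      rw [B.det_rep, FA.RT.Tate.cycP_eq_natCast (a := 1) fun μ hμ => by
        rw [pow_one]; exact mem_rootsFix.mp hg μ hμ, Nat.cast_one, map_one])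
  have hz : PadicInt.toZMod ((p : ℤ_[p]) ^ n * y) = 0 := by
    rw [map_mul, map_pow, map_natCast, ZMod.natCast_self, zero_pow hn.ne', zero_mul]
  obtain ⟨u, hu⟩ : ∃ u, u * (B.rep g).det = 1 := (isUnit_iff_toZMod.mpr (by
    rw [hy, map_add, map_one, hz, add_zero]; exact one_ne_zero)).exists_left_inv
  have hu1 : PadicInt.toZMod u = 1 := by
    have h := congrArg PadicInt.toZMod hu
    rwa [map_mul, hy, map_add, map_one, hz, add_zero, mul_one] at h
  refine ⟨B.rep g * !![u, 0; 0, 1], ?_, Acts.congr (M := B.rep g)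
    (fun v => B.rep_spec g n v) ⟨B.rep g * !![u * y, 0; 0, 0], ?_⟩, ?_⟩
  · rw [det_mul, det_fin_two_of, mul_one, mul_zero, sub_zero, mul_comm, hu]
  · rw [← Algebra.mul_smul_comm, ← mul_add]
    conv_lhs => rw [← mul_one (B.rep g)]
    congr 1
    ext i j
    fin_cases i <;> fin_cases j <;> simp
    linear_combination -hu + u * hy
  · have e : (!![u, 0; 0, 1] : M2 ℤ_[p]).map PadicInt.toZMod = 1 := by
      ext i j; fin_cases i <;> fin_cases j <;> simp [hu1]
    rw [Matrix.map_mul, e, mul_one]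

theorem acts_one : Acts B n 1 1 := fun v => by rw [one_smul, one_mulVec]

theorem acts_pow {g : GQ} {M : M2 ℤ_[p]} (h : Acts B n g M) : ∀ k : ℕ, Acts B n (g ^ k) (M ^ k)
  | 0 => by rw [pow_zero, pow_zero]; exact acts_one
  | k + 1 => by rw [pow_succ, pow_succ]; exact (acts_pow h k).mul h

theorem acts_commutator {a b : GQ} {M M' N N' : M2 ℤ_[p]} (ha : Acts B n a M) (hb : Acts B n b N)
    (hM : M * M' = 1) (hN : N * N' = 1) : Acts B n (a * b * a⁻¹ * b⁻¹) (M * N * M' * N') :=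
  ((ha.mul hb).mul (ha.inv hM)).mul (hb.inv hN)

/-- The matrices modulo `p ^ n` of the elements of `fixer W f S T`. -/
def reps (B : TateBasis p W) (n : ℕ) (f : ℕ → ℕ) (S T : Finset ℕ) :
    Submonoid (M2 ℤ_[p]) where
  carrier := {M | ∃ τ ∈ fixer W f S T, Acts B n τ M}
  one_mem' := ⟨1, one_mem _, acts_one⟩
  mul_mem' := fun ⟨a, ha, ha'⟩ ⟨b, hb, hb'⟩ => ⟨a * b, mul_mem ha hb, ha'.mul hb'⟩

end Fixing

/-- Two automorphisms fixing `s` commute on `E[2]`. -/
theorem curveRep_commutator {a b : GQ} (ha : a (deltaRoot W) = deltaRoot W)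
    (hb : b (deltaRoot W) = deltaRoot W) : curveRep 2 W (a * b * a⁻¹ * b⁻¹) = 1 := by
  have h : curveRep 2 W (a * b) = curveRep 2 W (b * a) := by
    have h1 := (sgn_eq_zero_iff a).mpr ha
    have h2 := (sgn_eq_zero_iff b).mpr hb
    rw [map_mul, map_mul]
    rcases FA.Two.six_cases (FA.Two.det_curveRep_two_ne W a) with e | e | e | e | e | e <;>
      rcases FA.Two.six_cases (FA.Two.det_curveRep_two_ne W b) with e' | e' | e' | e' | e' | e' <;>
      rw [e] at h1 ⊢ <;> rw [e'] at h2 ⊢ <;> revert h1 h2 <;> decide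
  rw [mul_assoc, map_mul, h, ← map_mul, show b * a * (a⁻¹ * b⁻¹) = 1 by group, map_one]

/-- A `2 ^ e`-th power of an automorphism trivial on `E[2]` fixes the `2 ^ e`-torsion. -/
theorem pow_two_smul {c : GQ} (hc : curveRep 2 W c = 1) {e : ℕ} {x : ((ratCurve W)⁄Qb).Point}
    (hx : 2 ^ e • x = 0) : c ^ 2 ^ e • x = x := by
  obtain ⟨B⟩ := FA.RT.Tate.exists_tateBasis (p := 2) W
  obtain ⟨v, rfl⟩ := B.surj e x hx
  obtain ⟨X, hX⟩ := exists_eq_add (A := B.rep c) (B := 1) (by
    rw [rep_map_toZMod, hc]; exact (map_one (PadicInt.toZMod (p := 2)).mapMatrix).symm)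
  obtain ⟨Y, hY⟩ := exists_pow_congr_one X e
  refine (B.rep_spec _ e v).trans (B.phi_eq_iff.mpr fun i => ?_)
  rw [map_pow, hX, hY, add_mulVec, smul_mulVec, one_mulVec, Pi.add_apply, Pi.smul_apply,
    smul_eq_mul, map_add, map_mul, map_pow, map_natCast, pow_succ, ← Nat.cast_pow,
    ZMod.natCast_self, zero_mul, zero_mul, add_zero]

/-- **Splitting an odd prime off `2`**: an automorphism fixing the roots of unity can be moved into
those fixing the `2`-power torsion. -/
theorem exists_mem_fixer_odd {p : ℕ} [hp : Fact p.Prime] (hp2 : p ≠ 2) (hreach : ReachAll p W)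
    (hmoves : MovesFixing p W) (f : ℕ → ℕ) {S T : Finset ℕ}
    (hS : ∀ l ∈ S, l = 2) (hT : ∀ l ∈ T, l.Prime) (g : GQ) (hg : g ∈ rootsFix p (f p)) :
    ∃ τ ∈ fixer W f S T, ∀ x : ((ratCurve W)⁄Qb).Point, p ^ f p • x = 0 → τ • x = g • x := by
  rcases Nat.eq_zero_or_pos (f p) with h0 | hpos
  · refine ⟨1, one_mem _, fun x hx => ?_⟩
    rw [h0, pow_zero, one_nsmul] at hx
    rw [hx, FA.Local.gal_smul_zero, FA.Local.gal_smul_zero]
  obtain ⟨B⟩ := FA.RT.Tate.exists_tateBasis (p := p) W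
  set n := f p
  set m := 2 ^ f 2
  have : NeZero (p ^ n) := ⟨pow_ne_zero _ hp.out.ne_zero⟩
  have hm' : ¬ p ∣ m := fun hd =>
    hp2 ((Nat.prime_dvd_prime_iff_eq hp.out Nat.prime_two).mp (hp.out.dvd_of_dvd_pow hd))
  obtain ⟨m', hm''⟩ : ∃ c, c * (m : ℤ_[p]) = 1 := (isUnit_iff_toZMod.mpr (by
    rw [map_natCast, Ne, ZMod.natCast_eq_zero_iff]; exact hm')).exists_left_inv
  obtain ⟨w, hw⟩ : ∃ w, w * (2 : ℤ_[p]) = 1 := (isUnit_iff_toZMod.mpr (by
    rw [map_ofNat]
    intro e
    have : p ∣ 2 := (ZMod.natCast_eq_zero_iff 2 p).mp (by exact_mod_cast e)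
    exact hp2 ((Nat.prime_dvd_prime_iff_eq hp.out Nat.prime_two).mp this))).exists_left_inv
  have hu : IsUnit (!![2, 0; 0, 1] : M2 ℤ_[p]).det := by
    simpa [det_fin_two] using IsUnit.of_mul_eq_one_right w hw
  obtain ⟨d, hd, hds⟩ := exists_acts_fixing (B := B) (n := n) hreach hmoves hu
  -- a power of the commutator realises every power of a unipotent matrix
  have key : ∀ (M M' C : M2 ℤ_[p]), M * M' = 1 → M' * M = 1 →
      !![2, 0; 0, 1] * M * !![w, 0; 0, 1] * M' = C → (C - 1) * (C - 1) = 0 →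
      ∀ z : ℤ_[p], 1 + z • (C - 1) ∈ reps B n f S T := by
    intro M M' C hMM' hM'M hC hsq z
    obtain ⟨h, hh, hhs⟩ := exists_acts_fixing (B := B) (n := n) hreach hmoves
      (M := M) (IsUnit.of_mul_eq_one M'.det (by rw [← det_mul, hMM', det_one]))
    have hc : Acts B n (d * h * d⁻¹ * h⁻¹) C := hC ▸ acts_commutator hd hh
      (by simp [one_fin_two, mul_comm (2 : ℤ_[p]) w, hw]) hMM'
    have hone := curveRep_commutator hds hhs
    obtain ⟨y, hy⟩ := (toZModPow_eq_iff (n := n)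
      (x := ((PadicInt.toZModPow n (z * m')).val : ℤ_[p])) (y := z * m')).mp
      (by rw [map_natCast, ZMod.natCast_zmod_val])
    have hmem : (d * h * d⁻¹ * h⁻¹) ^ m ∈ fixer W f S T :=
      ⟨fun l hl => pow_mem (commutator_mem_rootsFix (hT l hl) (f l) d h) m, fun l hl x hx => by
        rw [hS l hl] at hx; exact pow_two_smul hone hx⟩
    refine ⟨((d * h * d⁻¹ * h⁻¹) ^ m) ^ (PadicInt.toZModPow n (z * m')).val, pow_mem hmem _, ?_⟩
    rw [← pow_mul]
    refine (acts_pow hc _).congr ⟨((m : ℤ_[p]) * y) • (C - 1), ?_⟩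
    rw [pow_eq_of_sq_eq_zero hsq, smul_smul, add_assoc, ← add_smul, Nat.cast_mul, hy]
    congr 2
    linear_combination z * hm''
  have hU : ∀ z, (!![1, z; 0, 1] : M2 ℤ_[p]) ∈ reps B n f S T := fun z => by
    have h := key !![1, 1; 0, 1] !![1, -1; 0, 1] !![1, 1; 0, 1] (by simp [one_fin_two])
      (by simp [one_fin_two]) (by
        ext i j; fin_cases i <;> fin_cases j <;>
          simp [Matrix.mul_apply, Fin.sum_univ_two, mul_comm (2 : ℤ_[p]) w, hw]
        ring) (by
        ext i j; fin_cases i <;> fin_cases j <;> simp [Matrix.mul_apply, Fin.sum_univ_two]) z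
    convert h using 1
    ext i j; fin_cases i <;> fin_cases j <;> simp
  have hL : ∀ z, (!![1, 0; z, 1] : M2 ℤ_[p]) ∈ reps B n f S T := fun z => by
    have h := key !![1, 0; -2, 1] !![1, 0; 2, 1] !![1, 0; 1, 1] (by simp [one_fin_two])
      (by simp [one_fin_two]) (by
        ext i j; fin_cases i <;> fin_cases j <;>
          simp [Matrix.mul_apply, Fin.sum_univ_two, mul_comm (2 : ℤ_[p]) w, hw]
        norm_num) (by
        ext i j; fin_cases i <;> fin_cases j <;> simp [Matrix.mul_apply, Fin.sum_univ_two]) z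
    convert h using 1
    ext i j; fin_cases i <;> fin_cases j <;> simp
  obtain ⟨M, hdet, hact, -⟩ := exists_det_one (B := B) hpos hg
  obtain ⟨τ, hτ, hτM⟩ := mem_of_elementary_local (reps B n f S T) hU hL hdet
  refine ⟨τ, hτ, fun x hx => ?_⟩
  obtain ⟨v, rfl⟩ := B.surj _ x hx
  exact (hτM v).trans (hact v).symm

/-- **The prime `2`**: an automorphism fixing the roots of unity and `s` can be moved into those
fixing all the roots of unity in question. -/
theorem exists_mem_fixer_two (hreach : ReachAll 2 W) (f : ℕ → ℕ) {T : Finset ℕ}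
    (hT : ∀ l ∈ T, l.Prime) (g : GQ) (hg : g ∈ rootsFix 2 (f 2))
    (hgs : g (deltaRoot W) = deltaRoot W) :
    ∃ τ ∈ fixer W f ∅ T, ∀ x : ((ratCurve W)⁄Qb).Point, 2 ^ f 2 • x = 0 → τ • x = g • x := by
  rcases Nat.eq_zero_or_pos (f 2) with h0 | hpos
  · refine ⟨1, one_mem _, fun x hx => ?_⟩
    rw [h0, pow_zero, one_nsmul] at hx
    rw [hx, FA.Local.gal_smul_zero, FA.Local.gal_smul_zero]
  obtain ⟨B⟩ := FA.RT.Tate.exists_tateBasis (p := 2) W
  set n := f 2
  have key : ∀ {M M' N N' C : M2 ℤ_[2]}, M * M' = 1 → N * N' = 1 →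
      M * N * M' * N' = C → C ∈ reps B n f ∅ T := by
    intro M M' N N' C hM hN hC
    obtain ⟨a, ha⟩ := exists_acts (B := B) (n := n) hreach
      (M := M) (IsUnit.of_mul_eq_one M'.det (by rw [← det_mul, hM, det_one]))
    obtain ⟨b, hb⟩ := exists_acts (B := B) (n := n) hreach
      (M := N) (IsUnit.of_mul_eq_one N'.det (by rw [← det_mul, hN, det_one]))
    exact ⟨a * b * a⁻¹ * b⁻¹, ⟨fun l hl => commutator_mem_rootsFix (hT l hl) (f l) a b,
      fun l hl => absurd hl (Finset.notMem_empty l)⟩, hC ▸ acts_commutator ha hb hM hN⟩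
  have hodd : ∀ z : ℤ_[2], ∃ w, (1 + 2 * z) * w = 1 := fun z => (isUnit_iff_toZMod.mpr (by
    rw [map_add, map_one, map_mul, map_ofNat, show (2 : ZMod 2) = 0 from rfl, zero_mul, add_zero]
    exact one_ne_zero)).exists_right_inv
  have hU : ∀ z, (!![1, 2 * z; 0, 1] : M2 ℤ_[2]) ∈ reps B n f ∅ T := fun z => by
    obtain ⟨w, hw⟩ := hodd z
    refine key (M := !![1 + 2 * z, 0; 0, 1]) (M' := !![w, 0; 0, 1]) (N := !![1, 1; 0, 1])
      (N' := !![1, -1; 0, 1]) (by simp [one_fin_two, hw]) (by simp [one_fin_two]) ?_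
    ext i j; fin_cases i <;> fin_cases j <;> simp [Matrix.mul_apply, Fin.sum_univ_two, hw]
  have hL : ∀ z, (!![1, 0; 2 * z, 1] : M2 ℤ_[2]) ∈ reps B n f ∅ T := fun z => by
    obtain ⟨w, hw⟩ := hodd z
    refine key (M := !![1, 0; 0, 1 + 2 * z]) (M' := !![1, 0; 0, w]) (N := !![1, 0; 1, 1])
      (N' := !![1, 0; -1, 1]) (by simp [one_fin_two, hw]) (by simp [one_fin_two]) ?_
    ext i j; fin_cases i <;> fin_cases j <;> simp [Matrix.mul_apply, Fin.sum_univ_two, hw]
  have hD : ∀ t t' : ℤ_[2], t * t' = 1 → (!![t, 0; 0, t'] : M2 ℤ_[2]) ∈ reps B n f ∅ T :=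
    fun t t' ht => by
    refine key (M := !![t, 0; 0, 1]) (M' := !![t', 0; 0, 1]) (N := !![0, 1; 1, 0])
      (N' := !![0, 1; 1, 0]) (by simp [one_fin_two, ht]) (by simp [one_fin_two]) ?_
    ext i j; fin_cases i <;> fin_cases j <;> simp [Matrix.mul_apply, Fin.sum_univ_two]
  have hK : (!![1, -1; 1, 0] : M2 ℤ_[2]) ∈ reps B n f ∅ T :=
    key (M := !![0, 1; 1, 0]) (M' := !![0, 1; 1, 0]) (N := !![1, 1; 0, 1])
      (N' := !![1, -1; 0, 1]) (by simp [one_fin_two]) (by simp [one_fin_two])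
      (by simp)
  have hK' : (!![0, 1; -1, 1] : M2 ℤ_[2]) ∈ reps B n f ∅ T :=
    key (M := !![1, 1; 0, 1]) (M' := !![1, -1; 0, 1]) (N := !![0, 1; 1, 0])
      (N' := !![0, 1; 1, 0]) (by simp [one_fin_two]) (by simp [one_fin_two])
      (by simp)
  -- determinant one and congruent to one modulo two
  have hone : ∀ M : M2 ℤ_[2], M.det = 1 → M.map PadicInt.toZMod = 1 → M ∈ reps B n f ∅ T :=
    fun M hdet h1 => by
    obtain ⟨X, hX⟩ := exists_eq_add (A := M) (B := 1)
      (h1.trans (map_one (PadicInt.toZMod (p := 2)).mapMatrix).symm)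
    have h00 : PadicInt.toZMod (M 0 0) = 1 := congrFun (congrFun h1 0) 0
    obtain ⟨t', ht⟩ := (isUnit_iff_toZMod.mpr (by rw [h00]; exact one_ne_zero)).exists_right_inv
    have h10 : M 1 0 = 2 * X 1 0 := by rw [hX]; simp
    have h01 : M 0 1 = 2 * X 0 1 := by rw [hX]; simp
    have e : M = !![1, 0; 2 * (X 1 0 * t'), 1] * !![M 0 0, 0; 0, t'] *
        !![1, 2 * (X 0 1 * t'); 0, 1] := by
      rw [det_fin_two] at hdet
      ext i j; fin_cases i <;> fin_cases j <;> simp [Matrix.mul_apply, Fin.sum_univ_two]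
      · linear_combination h01 - 2 * X 0 1 * ht
      · linear_combination h10 - 2 * X 1 0 * ht
      · rw [h01, h10] at hdet
        linear_combination t' * hdet - (M 1 1 + 4 * X 1 0 * X 0 1 * t') * ht
    rw [e]
    exact mul_mem (mul_mem (hL _) (hD _ _ ht)) (hU _)
  obtain ⟨M, hdet, hact, hmod⟩ := exists_det_one (B := B) hpos hg
  suffices hmem : M ∈ reps B n f ∅ T by
    obtain ⟨τ, hτ, hτM⟩ := hmem
    refine ⟨τ, hτ, fun x hx => ?_⟩
    obtain ⟨v, rfl⟩ := B.surj _ x hx
    exact (hτM v).trans (hact v).symm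
  rw [rep_map_toZMod] at hmod
  have hs := (sgn_eq_zero_iff g).mpr hgs
  have hshift : ∀ K K' : M2 ℤ_[2], K' * K = 1 → K.det = 1 → K ∈ reps B n f ∅ T →
      M.map PadicInt.toZMod = K.map PadicInt.toZMod → M ∈ reps B n f ∅ T := by
    intro K K' hKK hKdet hmemK hmodK
    rw [show M = (M * K') * K by rw [mul_assoc, hKK, mul_one]]
    refine mul_mem (hone _ ?_ ?_) hmemK
    · have h := congrArg Matrix.det hKK
      rw [det_mul, hKdet, mul_one, det_one] at h
      rw [det_mul, hdet, h, one_mul]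
    · rw [Matrix.map_mul, hmodK, ← Matrix.map_mul, mul_eq_one_comm.mp hKK]
      exact map_one (PadicInt.toZMod (p := 2)).mapMatrix
  rcases FA.Two.six_cases (FA.Two.det_curveRep_two_ne W g) with e | e | e | e | e | e <;>
    rw [e] at hs hmod
  · exact hone M hdet hmod
  · refine hshift !![0, 1; -1, 1] !![1, -1; 1, 0] (by simp [one_fin_two]) (by simp [det_fin_two])
      hK' (hmod.trans ?_)
    ext i j; fin_cases i <;> fin_cases j <;> simp [CharTwo.neg_eq]
  · refine hshift !![1, -1; 1, 0] !![0, 1; -1, 1] (by simp [one_fin_two]) (by simp [det_fin_two])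
      hK (hmod.trans ?_)
    ext i j; fin_cases i <;> fin_cases j <;> simp [CharTwo.neg_eq]
  all_goals exact absurd hs (by decide)

end FA.SerreCurve

end
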