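import Fermat.Agent.SerreCurve.EntangledParam
import Fermat.Agent.SerreCurve.Lifting

/-!
# The `3`-adic image from one trace modulo `9`

Let Galois induce all of `Aut E[3]` and let some element have determinant `1` modulo `3` and trace
`3` or `6` modulo `9`. Its fourth power is `1 + 3 X` with `X` not scalar modulo `3`. The conjugates
of such an `X` span the matrices of trace zero, and the cyclotomic character gives a trace which is
not zero, so the image is everything modulo `9` and hence modulo every power of `3`.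
-/

set_option autoImplicit false
set_option linter.unusedSectionVars false
set_option linter.style.haveILetI false

noncomputable section

open Matrix WeierstrassCurve WeierstrassCurve.Affine FA.EC FA.Frob FA.RT
open FA.RT.Tate (Pts TateBasis)
open FA.PadicImage (Reach ReachAll)
open scoped WeierstrassCurve.Affine

local notation "Qb" => AlgebraicClosure ℚ
local notation "GQ" => AlgebraicClosure ℚ ≃ₐ[ℚ] AlgebraicClosure ℚ
local notation "M2" => Matrix (Fin 2) (Fin 2)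

namespace FA.SerreCurve

/-- Some matrices modulo `3` with their inverses. -/
def adjointPairs : List (M2 (ZMod 3) × M2 (ZMod 3)) :=
  [(1, 1), (!![1, 0; 0, 2], !![1, 0; 0, 2]), (!![1, 1; 0, 1], !![1, 2; 0, 1]),
    (!![1, 2; 0, 1], !![1, 1; 0, 1])]

theorem adjointPairs_spec : ∀ q ∈ adjointPairs, q.1 * q.2 = 1 := by
  intro q hq
  simp only [adjointPairs, List.mem_cons, List.not_mem_nil, or_false] at hq
  rcases hq with rfl | rfl | rfl | rfl <;> decide +kernel

theorem exists_elementary_combination : ∀ X : M2 (ZMod 3),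
    (X 0 1 ≠ 0 ∨ X 1 0 ≠ 0 ∨ X 0 0 ≠ X 1 1) →
    ∃ a ∈ adjointPairs, ∃ b ∈ adjointPairs, ∃ c ∈ adjointPairs, ∃ d ∈ adjointPairs,
      a.1 * X * a.2 + 2 • (b.1 * X * b.2) + (c.1 * X * c.2 + 2 • (d.1 * X * d.2)) =
        !![0, 1; 0, 0] := by decide +kernel

theorem swap_elementary :
    (!![0, 1; 1, 0] : M2 (ZMod 3)) * !![0, 1; 1, 0] = 1 ∧
    (!![0, 1; 1, 0] : M2 (ZMod 3)) * !![0, 1; 0, 0] * !![0, 1; 1, 0] = !![0, 0; 1, 0] ∧
    (!![1, 1; 0, 1] : M2 (ZMod 3)) * !![1, 2; 0, 1] = 1 ∧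
    (!![1, 1; 0, 1] : M2 (ZMod 3)) * !![0, 0; 1, 0] * !![1, 2; 0, 1] + 2 • !![0, 0; 1, 0] +
      !![0, 1; 0, 0] = !![1, 0; 0, 2] := by decide +kernel

theorem combination_traceless : ∀ X Z : M2 (ZMod 3), Z 0 0 + Z 1 1 = 1 →
    X = (X 0 0 + X 1 1).val • Z +
      ((X 0 1 - (X 0 0 + X 1 1) * Z 0 1).val • !![0, 1; 0, 0] +
        ((X 1 0 - (X 0 0 + X 1 1) * Z 1 0).val • !![0, 0; 1, 0] +
          (X 0 0 - (X 0 0 + X 1 1) * Z 0 0).val • !![1, 0; 0, 2])) := by decide +kernel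

theorem commutator_elementary :
    (!![2, 0; 0, 1] : M2 (ZMod 3)) * !![2, 0; 0, 1] = 1 ∧
    (!![1, 2; 0, 1] : M2 (ZMod 3)) * !![1, 1; 0, 1] = 1 ∧
    (!![2, 0; 0, 1] : M2 (ZMod 3)) * !![1, 1; 0, 1] * !![2, 0; 0, 1] * !![1, 2; 0, 1] =
      !![1, 1; 0, 1] ∧
    (!![2, 0; 0, 1] : M2 (ZMod 3)).det ≠ 0 ∧ (!![1, 1; 0, 1] : M2 (ZMod 3)).det ≠ 0 ∧
    (!![0, 1; 1, 0] : M2 (ZMod 3)).det ≠ 0 := by decide +kernel

theorem four_mod_nine : (4 : ZMod (3 ^ 2)) ≠ 0 ∧ ¬ 3 ∣ 4 := by decide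

theorem toZMod_three : PadicInt.toZMod (3 : ℤ_[3]) = (0 : ZMod 3) := by
  rw [map_ofNat]
  rfl

/-- The coefficient of a matrix with square `-1` is not scalar. -/
theorem not_scalar_of_sq : ∀ (M : M2 (ZMod 3)) (s u : ZMod 3), s ≠ 0 → M.det = 1 →
    M 0 0 + M 1 1 = 0 →
    (u • (1 : M2 (ZMod 3)) + s • M) 0 1 ≠ 0 ∨ (u • (1 : M2 (ZMod 3)) + s • M) 1 0 ≠ 0 ∨
      (u • (1 : M2 (ZMod 3)) + s • M) 0 0 ≠ (u • (1 : M2 (ZMod 3)) + s • M) 1 1 := by
  decide +kernel

variable {W : WeierstrassCurve ℤ} [(ratCurve W).IsElliptic] (B : TateBasis 3 W)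

/-- `1 + 3 X` comes from Galois, `X` taken modulo `3`. -/
def InTangentThree (X : M2 (ZMod 3)) : Prop :=
  ∃ (g : GQ) (Y : M2 ℤ_[3]), B.rep g = 1 + (3 : ℤ_[3]) • Y ∧ Y.map PadicInt.toZMod = X

theorem inTangentThree_zero : InTangentThree B 0 :=
  ⟨1, 0, by rw [map_one, smul_zero, add_zero], by simp⟩

theorem inTangentThree_add {X X' : M2 (ZMod 3)} (h : InTangentThree B X)
    (h' : InTangentThree B X') : InTangentThree B (X + X') := by
  obtain ⟨g, Y, hg, rfl⟩ := h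
  obtain ⟨g', Y', hg', rfl⟩ := h'
  refine ⟨g * g', Y + Y' + (3 : ℤ_[3]) • (Y * Y'), ?_, ?_⟩
  · rw [map_mul, hg, hg']
    simp only [mul_add, add_mul, mul_one, one_mul, smul_mul_assoc, Algebra.mul_smul_comm,
      smul_smul, smul_add]
    abel
  · ext i j
    simp [toZMod_three]

theorem inTangentThree_nsmul {X : M2 (ZMod 3)} (h : InTangentThree B X) :
    ∀ k : ℕ, InTangentThree B (k • X)
  | 0 => by rw [zero_smul]; exact inTangentThree_zero B
  | k + 1 => by rw [succ_nsmul]; exact inTangentThree_add B (inTangentThree_nsmul h k) h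

theorem inTangentThree_conj (hfull : FullAt W 3) {X P P' : M2 (ZMod 3)}
    (h : InTangentThree B X) (hP : P * P' = 1) : InTangentThree B (P * X * P') := by
  obtain ⟨g, Y, hg, rfl⟩ := h
  obtain ⟨k, hk⟩ := exists_curveRep_of_fullAt hfull (K := P)
    (IsUnit.of_mul_eq_one P'.det (by rw [← det_mul, hP, det_one])).ne_zero
  refine ⟨k * g * k⁻¹, B.rep k * Y * B.rep k⁻¹, ?_, ?_⟩
  · rw [map_mul, map_mul, hg, mul_add, mul_one, add_mul, ← map_mul, mul_inv_cancel, map_one,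
      Algebra.mul_smul_comm, smul_mul_assoc]
  · rw [Matrix.map_mul, Matrix.map_mul, FA.PadicImage.rep_map_toZMod, hk,
      FA.PadicImage.rep_map_toZMod, curveRep_inv_eq hk hP]

/-- An element trivial on `E[3]` with determinant `4` modulo `9`. -/
theorem exists_det_four (hfull : FullAt W 3) : ∃ g : GQ, curveRep 3 W g = 1 ∧
    PadicInt.toZModPow 2 (B.rep g).det = 4 := by
  obtain ⟨h, hh⟩ := FA.PadicImage.exists_cyclotomic_action_pow (p := 3) 2 (a := 4)
    four_mod_nine.2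
  have hdet : PadicInt.toZModPow 2 (B.rep h).det = 4 := by
    rw [B.det_rep, FA.RT.Tate.cycP_eq_natCast hh]
    rfl
  let H : Submonoid (M2 (ZMod 3)) :=
    { carrier := {M | ∃ g : GQ, curveRep 3 W g = M ∧ PadicInt.toZModPow 2 (B.rep g).det = 1}
      one_mem' := ⟨1, map_one _, by rw [map_one, det_one, map_one]⟩
      mul_mem' := fun ⟨a, ha, ha'⟩ ⟨b, hb, hb'⟩ => ⟨a * b, by rw [map_mul, ha, hb],
        by rw [map_mul, det_mul, map_mul, ha', hb', one_mul]⟩ }
  obtain ⟨i1, i2, hc, hd, hu, hj⟩ := commutator_elementary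
  obtain ⟨d, hd'⟩ := exists_curveRep_of_fullAt hfull hd
  obtain ⟨u, hu'⟩ := exists_curveRep_of_fullAt hfull hu
  obtain ⟨J, hJ⟩ := exists_curveRep_of_fullAt hfull hj
  have hinv : ∀ x : GQ, (B.rep x⁻¹).det * (B.rep x).det = 1 := fun x => by
    rw [← det_mul, ← map_mul, inv_mul_cancel, map_one, det_one]
  have hU1 : (!![1, 1; 0, 1] : M2 (ZMod 3)) ∈ H := by
    refine ⟨d * u * d⁻¹ * u⁻¹, ?_, ?_⟩
    · rw [map_mul, map_mul, map_mul, hd', hu', curveRep_inv_eq hd' i1,
        curveRep_inv_eq hu' (mul_eq_one_comm.mp i2), hc]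
    · rw [map_mul, map_mul, map_mul, det_mul, det_mul, det_mul]
      rw [show (B.rep d).det * (B.rep u).det * (B.rep d⁻¹).det * (B.rep u⁻¹).det =
        ((B.rep d⁻¹).det * (B.rep d).det) * ((B.rep u⁻¹).det * (B.rep u).det) by ring,
        hinv, hinv, one_mul, map_one]
  have hU : ∀ z, (!![1, z; 0, 1] : M2 (ZMod 3)) ∈ H := fun z => by
    have hpow : ∀ k : ℕ, (!![1, (k : ZMod 3); 0, 1] : M2 (ZMod 3)) ∈ H := fun k => by
      induction k with
      | zero => simp [← one_fin_two, one_mem H]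
      | succ k ih =>
        convert mul_mem ih hU1 using 1
        ext i j; fin_cases i <;> fin_cases j <;>
          simp [Matrix.mul_apply, Fin.sum_univ_two, add_comm]
    simpa using hpow z.val
  have hL : ∀ z, (!![1, 0; z, 1] : M2 (ZMod 3)) ∈ H := fun z => by
    obtain ⟨g, hg, hg'⟩ := hU z
    refine ⟨J * g * J⁻¹, ?_, ?_⟩
    · rw [map_mul, map_mul, hJ, hg, curveRep_inv_eq hJ swap_elementary.1]
      ext i j; fin_cases i <;> fin_cases j <;> simp [Matrix.mul_apply, Fin.sum_univ_two]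
    · rw [map_mul, map_mul, det_mul, det_mul, mul_comm (B.rep J).det, mul_assoc,
        mul_comm (B.rep J).det, hinv, mul_one, hg']
  have hdet3 : (curveRep 3 W h).det = 1 := by
    rw [det_curveRep (W := W) h 4 fun μ hμ => hh μ (by rw [pow_succ, pow_one, pow_mul, hμ,
      one_pow])]
    rfl
  obtain ⟨s, hs, hs'⟩ := FA.PadicImage.mem_of_elementary_local H hU hL hdet3
  refine ⟨h * s⁻¹, ?_, ?_⟩
  · rw [map_mul, ← hs, ← map_mul, mul_inv_cancel, map_one]
  · have e : PadicInt.toZModPow 2 (B.rep s⁻¹).det = 1 := by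
      have e' := congrArg (PadicInt.toZModPow 2) (hinv s)
      rwa [map_mul, hs', mul_one, map_one] at e'
    rw [map_mul, det_mul, map_mul, hdet, e, mul_one]

theorem exists_tangent_trace_one (hfull : FullAt W 3) :
    ∃ Z : M2 (ZMod 3), InTangentThree B Z ∧ Z 0 0 + Z 1 1 = 1 := by
  obtain ⟨g, hg, hdet⟩ := exists_det_four B hfull
  obtain ⟨Y, hY⟩ := FA.PadicImage.exists_eq_add (A := B.rep g) (B := 1) (by
    rw [FA.PadicImage.rep_map_toZMod, hg]
    exact (map_one (PadicInt.toZMod (p := 3)).mapMatrix).symm)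
  refine ⟨_, ⟨g, Y, hY, rfl⟩, ?_⟩
  obtain ⟨y, hy⟩ := (FA.PadicImage.toZModPow_eq_iff (n := 2) (x := (B.rep g).det)
    (y := (4 : ℤ_[3]))).mp (by rw [hdet, map_ofNat])
  rw [hY, det_fin_two] at hy
  simp at hy
  have h3 : Y 0 0 + Y 1 1 = 1 + 3 * (y - (Y 0 0 * Y 1 1 - Y 0 1 * Y 1 0)) :=
    mul_left_cancel₀ (show (3 : ℤ_[3]) ≠ 0 by norm_num) (by linear_combination hy)
  have h := congrArg PadicInt.toZMod h3
  simp [toZMod_three] at h
  simpa using h

/-- **Everything modulo `9`** from a matrix with square `-1` modulo `3` and trace prime to `9`. -/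
theorem reach_two_of_trace (hfull : FullAt W 3) {σ : GQ} {a q : ℤ}
    (htr : (B.rep σ).trace = (a : ℤ_[3])) (hdet : (B.rep σ).det = (q : ℤ_[3]))
    (hq : q % 3 = 1) (ha : a % 9 = 3 ∨ a % 9 = 6) {M : M2 ℤ_[3]} (hM : IsUnit M.det) :
    Reach B.rep 2 M := by
  obtain ⟨s, rfl⟩ : (3 : ℤ) ∣ a := by omega
  obtain ⟨u, rfl⟩ : ∃ u, q = 1 + 3 * u := ⟨q / 3, by omega⟩
  have hs : ((s : ℤ) : ZMod 3) ≠ 0 := fun e => by
    have := (ZMod.intCast_zmod_eq_zero_iff_dvd _ 3).mp e
    omega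
  set R := B.rep σ with hR
  have hsq : R * R = ((3 * s : ℤ) : ℤ_[3]) • R - ((1 + 3 * u : ℤ) : ℤ_[3]) • 1 := by
    rw [← htr, ← hdet]
    exact FA.LocalDef.mul_self_two R
  push_cast at hsq hdet htr
  have h4 : B.rep (σ * σ * (σ * σ)) = 1 + (3 : ℤ_[3]) •
      ((2 * (u : ℤ_[3]) + 3 * u ^ 2) • (1 : M2 ℤ_[3]) +
        ((3 * (s : ℤ_[3]) ^ 2) • (R * R) - (2 * (s : ℤ_[3]) * (1 + 3 * u)) • R)) := by
    rw [map_mul, map_mul, ← hR, hsq]
    simp only [sub_mul, mul_sub, smul_mul_assoc, Algebra.mul_smul_comm, mul_one, one_mul, hsq]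
    module
  have hX : InTangentThree B ((-((u : ℤ) : ZMod 3)) • (1 : M2 (ZMod 3)) +
      ((s : ℤ) : ZMod 3) • curveRep 3 W σ) := by
    refine ⟨_, _, h4, ?_⟩
    rw [← FA.PadicImage.rep_map_toZMod B σ, ← hR]
    ext i j
    have h2 : (2 : ZMod 3) = -1 := rfl
    have h2' : PadicInt.toZMod (2 : ℤ_[3]) = (-1 : ZMod 3) := by rw [map_ofNat]; exact h2
    rcases eq_or_ne i j with rfl | hij
    · simp [toZMod_three, h2']
    · simp [toZMod_three, h2', Matrix.one_apply_ne hij]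
  have hdet3 : (curveRep 3 W σ).det = 1 := by
    rw [← FA.PadicImage.rep_map_toZMod B σ, ← RingHom.mapMatrix_apply, ← RingHom.map_det, hdet]
    simp [toZMod_three]
  have htr3 : curveRep 3 W σ 0 0 + curveRep 3 W σ 1 1 = 0 := by
    rw [← FA.PadicImage.rep_map_toZMod B σ, Matrix.map_apply, Matrix.map_apply, ← map_add,
      ← trace_fin_two, htr]
    simp [toZMod_three]
  obtain ⟨a', ha', b', hb', c', hc', d', hd', he⟩ :=
    exists_elementary_combination _ (not_scalar_of_sq _ _ (-((u : ℤ) : ZMod 3)) hs hdet3 htr3)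
  have hcj := fun {q : M2 (ZMod 3) × M2 (ZMod 3)} (hq : q ∈ adjointPairs) =>
    inTangentThree_conj B hfull hX (adjointPairs_spec q hq)
  have hE : InTangentThree B !![0, 1; 0, 0] := he ▸ inTangentThree_add B
    (inTangentThree_add B (hcj ha') (inTangentThree_nsmul B (hcj hb') 2))
    (inTangentThree_add B (hcj hc') (inTangentThree_nsmul B (hcj hd') 2))
  have hF : InTangentThree B !![0, 0; 1, 0] :=
    swap_elementary.2.1 ▸ inTangentThree_conj B hfull hE swap_elementary.1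
  have hH : InTangentThree B !![1, 0; 0, 2] := swap_elementary.2.2.2 ▸ inTangentThree_add B
    (inTangentThree_add B (inTangentThree_conj B hfull hF swap_elementary.2.2.1)
      (inTangentThree_nsmul B hF 2)) hE
  obtain ⟨Z, hZ, hZ1⟩ := exists_tangent_trace_one B hfull
  have hall : ∀ X : M2 (ZMod 3), InTangentThree B X := fun X =>
    (combination_traceless X Z hZ1).symm ▸ inTangentThree_add B (inTangentThree_nsmul B hZ _)
      (inTangentThree_add B (inTangentThree_nsmul B hE _)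
        (inTangentThree_add B (inTangentThree_nsmul B hF _) (inTangentThree_nsmul B hH _)))
  obtain ⟨g, hg⟩ := exists_curveRep_of_fullAt hfull (K := M.map PadicInt.toZMod) (by
    rw [← RingHom.mapMatrix_apply, ← RingHom.map_det]
    exact FA.PadicImage.isUnit_iff_toZMod.mp hM)
  obtain ⟨Y, hY⟩ := FA.PadicImage.exists_eq_add (A := B.rep g) (B := M)
    (by rw [FA.PadicImage.rep_map_toZMod, hg])
  obtain ⟨g', Y', hg', hY'⟩ := hall ((-(M⁻¹ * Y)).map PadicInt.toZMod)
  obtain ⟨V, hV⟩ := FA.PadicImage.exists_eq_add hY'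
  refine ⟨g * g', M * V + Y * (-(M⁻¹ * Y) + (3 : ℤ_[3]) • V), ?_⟩
  rw [map_mul, hY, hg', hV, Nat.cast_ofNat]
  simp only [mul_add, add_mul, mul_one, smul_mul_assoc, Algebra.mul_smul_comm, smul_smul,
    smul_add, mul_neg, smul_neg, Matrix.mul_nonsing_inv_cancel_left M Y hM, pow_two]
  abel

/-- **The `3`-adic image from one trace**: full image on `E[3]` and a good `q ≡ 1 mod 3` with
`a_q ≡ 3, 6 mod 9` give every automorphism of every `E[3 ^ n]`. -/
theorem fullAt_three_pow_of_trace (hfull : FullAt W 3) {q : ℕ} (hq : q.Prime) (hq1 : q % 3 = 1)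
    (hgood : W.IsGoodPrimeFor q) (ha : W.apOfModel q % 9 = 3 ∨ W.apOfModel q % 9 = 6) (n : ℕ) :
    FullAt W (3 ^ n) := by
  obtain ⟨A, hA⟩ := FA.Deform.exists_liesOverPrime hq
  obtain ⟨σ, hσ⟩ := FA.Deform.exists_isFrobeniusAt hq hA
  have hreach : ReachAll 3 W := fun B m M hM => by
    obtain ⟨htr, hdet⟩ := FA.RT.Tate.TateBasis.rep_frobenius B hq hA (by omega) hgood hσ
    exact reach_all_small B.rep (Or.inr rfl) (fun N hN => reach_two_of_trace B hfull (q := (q : ℤ))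
      htr (by exact_mod_cast hdet) (by omega) ha hN) m hM
  unfold FullAt
  rw [Nat.cast_pow]
  exact FA.PadicImage.exists_smul_eq_pow_of_reach hreach n

end FA.SerreCurve

end
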