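import Fermat.Agent.SerreCurve.TraceResidues
import Fermat.Agent.Root.SummarySerreCurveLevels
import Fermat.Agent.OpenImageAll.Traces
import Fermat.Agent.SerreLarge.Field

/-!
# The two-torsion as obstruction to trace and determinant

At a good odd prime `a_q` is odd only if `Δ` is a square mod `q`, and even with `4 ∤ q + 1 - a_q`
only if it is not, as Frobenius then permutes the points of order two cyclically, respectively as
a transposition. With an image of index two the companion matrix and `[[1, 2], [2 m, a - 1]]` show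
that nothing else restricts `(a_q, q)` modulo any `N`.
-/

set_option autoImplicit false
set_option linter.style.haveILetI false
set_option linter.unusedSectionVars false

noncomputable section

open Matrix WeierstrassCurve WeierstrassCurve.Affine FA.EC FA.Frob FA.RT
open FA.RT.Tate (Pts)
open FA.Two (deltaRoot sgn)
open scoped WeierstrassCurve.Affine

local notation "Qb" => AlgebraicClosure ℚ
local notation "GQ" => AlgebraicClosure ℚ ≃ₐ[ℚ] AlgebraicClosure ℚ
local notation "M2" => Matrix (Fin 2) (Fin 2)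

namespace FA.SerreCurve

variable {W : WeierstrassCurve ℤ} [(ratCurve W).IsElliptic] {q : ℕ}

theorem two_cases : ∀ z : ZMod 2, z = 0 ∨ z = 1 := by decide

theorem trace_eq_one_of_sgn : ∀ M : M2 (ZMod 2), M.det ≠ 0 → M.trace = 1 → sgn M = 0 := by
  intro M hM
  rcases FA.Two.six_cases hM with rfl | rfl | rfl | rfl | rfl | rfl <;> decide

theorem eq_one_of_sgn : ∀ M : M2 (ZMod 2), M.det ≠ 0 → M.trace = 0 → sgn M = 0 → M = 1 := by
  intro M hM
  rcases FA.Two.six_cases hM with rfl | rfl | rfl | rfl | rfl | rfl <;> decide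

/-- Frobenius fixes `√Δ` exactly when `Δ` is a square modulo the prime. -/
theorem fixes_deltaRoot_iff (hq : q.Prime) (h2 : q ≠ 2) (hgood : W.IsGoodPrimeFor q)
    {A : ValuationSubring Qb} (hA : A.LiesOverPrime q) {σ : GQ} (hσ : A.IsFrobeniusAt σ q) :
    σ (deltaRoot W) = deltaRoot W ↔ IsSquare (W.Δ : ZMod q) :=
  ⟨fun h => by_contra fun hns =>
    FA.SerreLarge.frobenius_apply_ne hq hns hA hσ (FA.Two.deltaRoot_sq W) h,
  fun h => by_contra fun hne => FA.OpenImageAll.not_isSquare_of_frobenius_apply_ne hq h2 hgood hA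
    hσ (FA.Two.deltaRoot_sq W) hne h⟩

/-- **An odd trace makes the discriminant a square.** -/
theorem isSquare_of_odd_ap (hq : q.Prime) (h2 : q ≠ 2) (hgood : W.IsGoodPrimeFor q)
    (hodd : Odd (W.apOfModel q)) : IsSquare (W.Δ : ZMod q) := by
  obtain ⟨A, hA⟩ := FA.Deform.exists_liesOverPrime hq
  obtain ⟨σ, hσ⟩ := FA.Deform.exists_isFrobeniusAt hq hA
  obtain ⟨t2, -⟩ := FA.Ribet.curveRep_frobenius (p := 2) hq h2 hgood hA hσ
  refine (fixes_deltaRoot_iff hq h2 hgood hA hσ).mp ((sgn_eq_zero_iff σ).mp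
    (trace_eq_one_of_sgn _ (FA.Two.det_curveRep_two_ne W σ) (t2.trans ?_)))
  obtain ⟨k, hk⟩ := hodd
  rw [hk]
  push_cast
  rw [show (2 : ZMod 2) = 0 from rfl, zero_mul, zero_add]

/-- **An even trace and a count that is `2` mod `4` make the discriminant a non-square.** -/
theorem not_isSquare_of_even_ap (hq : q.Prime) (h2 : q ≠ 2) (hgood : W.IsGoodPrimeFor q)
    (heven : Even (W.apOfModel q)) (h4 : ¬ (4 : ℤ) ∣ (q : ℤ) + 1 - W.apOfModel q) :
    ¬ IsSquare (W.Δ : ZMod q) := fun hsq => h4 (by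
  obtain ⟨A, hA⟩ := FA.Deform.exists_liesOverPrime hq
  obtain ⟨σ, hσ⟩ := FA.Deform.exists_isFrobeniusAt hq hA
  obtain ⟨t2, -⟩ := FA.Ribet.curveRep_frobenius (p := 2) hq h2 hgood hA hσ
  obtain ⟨k, hk⟩ := heven
  have ht : ((W.apOfModel q : ℤ) : ZMod 2) = 0 := by
    rw [hk]
    push_cast
    exact CharTwo.add_self_eq_zero _
  have h1 := eq_one_of_sgn _ (FA.Two.det_curveRep_two_ne W σ) (t2.trans ht)
    ((sgn_eq_zero_iff σ).mpr ((fixes_deltaRoot_iff hq h2 hgood hA hσ).mpr hsq))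
  have hfix : ∀ y : Pts W, 2 • y = 0 → σ • y = y := fun y hy =>
    congrArg Subtype.val ((curveRep_eq_one_iff W _).mp h1
      ⟨y, by rw [Submodule.mem_torsionBy_iff, natCast_zsmul]; exact hy⟩)
  obtain ⟨b⟩ := FA.PadicImage.nonempty_torsion_equiv W (N := 4)
  set x : Pts W := (b (Pi.single 0 1)).1 with hxdef
  have hx : 4 • x = 0 := by
    rw [← natCast_zsmul]; exact (Submodule.mem_torsionBy_iff _ _).mp (b (Pi.single 0 1)).2
  have hq4 : ¬ q ∣ 4 := fun hd =>
    h2 ((Nat.prime_dvd_prime_iff_eq hq Nat.prime_two).mp (hq.dvd_of_dvd_pow (n := 2) hd))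
  have e := frobenius_equation_good hq hA hgood hσ hq4 hx
  have h2x : σ • (2 • x) = 2 • x := hfix _ (by rw [← mul_nsmul']; exact hx)
  rw [FA.RT.Tate.gal_smul_nsmul] at h2x
  have hy : σ • (σ • x - x) = σ • x - x := hfix _ (by
    rw [nsmul_sub, sub_eq_zero]; exact h2x)
  have hσσ : σ • σ • x = x := by
    calc σ • σ • x = σ • (σ • x - x + x) := by rw [sub_add_cancel]
      _ = 2 • (σ • x) - x := by rw [FA.Local.gal_smul_add, hy, two_nsmul]; abel
      _ = x := by rw [h2x, two_nsmul, add_sub_cancel_right]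
  have hax : W.apOfModel q • σ • x = W.apOfModel q • x := by
    rw [hk, show k + k = k * ((2 : ℕ) : ℤ) by push_cast; ring, mul_zsmul, mul_zsmul,
      natCast_zsmul, natCast_zsmul, h2x]
  rw [hσσ, hax] at e
  have h0 : ((q : ℤ) + 1 - W.apOfModel q) • x = 0 := by
    rw [sub_zsmul, add_zsmul, one_zsmul, add_comm _ x, e, add_neg_cancel]
  have h' : ((q : ℤ) + 1 - W.apOfModel q) • (Pi.single 0 1 : Fin 2 → ZMod 4) = 0 :=
    b.injective (Subtype.ext (by
      rw [map_zsmul, map_zero, Submodule.coe_smul_of_tower, Submodule.coe_zero]; exact h0))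
  refine (ZMod.intCast_zmod_eq_zero_iff_dvd _ 4).mp ?_
  simpa using congrFun h' 0)

/-- **Primes with prescribed behaviour of `√Δ`**: as many as one likes. -/
theorem infinite_same_sign {D : ℕ} (hD : D ≠ 0) (hlev : IsLevel (deltaRoot W) D) (σ : GQ) :
    {q : ℕ | q.Prime ∧ q ≠ 2 ∧ W.IsGoodPrimeFor q ∧
      (IsSquare (W.Δ : ZMod q) ↔ σ (deltaRoot W) = deltaRoot W)}.Infinite := by
  set N : ℕ := 2 * D with hN
  haveI : NeZero N := ⟨mul_ne_zero two_ne_zero hD⟩
  have hlev' : IsLevel (deltaRoot W) N := fun τ hτ =>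
    hlev τ fun μ hμ => hτ μ (by rw [hN, mul_comm, pow_mul, hμ, one_pow])
  obtain ⟨b⟩ := FA.PadicImage.nonempty_torsion_equiv W (N := N)
  obtain ⟨X, hX⟩ := exists_matrix_smul b σ
  have hXu := isUnit_det_of_actsBy b ⟨σ, hX⟩
  have hΔ : W.Δ ≠ 0 := fun h => (ratCurve W).isUnit_Δ.ne_zero (by simp [ratCurve, h])
  refine Set.infinite_of_forall_exists_gt fun n => ?_
  obtain ⟨q, hlt, hq, hmod⟩ := Nat.forall_exists_prime_gt_and_eq_mod (q := N) hXu
    (max n (W.Δ.natAbs * N))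
  have hbig : W.Δ.natAbs * N < q := (le_max_right _ _).trans_lt hlt
  have hN2 : 2 ≤ N := by omega
  have hpos : 1 ≤ W.Δ.natAbs := Nat.one_le_iff_ne_zero.mpr (Int.natAbs_ne_zero.mpr hΔ)
  have hNle : N ≤ W.Δ.natAbs * N := Nat.le_mul_of_pos_left _ hpos
  have hgood : W.IsGoodPrimeFor q := fun hd => by
    have h1 := Nat.le_of_dvd hpos (Int.natCast_dvd.mp hd)
    have h3 : W.Δ.natAbs ≤ W.Δ.natAbs * N := Nat.le_mul_of_pos_right _ (by omega)
    omega
  have h2 : q ≠ 2 := by omega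
  refine ⟨q, ⟨hq, h2, hgood, ?_⟩, (le_max_left _ _).trans_lt hlt⟩
  obtain ⟨A, hA⟩ := FA.Deform.exists_liesOverPrime hq
  obtain ⟨τ, hτ⟩ := FA.Deform.exists_isFrobeniusAt hq hA
  obtain ⟨T, hT⟩ := exists_matrix_smul b τ
  have hqN : ¬ q ∣ N := fun hd => by
    have := Nat.le_of_dvd (by omega) hd
    omega
  have hdet : T.det = X.det := (det_of_frobenius b hq hA hτ hqN hT).symm.trans hmod
  have h2N : 2 ∣ N := dvd_mul_right 2 D
  rw [← fixes_deltaRoot_iff hq h2 hgood hA hτ,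
    ← signTwo_eq_zero_iff b h2N hT (hdet ▸ hXu), ← signTwo_eq_zero_iff b h2N hX hXu,
    signTwo_congr b h2N hlev' ⟨σ, hX⟩ ⟨τ, hT⟩ hXu hdet]

/-- **The pairs not excluded by the two-torsion occur infinitely often**: with an image of index
two, a good odd `q₀` and an `a` compatible with the square class of `Δ` mod `q₀`, infinitely many
primes have `(a_q, q) ≡ (a, q₀)` mod `N`. -/
theorem infinite_pair_of_index_two
    (h : (FA.OpenImage.torsionAction (ratCurve W)).range.index = 2) {D : ℕ} (hD : D ≠ 0)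
    (hiff : ∀ n : ℕ, n ≠ 0 → (IsLevel (deltaRoot W) n ↔ D ∣ n)) {N : ℕ} (hN : N ≠ 0)
    {q₀ : ℕ} (hq : q₀.Prime) (h2 : q₀ ≠ 2) (hgood : W.IsGoodPrimeFor q₀)
    (hqN : ¬ q₀ ∣ Nat.lcm N (Nat.lcm 4 D)) {a : ℤ} (hodd : Odd a → IsSquare (W.Δ : ZMod q₀))
    (heven : Even a → ¬ (4 : ℤ) ∣ (q₀ : ℤ) + 1 - a → ¬ IsSquare (W.Δ : ZMod q₀)) :
    {q : ℕ | q.Prime ∧ (N : ℤ) ∣ W.apOfModel q - a ∧ (N : ℤ) ∣ (q : ℤ) - q₀}.Infinite := by
  set N' : ℕ := Nat.lcm N (Nat.lcm 4 D) with hN'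
  haveI : NeZero N' := ⟨Nat.lcm_ne_zero hN (Nat.lcm_ne_zero (by norm_num) hD)⟩
  have h4D : Nat.lcm 4 D ∣ N' := Nat.dvd_lcm_right _ _
  have h2N : 2 ∣ N' := ((by norm_num : 2 ∣ 4).trans (Nat.dvd_lcm_left 4 D)).trans h4D
  have hDN : D ∣ N' := (Nat.dvd_lcm_right 4 D).trans h4D
  have hlev := (hiff N' (NeZero.ne N')).mpr hDN
  have hidx := index_level_of_index_two h hiff (NeZero.ne N') (levelAction (ratCurve W) N')
    fun _ _ => rfl
  rw [if_pos (Nat.lcm_dvd h2N hDN)] at hidx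
  obtain ⟨b⟩ := FA.PadicImage.nonempty_torsion_equiv W (N := N')
  obtain ⟨A, hA⟩ := FA.Deform.exists_liesOverPrime hq
  obtain ⟨τ, hτ⟩ := FA.Deform.exists_isFrobeniusAt hq hA
  obtain ⟨T, hT⟩ := exists_matrix_smul b τ
  have hTu := isUnit_det_of_actsBy b ⟨τ, hT⟩
  have hTd := det_of_frobenius b hq hA hτ hqN hT
  have hT0 : signTwo h2N T = 0 ↔ IsSquare (W.Δ : ZMod q₀) :=
    (signTwo_eq_zero_iff b h2N hT hTu).trans (fixes_deltaRoot_iff hq h2 hgood hA hτ)
  suffices hM : ∃ M : M2 (ZMod N'), M.det = (q₀ : ZMod N') ∧ M.trace = (a : ZMod N') ∧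
      signTwo h2N M = signTwo h2N T by
    obtain ⟨M, hd, ht, hs⟩ := hM
    have hMu : IsUnit M.det := by rw [hd, hTd]; exact hTu
    refine (infinite_of_actsBy b
      (actsBy_of_sign b h2N hlev hidx hMu ⟨τ, hT⟩ (hd.trans hTd) hs)).mono fun q hq' =>
      ⟨hq'.1, ?_, ?_⟩
    · exact (Int.natCast_dvd_natCast.mpr (Nat.dvd_lcm_left N (Nat.lcm 4 D))).trans
        ((ZMod.intCast_eq_intCast_iff_dvd_sub _ _ _).mp (hq'.2.1.trans ht).symm)
    · refine (Int.natCast_dvd_natCast.mpr (Nat.dvd_lcm_left N (Nat.lcm 4 D))).trans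
        ((ZMod.intCast_eq_intCast_iff_dvd_sub _ _ _).mp ?_)
      push_cast
      exact (hq'.2.2.trans hd).symm
  have hc : ZMod.castHom h2N (ZMod 2) (q₀ : ZMod N') = 1 := by
    rw [map_natCast]
    exact ZMod.natCast_eq_one_iff_odd.mpr (hq.odd_of_ne_two h2)
  have hcomp : (!![0, -(q₀ : ZMod N'); 1, (a : ZMod N')] : M2 (ZMod N')).map
      (ZMod.castHom h2N (ZMod 2)) = !![0, -1; 1, (a : ZMod 2)] := by
    ext i j; fin_cases i <;> fin_cases j <;> simp [hc, -ZMod.castHom_apply]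
  by_cases hT' : signTwo h2N T = 0
  · rcases Int.even_or_odd a with ⟨k, hk⟩ | ⟨k, hk⟩
    · obtain ⟨m, hm⟩ : (4 : ℤ) ∣ (q₀ : ℤ) + 1 - a := by
        by_contra h4
        exact heven ⟨k, hk⟩ h4 (hT0.mp hT')
      refine ⟨!![1, 2; -2 * (m : ZMod N') + 0, (a : ZMod N') - 1], ?_, ?_, ?_⟩
      · have e := congrArg (fun z : ℤ => (z : ZMod N')) hm
        push_cast at e
        rw [det_fin_two_of]
        linear_combination -e
      · simp [trace_fin_two]
      · rw [hT', signTwo, show ((!![1, 2; -2 * (m : ZMod N') + 0, (a : ZMod N') - 1] :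
            M2 (ZMod N')).map (ZMod.castHom h2N (ZMod 2))) = 1 by
          have z2 : (2 : ZMod 2) = 0 := rfl
          have za : ((a : ℤ) : ZMod 2) = 0 := by
            rw [hk]; push_cast; exact CharTwo.add_self_eq_zero _
          ext i j
          fin_cases i <;> fin_cases j <;>
            simp [-ZMod.castHom_apply, map_ofNat, z2, za, CharTwo.neg_eq]]
        decide
    · refine ⟨!![0, -(q₀ : ZMod N'); 1, (a : ZMod N')], by simp [det_fin_two_of],
        by simp [trace_fin_two], ?_⟩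
      rw [hT', signTwo, hcomp, show ((a : ℤ) : ZMod 2) = 1 by
        rw [hk]; push_cast; rw [show (2 : ZMod 2) = 0 from rfl, zero_mul, zero_add]]
      decide
  · have hev : Even a := by
      rcases Int.even_or_odd a with he | ho
      · exact he
      · exact absurd (hT0.mpr (hodd ho)) hT'
    refine ⟨!![0, -(q₀ : ZMod N'); 1, (a : ZMod N')], by simp [det_fin_two_of],
      by simp [trace_fin_two], ?_⟩
    obtain ⟨k, hk⟩ := hev
    rw [(two_cases _).resolve_left hT', signTwo, hcomp, show ((a : ℤ) : ZMod 2) = 0 by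
      rw [hk]; push_cast; exact CharTwo.add_self_eq_zero _]
    decide

end FA.SerreCurve

end
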