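import Fermat.Agent.SerreCurve.SquareRootAction
import Fermat.Agent.SerreCurve.Character
import Fermat.Agent.Root.SummarySerreCurveLevels
import Fermat.Agent.PrimeDivisors.Product
import Fermat.Agent.Ribet.SerreTrace

/-!
# The image of a Serre curve modulo several primes at once

For a curve with image of index two and `W.Δ = c² d` the image in the product of the `GL₂(𝔽_l)`,
`l` in a finite set `L` of primes, is everything, unless `2 ∈ L`, `d ≡ 1 mod 4` and the primes of
`d` are in `L`. Then it is the kernel of the product of the sign at two and the Legendre symbols of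
the determinants at the primes of `d`, and counting in it gives the densities of Frobenius.
-/

set_option autoImplicit false
set_option linter.style.haveILetI false
set_option linter.unusedSectionVars false

noncomputable section

open Matrix NumberField IsDedekindDomain WeierstrassCurve WeierstrassCurve.Affine
open FA.EC FA.Frob FA.RT
open FA.RT.Tate (Pts)
open FA.Two (deltaRoot sgn)
open FA.PrimeDivisors (level toProd toProd_surjective dvd_level)
open scoped WeierstrassCurve.Affine NumberTheorySymbols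

local notation "Qb" => AlgebraicClosure ℚ
local notation "GQ" => AlgebraicClosure ℚ ≃ₐ[ℚ] AlgebraicClosure ℚ
local notation "M2" => Matrix (Fin 2) (Fin 2)

namespace FA.SerreCurve

/-- The factor at `l` of Serre's character for `d`: the sign at two, the Legendre symbol of the
determinant at the primes of `d`. -/
def signChar (d : ℤ) (l : ℕ) (M : M2 (ZMod l)) : ℤ :=
  if l = 2 then (if M ≠ 1 ∧ M 0 0 + M 1 1 = 0 then -1 else 1)
  else if (l : ℤ) ∣ d then J((M.det.val : ℤ) | l) else 1

theorem signChar_two (d : ℤ) (M : M2 (ZMod 2)) :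
    signChar d 2 M = if sgn M = 0 then 1 else -1 := by
  unfold signChar FA.Two.sgn
  rw [if_pos rfl]
  by_cases h : M ≠ 1 ∧ M 0 0 + M 1 1 = 0
  · rw [if_pos h, if_pos h, if_neg one_ne_zero]
  · rw [if_neg h, if_neg h, if_pos rfl]

theorem signChar_eq_one_or {d : ℤ} {l : ℕ} [hl : Fact l.Prime] (g : GL (Fin 2) (ZMod l)) :
    signChar d l g.1 = 1 ∨ signChar d l g.1 = -1 := by
  unfold signChar
  split_ifs
  · exact Or.inr rfl
  · exact Or.inl rfl
  · refine jacobiSym.eq_one_or_neg_one ?_
    rw [Int.gcd_natCast_natCast]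
    exact ZMod.val_coe_unit_coprime (Matrix.GeneralLinearGroup.det g)
  · exact Or.inl rfl

theorem signChar_mul {d : ℤ} {l : ℕ} [hl : Fact l.Prime] (g h : GL (Fin 2) (ZMod l)) :
    signChar d l (g * h).1 = signChar d l g.1 * signChar d l h.1 := by
  by_cases h2 : l = 2
  · subst h2
    rw [signChar_two, signChar_two, signChar_two, Units.val_mul,
      FA.Two.sgn_mul_of_det ((Matrix.isUnit_iff_isUnit_det _).mp g.isUnit).ne_zero
        ((Matrix.isUnit_iff_isUnit_det _).mp h.isUnit).ne_zero]
    generalize sgn g.1 = s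
    generalize sgn h.1 = t
    revert s t
    decide
  · simp only [signChar, if_neg h2]
    split_ifs
    · rw [Units.val_mul, det_mul, ← jacobiSym.mul_left, jacobiSym.mod_left,
        jacobiSym.mod_left (_ * _)]
      congr 1
      rw [← ZMod.intCast_eq_intCast_iff']
      push_cast
      simp
    · rw [one_mul]

theorem signChar_one (d : ℤ) (l : ℕ) [hl : Fact l.Prime] :
    signChar d l (1 : GL (Fin 2) (ZMod l)).1 = 1 := by
  have h := signChar_mul (d := d) (1 : GL (Fin 2) (ZMod l)) 1
  rw [one_mul] at h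
  rcases signChar_eq_one_or (d := d) (1 : GL (Fin 2) (ZMod l)) with e | e
  · exact e
  · rw [e] at h; norm_num at h

theorem jacobi_prod {S : Finset ℕ} (hS : ∀ p ∈ S, p ≠ 0) (a : ℤ) :
    J(a | ∏ p ∈ S, p) = ∏ p ∈ S, J(a | p) := by
  induction S using Finset.induction_on with
  | empty => simp
  | insert p S hp ih =>
    rw [Finset.prod_insert hp, Finset.prod_insert hp,
      jacobiSym.mul_right' _ (hS p (Finset.mem_insert_self p S))
        (Finset.prod_ne_zero_iff.mpr fun q hq => hS q (Finset.mem_insert_of_mem hq)),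
      ih fun q hq => hS q (Finset.mem_insert_of_mem hq)]

section product

variable (L : Finset ℕ) [∀ l : L, Fact (l : ℕ).Prime]

/-- The product of the primes carries Jones's level. -/
def JonesCond (d : ℤ) : Prop := 2 ∈ L ∧ d % 4 = 1 ∧ d.natAbs.primeFactors ⊆ L

instance (d : ℤ) : Decidable (JonesCond L d) := by unfold JonesCond; infer_instance

theorem lcm_dvd_level_iff {d : ℤ} (hd : Squarefree d) :
    Nat.lcm 2 (if d % 4 = 1 then d.natAbs else 4 * d.natAbs) ∣ level L ↔ JonesCond L d := by
  have hL : ∀ l ∈ L, l.Prime := fun l hl => (inferInstance : Fact ((⟨l, hl⟩ : L) : ℕ).Prime).out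
  have hlev : level L = ∏ l ∈ L, l := Finset.prod_coe_sort L fun l => l
  have hmem : ∀ {p : ℕ}, p.Prime → (p ∣ level L ↔ p ∈ L) := fun {p} hp => by
    rw [hlev]
    refine ⟨fun h => ?_, fun h => Finset.dvd_prod_of_mem _ h⟩
    obtain ⟨l, hl, hd⟩ := (Prime.dvd_finsetProd_iff hp.prime _).mp h
    exact (Nat.prime_dvd_prime_iff_eq hp (hL l hl)).mp hd ▸ hl
  have h4 : ¬ 4 ∣ level L := fun h => by
    have h2 : 2 ∈ L := (hmem Nat.prime_two).mp ((by norm_num : 2 ∣ 4).trans h)
    rw [hlev, ← Finset.mul_prod_erase L (fun l => l) h2, show 4 = 2 * 2 from rfl,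
      Nat.mul_dvd_mul_iff_left two_pos] at h
    obtain ⟨l, hl, hd⟩ := (Prime.dvd_finsetProd_iff Nat.prime_two.prime _).mp h
    exact Finset.ne_of_mem_erase hl
      ((Nat.prime_dvd_prime_iff_eq Nat.prime_two (hL l (Finset.mem_of_mem_erase hl))).mp hd).symm
  rw [Nat.lcm_dvd_iff, hmem Nat.prime_two, JonesCond]
  refine and_congr_right fun _ => ?_
  by_cases h : d % 4 = 1
  · rw [if_pos h]
    refine ⟨fun hdvd => ⟨h, fun p hp => (hmem (Nat.prime_of_mem_primeFactors hp)).mp
      ((Nat.dvd_of_mem_primeFactors hp).trans hdvd)⟩, fun hs => ?_⟩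
    rw [← Nat.prod_primeFactors_of_squarefree (Int.squarefree_natAbs.mpr hd), hlev]
    exact Finset.prod_dvd_prod_of_subset _ _ _ hs.2
  · rw [if_neg h]
    exact ⟨fun hdvd => absurd ((dvd_mul_right 4 _).trans hdvd) h4, fun hs => absurd hs.1 h⟩

/-- The product of the factors. -/
def signProd (d : ℤ) (g : ∀ l : L, GL (Fin 2) (ZMod (l : ℕ))) : ℤ :=
  ∏ l : L, signChar d l (g l).1

/-- The kernel of Serre's character. -/
def signKer (d : ℤ) : Subgroup (∀ l : L, GL (Fin 2) (ZMod (l : ℕ))) where
  carrier := {g | signProd L d g = 1}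
  one_mem' := Finset.prod_eq_one fun l _ => signChar_one d l
  mul_mem' := fun {g h} hg hh => by
    simp only [Set.mem_ofPred_eq, signProd] at hg hh ⊢
    simp only [Pi.mul_apply, signChar_mul]
    rw [Finset.prod_mul_distrib, hg, hh, one_mul]
  inv_mem' := fun {g} hg => by
    simp only [Set.mem_ofPred_eq, signProd] at hg ⊢
    have h : ∏ l : L, signChar d l ((g⁻¹ * g) l).1 = 1 := by
      rw [inv_mul_cancel]; exact Finset.prod_eq_one fun l _ => signChar_one d l
    simp only [Pi.mul_apply, signChar_mul] at h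
    rwa [Finset.prod_mul_distrib, hg, mul_one] at h

theorem signProd_eq_one_or (d : ℤ) (g : ∀ l : L, GL (Fin 2) (ZMod (l : ℕ))) :
    signProd L d g = 1 ∨ signProd L d g = -1 := by
  have h : IsUnit (signProd L d g) :=
    IsUnit.prod_univ_iff.mpr fun l => Int.isUnit_iff.mpr (signChar_eq_one_or _)
  exact Int.isUnit_iff.mp h

/-- **Counting in the kernel.** -/
theorem two_mul_card_signKer (d : ℤ) (X : ∀ l : L, Finset (GL (Fin 2) (ZMod (l : ℕ)))) :
    2 * (Nat.card {g : ∀ l : L, GL (Fin 2) (ZMod (l : ℕ)) //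
        g ∈ signKer L d ∧ ∀ l, g l ∈ X l} : ℤ) =
      ∏ l : L, ((X l).card : ℤ) + ∏ l : L, ∑ g ∈ X l, signChar d l g.1 := by
  classical
  have hcard : Nat.card {g : ∀ l : L, GL (Fin 2) (ZMod (l : ℕ)) //
      g ∈ signKer L d ∧ ∀ l, g l ∈ X l} =
      ((Fintype.piFinset X).filter fun g => signProd L d g = 1).card := by
    rw [Nat.card_eq_fintype_card, Fintype.card_subtype]
    congr 1
    ext g
    simp [signKer, and_comm]
  have h : ∑ g ∈ Fintype.piFinset X, (1 + signProd L d g) =
      ∑ g ∈ Fintype.piFinset X, if signProd L d g = 1 then (2 : ℤ) else 0 :=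
    Finset.sum_congr rfl fun g _ => by
      rcases signProd_eq_one_or L d g with e | e <;> rw [e] <;> norm_num
  rw [Finset.sum_add_distrib, Finset.sum_const, Fintype.card_piFinset, nsmul_one,
    Finset.sum_ite, Finset.sum_const_zero, add_zero, Finset.sum_const, nsmul_eq_mul] at h
  simp only [signProd] at h
  rw [← Finset.prod_univ_sum X (fun l g => signChar d l g.1), Nat.cast_prod] at h
  rw [hcard]
  simp only [signProd]
  rw [mul_comm, ← h]

/-- A factor taking the value `-1` has sum zero. -/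
theorem sum_signChar_eq_zero {d : ℤ} {l : ℕ} [Fact l.Prime] {g₀ : GL (Fin 2) (ZMod l)}
    (h : signChar d l g₀.1 = -1) : ∑ g : GL (Fin 2) (ZMod l), signChar d l g.1 = 0 := by
  have e : ∑ g : GL (Fin 2) (ZMod l), signChar d l (g₀ * g).1 =
      ∑ g : GL (Fin 2) (ZMod l), signChar d l g.1 :=
    Equiv.sum_comp (Equiv.mulLeft g₀) fun g : GL (Fin 2) (ZMod l) => signChar d l g.1
  simp only [signChar_mul, h, neg_mul, one_mul, Finset.sum_neg_distrib] at e
  omega

theorem exists_signChar_two (d : ℤ) {l : ℕ} (hl : l = 2) :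
    ∃ g : GL (Fin 2) (ZMod l), signChar d l g.1 = -1 := by
  subst hl
  refine ⟨Matrix.GeneralLinearGroup.mk'' !![1, 1; 0, 1] (by rw [det_fin_two_of]; decide), ?_⟩
  rw [signChar_two]
  exact if_neg (by decide)

/-- The kernel has index two when two is among the primes. -/
theorem two_mul_natCard_signKer {d : ℤ} (h2 : 2 ∈ L) :
    2 * Nat.card (signKer L d) = Nat.card (∀ l : L, GL (Fin 2) (ZMod (l : ℕ))) := by
  classical
  have h := two_mul_card_signKer L d fun l => Finset.univ
  have hz : ∏ l : L, ∑ g : GL (Fin 2) (ZMod (l : ℕ)), signChar d l g.1 = 0 :=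
    Finset.prod_eq_zero (Finset.mem_univ ⟨2, h2⟩)
      (sum_signChar_eq_zero (exists_signChar_two d rfl).choose_spec)
  rw [hz, add_zero, Nat.card_congr (Equiv.subtypeEquivRight fun g =>
    show (g ∈ signKer L d ∧ ∀ l, g l ∈ Finset.univ) ↔ g ∈ signKer L d by simp)] at h
  rw [Nat.card_pi]
  simp only [Nat.card_eq_fintype_card, Finset.card_univ] at h ⊢
  exact_mod_cast h

variable {W : WeierstrassCurve ℤ} [(ratCurve W).IsElliptic]

/-- Galois on the torsion at each of the primes. -/
def prodCurveRep : GQ →* ∀ l : L, GL (Fin 2) (ZMod (l : ℕ)) :=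
  MonoidHom.pi fun l => (curveRep (l : ℕ) W).toHomUnits

theorem isOpen_ker_prodCurveRep : IsOpen ((prodCurveRep L (W := W)).ker : Set GQ) := by
  have e : ((prodCurveRep L (W := W)).ker : Set GQ) =
      ⋂ l : L, ((curveRep (l : ℕ) W).ker : Set GQ) := by
    ext σ
    simp only [Set.mem_iInter, SetLike.mem_coe, MonoidHom.mem_ker, prodCurveRep, funext_iff,
      MonoidHom.pi_apply, Pi.one_apply, ← Units.val_inj, MonoidHom.coe_toHomUnits, Units.val_one]
  rw [e]
  exact isOpen_iInter_of_finite fun _ => isOpen_ker_curveRep W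

/-- **Galois lies in the kernel of Serre's character.** -/
theorem prodCurveRep_mem_signKer {c d : ℤ} (hd : Squarefree d) (hcd : W.Δ = c ^ 2 * d)
    (hL : JonesCond L d) (σ : GQ) : prodCurveRep L (W := W) σ ∈ signKer L d := by
  classical
  obtain ⟨h2, h4, hsub⟩ := hL
  have hN0 : level L ≠ 0 :=
    Finset.prod_ne_zero_iff.mpr fun l _ => (Fact.out : (l : ℕ).Prime).ne_zero
  have : NeZero (level L) := ⟨hN0⟩
  have : NeZero ((level L : ℕ) : Qb) := ⟨Nat.cast_ne_zero.mpr hN0⟩
  obtain ⟨ζ, hζ⟩ := HasEnoughRootsOfUnity.exists_primitiveRoot Qb (level L)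
  obtain ⟨a, -, ha⟩ := hζ.eq_pow_of_pow_eq_one (ξ := σ ζ)
    (by rw [← map_pow, hζ.pow_eq_one, map_one])
  have hσ : ∀ n, n ∣ level L → ∀ μ : Qb, μ ^ n = 1 → σ μ = μ ^ a := fun n hn μ hμ => by
    obtain ⟨k, hk⟩ := hn
    obtain ⟨i, -, rfl⟩ := hζ.eq_pow_of_pow_eq_one (ξ := μ) (by rw [hk, pow_mul, hμ, one_pow])
    rw [map_pow, ← ha, ← pow_mul, ← pow_mul, mul_comm]
  have hdet : ∀ l : L, (curveRep (l : ℕ) W σ).det = (a : ZMod (l : ℕ)) := fun l =>
    det_curveRep W σ a (hσ _ (FA.PrimeDivisors.dvd_level L l))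
  have hn : d.natAbs ∣ level L := by
    have h := (lcm_dvd_level_iff L hd).mpr ⟨h2, h4, hsub⟩
    rw [if_pos h4] at h
    exact (Nat.dvd_lcm_right 2 _).trans h
  have hc0 : (c : Qb) ≠ 0 := Int.cast_ne_zero.mpr fun h0 =>
    (ratCurve W).isUnit_Δ.ne_zero (by simp [ratCurve, hcd, h0])
  have hs : (deltaRoot W / (c : Qb)) ^ 2 = (d : Qb) := by
    rw [div_pow, FA.Two.deltaRoot_sq, div_eq_iff (pow_ne_zero 2 hc0), hcd]
    push_cast
    ring
  have hact := apply_sqrt_jacobi hd h4 hs (hσ _ hn)
  rw [map_div₀, map_intCast, ← mul_div_assoc, div_left_inj' hc0] at hact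
  set ε := J((a : ℤ) | d.natAbs) with hε
  have hcop := coprime_of_apply_roots (Int.natAbs_ne_zero.mpr hd.ne_zero) (hσ _ hn)
  have hε1 : ε = 1 ∨ ε = -1 :=
    jacobiSym.eq_one_or_neg_one (by rw [Int.gcd_natCast_natCast]; exact hcop)
  have htwo : signChar d 2 (curveRep 2 W σ) = ε := by
    rw [signChar_two]
    split_ifs with h
    · refine (hε1.resolve_right fun e => ?_).symm
      rw [(FA.Two.apply_deltaRoot W σ).1 h, e, Int.cast_neg, Int.cast_one, neg_one_mul] at hact
      exact FA.Two.neg_ne_self deltaRoot_ne_zero hact.symm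
    · refine (hε1.resolve_left fun e => ?_).symm
      rw [(FA.Two.apply_deltaRoot W σ).2 h, e, Int.cast_one, one_mul] at hact
      exact FA.Two.neg_ne_self deltaRoot_ne_zero hact
  let f : ℕ → ℤ := fun l => if l = 2 then ε else if (l : ℤ) ∣ d then J((a : ℤ) | l) else 1
  have hf : ∀ l : L, signChar d l (prodCurveRep L (W := W) σ l).1 = f l := by
    rintro ⟨l, hl⟩
    haveI : Fact l.Prime := (inferInstance : Fact ((⟨l, hl⟩ : L) : ℕ).Prime)
    show signChar d l (curveRep l W σ) = f l
    by_cases hl2 : l = 2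
    · subst hl2
      simpa [f] using htwo
    · simp only [signChar, f, if_neg hl2]
      split_ifs
      · rw [hdet ⟨l, hl⟩, ZMod.val_natCast, jacobiSym.mod_left (a : ℤ)]
        push_cast
        rfl
      · rfl
  show ∏ l : L, signChar d l (prodCurveRep L (W := W) σ l).1 = 1
  rw [Finset.prod_congr rfl fun l _ => hf l, Finset.prod_coe_sort L f,
    ← Finset.mul_prod_erase L f h2]
  have h2d : ¬ (2 : ℤ) ∣ d := by omega
  have hrest : ∏ l ∈ L.erase 2, f l = ε := by
    rw [hε, ← Nat.prod_primeFactors_of_squarefree (Int.squarefree_natAbs.mpr hd),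
      jacobi_prod fun p hp => (Nat.prime_of_mem_primeFactors hp).ne_zero]
    refine (Finset.prod_subset (fun p hp => Finset.mem_erase.mpr ⟨fun e => h2d ?_, hsub hp⟩)
      fun l hl hl' => ?_).symm.trans (Finset.prod_congr rfl fun p hp => ?_)
    · rw [e] at hp
      exact Int.natCast_dvd.mpr (Nat.dvd_of_mem_primeFactors hp)
    · obtain ⟨hne, hlL⟩ := Finset.mem_erase.mp hl
      simp only [f, if_neg hne]
      refine if_neg fun hdvd => hl' (Nat.mem_primeFactors.mpr
        ⟨(inferInstance : Fact ((⟨l, hlL⟩ : L) : ℕ).Prime).out, Int.natCast_dvd.mp hdvd,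
          Int.natAbs_ne_zero.mpr hd.ne_zero⟩)
    · have hne : p ≠ 2 := fun e => h2d (Int.natCast_dvd.mpr (by
        show 2 ∣ d.natAbs
        have := Nat.dvd_of_mem_primeFactors hp
        rwa [e] at this))
      simp only [f, if_neg hne, if_pos (Int.natCast_dvd.mpr (Nat.dvd_of_mem_primeFactors hp))]
  rw [hrest]
  simp only [f, if_pos rfl]
  rcases hε1 with e | e <;> rw [e] <;> norm_num

/-- What fixes each of the `E[l]` fixes `E[∏ l]`. -/
theorem fix_level_of_prodCurveRep {σ : GQ} (hσ : prodCurveRep L (W := W) σ = 1) {x : Pts W}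
    (hx : level L • x = 0) : σ • x = x := by
  classical
  have hl : ∀ l : L, ∀ y : Pts W, (l : ℕ) • y = 0 → σ • y = y := fun l y hy =>
    congrArg Subtype.val ((curveRep_eq_one_iff W σ).mp (congrArg Units.val (congrFun hσ l) :)
      ⟨y, by rw [Submodule.mem_torsionBy_iff, natCast_zsmul]; exact hy⟩)
  suffices key : ∀ (T : Finset L) (y : Pts W), (∏ l ∈ T, (l : ℕ)) • y = 0 → σ • y = y from
    key Finset.univ x hx
  intro T
  induction T using Finset.induction with
  | empty =>
    intro y hy
    rw [Finset.prod_empty, one_nsmul] at hy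
    rw [hy]
    exact FA.Local.gal_smul_zero _ σ
  | @insert l T hlT ih =>
    intro y hy
    rw [Finset.prod_insert hlT] at hy
    set b := ∏ i ∈ T, (i : ℕ)
    have h1 : σ • (b • y) = b • y := hl l _ (by rw [← mul_nsmul', hy])
    have h2 : σ • ((l : ℕ) • y) = (l : ℕ) • y := ih _ (by rw [← mul_nsmul', mul_comm, hy])
    have hco : (l : ℕ).Coprime b := Nat.Coprime.prod_right fun i hi =>
      (Nat.coprime_primes Fact.out Fact.out).mpr fun e => hlT ((Subtype.ext e : l = i) ▸ hi)
    obtain ⟨u, v, huv⟩ := Int.isCoprime_iff_nat_coprime.mpr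
      (show Nat.Coprime ((l : ℕ) : ℤ).natAbs (b : ℤ).natAbs by simpa using hco)
    have hye : y = u • ((l : ℕ) • y) + v • (b • y) := by
      rw [← natCast_zsmul y (l : ℕ), ← natCast_zsmul y b, smul_smul, smul_smul, ← add_zsmul, huv,
        one_zsmul]
    calc σ • y = σ • (u • ((l : ℕ) • y) + v • (b • y)) := by rw [← hye]
      _ = u • (σ • ((l : ℕ) • y)) + v • (σ • (b • y)) := by
          rw [FA.Local.gal_smul_add, FA.RT.Tate.gal_smul_zsmul (W := W),
            FA.RT.Tate.gal_smul_zsmul (W := W)]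
      _ = y := by rw [h1, h2, ← hye]

/-- The image is at least as large as at the level of the product. -/
theorem natCard_prod_le :
    Nat.card (∀ l : L, GL (Fin 2) (ZMod (l : ℕ))) ≤
      (levelAction (ratCurve W) (level L)).range.index *
        Nat.card (prodCurveRep L (W := W)).range := by
  have hL : ∀ l ∈ L, l.Prime := fun l hl => (inferInstance : Fact ((⟨l, hl⟩ : L) : ℕ).Prime).out
  have hN0 : level L ≠ 0 :=
    Finset.prod_ne_zero_iff.mpr fun l _ => (Fact.out : (l : ℕ).Prime).ne_zero
  have : NeZero (level L) := ⟨hN0⟩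
  obtain ⟨b⟩ := FA.PadicImage.nonempty_torsion_equiv W (N := level L)
  haveI : Finite (AutTors W (level L)) := Finite.of_injective _ (autGL_bijective b).1
  refine (Nat.card_le_card_of_surjective _ (toProd_surjective L hL)).trans ?_
  rw [← natCard_autTors b, ← Subgroup.index_mul_card (levelAction (ratCurve W) (level L)).range]
  refine Nat.mul_le_mul_left _ ?_
  rw [← Subgroup.index_ker, ← Subgroup.index_ker]
  have hle : (prodCurveRep L (W := W)).ker ≤ (levelAction (ratCurve W) (level L)).ker :=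
    fun σ hσ => LinearEquiv.ext fun x => Subtype.ext (fix_level_of_prodCurveRep L hσ (by
      rw [← natCast_zsmul]; exact (Submodule.mem_torsionBy_iff _ _).mp x.2))
  refine Nat.le_of_dvd (Nat.pos_of_ne_zero ?_) (Subgroup.index_dvd_of_le hle)
  rw [Subgroup.index_ker]
  exact Nat.card_pos.ne'

/-- **The image modulo several primes of a Serre curve.** -/
theorem range_prodCurveRep (h : (FA.OpenImage.torsionAction (ratCurve W)).range.index = 2)
    {c d : ℤ} (hd : Squarefree d) (hcd : W.Δ = c ^ 2 * d) :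
    (prodCurveRep L (W := W)).range = if JonesCond L d then signKer L d else ⊤ := by
  have hN0 : level L ≠ 0 :=
    Finset.prod_ne_zero_iff.mpr fun l _ => (Fact.out : (l : ℕ).Prime).ne_zero
  have hidx := index_level_of_index_two h
    (fun n hn => isLevel_deltaRoot_of_model (E := ratCurve W) ⟨1, one_smul _ _⟩ (c := (c : ℚ)) hd
      (by rw [WeierstrassCurve.map_Δ, eq_intCast, hcd]; push_cast; ring) hn) hN0
    (levelAction (ratCurve W) (level L)) fun _ _ => rfl
  have hcount := natCard_prod_le L (W := W)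
  rw [hidx] at hcount
  split_ifs with hc
  · rw [if_pos ((lcm_dvd_level_iff L hd).mpr hc), ← two_mul_natCard_signKer L hc.1 (d := d)]
      at hcount
    refine Subgroup.eq_of_le_of_card_ge ?_ (by omega)
    rintro _ ⟨σ, rfl⟩
    exact prodCurveRep_mem_signKer L hd hcd hc σ
  · rw [if_neg (mt (lcm_dvd_level_iff L hd).mp hc), one_mul] at hcount
    exact Subgroup.eq_top_of_le_card _ hcount

end product

end FA.SerreCurve

end
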