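import Fermat.Agent.SerreCurve.FixedB
import Fermat.Agent.CM.ClassOne.Galois

/-!
# The family `y² = x³ + (d² - 17) x + 16` and its two points

The curves `y² = x³ + (d² - 17) x + 16` carry `(0, 4)` and `(1, d)`; for `d ≡ 1` the reduction is
that of `y² = x³ - 16 x + 16`, and for `d² ≡ 5` the discriminant vanishes, so almost every member is
generic. The points are independent as neither they nor their sum is twice a point: if an integer
`e` is a root of the cubic modulo a prime `q` of good reduction, `x(2 R) - e` is a square modulo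
`q`, and at divergently many primes some class of `d` makes `x - e` a nonsquare.
-/

set_option autoImplicit false
set_option linter.style.haveILetI false

noncomputable section

open Filter Topology WeierstrassCurve WeierstrassCurve.Affine FA.EC FA.Frob FA.RT FA.AlmostAll
open scoped WeierstrassCurve.Affine

local notation "Qb" => AlgebraicClosure ℚ
local notation "GQ" => AlgebraicClosure ℚ ≃ₐ[ℚ] AlgebraicClosure ℚ

namespace FA.RankTwo

/-! ### The descent criterion -/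

/-- A rational number with integral square is an integer. -/
theorem exists_int_of_sq {r : ℚ} {z : ℤ} (h : r ^ 2 = z) : ∃ w : ℤ, r = w := by
  have h1 : (r ^ 2).den = 1 := by rw [h]; rfl
  rw [Rat.den_pow] at h1
  have h2 : r.den = 1 := (pow_eq_one_iff.mp h1).resolve_right two_ne_zero
  exact ⟨r.num, ((Rat.den_eq_one_iff r).mp h2).symm⟩

/-- **Twice a point has a square `x - e` modulo `q`** for an integer root `e` modulo a prime `q` of
good reduction: so a point with a nonsquare one is not twice a point. -/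
theorem not_two_nsmul {A B e x : ℤ} {q : ℕ} [hq : Fact q.Prime] (hq2 : q ≠ 2)
    (he : ((e ^ 3 + A * e + B : ℤ) : ZMod q) = 0)
    (hgood : ((4 * A ^ 3 + 27 * B ^ 2 : ℤ) : ZMod q) ≠ 0)
    (hx : ¬ IsSquare ((x - e : ℤ) : ZMod q))
    {W : WeierstrassCurve ℚ} (hW : W = ⟨0, 0, 0, (A : ℚ), (B : ℚ)⟩) {X Y : ℚ} (hX : X = x)
    (hP : W.toAffine.Nonsingular X Y) (R : W.toAffine.Point) :
    2 • R ≠ Affine.Point.some _ _ hP := by
  subst hW hX
  rcases R with _ | ⟨u, v, hR⟩
  · intro h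
    rw [two_nsmul, ← Affine.Point.zero_def, add_zero] at h
    exact Affine.Point.some_ne_zero hP h.symm
  intro h
  rw [two_nsmul] at h
  by_cases hv0 : v = -v
  · rw [Affine.Point.add_of_Y_eq rfl (by simp [Affine.negY, ← hv0])] at h
    exact Affine.Point.some_ne_zero hP h.symm
  rw [Affine.Point.add_self_of_Y_ne (by simpa [Affine.negY] using hv0)] at h
  simp only [Affine.Point.some.injEq] at h
  have hXeq := h.1
  rw [Affine.slope_of_Y_ne rfl (by simpa [Affine.negY] using hv0)] at hXeq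
  simp only [Affine.addX, Affine.negY] at hXeq
  have hcurve := (Affine.equation_iff _ _).mp ((Affine.nonsingular_iff _ _).mp hR).1
  simp only [zero_mul, mul_zero, add_zero] at hcurve hXeq
  -- the identity of the tangent line
  have hvne : v ≠ 0 := fun e' => hv0 (by rw [e']; simp)
  have hid : 4 * v ^ 2 * ((x : ℚ) - e) = (u ^ 2 - 2 * e * u - 2 * e ^ 2 - A) ^ 2 -
      4 * ((e : ℚ) ^ 3 + A * e + B) * (2 * u + e) := by
    have h4 : 4 * v ^ 2 * (x : ℚ) = (3 * u ^ 2 + A) ^ 2 - 8 * u * v ^ 2 := by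
      rw [← hXeq, show v - (-v - 0 - 0) = 2 * v by ring]
      field_simp
      ring
    linear_combination h4 - (8 * u + 4 * (e : ℚ)) * hcurve
  set n := u.num
  set m : ℤ := (u.den : ℤ) with hm
  have hnm : u * (m : ℚ) = n := by
    rw [hm, Int.cast_natCast]
    exact Rat.mul_den_eq_num u
  obtain ⟨w, hw⟩ := exists_int_of_sq (r := (m : ℚ) ^ 2 * v)
    (z := m * (n ^ 3 + A * n * m ^ 2 + B * m ^ 3)) (by
      push_cast
      rw [← hnm]
      linear_combination (m : ℚ) ^ 4 * hcurve)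
  have hF : m * (n ^ 3 + A * n * m ^ 2 + B * m ^ 3) = w ^ 2 := by
    have h2 : ((m * (n ^ 3 + A * n * m ^ 2 + B * m ^ 3) : ℤ) : ℚ) = ((w ^ 2 : ℤ) : ℚ) := by
      push_cast
      rw [← hw, ← hnm]
      linear_combination -(m : ℚ) ^ 4 * hcurve
    exact_mod_cast h2
  have hmain : 4 * w ^ 2 * (x - e) = (n ^ 2 - 2 * e * n * m - (2 * e ^ 2 + A) * m ^ 2) ^ 2 -
      4 * (e ^ 3 + A * e + B) * (2 * n + e * m) * m ^ 3 := by
    have h2 : ((4 * w ^ 2 * (x - e) : ℤ) : ℚ) = (((n ^ 2 - 2 * e * n * m -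
        (2 * e ^ 2 + A) * m ^ 2) ^ 2 - 4 * (e ^ 3 + A * e + B) * (2 * n + e * m) * m ^ 3 : ℤ) :
          ℚ) := by
      push_cast
      rw [← hw, ← hnm]
      linear_combination (m : ℚ) ^ 4 * hid
    exact_mod_cast h2
  -- modulo `q`
  have hmain' := congrArg (fun z : ℤ => (z : ZMod q)) hmain
  have hF' := congrArg (fun z : ℤ => (z : ZMod q)) hF
  push_cast at hmain' hF' he hgood hx
  rw [he, mul_zero, zero_mul, zero_mul, sub_zero] at hmain'
  have h2q : (2 : ZMod q) ≠ 0 := fun e' => hq2 ((Nat.prime_dvd_prime_iff_eq hq.out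
    Nat.prime_two).mp ((ZMod.natCast_eq_zero_iff 2 q).mp (by exact_mod_cast e')))
  by_cases hw0 : (w : ZMod q) = 0
  swap
  · refine hx ⟨((n : ZMod q) ^ 2 - 2 * e * n * m - (2 * e ^ 2 + A) * m ^ 2) / (2 * w), ?_⟩
    rw [← sq, div_pow, eq_div_iff (pow_ne_zero 2 (mul_ne_zero h2q hw0))]
    linear_combination hmain'
  rw [hw0, zero_pow two_ne_zero, mul_zero, zero_mul, eq_comm, pow_eq_zero_iff two_ne_zero]
    at hmain'
  rw [hw0, zero_pow two_ne_zero] at hF'
  by_cases hm0 : (m : ZMod q) = 0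
  · rw [hm0] at hmain'
    simp only [mul_zero, sub_zero, zero_pow two_ne_zero, pow_eq_zero_iff two_ne_zero] at hmain'
    rw [hm, Int.cast_natCast, ZMod.natCast_eq_zero_iff] at hm0
    have hn : (q : ℤ) ∣ n := (ZMod.intCast_zmod_eq_zero_iff_dvd _ q).mp hmain'
    exact hq.out.not_dvd_one ((Nat.Coprime.gcd_eq_one u.reduced) ▸
      Nat.dvd_gcd (Int.natCast_dvd.mp hn) hm0)
  have hF'' := (mul_eq_zero.mp hF').resolve_left hm0
  set t : ZMod q := (n : ZMod q) / m
  have htn : t * m = n := div_mul_cancel₀ _ hm0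
  rw [← htn] at hmain' hF''
  have hH : t ^ 2 - 2 * (e : ZMod q) * t - (2 * (e : ZMod q) ^ 2 + A) = 0 :=
    (mul_eq_zero.mp (show (t ^ 2 - 2 * (e : ZMod q) * t - (2 * (e : ZMod q) ^ 2 + A)) *
      (m : ZMod q) ^ 2 = 0 by linear_combination hmain')).resolve_right (pow_ne_zero 2 hm0)
  have hft : t ^ 3 + (A : ZMod q) * t + B = 0 :=
    (mul_eq_zero.mp (show (t ^ 3 + (A : ZMod q) * t + B) * (m : ZMod q) ^ 3 = 0 by
      linear_combination hF'')).resolve_right (pow_ne_zero 3 hm0)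
  refine hgood ?_
  by_cases hte : t = (e : ZMod q)
  · have hA : (A : ZMod q) = -3 * (e : ZMod q) ^ 2 := by
      rw [hte] at hH; linear_combination -hH
    have hB : (B : ZMod q) = 2 * (e : ZMod q) ^ 3 := by
      rw [hA] at he; linear_combination he
    rw [hA, hB]; ring
  · have hquad : t ^ 2 + t * e + (e : ZMod q) ^ 2 + A = 0 :=
      (mul_eq_zero.mp (show (t - e) * (t ^ 2 + t * e + (e : ZMod q) ^ 2 + A) = 0 by
        linear_combination hft - he)).resolve_left (sub_ne_zero.mpr hte)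
    have he2 : (e : ZMod q) = -2 * t := by
      linear_combination (mul_eq_zero.mp (show (t - e) * (2 * t + e) = 0 by
        linear_combination hH + hquad)).resolve_left (sub_ne_zero.mpr hte)
    have hA : (A : ZMod q) = -3 * t ^ 2 := by
      rw [he2] at hquad; linear_combination hquad
    have hB : (B : ZMod q) = 2 * t ^ 3 := by
      rw [hA] at hft; linear_combination hft
    rw [hA, hB]; ring

/-- Two elements of a group without torsion are independent when neither they nor their sum is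
twice an element. -/
theorem independent_of_parity {G : Type*} [AddCommGroup G] (htf : ∀ R : G, 2 • R = 0 → R = 0)
    {P Q : G} (hP : ∀ R : G, 2 • R ≠ P) (hQ : ∀ R : G, 2 • R ≠ Q)
    (hPQ : ∀ R : G, 2 • R ≠ P + Q) (m n : ℤ) (h : m • P + n • Q = 0) : m = 0 ∧ n = 0 := by
  obtain ⟨k, hk⟩ : ∃ k, m.natAbs + n.natAbs = k := ⟨_, rfl⟩
  induction k using Nat.strong_induction_on generalizing m n with
  | _ k ih =>
    obtain ⟨a, rfl | rfl⟩ := Int.even_or_odd' m <;> obtain ⟨b, rfl | rfl⟩ := Int.even_or_odd' n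
    · have h' : a • P + b • Q = 0 := htf _ (by
        rw [← h, smul_add, ← natCast_zsmul, ← natCast_zsmul, smul_smul, smul_smul]
        push_cast
        rfl)
      by_contra hne
      have := ih (a.natAbs + b.natAbs) (by omega) a b h' rfl
      omega
    · refine absurd ?_ (hQ (-(a • P + b • Q)))
      rw [← sub_eq_zero, ← neg_eq_zero, ← h, two_nsmul]
      simp only [add_smul, mul_smul, one_smul, two_smul]
      abel
    · refine absurd ?_ (hP (-(a • P + b • Q)))
      rw [← sub_eq_zero, ← neg_eq_zero, ← h, two_nsmul]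
      simp only [add_smul, mul_smul, one_smul, two_smul]
      abel
    · refine absurd ?_ (hPQ (-(a • P + b • Q)))
      rw [← sub_eq_zero, ← neg_eq_zero, ← h, two_nsmul]
      simp only [add_smul, mul_smul, one_smul, two_smul]
      abel

/-! ### Primes with given quadratic residues -/

/-- If `a` is a square and `b` a nonsquare modulo some odd prime, then so they are at divergently
many primes. -/
theorem not_summable_residues {a b : ℤ} {q₀ : ℕ} (hq₀ : q₀.Prime) (h2 : q₀ ≠ 2)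
    (ha : ¬ (q₀ : ℤ) ∣ a) (hsa : IsSquare ((a : ℤ) : ZMod q₀)) (hsb : ¬ IsSquare ((b : ℤ) : ZMod q₀))
    (F : Finset ℕ) :
    ¬ Summable ({q : ℕ | (q.Prime ∧ 5 ≤ q) ∧ q ∉ F ∧ IsSquare ((a : ℤ) : ZMod q) ∧
      ¬ IsSquare ((b : ℤ) : ZMod q)}.indicator fun n : ℕ => (1 : ℝ) / n) := by
  classical
  obtain ⟨s, hs⟩ := IsAlgClosed.exists_pow_nat_eq ((a : ℤ) : Qb) (n := 2) two_pos
  obtain ⟨t, ht⟩ := IsAlgClosed.exists_pow_nat_eq ((b : ℤ) : Qb) (n := 2) two_pos
  obtain ⟨L, hL, hLopen, hLs⟩ := FA.FixedA.exists_normal_fix s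
  obtain ⟨M, hM, hMopen, hMt⟩ := FA.FixedA.exists_normal_fix t
  have hb0 : b ≠ 0 := fun e => hsb (by rw [e, Int.cast_zero]; exact IsSquare.zero)
  obtain ⟨V₀, hV₀⟩ := FA.Deform.exists_liesOverPrime hq₀
  obtain ⟨g, hg⟩ := FA.Deform.exists_isFrobeniusAt hq₀ hV₀
  have hgs : g s = s := (FA.CM.ClassOne.frobenius_fix_iff_int hq₀ h2 ha hV₀ hg hs).mpr hsa
  have hgt : g t ≠ t := FA.SerreLarge.frobenius_apply_ne hq₀ hsb hV₀ hg ht
  refine FA.FixedA.not_summable_class (N := L ⊓ M)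
    (by rw [Subgroup.coe_inf]; exact hLopen.inter hMopen) g
    (F ∪ Finset.range 5 ∪ b.natAbs.primeFactors) fun q hq hqF V hV σ hσ c hc => ?_
  simp only [Finset.mem_union, Finset.mem_range, not_or, not_lt, Nat.mem_primeFactors,
    not_and] at hqF
  obtain ⟨hcs, hct⟩ := Subgroup.mem_inf.mp hc
  have key : ∀ r : Qb, ((c * g * c⁻¹)⁻¹ * σ) r = r → σ r = c (g (c⁻¹ r)) := fun r hr => by
    conv_rhs => rw [← hr]
    simp [AlgEquiv.mul_apply, mul_assoc]
  have hσs : σ s = s := by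
    have h1 : c⁻¹ s = s ∨ c⁻¹ s = -s := sq_eq_sq_iff_eq_or_eq_neg.mp (by
      rw [← map_pow, hs, map_intCast])
    rw [key s (hLs _ hcs)]
    rcases h1 with e | e
    · rw [e, hgs]
      conv_lhs => rw [← e]
      exact c.apply_symm_apply s
    · rw [e, map_neg, hgs, ← e]
      exact c.apply_symm_apply s
  refine ⟨⟨hq, hqF.1.2⟩, hqF.1.1, FA.FixedA.isSquare_of_fixed hq hV hσ hs hσs, fun hsq => ?_⟩
  have hσt : σ t = t := (FA.CM.ClassOne.frobenius_fix_iff_int hq (by omega)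
    (fun hd => hqF.2 hq (Int.natCast_dvd.mp hd) (Int.natAbs_ne_zero.mpr hb0)) hV hσ ht).mpr hsq
  have h2' : c⁻¹ t = g (c⁻¹ t) := by
    apply c.injective
    rw [← key t (hMt _ hct), hσt]
    exact c.apply_symm_apply t
  have h1 : c⁻¹ t = t ∨ c⁻¹ t = -t := sq_eq_sq_iff_eq_or_eq_neg.mp (by
    rw [← map_pow, ht, map_intCast])
  rcases h1 with e | e <;> rw [e] at h2'
  · exact hgt h2'.symm
  · rw [map_neg, neg_inj] at h2'
    exact hgt h2'.symm

/-- The residues at the witnesses: `(-3, -1)` at seven, `(21, 3)` at five, `(5, -1)` at eleven. -/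
theorem witnesses : ((-3 : ℤ) : ZMod 7) = 2 * 2 ∧ (∀ r : ZMod 7, ((-1 : ℤ) : ZMod 7) ≠ r * r) ∧
    ((21 : ℤ) : ZMod 5) = 1 * 1 ∧ (∀ r : ZMod 5, ((3 : ℤ) : ZMod 5) ≠ r * r) ∧
    ((5 : ℤ) : ZMod 11) = 4 * 4 ∧ (∀ r : ZMod 11, ((-1 : ℤ) : ZMod 11) ≠ r * r) := by decide

theorem not_summable_point (F : Finset ℕ) :
    ¬ Summable ({q : ℕ | (q.Prime ∧ 5 ≤ q) ∧ q ∉ F ∧ IsSquare ((-3 : ℤ) : ZMod q) ∧
      ¬ IsSquare ((-1 : ℤ) : ZMod q)}.indicator fun n : ℕ => (1 : ℝ) / n) :=
  not_summable_residues (q₀ := 7) (by norm_num) (by norm_num) (by norm_num) ⟨_, witnesses.1⟩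
    (fun ⟨r, hr⟩ => witnesses.2.1 r hr) F

theorem not_summable_point' (F : Finset ℕ) :
    ¬ Summable ({q : ℕ | (q.Prime ∧ 5 ≤ q) ∧ q ∉ F ∧ IsSquare ((21 : ℤ) : ZMod q) ∧
      ¬ IsSquare ((3 : ℤ) : ZMod q)}.indicator fun n : ℕ => (1 : ℝ) / n) :=
  not_summable_residues (q₀ := 5) (by norm_num) (by norm_num) (by norm_num) ⟨_, witnesses.2.2.1⟩
    (fun ⟨r, hr⟩ => witnesses.2.2.2.1 r hr) F

theorem not_summable_five (F : Finset ℕ) :
    ¬ Summable ({q : ℕ | (q.Prime ∧ 5 ≤ q) ∧ q ∉ F ∧ IsSquare ((5 : ℤ) : ZMod q) ∧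
      ¬ IsSquare ((-1 : ℤ) : ZMod q)}.indicator fun n : ℕ => (1 : ℝ) / n) :=
  not_summable_residues (q₀ := 11) (by norm_num) (by norm_num) (by norm_num)
    ⟨_, witnesses.2.2.2.2.1⟩ (fun ⟨r, hr⟩ => witnesses.2.2.2.2.2 r hr) F

/-! ### The sieve in one variable -/

/-- A property excluded from one class at each of divergently many primes is negligible. -/
theorem tendsto_avoid_line {Q : Set ℕ} (hQ : ∀ q ∈ Q, q.Prime)
    (hdiv : ¬ Summable (Q.indicator fun n : ℕ => (1 : ℝ) / n)) (c : ℕ → ℤ) (bad : ℤ → Prop)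
    (h : ∀ n : ℤ, bad n → ∀ q ∈ Q, (n : ZMod q) ≠ c q) :
    Tendsto (fun Y : ℕ => (Set.ncard {n : ℤ | |n| ≤ Y ∧ bad n} : ℝ) / (2 * Y + 1))
      atTop (𝓝 0) := by
  classical
  have hbox := tendsto_avoid hQ hdiv one_pos (FA.OneParameter.lineClasses c)
    (fun q hq => by rw [FA.OneParameter.card_lineClasses c (hQ q hq).ne_zero, one_mul])
    (fun AB => bad AB.2) fun AB hAB q hq hmem =>
      h AB.2 hAB q hq ((FA.OneParameter.mem_lineClasses (hQ q hq).ne_zero).mp hmem)
  refine (hbox.comp (tendsto_atTop_atTop.mpr fun b : ℕ × ℕ =>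
    ⟨b.1 ⊔ b.2, fun Y hY => ⟨le_sup_left.trans hY, le_sup_right.trans hY⟩⟩ :
      Tendsto (fun Y : ℕ => (Y, Y)) atTop atTop)).congr fun Y => ?_
  simp only [Function.comp_apply]
  set I := Finset.Icc (-(Y : ℤ)) Y
  have hI : (I.card : ℝ) = 2 * Y + 1 := by
    rw [Int.card_Icc, show (Y : ℤ) + 1 - -(Y : ℤ) = ((2 * Y + 1 : ℕ) : ℤ) by push_cast; ring,
      Int.toNat_natCast]
    push_cast
    ring
  have heq : {n : ℤ | |n| ≤ Y ∧ bad n} = ((I.filter bad : Finset ℤ) : Set ℤ) := by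
    ext n
    simp [I, abs_le]
  have hprod : (box Y Y).filter (fun AB => bad AB.2) = I ×ˢ I.filter bad := by
    ext AB
    simp [box, I, and_assoc]
  have hpos : (0 : ℝ) < 2 * Y + 1 := by positivity
  rw [heq, Set.ncard_coe_finset, hprod, Finset.card_product, Nat.cast_mul, hI,
    mul_div_mul_left _ _ hpos.ne']

/-! ### The family -/

/-- The coefficients `(d² - 17, 16)`. -/
abbrev coeffs (d : ℤ) : ℤ × ℤ := (d ^ 2 - 17, 16)

/-- For each prime the class `d ≡ 1` at divergently many primes has a Frobenius without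
eigenvalue. -/
theorem not_summable_irrFrob {p : ℕ} (hp : p.Prime) :
    ¬ Summable ({q : ℕ | q.Prime ∧ ∃ b : ℤ, ∀ d : ℤ, (d : ZMod q) = b →
      IrrFrob p (coeffs d)}.indicator fun n : ℕ => (1 : ℝ) / n) := by
  classical
  haveI := Fact.mk hp
  haveI : Fact (Nat.Prime 3) := ⟨Nat.prime_three⟩
  haveI : (ratCurve (shortInt (-16, 16))).IsElliptic := ratCurve_isElliptic_of_Δ (by
    norm_num [shortInt, WeierstrassCurve.Δ, WeierstrassCurve.b₂, WeierstrassCurve.b₄,
      WeierstrassCurve.b₆, WeierstrassCurve.b₈])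
  set W₀ := shortInt (-16, 16) with hW₀
  obtain ⟨g, δ, hroot, ht, hd, -⟩ := FA.FixedB.exists_base_element (p := p)
  refine FA.FixedA.not_summable_class (N := (curveRep p W₀).ker) (isOpen_ker_curveRep W₀) g
    (insert 37 (insert p (Finset.range 5))) fun q hq hqF V hV σ hσ c hc => ?_
  simp only [Finset.mem_insert, Finset.mem_range, not_or, not_lt] at hqF
  obtain ⟨h37, hqp, h5⟩ := hqF
  haveI := Fact.mk hq
  obtain ⟨hgood₀, hap₀⟩ := apOfModel_of_twistClass hq h5 h37 (FA.FixedB.base_mem_twistClasses hq)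
  obtain ⟨e1, e2⟩ := FA.Ribet.curveRep_frobenius (p := p) hq hqp hgood₀ hV hσ
  have hσM : curveRep p W₀ σ = curveRep p W₀ c * curveRep p W₀ g * curveRep p W₀ c⁻¹ := by
    conv_lhs => rw [← mul_inv_cancel_left (c * g * c⁻¹) σ]
    simp only [map_mul, MonoidHom.mem_ker.mp hc, mul_one]
  have hcc : curveRep p W₀ c⁻¹ * curveRep p W₀ c = 1 := by
    rw [← map_mul, inv_mul_cancel, map_one]
  have htr : (W₀.apOfModel q : ZMod p) = 1 := by
    rw [← e1, hσM, Matrix.trace_mul_cycle, hcc, one_mul, ht]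
  have hqd : (q : ZMod p) = δ := by
    rw [← e2, hσM, Matrix.det_mul, Matrix.det_mul, mul_right_comm, ← Matrix.det_mul,
      mul_eq_one_comm.mp hcc, Matrix.det_one, one_mul, hd]
  refine ⟨hq, 1, fun d hdq => ?_⟩
  obtain ⟨hgood, hap⟩ := apOfModel_of_twistClass hq h5 h37 (AB := coeffs d) (by
    have : (((coeffs d).1 : ℤ) : ZMod q) = (((-16, 16) : ℤ × ℤ).1 : ZMod q) := by
      push_cast at hdq ⊢
      rw [hdq]
      ring
    rw [this]
    exact FA.FixedB.base_mem_twistClasses hq)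
  refine ⟨1, δ, fun z hz => hroot z (by linear_combination hz), q, hq, hqp, hgood, ?_, hqd⟩
  rw [hap, ← hap₀, htr]

/-- The classes of `d` modulo `q²` with `q ∥ Δ` and `q ∤ d² - 17`. -/
def lineTrans (q : ℕ) : Finset (ZMod (q ^ 2)) :=
  if h : q = 0 then ∅ else
    have : NeZero (q ^ 2) := ⟨pow_ne_zero 2 h⟩
    Finset.univ.filter fun d => (d ^ 2 - 17, (16 : ZMod (q ^ 2))) ∈ transClasses q

theorem mem_lineTrans {q : ℕ} (hq : q ≠ 0) {x : ZMod (q ^ 2)} :
    x ∈ lineTrans q ↔ (x ^ 2 - 17, (16 : ZMod (q ^ 2))) ∈ transClasses q := by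
  haveI : NeZero (q ^ 2) := ⟨pow_ne_zero 2 hq⟩
  simp [lineTrans, hq]

/-- There are `q - 1` such classes over a root of `d² ≡ 5`. -/
theorem card_lineTrans {q : ℕ} (hq : q.Prime) (h7 : 7 ≤ q)
    (hsq : IsSquare ((5 : ℤ) : ZMod q)) : q ≤ 2 * (lineTrans q).card := by
  classical
  haveI := Fact.mk hq
  haveI : NeZero (q ^ 2) := ⟨pow_ne_zero 2 hq.ne_zero⟩
  have hne : ∀ k : ℕ, 0 < k → k < 7 → (k : ZMod q) ≠ 0 := fun k hk hk7 h => by
    have := Nat.le_of_dvd hk ((ZMod.natCast_eq_zero_iff k q).mp h)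
    omega
  have h2 : (2 : ZMod q) ≠ 0 := by exact_mod_cast hne 2 (by norm_num) (by norm_num)
  have h3 : (3 : ZMod q) ≠ 0 := by exact_mod_cast hne 3 (by norm_num) (by norm_num)
  have h5 : (5 : ZMod q) ≠ 0 := by exact_mod_cast hne 5 (by norm_num) (by norm_num)
  have h12 : (12 : ZMod q) ≠ 0 := by
    rw [show (12 : ZMod q) = 2 ^ 2 * 3 by norm_num]; exact mul_ne_zero (pow_ne_zero 2 h2) h3
  obtain ⟨r, hr⟩ := hsq
  push_cast at hr
  have hr0 : r ≠ 0 := fun e => h5 (by rw [hr, e, mul_zero])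
  obtain ⟨d₀, hd₀⟩ := ZMod.intCast_surjective r
  have hA₁ : ((d₀ ^ 2 - 17 : ℤ) : ZMod q) = -12 := by
    push_cast
    rw [hd₀]
    linear_combination -hr
  set A₁ := d₀ ^ 2 - 17 with hA₁def
  obtain ⟨k, hk⟩ : (q : ℤ) ∣ 4 * A₁ ^ 3 + 27 * 16 ^ 2 := by
    rw [← ZMod.intCast_zmod_eq_zero_iff_dvd, Int.cast_add, Int.cast_mul, Int.cast_pow, hA₁]
    push_cast
    ring
  set u : ZMod q := 12 * (A₁ : ZMod q) ^ 2 * 2 * (d₀ : ZMod q) with hudef
  have hu : u ≠ 0 := by
    rw [hudef, hA₁, hd₀]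
    exact mul_ne_zero (mul_ne_zero (mul_ne_zero h12 (pow_ne_zero 2 (neg_ne_zero.mpr h12))) h2) hr0
  set E := Finset.univ.filter fun e : ZMod q => (k : ZMod q) + u * e ≠ 0
  have hE : q - 1 ≤ E.card := by
    refine le_trans (le_of_eq ?_) (Finset.card_le_card (s := Finset.univ.erase (-(k : ZMod q) / u))
      fun e he => Finset.mem_filter.mpr ⟨Finset.mem_univ _, fun h0 =>
        Finset.ne_of_mem_erase he ?_⟩)
    · rw [Finset.card_erase_of_mem (Finset.mem_univ _), Finset.card_univ, ZMod.card]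
    · rw [eq_div_iff hu]
      linear_combination h0
  let f : ZMod q → ZMod (q ^ 2) := fun e => ((d₀ + q * (e.val : ℤ) : ℤ) : ZMod (q ^ 2))
  have hf : Function.Injective f := fun e e' h => by
    have h' := (ZMod.intCast_eq_intCast_iff_dvd_sub _ _ _).mp h
    rw [show d₀ + q * (e'.val : ℤ) - (d₀ + q * (e.val : ℤ)) =
      (q : ℤ) * ((e'.val : ℤ) - e.val) by ring, Nat.cast_pow, sq] at h'
    have h'' := (ZMod.intCast_eq_intCast_iff_dvd_sub _ _ q).mpr
      (Int.dvd_of_mul_dvd_mul_left (Int.natCast_ne_zero.mpr hq.ne_zero) h')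
    simpa using h''
  have hmem : ∀ e ∈ E, f e ∈ lineTrans q := fun e he => by
    set D : ℤ := 2 * d₀ * (e.val : ℤ) + q * (e.val : ℤ) ^ 2 with hDdef
    have hred : f e ^ 2 - 17 = ((A₁ + q * D : ℤ) : ZMod (q ^ 2)) := by
      simp only [f, hA₁def, hDdef]
      push_cast
      ring
    rw [mem_lineTrans hq.ne_zero, hred, show (16 : ZMod (q ^ 2)) = ((16 : ℤ) : ZMod (q ^ 2)) by
      push_cast; rfl, transClasses, dif_neg hq.ne_zero, Finset.mem_filter]
    refine ⟨Finset.mem_univ _, ?_, fun h0 => (Finset.mem_filter.mp he).2 ?_, ?_⟩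
    · simp only [map_add, map_mul, map_pow, map_intCast, map_ofNat]
      push_cast
      rw [ZMod.natCast_self, zero_mul, add_zero, hA₁]
      ring
    · simp only at h0
      have h1 : ((4 * (A₁ + q * D) ^ 3 + 27 * 16 ^ 2 : ℤ) : ZMod (q ^ 2)) = 0 := by
        push_cast at h0 ⊢
        linear_combination h0
      rw [ZMod.intCast_zmod_eq_zero_iff_dvd, show 4 * (A₁ + q * D) ^ 3 + 27 * 16 ^ 2 =
        (q : ℤ) * (k + 12 * A₁ ^ 2 * D + q * (12 * A₁ * D ^ 2 + 4 * q * D ^ 3))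
        by linear_combination hk, Nat.cast_pow, sq] at h1
      have h2' := (ZMod.intCast_zmod_eq_zero_iff_dvd _ q).mpr
        (Int.dvd_of_mul_dvd_mul_left (Int.natCast_ne_zero.mpr hq.ne_zero) h1)
      rw [hDdef] at h2'
      push_cast at h2'
      rw [ZMod.natCast_self, ZMod.natCast_zmod_val] at h2'
      rw [hudef]
      linear_combination h2'
    · simp only [map_intCast]
      push_cast
      rw [ZMod.natCast_self, zero_mul, add_zero, hA₁]
      exact neg_ne_zero.mpr h12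
  have := hE.trans (Finset.card_le_card_of_injOn f hmem hf.injOn)
  omega

/-- Some class of `d` modulo `q` has good reduction at `q`. -/
theorem exists_goodClass {q : ℕ} (hq : q.Prime) (h5 : 5 ≤ q) :
    ∃ b : ℤ, ∀ d : ℤ, (d : ZMod q) = b → ¬ (q : ℤ) ∣ (shortInt (coeffs d)).Δ := by
  haveI := Fact.mk hq
  refine ⟨if q = 37 then 0 else 1, fun d hd hdvd => ?_⟩
  rw [← ZMod.intCast_zmod_eq_zero_iff_dvd] at hdvd
  simp only [WeierstrassCurve.Δ, WeierstrassCurve.b₂, WeierstrassCurve.b₄,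
    WeierstrassCurve.b₆, WeierstrassCurve.b₈] at hdvd
  push_cast at hdvd
  rw [hd] at hdvd
  split_ifs at hdvd with h37
  · subst h37
    push_cast at hdvd
    have h : ((203840 : ℤ) : ZMod 37) = 0 := by push_cast; linear_combination hdvd
    rw [ZMod.intCast_zmod_eq_zero_iff_dvd] at h
    norm_num at h
  · push_cast at hdvd
    ring_nf at hdvd
    have h : ((2 ^ 12 * 37 : ℕ) : ZMod q) = 0 := by push_cast; linear_combination hdvd
    rw [ZMod.natCast_eq_zero_iff] at h
    rcases hq.dvd_mul.mp h with h | h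
    · have := Nat.le_of_dvd two_pos (hq.dvd_of_dvd_pow h)
      omega
    · exact h37 ((Nat.prime_dvd_prime_iff_eq hq (by norm_num)).mp h)

/-- **Almost every member of the family is generic.** -/
theorem tendsto_of_generic (bad : ℤ → Prop)
    (h : ∀ d : ℤ, ∀ [(shortRat (coeffs d)).IsElliptic]
      [(ratCurve (shortInt (coeffs d))).IsElliptic], Generic (coeffs d) → ¬ bad d) :
    Tendsto (fun Y : ℕ => (Set.ncard {d : ℤ | |d| ≤ Y ∧
        4 * (coeffs d).1 ^ 3 + 27 * (coeffs d).2 ^ 2 ≠ 0 ∧ bad d} : ℝ) / (2 * Y + 1))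
      atTop (𝓝 0) := by
  refine FA.OneParameter.tendsto_of_generic coeffs (fun q => exists_goodClass)
    (fun p => not_summable_irrFrob) (C := 2) (fun d p hp hlt hd => ?_)
    {q | (q.Prime ∧ 7 ≤ q) ∧ IsSquare ((5 : ℤ) : ZMod q)} (fun F hs => ?_)
    lineTrans (fun q hq => ⟨⟨hq.1.1, le_trans (by norm_num) hq.1.2⟩, card_lineTrans hq.1.1 hq.1.2 hq.2, fun d hd =>
      trans_of_mem hq.1.1 (le_trans (by norm_num) hq.1.2) (AB := coeffs d) (by
        have hd' := (mem_lineTrans hq.1.1.ne_zero).mp hd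
        simpa [coeffs] using hd')⟩) bad h
  · have h16 : p ∣ 2 ^ 4 := Int.natCast_dvd_natCast.mp (by simpa [coeffs] using hd.2)
    have := Nat.le_of_dvd two_pos (hp.dvd_of_dvd_pow h16)
    omega
  · refine not_summable_five (F ∪ Finset.range 7) (hs.of_nonneg_of_le (fun n => ?_) fun n => ?_)
    · exact Set.indicator_nonneg (fun i _ => by positivity) n
    · refine Set.indicator_le_indicator_of_subset (fun q hq => ?_) (fun i => by positivity) n
      exact ⟨⟨⟨hq.1.1, Nat.not_lt.mp fun h7 => hq.2.1 (Finset.mem_union_right _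
        (Finset.mem_range.mpr h7))⟩, hq.2.2.1⟩, fun hF => hq.2.1 (Finset.mem_union_left _ hF)⟩

/-! ### The points -/

/-- The point `(0, 4)`. -/
theorem nonsingular_four (d : ℤ) :
    (⟨0, 0, 0, (d : ℚ) ^ 2 - 17, 16⟩ : WeierstrassCurve ℚ).toAffine.Nonsingular 0 4 :=
  (Affine.nonsingular_iff _ _).mpr ⟨(Affine.equation_iff _ _).mpr (by norm_num),
    Or.inr (by norm_num [Affine.negY])⟩

/-- The point `(1, d)`. -/
theorem nonsingular_param (d : ℤ) :
    (⟨0, 0, 0, (d : ℚ) ^ 2 - 17, 16⟩ : WeierstrassCurve ℚ).toAffine.Nonsingular 1 (d : ℚ) := by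
  refine (Affine.nonsingular_iff _ _).mpr ⟨(Affine.equation_iff _ _).mpr (by ring), ?_⟩
  by_contra hc
  simp only [not_or, not_not] at hc
  obtain ⟨h1, h2⟩ := hc
  have hd0 : (d : ℚ) = 0 := by linarith
  rw [hd0] at h1
  norm_num at h1

theorem curve_eq (d : ℤ) : (⟨0, 0, 0, (d : ℚ) ^ 2 - 17, 16⟩ : WeierstrassCurve ℚ) =
    ⟨0, 0, 0, ((d ^ 2 - 17 : ℤ) : ℚ), ((16 : ℤ) : ℚ)⟩ := by
  push_cast
  rfl

/-- **Almost always `(0, 4)` and the sum with `(1, d)` are not twice points.** -/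
theorem tendsto_two_dvd_first :
    Tendsto (fun Y : ℕ => (Set.ncard {d : ℤ | |d| ≤ Y ∧
        ∃ R : (⟨0, 0, 0, (d : ℚ) ^ 2 - 17, 16⟩ : WeierstrassCurve ℚ).toAffine.Point,
          2 • R = Affine.Point.some _ _ (nonsingular_four d) ∨
          2 • R = Affine.Point.some _ _ (nonsingular_four d) +
            Affine.Point.some _ _ (nonsingular_param d)} : ℝ) / (2 * Y + 1)) atTop (𝓝 0) := by
  classical
  let c : ℕ → ℤ := fun q =>
    if h : IsSquare ((-3 : ℤ) : ZMod q) then (ZMod.intCast_surjective h.choose).choose else 0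
  refine tendsto_avoid_line (fun q hq => hq.1.1) (not_summable_point {7}) c _
    fun d ⟨R, hR⟩ q hq hd => ?_
  obtain ⟨⟨hp, h5⟩, h7, hsq, hns⟩ := hq
  haveI := Fact.mk hp
  simp only [Finset.mem_singleton] at h7
  have hne : ∀ k : ℕ, 0 < k → k < 5 → (k : ZMod q) ≠ 0 := fun k hk hk5 h => by
    have := Nat.le_of_dvd hk ((ZMod.natCast_eq_zero_iff k q).mp h)
    omega
  have h2 : (2 : ZMod q) ≠ 0 := by exact_mod_cast hne 2 (by norm_num) (by norm_num)
  have hd2 : (d : ZMod q) ^ 2 = -3 := by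
    simp only [c, dif_pos hsq] at hd
    rw [hd, (ZMod.intCast_surjective hsq.choose).choose_spec, sq, ← hsq.choose_spec]
    norm_num
  obtain ⟨r, hr⟩ := hsq
  push_cast at hr hns
  have h3 : (3 : ZMod q) ≠ 0 := by exact_mod_cast hne 3 (by norm_num) (by norm_num)
  have hr0 : r ≠ 0 := fun e => h3 (by rw [← neg_eq_zero, hr, e, mul_zero])
  have h12 : ¬ IsSquare (12 : ZMod q) := fun ⟨z, hz⟩ => hns ⟨z / (2 * r), by
    rw [div_mul_div_comm, eq_div_iff (mul_ne_zero (mul_ne_zero h2 hr0) (mul_ne_zero h2 hr0))]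
    linear_combination hz + 4 * hr⟩
  have hgood : ((4 * (d ^ 2 - 17) ^ 3 + 27 * 16 ^ 2 : ℤ) : ZMod q) ≠ 0 := fun h => by
    push_cast at h
    rw [hd2] at h
    have h' : ((2 ^ 9 * 7 ^ 2 : ℕ) : ZMod q) = 0 := by push_cast; linear_combination -h
    rw [ZMod.natCast_eq_zero_iff] at h'
    rcases hp.dvd_mul.mp h' with h' | h'
    · have := Nat.le_of_dvd two_pos (hp.dvd_of_dvd_pow h')
      omega
    · exact h7 ((Nat.prime_dvd_prime_iff_eq hp (by norm_num)).mp (hp.dvd_of_dvd_pow h'))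
  have he : (((4 : ℤ) ^ 3 + (d ^ 2 - 17) * 4 + 16 : ℤ) : ZMod q) = 0 := by
    push_cast
    linear_combination 4 * hd2
  rcases hR with hR | hR
  · refine not_two_nsmul (q := q) (x := 0) (by omega) he hgood ?_ (curve_eq d) (by norm_num) _ R hR
    rintro ⟨z, hz⟩
    push_cast at hz
    exact hns ⟨z / 2, by rw [div_mul_div_comm, eq_div_iff (mul_ne_zero h2 h2)]; linear_combination hz⟩
  · have h01 : ¬ ((0 : ℚ) = 1 ∧ (4 : ℚ) =
        (⟨0, 0, 0, (d : ℚ) ^ 2 - 17, 16⟩ : WeierstrassCurve ℚ).toAffine.negY 1 (d : ℚ)) :=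
      fun h => zero_ne_one h.1
    rw [Affine.Point.add_some h01] at hR
    refine not_two_nsmul (q := q) (x := (d - 4) ^ 2 - 1) (by omega) he hgood ?_ (curve_eq d) ?_ _ R hR
    · rintro ⟨z, hz⟩
      push_cast at hz
      have hz' : z * z = 8 - 8 * (d : ZMod q) := by linear_combination hd2 - hz
      rcases eq_or_ne z 0 with hz0 | hz0
      · have hd1 : (d : ZMod q) = 1 := by
          rw [hz0, mul_zero] at hz'
          refine sub_eq_zero.mp ((mul_eq_zero.mp (show (8 : ZMod q) * ((d : ZMod q) - 1) = 0 by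
            linear_combination hz')).resolve_left ?_)
          rw [show (8 : ZMod q) = 2 ^ 3 by norm_num]
          exact pow_ne_zero 3 h2
        rw [hd1] at hd2
        exact mul_ne_zero h2 h2 (by linear_combination hd2)
      · exact h12 ⟨4 * ((d : ZMod q) - 3) / z, by
          rw [div_mul_div_comm, eq_div_iff (mul_ne_zero hz0 hz0)]
          linear_combination 12 * hz' - 16 * hd2⟩
    · rw [Affine.slope_of_X_ne (zero_ne_one' ℚ)]
      simp only [Affine.addX]
      push_cast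
      ring

/-- **Almost always `(1, d)` is not twice a point.** -/
theorem tendsto_two_dvd_second :
    Tendsto (fun Y : ℕ => (Set.ncard {d : ℤ | |d| ≤ Y ∧
        ∃ R : (⟨0, 0, 0, (d : ℚ) ^ 2 - 17, 16⟩ : WeierstrassCurve ℚ).toAffine.Point,
          2 • R = Affine.Point.some _ _ (nonsingular_param d)} : ℝ) / (2 * Y + 1)) atTop (𝓝 0) := by
  classical
  let c : ℕ → ℤ := fun q =>
    if h : IsSquare ((21 : ℤ) : ZMod q) then (ZMod.intCast_surjective h.choose).choose else 0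
  refine tendsto_avoid_line (fun q hq => hq.1.1) (not_summable_point' {7}) c _
    fun d ⟨R, hR⟩ q hq hd => ?_
  obtain ⟨⟨hp, h5⟩, h7, hsq, hns⟩ := hq
  haveI := Fact.mk hp
  simp only [Finset.mem_singleton] at h7
  have hd2 : (d : ZMod q) ^ 2 = 21 := by
    simp only [c, dif_pos hsq] at hd
    rw [hd, (ZMod.intCast_surjective hsq.choose).choose_spec, sq, ← hsq.choose_spec]
    norm_num
  refine not_two_nsmul (q := q) (e := -2) (x := 1) (by omega) ?_ ?_ ?_ (curve_eq d) (by norm_num) _ R hR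
  · push_cast
    linear_combination -2 * hd2
  · intro h
    push_cast at h
    rw [hd2] at h
    have h' : ((2 ^ 10 * 7 : ℕ) : ZMod q) = 0 := by push_cast; linear_combination h
    rw [ZMod.natCast_eq_zero_iff] at h'
    rcases hp.dvd_mul.mp h' with h' | h'
    · have := Nat.le_of_dvd two_pos (hp.dvd_of_dvd_pow h')
      omega
    · exact h7 ((Nat.prime_dvd_prime_iff_eq hp (by norm_num)).mp h')
  · rw [show (1 : ℤ) - -2 = 3 by norm_num]
    exact hns

end FA.RankTwo

end
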