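import Fermat.Agent.SerreCurve.ProductImage
import Fermat.Agent.Root.SummaryKoblitzFactors

/-!
# Densities of Frobenius on a Serre curve at several primes

For conjugation invariant conditions at the primes of `L` the density of the primes whose Frobenius
meets all of them is the product of the shares, plus, when the level of Jones divides the product of
`L`, the product of the shares weighted by Serre's character. These weighted shares are computed
for the matrices without the eigenvalue one and for those different from one.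
-/

set_option autoImplicit false
set_option linter.style.haveILetI false
set_option linter.unusedSectionVars false

noncomputable section

open Matrix NumberField IsDedekindDomain WeierstrassCurve WeierstrassCurve.Affine
open FA.EC FA.Frob FA.RT
open scoped WeierstrassCurve.Affine NumberTheorySymbols

local notation "Qb" => AlgebraicClosure ℚ
local notation "GQ" => AlgebraicClosure ℚ ≃ₐ[ℚ] AlgebraicClosure ℚ
local notation "M2" => Matrix (Fin 2) (Fin 2)

namespace FA.SerreCurve

/-- The share of `GL₂(ℤ/l)` in a set of matrices. -/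
def shareIn (l : ℕ) (X : Set (M2 (ZMod l))) : ℝ :=
  (Nat.card {g : GL (Fin 2) (ZMod l) // g.1 ∈ X} : ℝ) / Nat.card (GL (Fin 2) (ZMod l))

/-- The share weighted by the factor at `l` of Serre's character. -/
def signShareIn (d : ℤ) (l : ℕ) (X : Set (M2 (ZMod l))) : ℝ :=
  (∑ᶠ g ∈ {g : GL (Fin 2) (ZMod l) | g.1 ∈ X}, (signChar d l g.1 : ℝ)) /
    Nat.card (GL (Fin 2) (ZMod l))

theorem signShareIn_eq_sum (d : ℤ) (l : ℕ) [Fact l.Prime] (X : Set (M2 (ZMod l)))
    [DecidablePred (· ∈ X)] :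
    signShareIn d l X = ((∑ g ∈ Finset.univ.filter (fun g : GL (Fin 2) (ZMod l) => g.1 ∈ X),
      signChar d l g.1 : ℤ) : ℝ) / Nat.card (GL (Fin 2) (ZMod l)) := by
  rw [signShareIn, finsum_mem_eq_toFinset_sum, Int.cast_sum]
  congr 1
  refine Finset.sum_congr ?_ fun _ _ => rfl
  ext g
  simp

/-- Where the character is one the weighted share is the share. -/
theorem signShareIn_eq_share {d : ℤ} {l : ℕ} [Fact l.Prime] {X : Set (M2 (ZMod l))}
    (h : ∀ g : GL (Fin 2) (ZMod l), g.1 ∈ X → signChar d l g.1 = 1) :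
    signShareIn d l X = shareIn l X := by
  classical
  rw [signShareIn_eq_sum, Finset.sum_congr rfl fun g hg => h g (Finset.mem_filter.mp hg).2,
    shareIn, Nat.card_eq_fintype_card (α := {g : GL (Fin 2) (ZMod l) // g.1 ∈ X}),
    Fintype.card_subtype]
  simp

section density

variable {W : WeierstrassCurve ℤ} [(ratCurve W).IsElliptic] (L : Finset ℕ)
  [hL : ∀ l : L, Fact (l : ℕ).Prime]

/-- **Densities of Frobenius on a Serre curve.** -/
theorem density_serreCurve_conditions
    (h : (FA.OpenImage.torsionAction (ratCurve W)).range.index = 2)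
    {c d : ℤ} (hd : Squarefree d) (hcd : W.Δ = c ^ 2 * d)
    (X : ∀ l : ℕ, Set (M2 (ZMod l)))
    (hX : ∀ (l : ℕ) (g x : GL (Fin 2) (ZMod l)), g.1 ∈ X l → (x * g * x⁻¹).1 ∈ X l)
    (Q : ℕ → ℕ → Prop)
    (hQ : ∀ (l : L) (q : ℕ), q.Prime → q ≠ l → W.IsGoodPrimeFor q →
      ∀ A : ValuationSubring Qb, A.LiesOverPrime q → ∀ σ : GQ, A.IsFrobeniusAt σ q →
        (curveRep (l : ℕ) W σ ∈ X l ↔ Q l q)) :
    Set.HasDirichletDensity {v : HeightOneSpectrum (𝓞 ℚ) |
      ∀ l ∈ L, Q l (Ideal.absNorm v.asIdeal)}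
      (∏ l ∈ L, shareIn l (X l) +
        if JonesCond L d then ∏ l ∈ L, signShareIn d l (X l) else 0) := by
  classical
  set π := prodCurveRep L (W := W) with hπ
  haveI := Fintype.ofFinite π.range
  set S : Set π.range := {g | ∀ l : L, (g.1 l).1 ∈ X l} with hS
  have hdens := FA.Chebotarev.hasDirichletDensity_frobSet π.rangeRestrict
    (MonoidHom.rangeRestrict_surjective _)
    (by rw [MonoidHom.ker_rangeRestrict]; exact isOpen_ker_prodCurveRep L)
    (X := S) fun g hg x l => hX l (g.1 l) (x.1 l) (hg l)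
  rw [← Nat.card_eq_fintype_card] at hdens
  let Xs : ∀ l : L, Finset (GL (Fin 2) (ZMod (l : ℕ))) := fun l =>
    Finset.univ.filter fun g => g.1 ∈ X l
  have hXs : ∀ l : L, ((Xs l).card : ℝ) =
      Nat.card {g : GL (Fin 2) (ZMod (l : ℕ)) // g.1 ∈ X l} := fun l => by
    rw [Nat.card_eq_fintype_card, Fintype.card_subtype]
  have hG : ∀ l : L, (Nat.card (GL (Fin 2) (ZMod (l : ℕ))) : ℝ) ≠ 0 := fun l =>
    Nat.cast_ne_zero.mpr Nat.card_pos.ne'
  have hrange := range_prodCurveRep L h hd hcd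
  rw [← hπ] at hrange
  have hval : (Nat.card S : ℝ) / Nat.card π.range = ∏ l ∈ L, shareIn l (X l) +
      if JonesCond L d then ∏ l ∈ L, signShareIn d l (X l) else 0 := by
    have hSc : Nat.card S = Nat.card {g : ∀ l : L, GL (Fin 2) (ZMod (l : ℕ)) //
        g ∈ π.range ∧ ∀ l, g l ∈ Xs l} :=
      Nat.card_congr ((Equiv.subtypeSubtypeEquivSubtypeInter (fun g => g ∈ π.range)
        (fun g => ∀ l : L, (g l).1 ∈ X l)).trans (Equiv.subtypeEquivRight fun g =>
          and_congr_right fun _ => forall_congr' fun l => by simp [Xs]))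
    rw [hSc, hrange]
    split_ifs with hc
    · have e1 := two_mul_card_signKer L d Xs
      have e2 := two_mul_natCard_signKer L hc.1 (d := d)
      have e1' := congrArg (fun z : ℤ => (z : ℝ)) e1
      have e2' := congrArg (fun n : ℕ => (n : ℝ)) e2
      simp only [Int.cast_mul, Int.cast_add, Int.cast_prod, Int.cast_ofNat, Int.cast_natCast,
        Nat.cast_mul, Nat.cast_ofNat, Nat.card_pi, Nat.cast_prod] at e1' e2'
      rw [← mul_div_mul_left _ _ (two_ne_zero' ℝ), e1', e2', add_div, ← Finset.prod_div_distrib,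
        ← Finset.prod_div_distrib, ← Finset.prod_coe_sort L, ← Finset.prod_coe_sort L]
      congr 1
      · exact Finset.prod_congr rfl fun l _ => by rw [hXs]; rfl
      · exact Finset.prod_congr rfl fun l _ => (signShareIn_eq_sum d l (X l)).symm
    · rw [add_zero, Nat.card_congr (Equiv.subtypeEquivRight fun g => and_iff_right
          (Subgroup.mem_top g)), Nat.card_congr (Equiv.subtypePiEquivPi (p := fun (l : L)
          (g : GL (Fin 2) (ZMod (l : ℕ))) => g ∈ Xs l)),
        Subgroup.card_top, Nat.card_pi, Nat.card_pi, Nat.cast_prod, Nat.cast_prod,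
        ← Finset.prod_div_distrib, ← Finset.prod_coe_sort L]
      exact Finset.prod_congr rfl fun l _ => by
        rw [Nat.card_eq_fintype_card (α := {g // g ∈ Xs l}), Fintype.card_coe, hXs]
        rfl
  rw [hval] at hdens
  have hΔ : W.Δ ≠ 0 := fun h0 => (ratCurve W).isUnit_Δ.ne_zero (by simp [ratCurve, h0])
  refine FA.TraceDist.hasDirichletDensity_congr hdens
    (FA.Supersingular.finite_absNorm_mem (L ∪ W.Δ.natAbs.primeFactors)) fun v hv => ?_
  simp only [Finset.mem_union, Set.mem_ofPred_eq, not_or] at hv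
  set q := Ideal.absNorm v.asIdeal
  have hq : q.Prime := FA.Chebotarev.absNorm_prime v
  have hgood : W.IsGoodPrimeFor q := fun hd' => hv.2 (Nat.mem_primeFactors.mpr
    ⟨hq, Int.natCast_dvd.mp hd', Int.natAbs_ne_zero.mpr hΔ⟩)
  have hne : ∀ l : L, q ≠ l := fun l e => hv.1 (e ▸ l.2)
  constructor
  · intro hm l hl
    obtain ⟨A, hA⟩ := FA.Deform.exists_liesOverPrime hq
    obtain ⟨σ, hσ⟩ := FA.Deform.exists_isFrobeniusAt hq hA
    exact (hQ ⟨l, hl⟩ q hq (hne _) hgood A hA σ hσ).mp (hm A hA σ hσ ⟨l, hl⟩)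
  · intro hm A hA σ hσ l
    exact (hQ l q hq (hne l) hgood A hA σ hσ).mpr (hm l l.2)

end density

/-! ### The two conditions -/

theorem signChar_eq_quadraticChar {d : ℤ} {l : ℕ} [hl : Fact l.Prime] (hl2 : l ≠ 2)
    (hd : (l : ℤ) ∣ d) (M : M2 (ZMod l)) :
    signChar d l M = quadraticChar (ZMod l) M.det := by
  unfold signChar
  rw [if_neg hl2, if_pos hd, ← jacobiSym.legendreSym.to_jacobiSym, legendreSym]
  push_cast
  rw [ZMod.natCast_zmod_val]

theorem signChar_eq_one {d : ℤ} {l : ℕ} (hl2 : l ≠ 2) (hd : ¬ (l : ℤ) ∣ d) (M : M2 (ZMod l)) :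
    signChar d l M = 1 := by
  unfold signChar
  rw [if_neg hl2, if_neg hd]

/-- At the primes of `d` the factor is not constant. -/
theorem exists_signChar_odd {d : ℤ} {l : ℕ} [hl : Fact l.Prime] (hl2 : l ≠ 2) (hd : (l : ℤ) ∣ d) :
    ∃ g : GL (Fin 2) (ZMod l), signChar d l g.1 = -1 := by
  obtain ⟨u, hu⟩ := quadraticChar_exists_neg_one' (F := ZMod l) (by rwa [ZMod.ringChar_zmod_n])
  refine ⟨Matrix.GeneralLinearGroup.mk'' !![(u : ZMod l), 0; 0, 1]
    (by simp [det_fin_two_of]), ?_⟩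
  rw [signChar_eq_quadraticChar hl2 hd]
  simpa [det_fin_two_of] using hu

theorem sum_quadraticChar_units {l : ℕ} [hl : Fact l.Prime] (hl2 : l ≠ 2) :
    ∑ u : (ZMod l)ˣ, quadraticChar (ZMod l) (u : ZMod l) = 0 := by
  obtain ⟨u₀, hu⟩ := quadraticChar_exists_neg_one' (F := ZMod l) (by rwa [ZMod.ringChar_zmod_n])
  have e : ∑ u : (ZMod l)ˣ, quadraticChar (ZMod l) ((u₀ * u : (ZMod l)ˣ) : ZMod l) =
      ∑ u : (ZMod l)ˣ, quadraticChar (ZMod l) (u : ZMod l) :=
    Equiv.sum_comp (Equiv.mulLeft u₀) fun u : (ZMod l)ˣ => quadraticChar (ZMod l) (u : ZMod l)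
  simp only [Units.val_mul, map_mul, hu, neg_mul, one_mul, Finset.sum_neg_distrib] at e
  omega

/-- The character summed over the invertible matrices with the eigenvalue one. -/
theorem sum_signChar_fixing {d : ℤ} {l : ℕ} [hl : Fact l.Prime] (hl2 : l ≠ 2)
    (hd : (l : ℤ) ∣ d) :
    ∑ g ∈ Finset.univ.filter (fun g : GL (Fin 2) (ZMod l) => g.1.trace = g.1.det + 1),
      signChar d l g.1 = -(l : ℤ) := by
  classical
  let e := FA.TraceDist.glEquiv fun x : ZMod l => x + 1
  rw [Finset.sum_subtype (p := fun g : GL (Fin 2) (ZMod l) => g.1.trace = g.1.det + 1)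
    _ (fun g => by simp)]
  rw [← Equiv.sum_comp e.symm, Fintype.sum_sigma]
  have hn : ∀ u : (ZMod l)ˣ, (Fintype.card {M : M2 (ZMod l) //
      M.trace = (u : ZMod l) + 1 ∧ M.det = u} : ℤ) =
        (l : ℤ) ^ 2 + l - if u = 1 then (l : ℤ) else 0 := fun u => by
    have h := FA.TraceDist.card_trace_det ((u : ZMod l) + 1) (u : ZMod l)
    rw [ZMod.card, Nat.card_eq_fintype_card, ← Fintype.card_subtype, ← Nat.card_eq_fintype_card,
      ← Nat.card_eq_fintype_card, Nat.card_congr (Equiv.subtypeEquivRight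
        (q := fun a : ZMod l => a ∈ ({1, (u : ZMod l)} : Finset (ZMod l))) fun a => by
          rw [Finset.mem_insert, Finset.mem_singleton,
            show a * a - ((u : ZMod l) + 1) * a + u = (a - 1) * (a - u) by ring, mul_eq_zero,
            sub_eq_zero, sub_eq_zero]),
      Nat.card_eq_fintype_card (α := {a // a ∈ ({1, (u : ZMod l)} : Finset (ZMod l))}),
      Fintype.card_coe, Nat.card_eq_fintype_card] at h
    split_ifs with hu
    · subst hu
      rw [Units.val_one, Finset.insert_eq_of_mem (Finset.mem_singleton_self _),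
        Finset.card_singleton, mul_one] at h
      have := congrArg (fun n : ℕ => (n : ℤ)) h
      simp only [Nat.cast_add, Nat.cast_pow, Units.val_one] at this ⊢
      linarith
    · rw [Finset.card_pair (show (1 : ZMod l) ≠ (u : ZMod l) from
        fun e => hu (Units.ext (e.symm.trans Units.val_one.symm)))] at h
      have := congrArg (fun n : ℕ => (n : ℤ)) h
      simp only [Nat.cast_add, Nat.cast_pow, Nat.cast_mul, Nat.cast_ofNat] at this
      linarith
  have hterm : ∀ (u : (ZMod l)ˣ) (M : {M : M2 (ZMod l) //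
      M.trace = (u : ZMod l) + 1 ∧ M.det = u}),
      signChar d l (e.symm ⟨u, M⟩).1.1 = quadraticChar (ZMod l) (u : ZMod l) := fun u M => by
    rw [signChar_eq_quadraticChar hl2 hd]
    exact congrArg _ M.2.2
  simp only [hterm, Finset.sum_const, Finset.card_univ, nsmul_eq_mul, hn]
  simp only [sub_mul, Finset.sum_sub_distrib, ← Finset.mul_sum, sum_quadraticChar_units hl2,
    mul_zero, ite_mul, zero_mul, Finset.sum_ite_eq', Finset.mem_univ, if_true, Units.val_one,
    map_one, mul_one, zero_sub]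

/-- The matrices without the eigenvalue one. -/
def unfixed (l : ℕ) : Set (M2 (ZMod l)) := {M | M.trace ≠ M.det + 1}

theorem shareIn_unfixed (l : ℕ) [Fact l.Prime] :
    shareIn l (unfixed l) = 1 - ((l : ℝ) ^ 2 - 2) / (((l : ℝ) - 1) * ((l : ℝ) ^ 2 - 1)) :=
  FA.PrimeDivisors.card_unfixed_div

theorem gl2_card_cast (l : ℕ) [hl : Fact l.Prime] :
    (Nat.card (GL (Fin 2) (ZMod l)) : ℝ) = ((l : ℝ) ^ 2 - 1) * ((l : ℝ) ^ 2 - l) := by
  rw [FA.TraceDist.card_gl2, ZMod.card, Nat.cast_mul,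
    Nat.cast_sub (Nat.one_le_pow _ _ hl.out.pos), Nat.cast_sub (Nat.le_self_pow two_ne_zero l)]
  push_cast
  ring

theorem signShareIn_unfixed_of_dvd {d : ℤ} {l : ℕ} [hl : Fact l.Prime] (hl2 : l ≠ 2)
    (hd : (l : ℤ) ∣ d) :
    signShareIn d l (unfixed l) =
      shareIn l (unfixed l) * (1 / ((l : ℝ) ^ 3 - 2 * (l : ℝ) ^ 2 - l + 3)) := by
  classical
  have hsplit := Finset.sum_filter_add_sum_filter_not (Finset.univ : Finset (GL (Fin 2) (ZMod l)))
    (fun g => g.1.trace = g.1.det + 1) fun g => signChar d l g.1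
  rw [sum_signChar_fixing hl2 hd,
    sum_signChar_eq_zero (exists_signChar_odd hl2 hd).choose_spec] at hsplit
  have hsum : ∑ g ∈ Finset.univ.filter (fun g : GL (Fin 2) (ZMod l) => g.1 ∈ unfixed l),
      signChar d l g.1 = (l : ℤ) := by
    rw [show Finset.univ.filter (fun g : GL (Fin 2) (ZMod l) => g.1 ∈ unfixed l) =
        Finset.univ.filter (fun g : GL (Fin 2) (ZMod l) => ¬ g.1.trace = g.1.det + 1) from
      Finset.ext fun g => by simp [unfixed]]
    omega
  rw [signShareIn_eq_sum, hsum, shareIn_unfixed, gl2_card_cast]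
  have h2 : (3 : ℝ) ≤ l := by exact_mod_cast hl.out.two_le.lt_of_ne' hl2
  have a1 : (l : ℝ) - 1 ≠ 0 := by linarith
  have a2 : (l : ℝ) ^ 2 - 1 ≠ 0 := by nlinarith
  have a3 : (l : ℝ) ^ 2 - l ≠ 0 := by nlinarith
  have a4 : (l : ℝ) ^ 3 - 2 * (l : ℝ) ^ 2 - l + 3 ≠ 0 := by nlinarith
  have e : 1 - ((l : ℝ) ^ 2 - 2) / (((l : ℝ) - 1) * ((l : ℝ) ^ 2 - 1)) =
      ((l : ℝ) ^ 3 - 2 * (l : ℝ) ^ 2 - l + 3) / (((l : ℝ) - 1) * ((l : ℝ) ^ 2 - 1)) := by
    rw [eq_div_iff (mul_ne_zero a1 a2), sub_mul, one_mul, div_mul_cancel₀ _ (mul_ne_zero a1 a2)]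
    ring
  rw [e, ← mul_div_assoc, mul_one]
  generalize (l : ℝ) ^ 3 - 2 * (l : ℝ) ^ 2 - l + 3 = P at a4
  rw [div_right_comm, div_self a4, Int.cast_natCast, div_eq_div_iff (mul_ne_zero a2 a3)
    (mul_ne_zero a1 a2)]
  ring

theorem sgn_eq_zero_of_unfixed : ∀ M : M2 (ZMod 2), M.det ≠ 0 → M.trace ≠ M.det + 1 →
    FA.Two.sgn M = 0 := by
  intro M hM
  rcases FA.Two.six_cases hM with rfl | rfl | rfl | rfl | rfl | rfl <;> decide

theorem signShareIn_unfixed_of_not_dvd {d : ℤ} {l : ℕ} [hl : Fact l.Prime]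
    (hd : l = 2 ∨ ¬ (l : ℤ) ∣ d) : signShareIn d l (unfixed l) = shareIn l (unfixed l) := by
  refine signShareIn_eq_share fun g hg => ?_
  by_cases h2 : l = 2
  · subst h2
    rw [signChar_two, if_pos (sgn_eq_zero_of_unfixed _
      ((Matrix.isUnit_iff_isUnit_det _).mp g.isUnit).ne_zero hg)]
  · exact signChar_eq_one h2 (hd.resolve_left h2) _

/-- The matrices other than one. -/
def nonTrivial (l : ℕ) : Set (M2 (ZMod l)) := {M | M ≠ 1}

theorem shareIn_nonTrivial (l : ℕ) [hl : Fact l.Prime] :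
    shareIn l (nonTrivial l) = 1 - 1 / (((l : ℝ) ^ 2 - 1) * ((l : ℝ) ^ 2 - l)) := by
  classical
  have hcard : Nat.card {g : GL (Fin 2) (ZMod l) // g.1 ∈ nonTrivial l} + 1 =
      Nat.card (GL (Fin 2) (ZMod l)) := by
    rw [Nat.card_congr (Equiv.subtypeEquivRight (q := fun g => ¬ g = 1) fun g => by
        rw [← Units.val_inj, Units.val_one]; rfl), Nat.card_eq_fintype_card,
      Nat.card_eq_fintype_card, Fintype.card_subtype_compl, Fintype.card_subtype_eq]
    have := Fintype.card_pos (α := GL (Fin 2) (ZMod l))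
    omega
  rw [← gl2_card_cast l, shareIn, ← hcard, Nat.cast_add, Nat.cast_one]
  have h0 : (0 : ℝ) < (Nat.card {g : GL (Fin 2) (ZMod l) // g.1 ∈ nonTrivial l} : ℝ) + 1 := by
    positivity
  field_simp
  ring

theorem signShareIn_nonTrivial_of_dvd {d : ℤ} {l : ℕ} [hl : Fact l.Prime]
    (hd : l = 2 ∨ (l : ℤ) ∣ d) :
    signShareIn d l (nonTrivial l) =
      shareIn l (nonTrivial l) * (-1 / (((l : ℝ) ^ 2 - 1) * ((l : ℝ) ^ 2 - l) - 1)) := by
  classical
  obtain ⟨g₀, hg₀⟩ : ∃ g : GL (Fin 2) (ZMod l), signChar d l g.1 = -1 := by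
    by_cases h2 : l = 2
    · exact exists_signChar_two d h2
    · exact exists_signChar_odd h2 (hd.resolve_left h2)
  have hsum : ∑ g ∈ Finset.univ.filter (fun g : GL (Fin 2) (ZMod l) => g.1 ∈ nonTrivial l),
      signChar d l g.1 = -1 := by
    rw [show Finset.univ.filter (fun g : GL (Fin 2) (ZMod l) => g.1 ∈ nonTrivial l) =
        Finset.univ.filter (fun g : GL (Fin 2) (ZMod l) => g ≠ 1) from
      Finset.ext fun g => by
        simp only [Finset.mem_filter, Finset.mem_univ, true_and, nonTrivial, Set.mem_ofPred_eq]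
        exact not_congr Units.val_eq_one, Finset.filter_ne',
      Finset.sum_erase_eq_sub (Finset.mem_univ _), sum_signChar_eq_zero hg₀, signChar_one]
    rfl
  rw [signShareIn_eq_sum, hsum, shareIn_nonTrivial, gl2_card_cast]
  have h2 : (2 : ℝ) ≤ l := by exact_mod_cast hl.out.two_le
  have a1 : (3 : ℝ) ≤ (l : ℝ) ^ 2 - 1 := by nlinarith
  have a2 : (2 : ℝ) ≤ (l : ℝ) ^ 2 - l := by nlinarith
  have a3 : (6 : ℝ) ≤ ((l : ℝ) ^ 2 - 1) * ((l : ℝ) ^ 2 - l) := by nlinarith
  generalize ((l : ℝ) ^ 2 - 1) * ((l : ℝ) ^ 2 - l) = G at a3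
  have g0 : G ≠ 0 := by linarith
  have g1 : G - 1 ≠ 0 := by linarith
  push_cast
  field_simp

theorem signShareIn_nonTrivial_of_not_dvd {d : ℤ} {l : ℕ} [hl : Fact l.Prime] (h2 : l ≠ 2)
    (hd : ¬ (l : ℤ) ∣ d) : signShareIn d l (nonTrivial l) = shareIn l (nonTrivial l) :=
  signShareIn_eq_share fun _ _ => signChar_eq_one h2 hd _

end FA.SerreCurve

end
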