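import Fermat.Agent.SerreCurve.IndexTwoCube
import Fermat.Agent.Root.SurjectiveTwo

/-!
# Full images on `E[2]` and `E[3]`

An image without a stable line, with every determinant and a transvection is everything. At `2` a
transvection is an element moving `√Δ`. At `3` the element `θ = (4 c₄ - (y₁ + y₂)²) / 48` of the
division field is a cube root of `Δ`; without an element of order three every `σ¹⁶` fixes `E[3]`,
and then some cube root of `Δ` is rational.
-/

set_option autoImplicit false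
set_option linter.style.haveILetI false
set_option linter.unusedSectionVars false

noncomputable section

open Matrix WeierstrassCurve WeierstrassCurve.Affine FA.EC FA.Frob FA.RT
open FA.RT.Tate (Pts)
open FA.Two (deltaRoot)
open FA.Switch (psiQ)
open FA.Independence.Family (upMat)
open scoped WeierstrassCurve.Affine

local notation "Qb" => AlgebraicClosure ℚ
local notation "GQ" => AlgebraicClosure ℚ ≃ₐ[ℚ] AlgebraicClosure ℚ

namespace FA.SmallPrimes

variable {W : WeierstrassCurve ℤ} [(ratCurve W).IsElliptic] {p : ℕ} [hp : Fact p.Prime]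

/-- Galois in coordinates for `E[p]`. -/
theorem exists_coordinateRep
    (b : (Fin 2 → ZMod p) ≃ₗ[ZMod p] Submodule.torsionBy ℤ ((ratCurve W)⁄Qb).Point (p : ℤ)) :
    ∃ r : GQ →* Matrix (Fin 2) (Fin 2) (ZMod p),
      ∀ σ v, σ • (b v).1 = (b (r σ *ᵥ v)).1 := by
  choose A hA using FA.SerreCurve.exists_matrix_smul b
  have huniq : ∀ {X Y : Matrix (Fin 2) (Fin 2) (ZMod p)},
      (∀ v, (b (X *ᵥ v)).1 = (b (Y *ᵥ v)).1) → X = Y := fun h =>
    Matrix.ext_of_mulVec_single fun i => b.injective (Subtype.ext (h _))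
  exact ⟨{ toFun := A
           map_one' := huniq fun v => by rw [← hA, one_smul, one_mulVec]
           map_mul' := fun σ τ => huniq fun v => by
            rw [← mulVec_mulVec, ← hA, ← hA, ← hA, mul_smul] }, hA⟩

/-- **No stable line and a transvection give everything.** -/
theorem full_of_transvection
    {b : (Fin 2 → ZMod p) ≃ₗ[ZMod p] Submodule.torsionBy ℤ ((ratCurve W)⁄Qb).Point (p : ℤ)}
    {r : GQ →* Matrix (Fin 2) (Fin 2) (ZMod p)} (hr : ∀ σ v, σ • (b v).1 = (b (r σ *ᵥ v)).1)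
    (hline : ∀ P : Pts W, P ≠ 0 → p • P = 0 → ∃ σ : GQ, ∀ k : ℕ, σ • P ≠ k • P)
    {τ : GQ} (hne : r τ ≠ 1) (hsq : (r τ - 1) * (r τ - 1) = 0)
    (φ : Submodule.torsionBy ℤ ((ratCurve W)⁄Qb).Point (p : ℤ) ≃+
      Submodule.torsionBy ℤ ((ratCurve W)⁄Qb).Point (p : ℤ)) :
    ∃ σ : GQ, ∀ x, σ • x.1 = (φ x).1 := by
  haveI : NeZero p := ⟨hp.out.ne_zero⟩
  have hirr : ∀ l : Fin 2 → ZMod p, l ≠ 0 → ∃ g, ∀ a : ZMod p, r g *ᵥ l ≠ a • l := fun l hl => by
    obtain ⟨σ, hσ⟩ := hline (b l).1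
      (fun e => hl ((LinearEquiv.map_eq_zero_iff b).mp (Subtype.ext e)))
      (by rw [← natCast_zsmul]; exact (Submodule.mem_torsionBy_iff _ _).mp (b l).2)
    refine ⟨σ, fun a ha => hσ a.val ?_⟩
    rw [hr, ha, ← ZMod.natCast_zmod_val a, Nat.cast_smul_eq_nsmul, map_nsmul,
      Submodule.coe_smul_of_tower, ZMod.natCast_zmod_val]
  have hdet : ∀ a : ZMod p, a ≠ 0 → ∃ g, (r g).det = a := fun a ha => by
    obtain ⟨A, hA, σ, hσ⟩ := FA.SerreCurve.exists_actsBy_det b (Units.mk0 a ha)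
    refine ⟨σ, Eq.trans ?_ hA⟩
    exact congrArg Matrix.det (Matrix.ext_of_mulVec_single fun i =>
      b.injective (Subtype.ext ((hr σ _).symm.trans (hσ _))))
  let e : (Fin 2 → ZMod p) ≃+ (Fin 2 → ZMod p) := (b.toAddEquiv.trans φ).trans b.toAddEquiv.symm
  have hg : (LinearMap.toMatrix' (e.toAddMonoidHom.toZModLinearMap p)).det ≠ 0 := by
    refine ((Matrix.isUnit_iff_isUnit_det _).mp (IsUnit.of_mul_eq_one
      (LinearMap.toMatrix' (e.symm.toAddMonoidHom.toZModLinearMap p)) ?_)).ne_zero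
    rw [← LinearMap.toMatrix'_comp, show (e.toAddMonoidHom.toZModLinearMap p).comp
      (e.symm.toAddMonoidHom.toZModLinearMap p) = LinearMap.id from
        LinearMap.ext fun v => e.apply_symm_apply v, LinearMap.toMatrix'_id]
  obtain ⟨σ, hσ⟩ := FA.Ribet.exists_eq_of_transvection r hirr hdet hne hsq hg
  refine ⟨σ, fun x => ?_⟩
  obtain ⟨v, rfl⟩ := b.surjective x
  rw [hr, hσ, LinearMap.toMatrix'_mulVec]
  show (b (b.symm (φ (b v)))).1 = _
  rw [LinearEquiv.apply_symm_apply]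

/-- An invertible matrix without eigenvectors forbids stable lines. -/
theorem no_line_of_full (hfull : ∀ φ : Submodule.torsionBy ℤ ((ratCurve W)⁄Qb).Point (p : ℤ) ≃+
      Submodule.torsionBy ℤ ((ratCurve W)⁄Qb).Point (p : ℤ), ∃ σ : GQ, ∀ x, σ • x.1 = (φ x).1)
    {J : Matrix (Fin 2) (Fin 2) (ZMod p)} (hdet : IsUnit J.det)
    (hJ : ∀ (v : Fin 2 → ZMod p) (a : ZMod p), J *ᵥ v = a • v → v = 0)
    {P : Pts W} (hP : P ≠ 0) (hpP : p • P = 0) : ∃ σ : GQ, ∀ k : ℕ, σ • P ≠ k • P := by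
  haveI : NeZero p := ⟨hp.out.ne_zero⟩
  obtain ⟨b⟩ := FA.PadicImage.nonempty_torsion_equiv W (N := p)
  obtain ⟨v, hv⟩ := b.surjective ⟨P, by rw [Submodule.mem_torsionBy_iff, natCast_zsmul]; exact hpP⟩
  obtain ⟨φ, hφ⟩ := FA.Independence.Adelic.exists_addEquiv b.symm.toAddEquiv (A := J) hdet
  obtain ⟨σ, hσ⟩ := hfull φ
  refine ⟨σ, fun k hk => hP ?_⟩
  have h : σ • (b v).1 = (b (J *ᵥ v)).1 := by rw [hσ, hφ]; simp
  rw [show (b v).1 = P by rw [hv], hk, show P = (b v).1 by rw [hv], ← Submodule.coe_smul_of_tower,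
    ← map_nsmul] at h
  have h' := hJ v (k : ZMod p) (by
    rw [Nat.cast_smul_eq_nsmul]; exact (b.injective (Subtype.ext h)).symm)
  rw [h', map_zero] at hv
  exact (congrArg Subtype.val hv).symm

/-! ### At two -/

/-- **Full image on `E[2]`.** -/
theorem full_two_iff :
    (∀ φ : Submodule.torsionBy ℤ ((ratCurve W)⁄Qb).Point ((2 : ℕ) : ℤ) ≃+
        Submodule.torsionBy ℤ ((ratCurve W)⁄Qb).Point ((2 : ℕ) : ℤ),
      ∃ σ : GQ, ∀ x, σ • x.1 = (φ x).1) ↔
    ¬ IsSquare (W.Δ : ℚ) ∧ ∀ P : Pts W, P ≠ 0 → 2 • P = 0 → ∃ σ : GQ, σ • P ≠ P := by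
  obtain ⟨b⟩ := FA.PadicImage.nonempty_torsion_equiv W (N := 2)
  obtain ⟨r, hr⟩ := exists_coordinateRep b
  constructor
  · refine fun hfull => ⟨fun ⟨s, hs⟩ => ?_, fun P hP h2 => ?_⟩
    · obtain ⟨φ, hφ⟩ := FA.Independence.Adelic.exists_addEquiv b.symm.toAddEquiv
        (A := upMat (1 : ZMod 2)) (by simp [upMat, det_fin_two_of])
      obtain ⟨σ, hσ⟩ := hfull φ
      have hact : ∀ v, σ • (b v).1 = (b (upMat 1 *ᵥ v)).1 := fun v => by rw [hσ, hφ]; simp
      have hflip := FA.SerreCurve.deltaRoot_of_involution (σ := σ) (fun x hx => by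
          obtain ⟨v, hv⟩ := b.surjective ⟨x, by
            rw [Submodule.mem_torsionBy_iff, natCast_zsmul]; exact hx⟩
          rw [show x = (b v).1 by rw [hv], hact, hact, mulVec_mulVec,
            show upMat (1 : ZMod 2) * upMat 1 = 1 by decide, one_mulVec])
        (x₀ := (b ![0, 1]).1) (by
          rw [← natCast_zsmul]; exact (Submodule.mem_torsionBy_iff _ _).mp (b _).2)
        (fun e => absurd (b.injective (Subtype.ext ((hact _).symm.trans e))) (by decide))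
      refine neg_ne_self.mpr FA.SerreCurve.deltaRoot_ne_zero (hflip.symm.trans ?_)
      rcases (sq_eq_sq_iff_eq_or_eq_neg (a := deltaRoot W) (b := (s : Qb))).mp (by
        rw [FA.Two.deltaRoot_sq, ← Rat.cast_intCast, hs, Rat.cast_mul, sq]) with e | e <;> simp [e]
    · obtain ⟨σ, hσ⟩ := no_line_of_full hfull (J := !![0, 1; 1, 1]) (by decide)
        (by decide) hP h2
      exact ⟨σ, fun e => hσ 1 (by rw [one_nsmul, e])⟩
  rintro ⟨hsq, hfix⟩
  obtain ⟨c, hc⟩ : ∃ c : GQ, FA.Two.IsTransp (curveRep 2 W c) := by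
    by_contra hno
    push Not at hno
    obtain ⟨s, hs⟩ := FA.Two.isSquare_Δ_of_no_transp hno
    exact hsq ⟨(s : ℚ), by rw [hs, Int.cast_mul]⟩
  have hne : r c ≠ 1 := fun e => hc.1 ((curveRep_eq_one_iff W c).mpr fun x => by
    obtain ⟨v, rfl⟩ := b.surjective x
    exact Subtype.ext ((hr c v).trans (by rw [e, one_mulVec])))
  have h2 : r (c * c) = 1 := Matrix.ext_of_mulVec_single fun i => b.injective (Subtype.ext (by
    rw [← hr, one_mulVec]
    exact congrArg Subtype.val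
      ((curveRep_eq_one_iff W (c * c)).mp (by rw [map_mul]; exact hc.2) (b _))))
  refine fun φ => full_of_transvection hr (fun P hP hpP => ?_) hne ?_ φ
  · obtain ⟨σ, hσ⟩ := hfix P hP hpP
    refine ⟨σ, fun k hk => ?_⟩
    rcases Nat.even_or_odd' k with ⟨m, rfl | rfl⟩
    · rw [mul_comm, mul_nsmul', hpP, nsmul_zero] at hk
      exact hP (MulAction.injective σ (hk.trans
        (map_zero (DistribSMul.toAddMonoidHom (Pts W) σ)).symm))
    · rw [add_nsmul, one_nsmul, mul_comm, mul_nsmul', hpP, nsmul_zero, zero_add] at hk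
      exact hσ hk
  · rw [map_mul] at h2
    exact (show ∀ M : Matrix (Fin 2) (Fin 2) (ZMod 2), M * M = 1 → (M - 1) * (M - 1) = 0 by
      decide) _ h2

/-! ### At three -/

/-- A cube root of `Δ` is fixed by what fixes `E[3]`. -/
theorem exists_cubeRoot
    {b : (Fin 2 → ZMod 3) ≃ₗ[ZMod 3] Submodule.torsionBy ℤ ((ratCurve W)⁄Qb).Point ((3 : ℕ) : ℤ)}
    {r : GQ →* Matrix (Fin 2) (Fin 2) (ZMod 3)} (hr : ∀ σ v, σ • (b v).1 = (b (r σ *ᵥ v)).1) :
    ∃ θ : Qb, θ ^ 3 = (W.Δ : Qb) ∧ ∀ τ : GQ, r τ = 1 → τ θ = θ := by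
  let y : (Fin 2 → ZMod 3) → Qb := fun v => 12 * xc (b v).1 + (W.b₂ : Qb)
  have h0 : ∀ v, v ≠ 0 → (b v).1 ≠ 0 := fun v hv e => hv (by
    rw [← LinearEquiv.map_eq_zero_iff b]; exact Subtype.ext e)
  have hroot : ∀ v, v ≠ 0 → psiQ (y v) (W.c₄ : Qb) (W.c₆ : Qb) = 0 := fun v hv =>
    FA.SerreCurve.psiQ_of_three (h0 v hv)
      (by rw [← natCast_zsmul]; exact (Submodule.mem_torsionBy_iff _ _).mp (b v).2)
  have hne : ∀ v w, v ≠ 0 → w ≠ 0 → v ≠ w → v ≠ -w → y v ≠ y w := fun v w hv hw h1 h2 e => by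
    rcases eq_or_eq_neg_of_xc_eq (h0 v hv) (h0 w hw)
      (mul_left_cancel₀ (by norm_num : (12 : Qb) ≠ 0) (add_right_cancel e)) with h | h
    · exact h1 (b.injective (Subtype.ext h))
    · exact h2 (b.injective (Subtype.ext (by rw [map_neg, Submodule.coe_neg]; exact h)))
  set a := y ![1, 0]
  set q := y ![0, 1]
  set c := y ![1, 1]
  set d := y ![2, 1]
  obtain ⟨hs, e2, e3, e4⟩ := FA.SerreCurve.vieta_psiQ (a := a) (b := q) (c := c) (d := d)
    (hne _ _ (by decide) (by decide) (by decide) (by decide))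
    (hne _ _ (by decide) (by decide) (by decide) (by decide))
    (hne _ _ (by decide) (by decide) (by decide) (by decide))
    (hne _ _ (by decide) (by decide) (by decide) (by decide))
    (hne _ _ (by decide) (by decide) (by decide) (by decide))
    (hne _ _ (by decide) (by decide) (by decide) (by decide))
    (hroot _ (by decide)) (hroot _ (by decide)) (hroot _ (by decide)) (hroot _ (by decide))
  have hres := FA.SerreCurve.resolvent_eq a q c d ((a + q) ^ 2) hs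
  rw [sub_self, zero_mul, zero_mul, e2, e3, e4] at hres
  have hrel := congrArg (Int.cast : ℤ → Qb) W.c_relation
  push_cast at hrel
  refine ⟨(4 * (W.c₄ : Qb) - (a + q) ^ 2) / 48, ?_, fun τ hτ => ?_⟩
  · rw [div_pow, div_eq_iff (by norm_num)]
    linear_combination hres - 64 * hrel
  · have hy : ∀ v, τ (y v) = y v := fun v => by
      simp only [y]
      rw [map_add, map_mul, map_ofNat, map_intCast, ← xc_smul, hr, hτ, one_mulVec]
    simp only [map_div₀, map_sub, map_mul, map_pow, map_add, map_ofNat, map_intCast]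
    rw [hy, hy]

/-- **Without an element of order three some cube root of `Δ` is rational.** -/
theorem exists_rat_cubeRoot {θ : Qb} {D : ℚ} (hθ : θ ^ 3 = (D : Qb))
    (h16 : ∀ σ : GQ, (σ ^ 16) θ = θ) : ∃ t : ℚ, D = t ^ 3 := by
  haveI : IsGalois ℚ Qb := FA.EC.isGalois_algebraicClosure
  suffices h : ∃ η : Qb, η ^ 3 = (D : Qb) ∧ ∀ σ : GQ, σ η = η by
    obtain ⟨η, hη, hfix⟩ := h
    obtain ⟨t, rfl⟩ := (InfiniteGalois.mem_range_algebraMap_iff_fixed η).mpr hfix
    exact ⟨t, (algebraMap ℚ Qb).injective (by rw [map_pow, hη, eq_ratCast])⟩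
  rcases eq_or_ne θ 0 with rfl | hθ0
  · exact ⟨0, hθ, fun σ => map_zero σ⟩
  obtain ⟨ω, hω⟩ := HasEnoughRootsOfUnity.exists_primitiveRoot Qb 3
  have hω3 := hω.pow_eq_one
  have hconj : ∀ σ : GQ, σ ω = ω ∨ σ ω = ω ^ 2 := fun σ => by
    have h := hω.map_of_injective σ.injective
    obtain ⟨i, hi, e⟩ := hω.eq_pow_of_pow_eq_one h.pow_eq_one
    interval_cases i
    · rw [pow_zero] at e
      exact absurd (h.unique (k := 3) (e ▸ IsPrimitiveRoot.one) ) (by norm_num)
    · left; rw [← e, pow_one]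
    · exact Or.inr e.symm
  have htrans : ∀ σ : GQ, ∃ i : ℕ, σ θ = ω ^ i * θ := fun σ => by
    obtain ⟨i, -, hi⟩ := hω.eq_pow_of_pow_eq_one (ξ := σ θ / θ) (by
      rw [div_pow, ← map_pow, hθ, map_ratCast, div_self (by
        rw [← hθ]; exact pow_ne_zero 3 hθ0)])
    exact ⟨i, by rw [hi, div_mul_cancel₀ _ hθ0]⟩
  have hfixω : ∀ σ : GQ, σ ω = ω → σ θ = θ := fun σ hσ => by
    obtain ⟨i, hi⟩ := htrans σ
    have hn : ∀ n : ℕ, (σ ^ n) θ = ω ^ (n * i) * θ := fun n => by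
      induction n with
      | zero => simp
      | succ m ih =>
        rw [pow_succ', AlgEquiv.mul_apply, ih, map_mul, map_pow, hσ, hi, ← mul_assoc, ← pow_add,
          add_mul, one_mul]
    have h := (hn 16).symm.trans (h16 σ)
    rw [show 16 * i = 3 * (5 * i) + i by ring, pow_add, pow_mul, hω3, one_pow, one_mul] at h
    rw [hi, h]
  by_cases hall : ∀ σ : GQ, σ θ = θ
  · exact ⟨θ, hθ, hall⟩
  push Not at hall
  obtain ⟨c, hc⟩ := hall
  have hcω : c ω = ω ^ 2 := (hconj c).resolve_left fun e => hc (hfixω c e)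
  obtain ⟨i, hi⟩ := htrans c
  have hcη : c (ω ^ (2 * i) * θ) = ω ^ (2 * i) * θ := by
    rw [map_mul, map_pow, hcω, hi, ← mul_assoc, ← pow_mul, ← pow_add,
      show 2 * (2 * i) + i = 3 * i + 2 * i by ring, pow_add, pow_mul, hω3, one_pow, one_mul]
  have hfixη : ∀ σ : GQ, σ ω = ω → σ (ω ^ (2 * i) * θ) = ω ^ (2 * i) * θ := fun σ hσ => by
    rw [map_mul, map_pow, hσ, hfixω σ hσ]
  refine ⟨ω ^ (2 * i) * θ, by rw [mul_pow, hθ, ← pow_mul, mul_comm (2 * i), pow_mul, hω3, one_pow,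
    one_mul], fun σ => ?_⟩
  rcases hconj σ with h | h
  · exact hfixη σ h
  · have h1 : (c⁻¹ * σ) ω = ω := by
      rw [AlgEquiv.mul_apply, h, ← hcω]
      exact c.symm_apply_apply ω
    have h2 := hfixη _ h1
    rw [AlgEquiv.mul_apply] at h2
    calc σ (ω ^ (2 * i) * θ) = c (c⁻¹ (σ (ω ^ (2 * i) * θ))) := (c.apply_symm_apply _).symm
      _ = _ := by rw [h2, hcη]

theorem sq_eq_zero_of_cube : ∀ M : Matrix (Fin 2) (Fin 2) (ZMod 3),
    M * M * M = 1 → (M - 1) * (M - 1) = 0 := by decide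

/-- **Full image on `E[3]`.** -/
theorem full_three_iff :
    (∀ φ : Submodule.torsionBy ℤ ((ratCurve W)⁄Qb).Point ((3 : ℕ) : ℤ) ≃+
        Submodule.torsionBy ℤ ((ratCurve W)⁄Qb).Point ((3 : ℕ) : ℤ),
      ∃ σ : GQ, ∀ x, σ • x.1 = (φ x).1) ↔
    (∀ t : ℚ, (W.Δ : ℚ) ≠ t ^ 3) ∧
      ∀ P : Pts W, P ≠ 0 → 3 • P = 0 → ∃ σ : GQ, ∀ k : ℕ, σ • P ≠ k • P := by
  constructor
  · exact fun hfull => ⟨fun t ht => FA.SerreCurve.not_full_three_of_cube ht hfull,
      fun P hP h3 => no_line_of_full hfull (J := !![0, -1; 1, 0]) (by decide) (by decide) hP h3⟩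
  rintro ⟨hcube, hline⟩ φ
  obtain ⟨b⟩ := FA.PadicImage.nonempty_torsion_equiv W (N := 3)
  obtain ⟨r, hr⟩ := exists_coordinateRep b
  by_cases hτ : ∃ τ, r τ * r τ * r τ = 1 ∧ r τ ≠ 1
  · obtain ⟨τ, h3, hne⟩ := hτ
    exact full_of_transvection hr hline hne (sq_eq_zero_of_cube _ h3) φ
  exfalso
  push Not at hτ
  obtain ⟨θ, hθ, hfix⟩ := exists_cubeRoot hr
  have h48 : ∀ σ, r σ ^ 48 = 1 := fun σ => by
    have h : (r.toHomUnits σ) ^ 48 = 1 := by
      have hc : Nat.card (GL (Fin 2) (ZMod 3)) = 48 := by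
        rw [Matrix.card_GL_field, Fin.prod_univ_two, ZMod.card]; rfl
      rw [← hc]; exact pow_card_eq_one'
    have := congrArg Units.val h
    rwa [Units.val_pow_eq_pow_val, MonoidHom.coe_toHomUnits, Units.val_one] at this
  obtain ⟨t, ht⟩ := exists_rat_cubeRoot (D := (W.Δ : ℚ)) (by rw [hθ, Rat.cast_intCast])
    fun σ => hfix _ (hτ _ (by
      rw [map_pow, ← pow_add, ← pow_add, h48]))
  exact hcube t ht

end FA.SmallPrimes

end
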