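import Fermat.Agent.SerreCurve.SignDensity
import Fermat.Agent.Root.SummaryLangTrotterFactors
import Mathlib.NumberTheory.JacobiSum.Basic

/-!
# The shares of a given trace weighted by Serre's character

Over `𝔽_p`, `p` odd, the quadratic character of the determinant summed over the invertible matrices
of trace `t` is `p χ(-1) (p - 1)` for `t = 0` and `- p χ(-1)` otherwise, a Jacobi sum. At two the
character is one on the trace one and sums to zero.
-/

set_option autoImplicit false
set_option linter.style.haveILetI false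

noncomputable section

open Matrix
open scoped NumberTheorySymbols

local notation "M2" => Matrix (Fin 2) (Fin 2)

namespace FA.SerreCurve

/-- The correction at a prime of `d` in the trace `t`. -/
def traceWeight (t : ℤ) (p : ℕ) : ℝ :=
  if (p : ℤ) ∣ t then 1 / (p : ℝ) else -1 / ((p : ℝ) ^ 2 - p - 1)

/-- The character sum behind the count. -/
theorem sum_quadraticChar_disc {k : Type*} [Field k] [Fintype k] [DecidableEq k]
    (hk : ringChar k ≠ 2) (t : k) :
    ∑ u : k, quadraticChar k u * quadraticChar k (t ^ 2 - 4 * u) =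
      quadraticChar k (-1) * if t = 0 then (Fintype.card k : ℤ) - 1 else -1 := by
  have h2 : (2 : k) ≠ 0 := Ring.two_ne_zero hk
  have h4 : (4 : k) ≠ 0 := by
    rw [show (4 : k) = 2 * 2 by norm_num]; exact mul_ne_zero h2 h2
  split_ifs with ht
  · subst ht
    have hterm : ∀ u : k, quadraticChar k u * quadraticChar k (0 ^ 2 - 4 * u) =
        quadraticChar k (-1) * if u = 0 then 0 else 1 := fun u => by
      split_ifs with hu
      · simp [hu]
      · rw [← map_mul, show u * (0 ^ 2 - 4 * u) = (-1) * (2 * u) ^ 2 by ring, map_mul,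
          quadraticChar_sq_one' (mul_ne_zero h2 hu)]
    rw [Finset.sum_congr rfl fun u _ => hterm u, ← Finset.mul_sum]
    congr 1
    rw [Finset.sum_ite, Finset.sum_const_zero, zero_add, Finset.sum_const,
      Finset.filter_ne', Finset.card_erase_of_mem (Finset.mem_univ _), Finset.card_univ,
      nsmul_eq_mul, mul_one, Nat.cast_sub Fintype.card_pos, Nat.cast_one]
  · set e : k ≃ k := Equiv.mulLeft₀ (t ^ 2 / 4) (div_ne_zero (pow_ne_zero 2 ht) h4) with he
    rw [← Equiv.sum_comp e]
    have hterm : ∀ v : k, quadraticChar k (e v) * quadraticChar k (t ^ 2 - 4 * e v) =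
        quadraticChar k v * quadraticChar k (1 - v) := fun v => by
      rw [← map_mul, ← map_mul, show e v * (t ^ 2 - 4 * e v) = v * (1 - v) * (t ^ 2 / 2) ^ 2 by
        rw [show e v = t ^ 2 / 4 * v from rfl]; field_simp; ring, map_mul,
        quadraticChar_sq_one' (div_ne_zero (pow_ne_zero 2 ht) h2), mul_one]
    rw [Finset.sum_congr rfl fun v _ => hterm v]
    have h := jacobiSum_nontrivial_inv (χ := quadraticChar k) (quadraticChar_ne_one hk)
    rw [(quadraticChar_isQuadratic k).inv, jacobiSum] at h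
    rw [h, mul_neg, mul_one]

variable {l : ℕ} [hl : Fact l.Prime]

/-- **The character summed over the invertible matrices of one trace.** -/
theorem sum_signChar_trace {d : ℤ} (hl2 : l ≠ 2) (hd : (l : ℤ) ∣ d) (t : ZMod l) :
    ∑ g ∈ Finset.univ.filter (fun g : GL (Fin 2) (ZMod l) => g.1.trace = t), signChar d l g.1 =
      (l : ℤ) * quadraticChar (ZMod l) (-1) * if t = 0 then (l : ℤ) - 1 else -1 := by
  classical
  have hk : ringChar (ZMod l) ≠ 2 := by rwa [ZMod.ringChar_zmod_n]
  rw [← Finset.sum_fiberwise (Finset.univ.filter fun g : GL (Fin 2) (ZMod l) => g.1.trace = t)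
    (fun g => g.1.det) fun g => signChar d l g.1]
  have hterm : ∀ u : ZMod l,
      ∑ g ∈ (Finset.univ.filter fun g : GL (Fin 2) (ZMod l) => g.1.trace = t).filter
        (fun g => g.1.det = u), signChar d l g.1 =
      (l : ℤ) * l * quadraticChar (ZMod l) u +
        (l : ℤ) * (quadraticChar (ZMod l) u * quadraticChar (ZMod l) (t ^ 2 - 4 * u)) := fun u => by
    rw [Finset.sum_congr rfl fun g hg => (signChar_eq_quadraticChar hl2 hd g.1).trans
      (congrArg _ (Finset.mem_filter.mp hg).2), Finset.sum_const, Finset.filter_filter,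
      ← Fintype.card_subtype, ← Nat.card_eq_fintype_card, nsmul_eq_mul]
    rcases eq_or_ne u 0 with rfl | hu
    · simp
    · have h : (Nat.card {M : GL (Fin 2) (ZMod l) // M.val.trace = t ∧ M.val.det = u} : ℤ) =
          (l : ℤ) * ((l : ℤ) + quadraticChar (ZMod l) (t ^ 2 - 4 * u)) := by
        convert FA.TraceFactors.card_trace_det_gl hk t hu <;> exact (ZMod.card l).symm
      rw [h]
      ring
  rw [Finset.sum_congr rfl fun u _ => hterm u, Finset.sum_add_distrib, ← Finset.mul_sum,
    ← Finset.mul_sum, quadraticChar_sum_zero hk, sum_quadraticChar_disc hk, ZMod.card]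
  ring

/-- The share of one trace. -/
theorem shareIn_trace (t : ℤ) :
    shareIn l {M | M.trace = (t : ZMod l)} =
      if (l : ℤ) ∣ t then (l : ℝ) / ((l : ℝ) ^ 2 - 1)
      else ((l : ℝ) ^ 2 - l - 1) / (((l : ℝ) - 1) * ((l : ℝ) ^ 2 - 1)) :=
  FA.TraceFactors.card_trace_div t

/-- At an odd prime of `d` the weighted share. -/
theorem signShareIn_trace_of_dvd {d : ℤ} (hl2 : l ≠ 2) (hd : (l : ℤ) ∣ d) (t : ℤ) :
    signShareIn d l {M | M.trace = (t : ZMod l)} = shareIn l {M | M.trace = (t : ZMod l)} *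
      ((J(-1 | l) : ℤ) * traceWeight t l) := by
  classical
  have hJ : J(-1 | l) = quadraticChar (ZMod l) (-1) := by
    rw [← jacobiSym.legendreSym.to_jacobiSym, legendreSym]
    push_cast
    rfl
  rw [signShareIn_eq_sum, shareIn_trace, gl2_card_cast, hJ]
  simp only [Set.mem_ofPred_eq]
  rw [sum_signChar_trace hl2 hd]
  have h2 : (3 : ℝ) ≤ l := by exact_mod_cast hl.out.two_le.lt_of_ne' hl2
  have a0 : (l : ℝ) ≠ 0 := by linarith
  have a1 : (l : ℝ) - 1 ≠ 0 := by linarith
  have a2 : (l : ℝ) ^ 2 - 1 ≠ 0 := by nlinarith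
  have a3 : (l : ℝ) ^ 2 - l - 1 ≠ 0 := by nlinarith
  rw [show (l : ℝ) ^ 2 - l = l * ((l : ℝ) - 1) by ring, traceWeight]
  by_cases h : (l : ℤ) ∣ t
  · rw [if_pos h, if_pos h, if_pos ((ZMod.intCast_zmod_eq_zero_iff_dvd t l).mpr h)]
    push_cast
    field_simp
  · rw [if_neg h, if_neg h,
      if_neg fun e => h ((ZMod.intCast_zmod_eq_zero_iff_dvd t l).mp e),
      show (l : ℝ) * ((l : ℝ) - 1) - 1 = (l : ℝ) ^ 2 - l - 1 by ring]
    generalize hP : (l : ℝ) ^ 2 - l - 1 = P at a3
    push_cast
    field_simp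

/-- Off `2 d` the weighted share is the share. -/
theorem signShareIn_trace_of_not_dvd {d : ℤ} (hl2 : l ≠ 2) (hd : ¬ (l : ℤ) ∣ d) (t : ℤ) :
    signShareIn d l {M | M.trace = (t : ZMod l)} = shareIn l {M | M.trace = (t : ZMod l)} :=
  signShareIn_eq_share fun _ _ => signChar_eq_one hl2 hd _

omit hl in
theorem eq_zero_iff_ne_one : ∀ z : ZMod 2, z = 0 ↔ ¬ z = 1 := by decide

omit hl in
theorem sgn_eq_zero_of_trace_one : ∀ M : M2 (ZMod 2), M.det ≠ 0 → M.trace = 1 →
    FA.Two.sgn M = 0 := by
  intro M hM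
  rcases FA.Two.six_cases hM with rfl | rfl | rfl | rfl | rfl | rfl <;> decide

omit hl in
/-- **At two the weighted share.** -/
theorem signShareIn_trace_two [Fact (Nat.Prime 2)] (d t : ℤ) :
    signShareIn d 2 {M | M.trace = (t : ZMod 2)} = shareIn 2 {M | M.trace = (t : ZMod 2)} *
      (if 2 ∣ t then -1 / 2 else 1) := by
  classical
  have hone : ∀ g : GL (Fin 2) (ZMod 2), g.1.trace = 1 → signChar d 2 g.1 = 1 := fun g hg => by
    rw [signChar_two, if_pos (sgn_eq_zero_of_trace_one _
      ((Matrix.isUnit_iff_isUnit_det _).mp g.isUnit).ne_zero hg)]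
  have h1 : shareIn 2 {M | M.trace = ((1 : ℤ) : ZMod 2)} = 1 / 3 := by
    rw [shareIn_trace, if_neg (by norm_num)]; norm_num
  split_ifs with ht
  · have e0 : ((t : ℤ) : ZMod 2) = 0 := (ZMod.intCast_zmod_eq_zero_iff_dvd t 2).mpr ht
    have hsplit := Finset.sum_filter_add_sum_filter_not
      (Finset.univ : Finset (GL (Fin 2) (ZMod 2))) (fun g => g.1.trace = 1)
      fun g => signChar d 2 g.1
    rw [sum_signChar_eq_zero (exists_signChar_two d rfl).choose_spec] at hsplit
    have hodd : signShareIn d 2 {M | M.trace = ((1 : ℤ) : ZMod 2)} = 1 / 3 := by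
      rw [signShareIn_eq_share (fun g hg => hone g (by simpa using hg)), h1]
    rw [signShareIn_eq_sum] at hodd ⊢
    rw [shareIn_trace, if_pos (show ((2 : ℕ) : ℤ) ∣ t from ht)]
    simp only [Set.mem_ofPred_eq, Int.cast_one] at hodd ⊢
    rw [e0, show Finset.univ.filter (fun g : GL (Fin 2) (ZMod 2) => g.1.trace = 0) =
      Finset.univ.filter (fun g : GL (Fin 2) (ZMod 2) => ¬ g.1.trace = 1) from
      Finset.filter_congr fun g _ => eq_zero_iff_ne_one g.1.trace,
      eq_neg_of_add_eq_zero_right hsplit, Int.cast_neg, neg_div, hodd]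
    norm_num
  · rw [mul_one]
    refine signShareIn_eq_share fun g hg => hone g ?_
    rw [hg]
    refine (ZMod.intCast_eq_intCast_iff_dvd_sub t 1 2).mpr ?_ |>.trans Int.cast_one
    omega

end FA.SerreCurve

end
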