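import Fermat.Agent.SerreCurve.Compat
import Fermat.Agent.Root.SummaryTwists

/-!
# Serre curves stay Serre curves under twisting when the `2`-adic image is everything

If Galois induces everything at every prime power, an element acting as `-1` on the torsion fixes
every root of unity, as `-1` is a commutator at every prime power. So `-1` is compatible, comes
from Galois and fixes every square root of a rational number: the twists have the same image.
-/

set_option autoImplicit false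
set_option linter.style.haveILetI false

noncomputable section

open Matrix WeierstrassCurve WeierstrassCurve.Affine FA.EC FA.Frob FA.RT FA.PadicImage
open FA.Two (deltaRoot)
open scoped WeierstrassCurve.Affine

local notation "Qb" => AlgebraicClosure ℚ
local notation "GQ" => AlgebraicClosure ℚ ≃ₐ[ℚ] AlgebraicClosure ℚ

namespace FA.SerreCurve

section Model

variable {W : WeierstrassCurve ℤ} [(ratCurve W).IsElliptic] {q : ℕ}

/-- **What acts as `-1` on `E[l ^ e]` fixes the `l ^ e`-th roots of unity.** -/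
theorem fix_roots_of_smul_eq_neg (hS : Setting W q) {l : ℕ} (hl : l.Prime) (e : ℕ) {σ : GQ}
    (hσ : ∀ x : ((ratCurve W)⁄Qb).Point, l ^ e • x = 0 → σ • x = -x) {μ : Qb}
    (hμ : μ ^ l ^ e = 1) : σ μ = μ := by
  haveI := Fact.mk hl
  haveI : NeZero (l ^ e) := ⟨pow_ne_zero e hl.ne_zero⟩
  obtain ⟨b⟩ := FA.PadicImage.nonempty_torsion_equiv W (N := l ^ e)
  have hreach : ∀ φ : Submodule.torsionBy ℤ ((ratCurve W)⁄Qb).Point ((l ^ e : ℕ) : ℤ) ≃+
      Submodule.torsionBy ℤ ((ratCurve W)⁄Qb).Point ((l ^ e : ℕ) : ℤ),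
      ∃ g : GQ, ∀ x, g • x.1 = (φ x).1 := by
    rw [Nat.cast_pow]
    exact exists_smul_eq_pow_of_reach (hS.reachAll l) e
  let a₀ : (Fin 2 → ZMod (l ^ e)) ≃+ (Fin 2 → ZMod (l ^ e)) :=
    { toFun := fun v => ![v 0, -v 1]
      invFun := fun v => ![v 0, -v 1]
      left_inv := fun v => by funext i; fin_cases i <;> simp
      right_inv := fun v => by funext i; fin_cases i <;> simp
      map_add' := fun v w => by funext i; fin_cases i <;> simp [add_comm] }
  let w₀ : (Fin 2 → ZMod (l ^ e)) ≃+ (Fin 2 → ZMod (l ^ e)) :=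
    { toFun := fun v => ![-v 1, v 0]
      invFun := fun v => ![v 1, -v 0]
      left_inv := fun v => by funext i; fin_cases i <;> simp
      right_inv := fun v => by funext i; fin_cases i <;> simp
      map_add' := fun v w => by funext i; fin_cases i <;> simp [add_comm] }
  obtain ⟨g, hg⟩ := hreach ((b.toAddEquiv.symm.trans a₀).trans b.toAddEquiv)
  obtain ⟨h, hh⟩ := hreach ((b.toAddEquiv.symm.trans w₀).trans b.toAddEquiv)
  have hgb : ∀ v, g • (b v).1 = (b (a₀ v)).1 := fun v => by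
    rw [hg]; simp
  have hhb : ∀ v, h • (b v).1 = (b (w₀ v)).1 := fun v => by
    rw [hh]; simp
  have hτ : ∀ x : ((ratCurve W)⁄Qb).Point, l ^ e • x = 0 → (g * h * g⁻¹ * h⁻¹) • x = -x :=
    fun x hx => by
    obtain ⟨u, hu⟩ := b.surjective ⟨x, (Submodule.mem_torsionBy_iff _ _).mpr
      (by rw [natCast_zsmul]; exact hx)⟩
    have hxu : x = (b u).1 := by rw [hu]
    have e1 : h⁻¹ • (b u).1 = (b (w₀.symm u)).1 := by
      rw [inv_smul_eq_iff, hhb, AddEquiv.apply_symm_apply]
    have e2 : g⁻¹ • (b (w₀.symm u)).1 = (b (a₀.symm (w₀.symm u))).1 := by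
      rw [inv_smul_eq_iff, hgb, AddEquiv.apply_symm_apply]
    rw [hxu, mul_smul, mul_smul, mul_smul, e1, e2, hhb, hgb, ← Submodule.coe_neg, ← map_neg,
      show a₀ (w₀ (a₀.symm (w₀.symm u))) = -u by
        funext i; fin_cases i <;> simp [a₀, w₀]]
  have e1 : σ⁻¹ ((g * h * g⁻¹ * h⁻¹) μ) = μ :=
    FA.OpenImage.smul_root_of_fix_torsion (W := W) (σ := σ⁻¹ * (g * h * g⁻¹ * h⁻¹))
      (pow_ne_zero e hl.ne_zero) (fun x hx => by
        rw [mul_smul, hτ x hx, inv_smul_eq_iff, hσ x hx]) hμ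
  obtain ⟨i, -, hi⟩ := exists_exponent_roots g hl e
  obtain ⟨j, -, hj⟩ := exists_exponent_roots h hl e
  have hcomm : ∀ ν : Qb, ν ^ l ^ e = 1 → g (h ν) = h (g ν) := fun ν hν => by
    rw [hj ν hν, hi ν hν, map_pow, map_pow, hi ν hν, hj ν hν, ← pow_mul, ← pow_mul, mul_comm]
  have e2 : (g * h * g⁻¹ * h⁻¹) μ = μ := by
    rw [AlgEquiv.mul_apply, AlgEquiv.mul_apply, AlgEquiv.mul_apply,
      hcomm _ (by rw [← map_pow, ← map_pow, hμ, map_one, map_one]), AlgEquiv.aut_inv,
      AlgEquiv.aut_inv, AlgEquiv.apply_symm_apply, AlgEquiv.apply_symm_apply]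
  rw [e2, AlgEquiv.aut_inv, AlgEquiv.symm_apply_eq] at e1
  exact e1.symm

/-- **`-1` comes from Galois.** -/
theorem neg_mem_range (hS : Setting W q) :
    LinearEquiv.neg ℤ ∈ (FA.OpenImage.torsionAction (ratCurve W)).range := by
  obtain ⟨D, hD, hroot⟩ := FA.OpenImage.exists_level_of_mem_rootsField
    (FA.OpenImage.mem_rootsField_of_sq_eq (d := (W.Δ : ℚ)) (s := deltaRoot W)
      (by rw [FA.Two.deltaRoot_sq, map_intCast]))
  have hT : ∀ {n : ℕ}, n ≠ 0 → ∀ {x : ((ratCurve W)⁄Qb).Point}, n • x = 0 → x ∈ Tors W :=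
    fun {n} hn {x} hx => isOfFinAddOrder_iff_nsmul_eq_zero.mpr ⟨n, Nat.pos_of_ne_zero hn, hx⟩
  refine mem_range_of_compat hS.separated hD.ne' fun g k hg hk => ?_
  rw [deltaRoot_of_fix_two fun x hx => by
    refine (hg ⟨x, hT two_ne_zero hx⟩ hx).trans ?_
    show -x = x
    rw [neg_eq_iff_add_eq_zero, ← two_nsmul, hx]]
  refine (hroot k (fix_roots_of_prime_pow hD.ne' fun l e hl hd μ hμ => ?_)).symm
  obtain ⟨h, hh, hhk⟩ := hk l e hl hd
  rw [← hhk μ hμ]
  exact fix_roots_of_smul_eq_neg hS hl e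
    (fun x hx => hh ⟨x, hT (pow_ne_zero e hl.ne_zero) hx⟩ hx) hμ

/-- Some element of Galois is `-1` on the torsion and fixes every square root of a rational. -/
theorem exists_neg_fix_sqrt (hS : Setting W q) : ∃ σ : GQ,
    (∀ x : ((ratCurve W)⁄Qb).Point, IsOfFinAddOrder x → σ • x = -x) ∧
      ∀ (d : ℚ) (s : Qb), s ^ 2 = algebraMap ℚ Qb d → σ s = s := by
  obtain ⟨σ, hσ⟩ := neg_mem_range hS
  have hneg : ∀ x : ((ratCurve W)⁄Qb).Point, IsOfFinAddOrder x → σ • x = -x := fun x hx =>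
    (congrArg (fun ψ : Tors W ≃ₗ[ℤ] Tors W => (ψ ⟨x, hx⟩).1) hσ :)
  refine ⟨σ, hneg, fun d s hs => ?_⟩
  obtain ⟨D, hD, hroot⟩ :=
    FA.OpenImage.exists_level_of_mem_rootsField (FA.OpenImage.mem_rootsField_of_sq_eq hs)
  exact hroot σ (fix_roots_of_prime_pow hD.ne' fun l e hl _ μ hμ =>
    fix_roots_of_smul_eq_neg hS hl e (fun x hx => hneg x
      (isOfFinAddOrder_iff_nsmul_eq_zero.mpr ⟨_, pow_pos hl.pos e, hx⟩)) hμ)

end Model

/-- The image on the torsion has index two and some element of Galois is `-1` on the torsion and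
fixes every square root of a rational number. -/
def StableUnderTwists (E : WeierstrassCurve ℚ) : Prop :=
  (FA.OpenImage.torsionAction E).range.index = 2 ∧
    ∃ σ : GQ, (∀ P : (E.toAffine⁄Qb).Point, IsOfFinAddOrder P →
        Affine.Point.map (W' := E.toAffine) σ.toAlgHom P = -P) ∧
      ∀ (d : ℚ) (s : Qb), s ^ 2 = algebraMap ℚ Qb d → σ s = s

/-- **The image does not see a twist by a quadratic character** trivial on an element acting as
`-1`. -/
theorem index_range_of_sign {E₁ E₂ : WeierstrassCurve ℚ} {s : Qb}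
    (e : (E₁.toAffine⁄Qb).Point ≃+ (E₂.toAffine⁄Qb).Point) (hs : ∀ σ : GQ, σ s = s ∨ σ s = -s)
    (he : ∀ (σ : GQ) (Q : (E₁.toAffine⁄Qb).Point),
      (σ s = s → Affine.Point.map (W' := E₂.toAffine) σ.toAlgHom (e Q) =
        e (Affine.Point.map (W' := E₁.toAffine) σ.toAlgHom Q)) ∧
      (σ s = -s → Affine.Point.map (W' := E₂.toAffine) σ.toAlgHom (e Q) =
        -e (Affine.Point.map (W' := E₁.toAffine) σ.toAlgHom Q)))
    {σ₀ : GQ} (h₀ : σ₀ s = s) (hneg : ∀ P : (E₂.toAffine⁄Qb).Point, IsOfFinAddOrder P →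
      Affine.Point.map (W' := E₂.toAffine) σ₀.toAlgHom P = -P) :
    (FA.OpenImage.torsionAction E₁).range.index =
      (FA.OpenImage.torsionAction E₂).range.index := by
  let eT : AddCommGroup.torsion (E₁.toAffine⁄Qb).Point ≃ₗ[ℤ]
      AddCommGroup.torsion (E₂.toAffine⁄Qb).Point :=
    AddEquiv.toIntLinearEquiv
      { toEquiv := e.toEquiv.subtypeEquiv fun Q =>
          ⟨fun hQ => e.toAddMonoidHom.isOfFinAddOrder hQ, fun hQ => by
            have := e.symm.toAddMonoidHom.isOfFinAddOrder hQ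
            simp only [AddEquiv.toAddMonoidHom_eq_coe, AddMonoidHom.coe_coe] at this
            rwa [show e.symm (e.toEquiv Q) = Q from e.symm_apply_apply Q] at this⟩
        map_add' := fun a b => Subtype.ext (map_add e a.1 b.1) }
  let Φ : (AddCommGroup.torsion (E₁.toAffine⁄Qb).Point ≃ₗ[ℤ]
      AddCommGroup.torsion (E₁.toAffine⁄Qb).Point) ≃*
      (AddCommGroup.torsion (E₂.toAffine⁄Qb).Point ≃ₗ[ℤ]
        AddCommGroup.torsion (E₂.toAffine⁄Qb).Point) :=
    { toFun := fun ψ => eT.symm.trans (ψ.trans eT)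
      invFun := fun χ => eT.trans (χ.trans eT.symm)
      left_inv := fun ψ => LinearEquiv.ext fun x => by simp
      right_inv := fun χ => LinearEquiv.ext fun x => by simp
      map_mul' := fun ψ χ => LinearEquiv.ext fun x => by simp [LinearEquiv.mul_apply] }
  set ρ₁ := FA.OpenImage.torsionAction E₁
  set ρ₂ := FA.OpenImage.torsionAction E₂
  have hΦ : ∀ σ x, (Φ (ρ₁ σ) x).1 =
      e (Affine.Point.map (W' := E₁.toAffine) σ.toAlgHom (eT.symm x).1) := fun _ _ => rfl
  have hx : ∀ x : AddCommGroup.torsion (E₂.toAffine⁄Qb).Point, e (eT.symm x).1 = x.1 :=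
    fun x => e.apply_symm_apply x.1
  have key : ∀ σ, (σ s = s → Φ (ρ₁ σ) = ρ₂ σ) ∧ (σ s = -s → Φ (ρ₁ σ) = ρ₂ (σ * σ₀)) := fun σ =>
    ⟨fun h => LinearEquiv.ext fun x => Subtype.ext (by
      rw [hΦ, ← (he σ _).1 h, hx]; rfl),
    fun h => LinearEquiv.ext fun x => Subtype.ext (by
      rw [FA.OpenImage.torsionAction_apply, FA.OpenImage.map_mul_apply, hneg x.1 x.2, map_neg,
        hΦ, ← hx x, (he σ _).2 h, neg_neg])⟩
  have hmul : ρ₂ (σ₀ * σ₀) = 1 := LinearEquiv.ext fun x => Subtype.ext (by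
    rw [FA.OpenImage.torsionAction_apply, FA.OpenImage.map_mul_apply, hneg x.1 x.2, map_neg,
      hneg x.1 x.2, neg_neg]; rfl)
  have hrange : (Φ.toMonoidHom.comp ρ₁).range = ρ₂.range := by
    refine le_antisymm (fun ψ => ?_) fun ψ => ?_
    · rintro ⟨σ, rfl⟩
      rcases hs σ with h | h
      · exact ⟨σ, ((key σ).1 h).symm⟩
      · exact ⟨σ * σ₀, ((key σ).2 h).symm⟩
    · rintro ⟨σ, rfl⟩
      rcases hs σ with h | h
      · exact ⟨σ, (key σ).1 h⟩
      · refine ⟨σ * σ₀, ((key (σ * σ₀)).2 (by rw [AlgEquiv.mul_apply, h₀, h])).trans ?_⟩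
        rw [mul_assoc, map_mul, hmul, mul_one]
  rw [← hrange, MonoidHom.range_comp]
  exact (Subgroup.index_map_equiv _ Φ).symm

/-- **Stability under twists does not change under twists.** -/
theorem stableUnderTwists_quadTwist_iff (E : WeierstrassCurve ℚ) [E.IsElliptic] {d : ℚ}
    (hd : d ≠ 0) : StableUnderTwists (FA.Twists.quadTwist E d) ↔ StableUnderTwists E := by
  obtain ⟨s, e, hs, he⟩ := FA.Root.exists_twist_equiv_sqrt E hd
  have hsign : ∀ σ : GQ, σ s = s ∨ σ s = -s := fun σ => sq_eq_sq_iff_eq_or_eq_neg.1 (by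
    rw [← map_pow, hs, σ.commutes])
  constructor
  · rintro ⟨hi, σ, hneg, hfix⟩
    have hnegE : ∀ P : (E.toAffine⁄Qb).Point, IsOfFinAddOrder P →
        Affine.Point.map (W' := E.toAffine) σ.toAlgHom P = -P := fun P hP => by
      obtain ⟨Q, rfl⟩ := e.surjective P
      have hQ : IsOfFinAddOrder Q := by
        simpa using e.symm.toAddMonoidHom.isOfFinAddOrder hP
      rw [(he σ Q).1 (hfix d s hs), ← map_neg]
      exact congrArg e (hneg Q hQ)
    exact ⟨(index_range_of_sign e hsign he (hfix d s hs) hnegE).symm.trans hi, σ, hnegE, hfix⟩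
  · rintro ⟨hi, σ, hneg, hfix⟩
    refine ⟨(index_range_of_sign e hsign he (hfix d s hs) hneg).trans hi, σ, fun Q hQ => ?_, hfix⟩
    refine e.injective ?_
    rw [map_neg, ← hneg (e Q) (e.toAddMonoidHom.isOfFinAddOrder hQ :)]
    exact ((he σ Q).1 (hfix d s hs)).symm

/-- **A curve in the setting is stable under twists**, as is every curve with this model. -/
theorem stableUnderTwists_of_setting {W : WeierstrassCurve ℤ} [(ratCurve W).IsElliptic] {q : ℕ}
    (hS : Setting W q) {E : WeierstrassCurve ℚ} [E.IsElliptic] (hW : W.IsIntegralModelOf E) :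
    StableUnderTwists E := by
  obtain ⟨e, he⟩ := FA.Root.exists_equiv_of_model hW
  obtain ⟨σ, hneg, hfix⟩ := exists_neg_fix_sqrt hS
  refine ⟨(index_range_of_sign (E₁ := ratCurve W) (s := 1) e (fun σ => Or.inl (map_one σ))
    (fun g Q => ⟨fun _ => (he g Q).symm, fun h => absurd ((map_one g).symm.trans h) (by norm_num)⟩)
    (map_one σ) fun P hP => ?_).symm.trans (index_range hS), σ, fun P hP => ?_, hfix⟩
  all_goals
    obtain ⟨Q, rfl⟩ := e.surjective P
    rw [← he, ← map_neg]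
    exact congrArg e (hneg Q (by simpa using e.symm.toAddMonoidHom.isOfFinAddOrder hP))

end FA.SerreCurve

end
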